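/-
PROJECT T (S56), block (a3) Flat, file AdRep (helper27): the adjoint action of `GL₂(k)` on the
trace-zero matrices `tz k`, as a `ZMod p`-linear representation (the coefficient module `N` of
Case B of the level count).
-/
import Mathlib
import Fermat.Agent.S56.Flat.Dev.Count

set_option autoImplicit false

noncomputable section

namespace Fermat.Agent.S56.Flat.AdRep

open Fermat.Agent.S56.Flat.Dev Matrix

variable (p : ℕ) [Fact p.Prime] {k : Type} [Field k] [Algebra (ZMod p) k]

/-- conjugation by `T` on trace-zero matrices, `k`-linear. -/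
def adK (T : GL (Fin 2) k) : ↥(tz k) →ₗ[k] ↥(tz k) where
  toFun X := ⟨(T : Matrix (Fin 2) (Fin 2) k) * X.1 *
      ((T⁻¹ : GL (Fin 2) k) : Matrix (Fin 2) (Fin 2) k), by
    rw [mem_tz, Matrix.trace_mul_comm, ← Matrix.mul_assoc, ← Units.val_mul, inv_mul_cancel,
      Units.val_one, Matrix.one_mul]
    exact mem_tz.1 X.2⟩
  map_add' X Y := by
    apply Subtype.ext
    simp only [Submodule.coe_add, Matrix.mul_add, Matrix.add_mul]
  map_smul' a X := by
    apply Subtype.ext
    simp only [Submodule.coe_smul, Matrix.mul_smul, Matrix.smul_mul, RingHom.id_apply]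

@[simp] theorem coe_adK (T : GL (Fin 2) k) (X : ↥(tz k)) :
    ((adK T X : ↥(tz k)) : Matrix (Fin 2) (Fin 2) k) =
      (T : Matrix (Fin 2) (Fin 2) k) * X.1 *
        ((T⁻¹ : GL (Fin 2) k) : Matrix (Fin 2) (Fin 2) k) := rfl

/-- conjugation by `T` on trace-zero matrices, `ZMod p`-linear. -/
def ad (T : GL (Fin 2) k) : ↥(tz k) →ₗ[ZMod p] ↥(tz k) := (adK T).restrictScalars (ZMod p)

@[simp] theorem coe_ad (T : GL (Fin 2) k) (X : ↥(tz k)) :
    ((ad p T X : ↥(tz k)) : Matrix (Fin 2) (Fin 2) k) =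
      (T : Matrix (Fin 2) (Fin 2) k) * X.1 *
        ((T⁻¹ : GL (Fin 2) k) : Matrix (Fin 2) (Fin 2) k) := rfl

theorem ad_one : ad p (1 : GL (Fin 2) k) = 1 := by
  apply LinearMap.ext
  intro X
  apply Subtype.ext
  simp [coe_ad]

theorem ad_mul (S T : GL (Fin 2) k) : ad p (S * T) = ad p S * ad p T := by
  apply LinearMap.ext
  intro X
  apply Subtype.ext
  rw [Module.End.mul_apply, coe_ad, coe_ad, coe_ad, _root_.mul_inv_rev, Units.val_mul,
    Units.val_mul]
  simp only [Matrix.mul_assoc]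

/-- the adjoint representation on `tz k`. -/
def adHom : GL (Fin 2) k →* (↥(tz k) →ₗ[ZMod p] ↥(tz k)) where
  toFun := ad p
  map_one' := ad_one p
  map_mul' := ad_mul p

@[simp] theorem adHom_apply (T : GL (Fin 2) k) : adHom p T = ad p T := rfl

end Fermat.Agent.S56.Flat.AdRep
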