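/-
PROJECT T (S56), block (a3) Flat, file AdEigen (leaf (LinB) of helper27's LevelCount, Case B).

For `T ∈ GL₂(k)` with two eigenvectors `v, v'` for distinct eigenvalues `β ≠ β'`, the adjoint action
`ad T : X ↦ T X T⁻¹` on trace-zero matrices is diagonal in the eigenbasis: with `g = (v | v')`, the
`(i, j)` entry of `g⁻¹ X g` is multiplied by `d i / d j ∈ {1, β / β', β' / β}`.  Hence for a
polynomial `P` over `ZMod p` the `(i, j)` entry of `P(ad T) X` is `P(d i / d j)` times that of `X`: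

* `ker_aeval_ad_eq_bot` (LinB-1): if `P(1), P(β'/β), P((β'/β)⁻¹) ≠ 0` then `P(ad T)` is injective;
* `card_ker_aeval_ad_le` (LinB-2): if `P(1) ≠ 0` then `# ker P(ad T) ≤ (# k) ^ 2` (the kernel injects
  into `k × k` by the two off-diagonal entries).
-/
import Mathlib
import Fermat.Agent.S56.Flat.AdRep

set_option autoImplicit false
set_option linter.unusedSectionVars false

noncomputable section

namespace Fermat.Agent.S56.Flat.AdEigen

open Polynomial Matrix Fermat.Agent.S56.Flat.Dev Fermat.Agent.S56.Flat.AdRep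

/-! ### A polynomial in an endomorphism seen through an eigen-functional -/

section Poly

variable {R : Type*} [CommRing R] {M : Type*} [AddCommGroup M] [Module R M]
  {K : Type*} [Field K] [Algebra R K]

theorem apply_pow_of_eigen (f : M →ₗ[R] M) (ℓ : M →ₗ[R] K) (c : K)
    (h : ∀ x, ℓ (f x) = c * ℓ x) (n : ℕ) (x : M) : ℓ ((f ^ n) x) = c ^ n * ℓ x := by
  induction n generalizing x with
  | zero => simp
  | succ n ih => rw [pow_succ, Module.End.mul_apply, ih, h, pow_succ, mul_assoc]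

theorem apply_aeval_of_eigen (f : M →ₗ[R] M) (ℓ : M →ₗ[R] K) (c : K)
    (h : ∀ x, ℓ (f x) = c * ℓ x) (P : R[X]) (x : M) :
    ℓ (aeval f P x) = aeval c P * ℓ x := by
  induction P using Polynomial.induction_on' with
  | add P Q hP hQ => rw [map_add, LinearMap.add_apply, map_add, hP, hQ, map_add, add_mul]
  | monomial n a =>
    rw [aeval_monomial, aeval_monomial, Module.End.mul_apply, Module.algebraMap_end_apply,
      map_smul, apply_pow_of_eigen f ℓ c h, Algebra.smul_def, mul_assoc]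

end Poly

/-! ### The eigenbasis of a matrix with two distinct eigenvalues -/

section Eigen

variable {k : Type} [Field k]

/-- The matrix with columns `v`, `v'`. -/
def colMat (v v' : Fin 2 → k) : Matrix (Fin 2) (Fin 2) k := !![v 0, v' 0; v 1, v' 1]

theorem det_colMat (v v' : Fin 2 → k) : (colMat v v').det = v 0 * v' 1 - v' 0 * v 1 := by
  rw [colMat, Matrix.det_fin_two_of]

/-- `T g = g D` for the matrix `g` of eigenvectors. -/
theorem mul_colMat {T : Matrix (Fin 2) (Fin 2) k} {β β' : k} {v v' : Fin 2 → k}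
    (hTv : T *ᵥ v = β • v) (hTv' : T *ᵥ v' = β' • v') :
    T * colMat v v' = colMat v v' * Matrix.diagonal ![β, β'] := by
  have h0 := congrFun hTv 0
  have h1 := congrFun hTv 1
  have h0' := congrFun hTv' 0
  have h1' := congrFun hTv' 1
  simp only [Matrix.mulVec, dotProduct, Fin.sum_univ_two, Pi.smul_apply, smul_eq_mul] at h0 h1 h0' h1'
  ext i j
  fin_cases i <;> fin_cases j <;>
    simp [colMat, Matrix.mul_apply, Fin.sum_univ_two, Matrix.diagonal] <;>
    first | (rw [h0]; ring) | (rw [h1]; ring) | (rw [h0']; ring) | (rw [h1']; ring)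

/-- Eigenvectors for distinct eigenvalues are independent: the eigenvector matrix is invertible. -/
theorem det_colMat_ne_zero {T : Matrix (Fin 2) (Fin 2) k} {β β' : k} {v v' : Fin 2 → k}
    (hv : v ≠ 0) (hv' : v' ≠ 0) (hTv : T *ᵥ v = β • v) (hTv' : T *ᵥ v' = β' • v')
    (hββ' : β ≠ β') : (colMat v v').det ≠ 0 := by
  rw [det_colMat]
  intro hdet
  -- a nontrivial relation `s • v = t • v'`
  obtain ⟨s, t, hst, hrel⟩ : ∃ s t : k, (s ≠ 0 ∨ t ≠ 0) ∧ s • v = t • v' := by
    by_cases h1 : v' 1 = 0 ∧ v 1 = 0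
    · refine ⟨v' 0, v 0, ?_, ?_⟩
      · by_contra hcon
        push Not at hcon
        apply hv
        ext i
        fin_cases i
        · exact hcon.2
        · exact h1.2
      · ext i
        fin_cases i
        · simp only [Fin.zero_eta, Pi.smul_apply, smul_eq_mul]
          ring
        · simp [h1.1, h1.2]
    · refine ⟨v' 1, v 1, ?_, ?_⟩
      · by_contra hcon
        push Not at hcon
        exact h1 hcon
      · ext i
        fin_cases i
        · simp only [Fin.zero_eta, Pi.smul_apply, smul_eq_mul]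
          linear_combination hdet
        · simp only [Fin.mk_one, Pi.smul_apply, smul_eq_mul]
          ring
  have h2 : T *ᵥ (s • v) = T *ᵥ (t • v') := by rw [hrel]
  rw [Matrix.mulVec_smul, Matrix.mulVec_smul, hTv, hTv'] at h2
  -- `s (β - β') v = 0`
  have h3 : (s * (β - β')) • v = 0 := by
    have : β' • (s • v) = β' • (t • v') := by rw [hrel]
    rw [mul_sub, sub_smul, mul_smul, mul_smul, h2, smul_comm s β' v, this, smul_comm, sub_self]
  have hs : s = 0 := by
    rcases smul_eq_zero.1 h3 with h | h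
    · rcases mul_eq_zero.1 h with h | h
      · exact h
      · exact absurd (sub_eq_zero.1 h) hββ'
    · exact absurd h hv
  have ht : t = 0 := by
    rw [hs, zero_smul] at hrel
    rcases smul_eq_zero.1 hrel.symm with h | h
    · exact h
    · exact absurd h hv'
  rcases hst with h | h
  · exact h hs
  · exact h ht

/-- An eigenvalue of an invertible matrix is non-zero. -/
theorem eigenvalue_ne_zero (T : GL (Fin 2) k) {β : k} {v : Fin 2 → k} (hv : v ≠ 0)
    (hTv : (T : Matrix (Fin 2) (Fin 2) k) *ᵥ v = β • v) : β ≠ 0 := by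
  rintro rfl
  rw [zero_smul] at hTv
  apply hv
  have : ((T⁻¹ : GL (Fin 2) k) : Matrix (Fin 2) (Fin 2) k) *ᵥ
      ((T : Matrix (Fin 2) (Fin 2) k) *ᵥ v) = v := by
    rw [Matrix.mulVec_mulVec, ← Units.val_mul, inv_mul_cancel, Units.val_one, Matrix.one_mulVec]
  rw [← this, hTv, Matrix.mulVec_zero]

/-- Conjugation by `T` multiplies the `(i, j)` entry in the eigenbasis by `d i / d j`. -/
theorem conj_entry (T : GL (Fin 2) k) {β β' : k} {v v' : Fin 2 → k} (hv : v ≠ 0)
    (hv' : v' ≠ 0) (hTv : (T : Matrix (Fin 2) (Fin 2) k) *ᵥ v = β • v)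
    (hTv' : (T : Matrix (Fin 2) (Fin 2) k) *ᵥ v' = β' • v') (hββ' : β ≠ β')
    (X : Matrix (Fin 2) (Fin 2) k) (i j : Fin 2) :
    ((colMat v v')⁻¹ * ((T : Matrix (Fin 2) (Fin 2) k) * X *
        ((T⁻¹ : GL (Fin 2) k) : Matrix (Fin 2) (Fin 2) k)) * colMat v v') i j =
      (![β, β'] i / ![β, β'] j) * ((colMat v v')⁻¹ * X * colMat v v') i j := by
  set g := colMat v v' with hg
  set Tm := (T : Matrix (Fin 2) (Fin 2) k) with hTm
  set Ti := ((T⁻¹ : GL (Fin 2) k) : Matrix (Fin 2) (Fin 2) k) with hTi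
  set D := Matrix.diagonal ![β, β'] with hD
  have hdet : IsUnit g.det := isUnit_iff_ne_zero.2 (det_colMat_ne_zero hv hv' hTv hTv' hββ')
  have hgD : Tm * g = g * D := mul_colMat hTv hTv'
  have hinv : g⁻¹ * g = 1 := Matrix.nonsing_inv_mul g hdet
  have hinv' : g * g⁻¹ = 1 := Matrix.mul_nonsing_inv g hdet
  have hTiT : Ti * Tm = 1 := by rw [hTi, hTm, ← Units.val_mul, inv_mul_cancel, Units.val_one]
  have hDg : D * g⁻¹ = g⁻¹ * Tm := by
    calc D * g⁻¹ = (g⁻¹ * g) * D * g⁻¹ := by rw [hinv, Matrix.one_mul]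
      _ = g⁻¹ * (g * D) * g⁻¹ := by simp only [Matrix.mul_assoc]
      _ = g⁻¹ * (Tm * g) * g⁻¹ := by rw [hgD]
      _ = g⁻¹ * Tm * (g * g⁻¹) := by simp only [Matrix.mul_assoc]
      _ = g⁻¹ * Tm := by rw [hinv', Matrix.mul_one]
  have hZD : (g⁻¹ * (Tm * X * Ti) * g) * D = D * (g⁻¹ * X * g) := by
    calc (g⁻¹ * (Tm * X * Ti) * g) * D = g⁻¹ * (Tm * X * Ti) * (g * D) := by
          simp only [Matrix.mul_assoc]
      _ = g⁻¹ * (Tm * X * Ti) * (Tm * g) := by rw [hgD]
      _ = g⁻¹ * Tm * X * (Ti * Tm) * g := by simp only [Matrix.mul_assoc]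
      _ = (g⁻¹ * Tm) * X * g := by rw [hTiT, Matrix.mul_one]
      _ = D * g⁻¹ * X * g := by rw [hDg]
      _ = D * (g⁻¹ * X * g) := by simp only [Matrix.mul_assoc]
  have hentry := congrFun (congrFun hZD i) j
  rw [hD, Matrix.mul_diagonal, Matrix.diagonal_mul] at hentry
  have hdj : ![β, β'] j ≠ 0 := by
    fin_cases j
    · exact eigenvalue_ne_zero T hv hTv
    · exact eigenvalue_ne_zero T hv' hTv'
  rw [div_mul_eq_mul_div, eq_div_iff hdj]
  exact hentry

end Eigen

section Main

variable (p : ℕ) [Fact p.Prime] {k : Type} [Field k] [Finite k] [Algebra (ZMod p) k]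

/-- The `(i, j)` entry of `g⁻¹ X g`, as a `ZMod p`-linear functional on trace-zero matrices. -/
def entry (g : Matrix (Fin 2) (Fin 2) k) (i j : Fin 2) : ↥(tz k) →ₗ[ZMod p] k :=
  ({ toFun := fun X => (g⁻¹ * X.1 * g) i j
     map_add' := fun X Y => by
      simp only [Submodule.coe_add, Matrix.mul_add, Matrix.add_mul, Matrix.add_apply]
     map_smul' := fun a X => by
      simp only [Submodule.coe_smul, Matrix.mul_smul, Matrix.smul_mul, Matrix.smul_apply,
        RingHom.id_apply] } : ↥(tz k) →ₗ[k] k).restrictScalars (ZMod p)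

theorem entry_apply (g : Matrix (Fin 2) (Fin 2) k) (i j : Fin 2) (X : ↥(tz k)) :
    entry p g i j X = (g⁻¹ * X.1 * g) i j := rfl

/-- A matrix all of whose entries in the eigenbasis vanish is zero. -/
theorem eq_zero_of_entries {g : Matrix (Fin 2) (Fin 2) k} (hg : IsUnit g.det) (X : ↥(tz k))
    (h : ∀ i j, entry p g i j X = 0) : X = 0 := by
  apply Subtype.ext
  have h0 : g⁻¹ * X.1 * g = 0 := by
    ext i j
    exact h i j
  have : X.1 = g * (g⁻¹ * X.1 * g) * g⁻¹ := by
    rw [← Matrix.mul_assoc, ← Matrix.mul_assoc, Matrix.mul_nonsing_inv g hg, Matrix.one_mul,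
      Matrix.mul_assoc, Matrix.mul_nonsing_inv g hg, Matrix.mul_one]
  rw [this, h0, Matrix.mul_zero, Matrix.zero_mul]
  rfl

variable {T : GL (Fin 2) k} {β β' : k} {v v' : Fin 2 → k}

/-- The entries of `P(ad T) X` in the eigenbasis of `T`. -/
theorem entry_aeval_ad (hv : v ≠ 0) (hv' : v' ≠ 0)
    (hTv : (T : Matrix (Fin 2) (Fin 2) k) *ᵥ v = β • v)
    (hTv' : (T : Matrix (Fin 2) (Fin 2) k) *ᵥ v' = β' • v') (hββ' : β ≠ β')
    (P : (ZMod p)[X]) (X : ↥(tz k)) (i j : Fin 2) :
    entry p (colMat v v') i j (aeval (ad p T) P X) =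
      aeval (![β, β'] i / ![β, β'] j) P * entry p (colMat v v') i j X :=
  apply_aeval_of_eigen (ad p T) (entry p (colMat v v') i j) _
    (fun Y => by
      rw [entry_apply, entry_apply, coe_ad]
      exact conj_entry T hv hv' hTv hTv' hββ' Y.1 i j) P X

/-- (LinB-1) -/
theorem ker_aeval_ad_eq_bot {T : GL (Fin 2) k} {β β' : k} {v v' : Fin 2 → k} (hv : v ≠ 0)
    (hv' : v' ≠ 0) (hTv : (T : Matrix (Fin 2) (Fin 2) k) *ᵥ v = β • v)
    (hTv' : (T : Matrix (Fin 2) (Fin 2) k) *ᵥ v' = β' • v') (hββ' : β ≠ β')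
    (P : (ZMod p)[X]) (h1 : aeval (1 : k) P ≠ 0) (h2 : aeval (β' / β) P ≠ 0)
    (h3 : aeval (β' / β)⁻¹ P ≠ 0) :
    LinearMap.ker (aeval (ad p T) P) = ⊥ := by
  have hβ : β ≠ 0 := eigenvalue_ne_zero T hv hTv
  have hβ' : β' ≠ 0 := eigenvalue_ne_zero T hv' hTv'
  have hdet : IsUnit (colMat v v').det :=
    isUnit_iff_ne_zero.2 (det_colMat_ne_zero hv hv' hTv hTv' hββ')
  rw [LinearMap.ker_eq_bot']
  intro X hX
  apply eq_zero_of_entries p hdet
  intro i j
  have h := entry_aeval_ad p hv hv' hTv hTv' hββ' P X i j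
  rw [hX, map_zero] at h
  have hne : aeval (![β, β'] i / ![β, β'] j) P ≠ 0 := by
    fin_cases i <;> fin_cases j
    · simpa [div_self hβ] using h1
    · simpa [inv_div] using h3
    · simpa using h2
    · simpa [div_self hβ'] using h1
  rcases mul_eq_zero.1 h.symm with h' | h'
  · exact absurd h' hne
  · exact h'

/-- (LinB-2) -/
theorem card_ker_aeval_ad_le {T : GL (Fin 2) k} {β β' : k} {v v' : Fin 2 → k} (hv : v ≠ 0)
    (hv' : v' ≠ 0) (hTv : (T : Matrix (Fin 2) (Fin 2) k) *ᵥ v = β • v)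
    (hTv' : (T : Matrix (Fin 2) (Fin 2) k) *ᵥ v' = β' • v') (hββ' : β ≠ β')
    (P : (ZMod p)[X]) (h1 : aeval (1 : k) P ≠ 0) :
    Nat.card (LinearMap.ker (aeval (ad p T) P)) ≤ Nat.card k ^ 2 := by
  have hβ : β ≠ 0 := eigenvalue_ne_zero T hv hTv
  have hβ' : β' ≠ 0 := eigenvalue_ne_zero T hv' hTv'
  have hdet : IsUnit (colMat v v').det :=
    isUnit_iff_ne_zero.2 (det_colMat_ne_zero hv hv' hTv hTv' hββ')
  -- the diagonal entries of an element of the kernel vanish
  have hdiag : ∀ X : ↥(tz k), aeval (ad p T) P X = 0 → ∀ i, entry p (colMat v v') i i X = 0 := by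
    intro X hX i
    have h := entry_aeval_ad p hv hv' hTv hTv' hββ' P X i i
    rw [hX, map_zero] at h
    have hne : aeval (![β, β'] i / ![β, β'] i) P ≠ 0 := by
      fin_cases i
      · simpa [div_self hβ] using h1
      · simpa [div_self hβ'] using h1
    rcases mul_eq_zero.1 h.symm with h' | h'
    · exact absurd h' hne
    · exact h'
  let φ : ↥(LinearMap.ker (aeval (ad p T) P)) → k × k := fun X =>
    (entry p (colMat v v') 0 1 X.1, entry p (colMat v v') 1 0 X.1)
  have hφ : Function.Injective φ := by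
    intro X Y hXY
    have h01 : entry p (colMat v v') 0 1 (X.1 - Y.1) = 0 := by
      rw [map_sub, sub_eq_zero]
      exact congrArg Prod.fst hXY
    have h10 : entry p (colMat v v') 1 0 (X.1 - Y.1) = 0 := by
      rw [map_sub, sub_eq_zero]
      exact congrArg Prod.snd hXY
    have hker : aeval (ad p T) P (X.1 - Y.1) = 0 := by
      rw [map_sub, LinearMap.mem_ker.1 X.2, LinearMap.mem_ker.1 Y.2, sub_self]
    have hz : X.1 - Y.1 = 0 := by
      apply eq_zero_of_entries p hdet
      intro i j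
      fin_cases i <;> fin_cases j
      · exact hdiag _ hker 0
      · exact h01
      · exact h10
      · exact hdiag _ hker 1
    exact Subtype.ext (sub_eq_zero.1 hz)
  calc Nat.card (LinearMap.ker (aeval (ad p T) P)) ≤ Nat.card (k × k) :=
        Nat.card_le_card_of_injective φ hφ
    _ = Nat.card k ^ 2 := by rw [Nat.card_prod, sq]

end Main

end Fermat.Agent.S56.Flat.AdEigen
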