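/-
PROJECT T (S56), block (a3) Flat/LevelCount, leaf (EigB) of helper27 #4363 (typist helper21).

`T, Φ ∈ GL₂(k)`, `char k = p`, `Φ T Φ⁻¹ = T ^ p`, both with an eigenvector over `k` but without a
common one: then `T` has two distinct eigenvalues `β`, `β ^ p` swapped by the `p`-th power, and
`det T = β ^ (p + 1)` (`exists_eigen_of_irred`).
-/
import Mathlib

set_option autoImplicit false

namespace Fermat.Agent.S56.Flat.EigB

open Polynomial Matrix

section Lin

variable {k : Type} [Field k]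

/-- two vectors of `k²` with vanishing determinant are proportional -/
theorem exists_smul_of_det_zero {v w : Fin 2 → k} (hv : v ≠ 0)
    (h : v 0 * w 1 - v 1 * w 0 = 0) : ∃ c : k, w = c • v := by
  by_cases h0 : v 0 = 0
  · have h1 : v 1 ≠ 0 := by
      intro h1
      apply hv
      ext i
      fin_cases i
      · exact h0
      · exact h1
    have hw0 : w 0 = 0 := by
      rw [h0, zero_mul, zero_sub, neg_eq_zero] at h
      exact (mul_eq_zero.mp h).resolve_left h1
    refine ⟨w 1 / v 1, ?_⟩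
    ext i
    fin_cases i
    · change w 0 = w 1 / v 1 * v 0
      rw [hw0, h0, mul_zero]
    · change w 1 = w 1 / v 1 * v 1
      field_simp
  · refine ⟨w 0 / v 0, ?_⟩
    ext i
    fin_cases i
    · change w 0 = w 0 / v 0 * v 0
      field_simp
    · change w 1 = w 0 / v 0 * v 1
      field_simp
      linear_combination h

/-- Cramer: two independent vectors of `k²` span -/
theorem exists_decomp {v v' : Fin 2 → k} (hD : v 0 * v' 1 - v 1 * v' 0 ≠ 0) (w : Fin 2 → k) :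
    ∃ x y : k, w = x • v + y • v' := by
  refine ⟨(w 0 * v' 1 - w 1 * v' 0) / (v 0 * v' 1 - v 1 * v' 0),
    (v 0 * w 1 - v 1 * w 0) / (v 0 * v' 1 - v 1 * v' 0), ?_⟩
  ext i
  fin_cases i
  · change w 0 = (w 0 * v' 1 - w 1 * v' 0) / (v 0 * v' 1 - v 1 * v' 0) * v 0 +
      (v 0 * w 1 - v 1 * w 0) / (v 0 * v' 1 - v 1 * v' 0) * v' 0
    rw [div_mul_eq_mul_div, div_mul_eq_mul_div, ← add_div, eq_div_iff hD]
    ring
  · change w 1 = (w 0 * v' 1 - w 1 * v' 0) / (v 0 * v' 1 - v 1 * v' 0) * v 1 +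
      (v 0 * w 1 - v 1 * w 0) / (v 0 * v' 1 - v 1 * v' 0) * v' 1
    rw [div_mul_eq_mul_div, div_mul_eq_mul_div, ← add_div, eq_div_iff hD]
    ring

theorem pow_mulVec {M : Matrix (Fin 2) (Fin 2) k} {v : Fin 2 → k} {β : k}
    (h : M *ᵥ v = β • v) (n : ℕ) : (M ^ n) *ᵥ v = β ^ n • v := by
  induction n with
  | zero => simp
  | succ n ih =>
    rw [pow_succ, ← Matrix.mulVec_mulVec, h, Matrix.mulVec_smul, ih, smul_smul, pow_succ, mul_comm]

/-- an eigenvector of `N` whose eigenvalue is not `μ'` lies on the other eigenline -/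
theorem eigen_of_ne {N : Matrix (Fin 2) (Fin 2) k} {v v' w : Fin 2 → k} {μ μ' lam : k}
    (hD : v 0 * v' 1 - v 1 * v' 0 ≠ 0) (hv : N *ᵥ v = μ • v) (hv' : N *ᵥ v' = μ' • v')
    (hw : N *ᵥ w = lam • w) (hne : lam ≠ μ') : ∃ x : k, w = x • v := by
  obtain ⟨x, y, rfl⟩ := exists_decomp hD w
  rw [Matrix.mulVec_add, Matrix.mulVec_smul, Matrix.mulVec_smul, hv, hv', smul_add] at hw
  have hy : y = 0 := by
    have h0 := congrFun hw 0
    have h1 := congrFun hw 1
    simp only [Pi.add_apply, Pi.smul_apply, smul_eq_mul] at h0 h1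
    have h2 : y * (μ' - lam) * (v 0 * v' 1 - v 1 * v' 0) = 0 := by
      linear_combination v 0 * h1 - v 1 * h0
    rcases mul_eq_zero.mp h2 with h | h
    · rcases mul_eq_zero.mp h with h | h
      · exact h
      · exact absurd (sub_eq_zero.mp h).symm hne
    · exact absurd h hD
  exact ⟨x, by rw [hy, zero_smul, add_zero]⟩

/-- Cayley–Hamilton for `2 × 2` matrices, factored over an eigenvalue -/
theorem sub_mul_sub_eq_zero (M : Matrix (Fin 2) (Fin 2) k) {β β' : k} (htr : M.trace = β + β')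
    (hdet : M.det = β * β') : (M - β • (1 : Matrix (Fin 2) (Fin 2) k)) * (M - β' • 1) = 0 := by
  rw [Matrix.trace_fin_two] at htr
  rw [Matrix.det_fin_two] at hdet
  ext i j
  fin_cases i <;> fin_cases j <;>
    simp [Matrix.mul_apply, Fin.sum_univ_two, Matrix.sub_apply, Matrix.smul_apply,
      Matrix.one_apply]
  · linear_combination (M 0 0) * htr - hdet
  · linear_combination (M 0 1) * htr
  · linear_combination (M 1 0) * htr
  · linear_combination (M 1 1) * htr - hdet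

end Lin

variable (p : ℕ) [Fact p.Prime] {k : Type} [Field k]

/-- (EigB) -/
theorem exists_eigen_of_irred [CharP k p] (T Φ : GL (Fin 2) k) (hrel : Φ * T * Φ⁻¹ = T ^ p)
    (hT : ∃ v : Fin 2 → k, v ≠ 0 ∧ ∃ a : k, (T : Matrix (Fin 2) (Fin 2) k) *ᵥ v = a • v)
    (hΦ : ∃ v : Fin 2 → k, v ≠ 0 ∧ ∃ a : k, (Φ : Matrix (Fin 2) (Fin 2) k) *ᵥ v = a • v)
    (hirr : ¬ ∃ v : Fin 2 → k, v ≠ 0 ∧ (∃ a : k, (T : Matrix (Fin 2) (Fin 2) k) *ᵥ v = a • v) ∧
      ∃ a : k, (Φ : Matrix (Fin 2) (Fin 2) k) *ᵥ v = a • v) :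
    ∃ (β : k) (v v' : Fin 2 → k), v ≠ 0 ∧ v' ≠ 0 ∧
      (T : Matrix (Fin 2) (Fin 2) k) *ᵥ v = β • v ∧
      (T : Matrix (Fin 2) (Fin 2) k) *ᵥ v' = β ^ p • v' ∧ β ^ p ≠ β ∧
      (T : Matrix (Fin 2) (Fin 2) k).det = β ^ (p + 1) := by
  have hp : p.Prime := Fact.out
  obtain ⟨v, hv0, β, hβ⟩ := hT
  obtain ⟨M, hM⟩ : ∃ M : Matrix (Fin 2) (Fin 2) k, M = (T : Matrix (Fin 2) (Fin 2) k) := ⟨_, rfl⟩
  obtain ⟨P, hP⟩ : ∃ P : Matrix (Fin 2) (Fin 2) k, P = (Φ : Matrix (Fin 2) (Fin 2) k) := ⟨_, rfl⟩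
  rw [← hM] at hβ ⊢
  -- the relation in matrices
  have hPM : P * M = M ^ p * P := by
    have h1 : Φ * T = T ^ p * Φ := by
      rw [← hrel]
      group
    have h2 := congrArg (fun g : GL (Fin 2) k => (g : Matrix (Fin 2) (Fin 2) k)) h1
    simp only [Units.val_mul, Units.val_pow_eq_pow_val] at h2
    rw [hM, hP]
    exact h2
  have hPinv : ((Φ⁻¹ : GL (Fin 2) k) : Matrix (Fin 2) (Fin 2) k) * P = 1 := by
    rw [hP, ← Units.val_mul, inv_mul_cancel, Units.val_one]
  -- transport of eigenvectors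
  have htr : ∀ (u : Fin 2 → k) (c : k), M *ᵥ u = c • u →
      (M ^ p) *ᵥ (P *ᵥ u) = c • (P *ᵥ u) := by
    intro u c hu
    rw [Matrix.mulVec_mulVec, ← hPM, ← Matrix.mulVec_mulVec, hu, Matrix.mulVec_smul]
  -- the second eigenvalue
  obtain ⟨β', hβ'⟩ : ∃ β' : k, β' = M.trace - β := ⟨_, rfl⟩
  have htrace : M.trace = β + β' := by rw [hβ']; ring
  have hdet : M.det = β * β' := by
    have h0 : (M - β • (1 : Matrix (Fin 2) (Fin 2) k)).det = 0 := by
      rw [← Matrix.exists_mulVec_eq_zero_iff]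
      refine ⟨v, hv0, ?_⟩
      rw [Matrix.sub_mulVec, hβ, Matrix.smul_mulVec, Matrix.one_mulVec, sub_self]
    rw [Matrix.det_fin_two] at h0 ⊢
    rw [Matrix.trace_fin_two] at htrace
    simp only [Matrix.sub_apply, Matrix.smul_apply, Matrix.one_apply, smul_eq_mul] at h0
    simp at h0
    linear_combination h0 + β * htrace
  have hCH := sub_mul_sub_eq_zero M htrace hdet
  have hCH' : (M - β' • (1 : Matrix (Fin 2) (Fin 2) k)) * (M - β • 1) = 0 :=
    sub_mul_sub_eq_zero M (by rw [htrace]; ring) (by rw [hdet]; ring)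
  by_cases hββ' : β' = β
  · -- `T` is scalar: contradiction
    exfalso
    rw [hββ'] at hCH
    have hnil : (M - β • (1 : Matrix (Fin 2) (Fin 2) k)) ^ p = 0 := by
      obtain ⟨m, hm⟩ : ∃ m, p = 2 + m := ⟨p - 2, by have := hp.two_le; omega⟩
      rw [hm, pow_add, pow_two, hCH, zero_mul]
    have hMp : M ^ p = β ^ p • (1 : Matrix (Fin 2) (Fin 2) k) := by
      have hc : Commute (M - β • (1 : Matrix (Fin 2) (Fin 2) k)) (β • 1) :=
        (Commute.one_right _).smul_right β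
      have h1 : M = (M - β • (1 : Matrix (Fin 2) (Fin 2) k)) + β • 1 := by abel
      have h2 := add_pow_char_of_commute (p := p) hc
      rw [← h1, hnil, zero_add, _root_.smul_pow, one_pow] at h2
      exact h2
    have hMs : M = β ^ p • (1 : Matrix (Fin 2) (Fin 2) k) := by
      have h1 : ((Φ⁻¹ : GL (Fin 2) k) : Matrix (Fin 2) (Fin 2) k) * (P * M) = M := by
        rw [← Matrix.mul_assoc, hPinv, Matrix.one_mul]
      rw [← h1, hPM, hMp, Matrix.smul_mul, Matrix.one_mul, Matrix.mul_smul, hPinv]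
    obtain ⟨w, hw0, a, ha⟩ := hΦ
    refine hirr ⟨w, hw0, ⟨β ^ p, ?_⟩, a, ha⟩
    rw [← hM, hMs, Matrix.smul_mulVec, Matrix.one_mulVec]
  · -- two distinct eigenvalues
    have hMne : ∃ u : Fin 2 → k, (M - β • (1 : Matrix (Fin 2) (Fin 2) k)) *ᵥ u ≠ 0 := by
      by_contra hcon
      push Not at hcon
      have h0 : M - β • (1 : Matrix (Fin 2) (Fin 2) k) = 0 := by
        apply Matrix.mulVec_injective
        funext u
        rw [hcon u, Matrix.zero_mulVec]
      have h1 : M = β • (1 : Matrix (Fin 2) (Fin 2) k) := sub_eq_zero.mp h0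
      apply hββ'
      have h2 : M.trace = β + β := by
        rw [h1, Matrix.trace_fin_two]
        simp
      rw [htrace] at h2
      exact add_left_cancel h2
    obtain ⟨u, hu⟩ := hMne
    obtain ⟨v', hv'⟩ : ∃ v' : Fin 2 → k, v' = (M - β • (1 : Matrix (Fin 2) (Fin 2) k)) *ᵥ u :=
      ⟨_, rfl⟩
    have hv'0 : v' ≠ 0 := hv' ▸ hu
    have hMv' : M *ᵥ v' = β' • v' := by
      have h1 : (M - β' • (1 : Matrix (Fin 2) (Fin 2) k)) *ᵥ v' = 0 := by
        rw [hv', Matrix.mulVec_mulVec, hCH', Matrix.zero_mulVec]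
      rw [Matrix.sub_mulVec, Matrix.smul_mulVec, Matrix.one_mulVec, sub_eq_zero] at h1
      exact h1
    have hD : v 0 * v' 1 - v 1 * v' 0 ≠ 0 := by
      intro hD
      obtain ⟨c, hc⟩ := exists_smul_of_det_zero hv0 hD
      have h1 : M *ᵥ v' = β • v' := by
        rw [hc, Matrix.mulVec_smul, hβ, smul_comm]
      rw [hMv'] at h1
      have h2 : (β' - β) • v' = 0 := by rw [sub_smul, h1, sub_self]
      rcases smul_eq_zero.mp h2 with h | h
      · exact hββ' (sub_eq_zero.mp h)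
      · exact hv'0 h
    have hD' : v' 0 * v 1 - v' 1 * v 0 ≠ 0 := by
      intro h
      apply hD
      linear_combination -h
    have hNv := pow_mulVec hβ p
    have hNv' := pow_mulVec hMv' p
    -- `β = β' ^ p`
    have h1 : β = β' ^ p := by
      by_contra hne
      obtain ⟨x, hx⟩ := eigen_of_ne hD hNv hNv' (htr v β hβ) hne
      exact hirr ⟨v, hv0, ⟨β, by rw [← hM]; exact hβ⟩, x, by rw [← hP]; exact hx⟩
    -- `β' = β ^ p`
    have h2 : β' = β ^ p := by
      by_contra hne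
      obtain ⟨x, hx⟩ := eigen_of_ne hD' hNv' hNv (htr v' β' hMv') hne
      exact hirr ⟨v', hv'0, ⟨β', by rw [← hM]; exact hMv'⟩, x, by rw [← hP]; exact hx⟩
    refine ⟨β, v, v', hv0, hv'0, hβ, ?_, ?_, ?_⟩
    · rw [← h2]
      exact hMv'
    · rw [← h2]
      exact hββ'
    · rw [hdet, h2, pow_succ, mul_comm]

end Fermat.Agent.S56.Flat.EigB
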