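/-
PROJECT T (S56), block (a3) Flat, file FBCore (leaf (FB-core) of helper27's LevelCount).

`eq_zero_of_mem_Gam`: let `F` be a finite normal extension of `ℚ_[p]` inside `Ω = PadicAlgCl p`
containing a primitive `p`-th root of unity `ζ`, let `‖π‖ ^ e = p⁻¹`, and let `LV` be a finite
extension satisfying the Kummer level principle over `F` (every `u ∈ F` having a `p`-th root in
`F·LV` is of the form `a ^ p (1 + p x)`).  Then every homomorphism `h : Gal(Ω/F) → ZMod p` which is
trivial on `Gal(Ω/F·LV)` kills the step `Gam e` of the Kummer filtration of `Levels`.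

Proof: transport `h` to `Gal(Ω/F)`; it is a locally constant crossed homomorphism for the trivial
twist, so by the infinite-level Hilbert 90 (`Ord.KummerH90.exists_radical`) `h σ = log_ζ (σ β / β)`
with `β ^ p = u ∈ F`; `β` is fixed by `Gal(Ω/F·LV)`, so `β ∈ F·LV`; the principle gives
`u = a ^ p v` with `v = 1 + p x` of level `e`; for `σ ∈ Gam e` the Kummer symbol `⟨σ, v⟩` vanishes,
so `σ` fixes the `p`-th root `β / a` of `v`, hence `β`, hence `h σ = 0`.
-/
import Mathlib
import Fermat.Agent.S56.Flat.Levels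
import Fermat.Agent.S56.Ord.KummerH90

set_option autoImplicit false
set_option linter.unusedSectionVars false

noncomputable section

namespace Fermat.Agent.S56.Flat.FBCore

open Fermat.Agent.CFT.Local.Model Fermat.Agent.CFT.Local.PadicAlgClLocal
  Fermat.Agent.CFT.LocalBridge Fermat.Agent.S56.Flat.KummerInj Fermat.Agent.S56.Flat.ResField
  Fermat.Agent.S56.Flat.Passage.NormFrame Fermat.Agent.S56.Flat.Levels

variable (p : ℕ) [Fact p.Prime]

local notation "Ω" => PadicAlgCl p

variable (F : IntermediateField ℚ_[p] (PadicAlgCl p))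

/-! ### Transport between `F.fixingSubgroup` and `Gal(Ω/F)` -/

section Transport

variable {p F}

/-- An `F`-automorphism of `Ω`, seen in `LocGal p`. -/
def down (s : Ω ≃ₐ[↥F] Ω) : LocGal p := s.restrictScalars ℚ_[p]

@[simp] theorem down_apply (s : Ω ≃ₐ[↥F] Ω) (x : Ω) : down s x = s x := rfl

theorem down_mem (s : Ω ≃ₐ[↥F] Ω) : down s ∈ F.fixingSubgroup := by
  rw [mem_fix_iff]
  intro x hx
  exact s.commutes ⟨x, hx⟩

theorem down_mul (s t : Ω ≃ₐ[↥F] Ω) : down (s * t) = down s * down t := rfl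

/-- An element of `F.fixingSubgroup`, seen as an `F`-automorphism of `Ω`. -/
def up (σ : LocGal p) (hσ : σ ∈ F.fixingSubgroup) : Ω ≃ₐ[↥F] Ω :=
  IntermediateField.fixingSubgroupEquiv F ⟨σ, hσ⟩

@[simp] theorem up_apply (σ : LocGal p) (hσ : σ ∈ F.fixingSubgroup) (x : Ω) : up σ hσ x = σ x := rfl

theorem down_up (σ : LocGal p) (hσ : σ ∈ F.fixingSubgroup) : down (up σ hσ) = σ := by
  ext x
  rfl

end Transport

theorem finiteDimensional_extendScalars {K L : Type*} [Field K] [Field L] [Algebra K L]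
    {A B : IntermediateField K L} (hAB : A ≤ B) [FiniteDimensional K B] :
    FiniteDimensional ↥A ↥(IntermediateField.extendScalars hAB) := by
  have h1 : FiniteDimensional K ↥(IntermediateField.extendScalars hAB) :=
    (inferInstance : FiniteDimensional K B)
  exact Module.Finite.right K ↥A ↥(IntermediateField.extendScalars hAB)

variable [FiniteDimensional ℚ_[p] F] [Normal ℚ_[p] F]

/-- The two copies of `zp` agree. -/
theorem zp_eq (ζ : Ω) (i : ZMod p) : Ord.KummerH90.zp ζ i = zp ζ i := rfl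

set_option linter.unusedVariables false in
/-- **(FB-core)**: a homomorphism `Gal(Ω/F) → ZMod p` which is trivial on `Gal(Ω/F·LV)`, where
`F·LV/F` is a Kummer extension generated by `p`-th roots of elements `a ^ p (1 + p x)`, kills the
`e`-th step `Gam e` of the Kummer filtration (`‖π‖ ^ e = p⁻¹`). -/
theorem eq_zero_of_mem_Gam {ζ π : PadicAlgCl p} (hζ : IsPrimitiveRoot ζ p) (hζF : ζ ∈ F)
    (hπ : IsUnif p F π) {e : ℕ} (he : ‖π‖ ^ e = (p : ℝ)⁻¹)
    (LV : IntermediateField ℚ_[p] (PadicAlgCl p)) [FiniteDimensional ℚ_[p] LV]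
    (hKL : ∀ u y : Ω, u ∈ F → u ≠ 0 → y ∈ F ⊔ LV → y ^ p = u →
      ∃ a x : Ω, a ∈ F ∧ a ≠ 0 ∧ x ∈ F ∧ ‖x‖ ≤ 1 ∧ u = a ^ p * (1 + p * x))
    (h : LocGal p → ZMod p)
    (hadd : ∀ σ ∈ F.fixingSubgroup, ∀ τ ∈ F.fixingSubgroup, h (σ * τ) = h σ + h τ)
    (hLV : ∀ σ ∈ F.fixingSubgroup, σ ∈ LV.fixingSubgroup → h σ = 0)
    {σ : LocGal p} (hσ : σ ∈ Gam p F ζ π hζ hζF e) : h σ = 0 := by
  classical
  -- the crossed homomorphism on `Gal(Ω/F)` (trivial twist)
  set c : (Ω ≃ₐ[↥F] Ω) → ZMod p := fun s => h (down s) with hc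
  have hω : ∀ s : Ω ≃ₐ[↥F] Ω, s ζ = Ord.KummerH90.zp ζ ((fun _ => (1 : ZMod p)) s) := by
    intro s
    have h1 : s ζ = ζ := s.commutes ⟨ζ, hζF⟩
    rw [h1, Ord.KummerH90.zp, ZMod.val_one, pow_one]
  have hsup : FiniteDimensional ℚ_[p] ↥(F ⊔ LV) := IntermediateField.finiteDimensional_sup F LV
  have hcross : Ord.KummerH90.IsCross (fun _ => (1 : ZMod p)) c := by
    refine ⟨fun s t => ?_, IntermediateField.extendScalars (le_sup_left : F ≤ F ⊔ LV),
      finiteDimensional_extendScalars _, fun s t ht => ?_⟩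
    · show h (down (s * t)) = 1 * h (down t) + h (down s)
      rw [down_mul, hadd _ (down_mem s) _ (down_mem t), one_mul, add_comm]
    · show h (down (s * t)) = h (down s)
      rw [down_mul, hadd _ (down_mem s) _ (down_mem t)]
      have : h (down t) = 0 := by
        apply hLV _ (down_mem t)
        rw [IntermediateField.mem_fixingSubgroup_iff]
        intro x hx
        have hx' : x ∈ IntermediateField.extendScalars (le_sup_left : F ≤ F ⊔ LV) :=
          (le_sup_right : LV ≤ F ⊔ LV) hx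
        exact (IntermediateField.mem_fixingSubgroup_iff _ t).1 ht x hx'
      rw [this, add_zero]
  obtain ⟨β, hβ0, ⟨a, ha⟩, hβ⟩ := Ord.KummerH90.exists_radical hζ (fun _ => (1 : ZMod p)) hω hcross
  -- `β` lies in `F ⊔ LV`
  have hβmem : β ∈ F ⊔ LV := by
    apply mem_of_forall_fixed
    intro τ hτ
    have hτF : τ ∈ F.fixingSubgroup :=
      mem_fix_iff.2 fun y hy => hτ y ((le_sup_left : F ≤ F ⊔ LV) hy)
    have hτL : τ ∈ LV.fixingSubgroup :=
      (IntermediateField.mem_fixingSubgroup_iff LV τ).2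
        fun y hy => hτ y ((le_sup_right : LV ≤ F ⊔ LV) hy)
    have h1 := hβ (up τ hτF)
    rw [up_apply] at h1
    have h2 : c (up τ hτF) = 0 := by
      show h (down (up τ hτF)) = 0
      rw [down_up]
      exact hLV τ hτF hτL
    rw [h1, h2, Ord.KummerH90.zp_zero, one_mul]
  -- apply the Kummer level principle to `u := β ^ p`
  have hu_mem : β ^ p ∈ F := by
    rw [← ha]
    exact a.2
  have hu0 : β ^ p ≠ 0 := pow_ne_zero p hβ0
  obtain ⟨a', x, ha'F, ha'0, hxF, hx1, hux⟩ := hKL (β ^ p) β hu_mem hu0 hβmem rfl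
  set v : Ω := 1 + (p : Ω) * x with hv
  have hvF : v ∈ F := add_mem (one_mem F) (mul_mem (natCast_mem F p) hxF)
  have hv0 : v ≠ 0 := by
    intro h0
    rw [h0, mul_zero] at hux
    exact hu0 hux
  have hvlev : v ∈ Ulev p F π e := by
    refine ⟨hvF, hv0, ?_⟩
    have : v - 1 = (p : Ω) * x := by rw [hv]; ring
    rw [this, norm_mul, norm_p, he]
    exact mul_le_of_le_one_right (inv_nonneg.2 (Nat.cast_nonneg p)) hx1
  -- `β / a'` is a `p`-th root of `v`, fixed by `σ`
  have hσF := mem_fix_iff.1 hσ.1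
  have hroot : (β / a') ^ p = v := by
    rw [div_pow, hux, mul_div_assoc, mul_comm, div_mul_cancel₀ _ (pow_ne_zero p ha'0)]
  have hfix : σ (β / a') = β / a' :=
    (kumZ_eq_zero_iff hζ (hσF ζ hζF) (hσF v hvF) hv0 hroot).1 (hσ.2 v hvlev)
  have hσβ : σ β = β := by
    rw [map_div₀, hσF a' ha'F] at hfix
    have := congrArg (· * a') hfix
    simpa [div_mul_cancel₀ _ ha'0] using this
  -- conclude
  have h1 := hβ (up σ hσ.1)
  rw [up_apply, hσβ] at h1
  have h2 : Ord.KummerH90.zp ζ (c (up σ hσ.1)) = Ord.KummerH90.zp ζ (0 : ZMod p) := by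
    rw [Ord.KummerH90.zp_zero]
    exact (mul_right_cancel₀ hβ0 (by rw [one_mul]; exact h1)).symm
  have h3 := Ord.KummerH90.zp_injective hζ h2
  have h4 : c (up σ hσ.1) = h σ := by
    show h (down (up σ hσ.1)) = h σ
    rw [down_up]
  rw [← h4, h3]

end Fermat.Agent.S56.Flat.FBCore
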