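/-
PROJECT T (S56), block (a3) Flat, file FB (leaf (FB) of helper27's LevelCount #4363, typist
helper15).

`KummerLevelPrinciple p ζ`: the seam with the passage block.  From it and `FBCore.eq_zero_of_mem_Gam`:
the class `f` of a locally flat extension of characters trivial on `Gal(Ω/F)` (resp. the cocycle
`c` of a locally flat deformation of `rb` trivial on `Gal(Ω/F)`) vanishes on the step `Gam e` of
the Kummer filtration of `F` (`‖π‖ ^ e = p⁻¹`).
-/
import Mathlib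
import Fermat.Agent.S56.Flat.Dev.Bound
import Fermat.Agent.S56.Flat.FBCore

set_option autoImplicit false
set_option linter.unusedSectionVars false
set_option linter.style.haveILetI false

noncomputable section

namespace Fermat.Agent.S56.Flat.FB

open Fermat.Agent.CFT.Local.Model Fermat.Agent.CFT.Local.PadicAlgClLocal
  Fermat.Agent.CFT.LocalBridge Fermat.Agent.S56.Flat.KummerInj Fermat.Agent.S56.Flat.ResField
  Fermat.Agent.S56.Flat.Passage.NormFrame Fermat.Agent.S56.Flat.Levels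
  Fermat.Agent.S56.Flat.Dict Fermat.Agent.S56.Flat.Dev Matrix

variable (p : ℕ) [Fact p.Prime]

local notation "Ω" => PadicAlgCl p

/-- **The Kummer level principle** (the seam with the passage block): every finite flat `p`-torsion
`LocGal p`-module is trivialised by a finite `LV` such that `p`-th roots living in `F · LV` come
from units of level `≥ e_F`. -/
def KummerLevelPrinciple (ζ : PadicAlgCl p) : Prop :=
  ∀ {T : Type} [AddCommGroup T] [Finite T] (act : LocGal p → T → T), IsLocFlat p act →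
    (∀ t : T, p • t = 0) →
    ∃ LV : IntermediateField ℚ_[p] (PadicAlgCl p), FiniteDimensional ℚ_[p] LV ∧
      (∀ σ ∈ LV.fixingSubgroup, ∀ t, act σ t = t) ∧
      ∀ (F : IntermediateField ℚ_[p] (PadicAlgCl p)), FiniteDimensional ℚ_[p] F → ζ ∈ F →
        ∀ u y : PadicAlgCl p, u ∈ F → u ≠ 0 → y ∈ F ⊔ LV → y ^ p = u →
          ∃ a x : PadicAlgCl p, a ∈ F ∧ a ≠ 0 ∧ x ∈ F ∧ ‖x‖ ≤ 1 ∧ u = a ^ p * (1 + p * x)

variable {p} {k : Type} [Field k] [Finite k] [CharP k p]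
  (F : IntermediateField ℚ_[p] (PadicAlgCl p)) [FiniteDimensional ℚ_[p] F] [Normal ℚ_[p] F]

/-! ### Auxiliaries -/

omit [Finite k] in
/-- `p` kills `k × k` -/
theorem nsmul_prod_eq_zero (t : k × k) : p • t = 0 := by
  ext
  · rw [Prod.smul_fst, nsmul_eq_mul, CharP.cast_eq_zero, zero_mul, Prod.fst_zero]
  · rw [Prod.smul_snd, nsmul_eq_mul, CharP.cast_eq_zero, zero_mul, Prod.snd_zero]

omit [Finite k] in
/-- `p` kills `k² × k²` -/
theorem nsmul_prodVec_eq_zero (t : (Fin 2 → k) × (Fin 2 → k)) : p • t = 0 := by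
  ext i
  · rw [Prod.smul_fst, Pi.smul_apply, nsmul_eq_mul, CharP.cast_eq_zero, zero_mul, Prod.fst_zero,
      Pi.zero_apply]
  · rw [Prod.smul_snd, Pi.smul_apply, nsmul_eq_mul, CharP.cast_eq_zero, zero_mul, Prod.snd_zero,
      Pi.zero_apply]

omit [Finite k] in
/-- `ZMod p`-linear functionals on `k` separate points. -/
theorem eq_zero_of_forall_dual (x : k)
    (h : letI := ZMod.algebra k p
      ∀ ψ : k →ₗ[ZMod p] ZMod p, ψ x = 0) : x = 0 := by
  letI := ZMod.algebra k p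
  exact (Module.forall_dual_apply_eq_zero_iff (ZMod p) x).1 h

omit [Finite k] in
/-- an element acting trivially through `actE` has `χ' = χ'' = 1` and `f = 0` -/
theorem of_actE_eq (χ' χ'' f : LocGal p → k) {σ : LocGal p}
    (h : ∀ t : k × k, actE χ' χ'' f σ t = t) : χ' σ = 1 ∧ χ'' σ = 1 ∧ f σ = 0 := by
  have h1 := h (1, 0)
  have h2 := h (0, 1)
  rw [actE_apply] at h1 h2
  simp only [mul_one, mul_zero, zero_add, add_zero, Prod.mk.injEq] at h1 h2
  refine ⟨h1.1, h2.2, ?_⟩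
  have h3 := h1.2
  rw [h1.1, mul_one] at h3
  exact h3

omit [Finite k] in
/-- an element acting trivially through `actV` has `rb = 1` and `c = 0` -/
theorem of_actV_eq (rb : LocGal p →* GL (Fin 2) k) (c : LocGal p → Matrix (Fin 2) (Fin 2) k)
    {σ : LocGal p} (h : ∀ t : (Fin 2 → k) × (Fin 2 → k), actV rb c σ t = t) :
    (rb σ : Matrix (Fin 2) (Fin 2) k) = 1 ∧ c σ = 0 := by
  have h1 : ∀ v : Fin 2 → k, (rb σ : Matrix (Fin 2) (Fin 2) k) *ᵥ v = v := fun v => by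
    have := h (v, 0)
    rw [actV_apply] at this
    exact (Prod.mk.inj this).1
  have h2 : ∀ v : Fin 2 → k, c σ *ᵥ v = 0 := fun v => by
    have := h (v, 0)
    rw [actV_apply] at this
    have h3 := (Prod.mk.inj this).2
    rw [h1 v, Matrix.mulVec_zero, zero_add] at h3
    exact h3
  refine ⟨?_, ?_⟩
  · refine Matrix.toLin'.injective (LinearMap.ext fun v => ?_)
    rw [Matrix.toLin'_apply, h1 v, Matrix.toLin'_one, LinearMap.id_apply]
  · refine Matrix.toLin'.injective (LinearMap.ext fun v => ?_)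
    rw [Matrix.toLin'_apply, h2 v, map_zero, LinearMap.zero_apply]

/-- (FB-E) -/
theorem eq_zero_of_isLocFlat_actE {ζ π : PadicAlgCl p} (hζ : IsPrimitiveRoot ζ p) (hζF : ζ ∈ F)
    (hπ : IsUnif p F π) {e : ℕ} (he : ‖π‖ ^ e = (p : ℝ)⁻¹) (hKL : KummerLevelPrinciple p ζ)
    (χ' χ'' f : LocGal p → k) (hχ' : ∀ σ ∈ F.fixingSubgroup, χ' σ = 1)
    (hχ'' : ∀ σ ∈ F.fixingSubgroup, χ'' σ = 1)
    (hf : ∀ g h, f (g * h) * χ' g = χ'' g * f h + f g * χ' g)
    (hflat : IsLocFlat p (actE χ' χ'' f)) {σ : LocGal p} (hσ : σ ∈ Gam p F ζ π hζ hζF e) :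
    f σ = 0 := by
  obtain ⟨LV, hLVfin, hLVfix, hLVkl⟩ := hKL (actE χ' χ'' f) hflat nsmul_prod_eq_zero
  have := hLVfin
  have hfadd : ∀ g ∈ F.fixingSubgroup, ∀ h ∈ F.fixingSubgroup, f (g * h) = f g + f h := by
    intro g hg h _
    have h1 := hf g h
    rw [hχ' g hg, hχ'' g hg, mul_one, one_mul, mul_one] at h1
    rw [h1, add_comm]
  refine eq_zero_of_forall_dual (p := p) (f σ) ?_
  letI := ZMod.algebra k p
  intro ψ
  refine FBCore.eq_zero_of_mem_Gam p F hζ hζF hπ he LV (hLVkl F inferInstance hζF)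
    (fun τ => ψ (f τ)) (fun g hg h hh => ?_) (fun τ _ hτ => ?_) hσ
  · rw [hfadd g hg h hh, map_add]
  · rw [(of_actE_eq χ' χ'' f (hLVfix τ hτ)).2.2, map_zero]

/-- (FB-V) -/
theorem eq_zero_of_isLocFlat_actV {ζ π : PadicAlgCl p} (hζ : IsPrimitiveRoot ζ p) (hζF : ζ ∈ F)
    (hπ : IsUnif p F π) {e : ℕ} (he : ‖π‖ ^ e = (p : ℝ)⁻¹) (hKL : KummerLevelPrinciple p ζ)
    (rb : LocGal p →* GL (Fin 2) k) (hrb : ∀ σ ∈ F.fixingSubgroup, rb σ = 1)
    (c : LocGal p → Matrix (Fin 2) (Fin 2) k)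
    (hc : ∀ g h, c (g * h) = (rb g : Matrix (Fin 2) (Fin 2) k) * c h *
      (((rb g)⁻¹ : GL (Fin 2) k) : Matrix (Fin 2) (Fin 2) k) + c g)
    (hflat : IsLocFlat p (actV rb c)) {σ : LocGal p} (hσ : σ ∈ Gam p F ζ π hζ hζF e) :
    c σ = 0 := by
  obtain ⟨LV, hLVfin, hLVfix, hLVkl⟩ := hKL (actV rb c) hflat nsmul_prodVec_eq_zero
  have := hLVfin
  have hcadd : ∀ g ∈ F.fixingSubgroup, ∀ h ∈ F.fixingSubgroup, c (g * h) = c g + c h := by
    intro g hg h _
    rw [hc g h, hrb g hg, inv_one, Units.val_one, Matrix.one_mul, Matrix.mul_one, add_comm]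
  ext i j
  rw [Matrix.zero_apply]
  refine eq_zero_of_forall_dual (p := p) (c σ i j) ?_
  letI := ZMod.algebra k p
  intro ψ
  refine FBCore.eq_zero_of_mem_Gam p F hζ hζF hπ he LV (hLVkl F inferInstance hζF)
    (fun τ => ψ (c τ i j)) (fun g hg h hh => ?_) (fun τ _ hτ => ?_) hσ
  · rw [hcadd g hg h hh, Matrix.add_apply, map_add]
  · rw [(of_actV_eq rb c (hLVfix τ hτ)).2, Matrix.zero_apply, map_zero]

/-- (FB-LV) the trivialising field, for the choice of `F` in Case A. -/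
theorem exists_field_of_isLocFlat_actE {ζ : PadicAlgCl p} (hKL : KummerLevelPrinciple p ζ)
    (χ' χ'' f : LocGal p → k) (hflat : IsLocFlat p (actE χ' χ'' f)) :
    ∃ LV : IntermediateField ℚ_[p] (PadicAlgCl p), FiniteDimensional ℚ_[p] LV ∧
      ∀ σ ∈ LV.fixingSubgroup, χ' σ = 1 ∧ χ'' σ = 1 := by
  obtain ⟨LV, hLVfin, hLVfix, -⟩ := hKL (actE χ' χ'' f) hflat nsmul_prod_eq_zero
  exact ⟨LV, hLVfin, fun σ hσ =>
    ⟨(of_actE_eq χ' χ'' f (hLVfix σ hσ)).1, (of_actE_eq χ' χ'' f (hLVfix σ hσ)).2.1⟩⟩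

end Fermat.Agent.S56.Flat.FB
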