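/-
PROJECT T (S56), block (a3) Flat, file KummerInj: the Kummer symbol of an algebraically closed
field `Ω` with a primitive `p`-th root of unity `ζ`, as a `ZMod p`-valued function

  `kumZ p ζ σ u`  =  the `j` with `σ y = ζ ^ j * y` for one (any) `y` with `y ^ p = u`,

defined for all automorphisms `σ` and all `u` (junk value `0` when no such `j` exists), together
with its bi-additivity, its vanishing on `p`-th powers of fixed elements, and its behaviour under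
conjugation.  Abstract field theory, Mathlib only.
-/
import Mathlib

set_option autoImplicit false
set_option linter.unusedSectionVars false

namespace Fermat.Agent.S56.Flat.KummerInj

/-! ### Powers of a primitive root indexed by `ZMod p` -/

section Zp

variable {Ω : Type*} [Field Ω] {p : ℕ} [Fact p.Prime]

/-- `ζ ^ i` for `i : ZMod p`. -/
def zp (ζ : Ω) (i : ZMod p) : Ω := ζ ^ i.val

variable {ζ : Ω} (hζ : IsPrimitiveRoot ζ p)

include hζ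

theorem pow_mod (m : ℕ) : ζ ^ (m % p) = ζ ^ m := by
  conv_rhs => rw [← Nat.mod_add_div m p]
  rw [pow_add, pow_mul, hζ.pow_eq_one, one_pow, mul_one]

theorem zp_natCast (n : ℕ) : zp ζ (n : ZMod p) = ζ ^ n := by
  rw [zp, ZMod.val_natCast, pow_mod hζ]

theorem zp_add (i j : ZMod p) : zp ζ (i + j) = zp ζ i * zp ζ j := by
  rw [zp, zp, zp, ZMod.val_add, pow_mod hζ, pow_add]

theorem zp_mul (i j : ZMod p) : zp ζ (i * j) = zp ζ j ^ i.val := by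
  rw [zp, zp, ZMod.val_mul, pow_mod hζ, ← pow_mul, mul_comm]

omit hζ in
theorem zp_zero : zp ζ (0 : ZMod p) = 1 := by
  rw [zp, ZMod.val_zero, pow_zero]

theorem zp_pow (i : ZMod p) : zp ζ i ^ p = 1 := by
  rw [zp, ← pow_mul, mul_comm, pow_mul, hζ.pow_eq_one, one_pow]

theorem zp_ne_zero (i : ZMod p) : zp ζ i ≠ 0 := by
  intro h
  have := zp_pow hζ i
  rw [h, zero_pow (Fact.out : p.Prime).ne_zero] at this
  exact zero_ne_one this

theorem zp_injective : Function.Injective (zp (p := p) ζ) := by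
  intro i j h
  exact ZMod.val_injective p (hζ.pow_inj (ZMod.val_lt i) (ZMod.val_lt j) h)

theorem exists_zp_eq {x : Ω} (hx : x ^ p = 1) : ∃ i : ZMod p, x = zp ζ i := by
  obtain ⟨i, -, hi⟩ := hζ.eq_pow_of_pow_eq_one hx
  exact ⟨(i : ZMod p), by rw [zp_natCast hζ, hi]⟩

theorem zp_neg_mul (i : ZMod p) : zp ζ (-i) * zp ζ i = 1 := by
  rw [← zp_add hζ, neg_add_cancel, zp_zero]

/-- Two `p`-th roots of the same non-zero element differ by a power of `ζ`. -/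
theorem exists_zp_mul_eq {y z : Ω} (hy : y ≠ 0) (h : z ^ p = y ^ p) : ∃ i : ZMod p, z = zp ζ i * y := by
  obtain ⟨i, hi⟩ := exists_zp_eq hζ (x := z / y) (by rw [div_pow, h, div_self (pow_ne_zero p hy)])
  exact ⟨i, by rw [← hi, div_mul_cancel₀ _ hy]⟩

end Zp

/-! ### The Kummer symbol -/

section Kummer

variable {K Ω : Type*} [Field K] [Field Ω] [Algebra K Ω] [IsAlgClosed Ω] {p : ℕ} [Fact p.Prime]

/-- A chosen `p`-th root. -/
noncomputable def rt (p : ℕ) [Fact p.Prime] (u : Ω) : Ω :=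
  (IsAlgClosed.exists_pow_nat_eq u (Fact.out : p.Prime).pos).choose

theorem rt_pow (u : Ω) : rt p u ^ p = u :=
  (IsAlgClosed.exists_pow_nat_eq u (Fact.out : p.Prime).pos).choose_spec

theorem rt_ne_zero {u : Ω} (hu : u ≠ 0) : rt p u ≠ 0 := by
  intro h
  have := rt_pow (p := p) u
  rw [h, zero_pow (Fact.out : p.Prime).ne_zero] at this
  exact hu this.symm

open Classical in
/-- The Kummer symbol `⟨σ, u⟩ ∈ ZMod p`. -/
noncomputable def kumZ (p : ℕ) [Fact p.Prime] (ζ : Ω) (σ : Ω ≃ₐ[K] Ω) (u : Ω) : ZMod p :=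
  if h : ∃ j : ZMod p, σ (rt p u) = zp ζ j * rt p u then h.choose else 0

variable {ζ : Ω} (hζ : IsPrimitiveRoot ζ p)

include hζ

theorem map_zp {σ : Ω ≃ₐ[K] Ω} (hσζ : σ ζ = ζ) (i : ZMod p) : σ (zp ζ i) = zp ζ i := by
  rw [zp, map_pow, hσζ]

/-- Characterisation of the symbol by ANY `p`-th root. -/
theorem kumZ_eq {σ : Ω ≃ₐ[K] Ω} (hσζ : σ ζ = ζ) {u y : Ω} (hu : u ≠ 0) (hy : y ^ p = u)
    {j : ZMod p} (h : σ y = zp ζ j * y) : kumZ p ζ σ u = j := by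
  have hy0 : y ≠ 0 := by
    intro h0
    rw [h0, zero_pow (Fact.out : p.Prime).ne_zero] at hy
    exact hu hy.symm
  obtain ⟨i, hi⟩ := exists_zp_mul_eq hζ hy0 (z := rt p u) (by rw [rt_pow, hy])
  have hex : ∃ j : ZMod p, σ (rt p u) = zp ζ j * rt p u := by
    refine ⟨j, ?_⟩
    rw [hi, map_mul, map_zp hζ hσζ, h]
    ring
  rw [kumZ, dif_pos hex]
  have h1 := hex.choose_spec
  have h2 : σ (rt p u) = zp ζ j * rt p u := by
    rw [hi, map_mul, map_zp hζ hσζ, h]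
    ring
  exact zp_injective hζ (mul_right_cancel₀ (rt_ne_zero hu) (h1.symm.trans h2))

/-- The symbol computes the action on every `p`-th root, for `σ` fixing `ζ` and `u`. -/
theorem map_root {σ : Ω ≃ₐ[K] Ω} (hσζ : σ ζ = ζ) {u y : Ω} (hσu : σ u = u) (hu : u ≠ 0)
    (hy : y ^ p = u) : σ y = zp ζ (kumZ p ζ σ u) * y := by
  have hy0 : y ≠ 0 := by
    intro h0
    rw [h0, zero_pow (Fact.out : p.Prime).ne_zero] at hy
    exact hu hy.symm
  obtain ⟨i, hi⟩ := exists_zp_mul_eq hζ hy0 (z := σ y) (by rw [← map_pow, hy, hσu])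
  rw [kumZ_eq hζ hσζ hu hy hi, hi]

theorem kumZ_eq_zero_iff {σ : Ω ≃ₐ[K] Ω} (hσζ : σ ζ = ζ) {u y : Ω} (hσu : σ u = u) (hu : u ≠ 0)
    (hy : y ^ p = u) : kumZ p ζ σ u = 0 ↔ σ y = y := by
  constructor
  · intro h
    rw [map_root hζ hσζ hσu hu hy, h, zp_zero, one_mul]
  · intro h
    exact kumZ_eq hζ hσζ hu hy (by rw [zp_zero, one_mul, h])

theorem kumZ_mul_right {σ : Ω ≃ₐ[K] Ω} (hσζ : σ ζ = ζ) {u v : Ω} (hσu : σ u = u) (hσv : σ v = v)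
    (hu : u ≠ 0) (hv : v ≠ 0) : kumZ p ζ σ (u * v) = kumZ p ζ σ u + kumZ p ζ σ v := by
  have h1 := map_root hζ hσζ hσu hu (rt_pow (p := p) u)
  have h2 := map_root hζ hσζ hσv hv (rt_pow (p := p) v)
  refine kumZ_eq hζ hσζ (mul_ne_zero hu hv) (y := rt p u * rt p v) (by rw [mul_pow, rt_pow, rt_pow]) ?_
  rw [map_mul, h1, h2, zp_add hζ]
  ring

theorem kumZ_mul_left {σ τ : Ω ≃ₐ[K] Ω} (hσζ : σ ζ = ζ) (hτζ : τ ζ = ζ) {u : Ω} (hσu : σ u = u)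
    (hτu : τ u = u) (hu : u ≠ 0) : kumZ p ζ (σ * τ) u = kumZ p ζ σ u + kumZ p ζ τ u := by
  have h1 := map_root hζ hσζ hσu hu (rt_pow (p := p) u)
  have h2 := map_root hζ hτζ hτu hu (rt_pow (p := p) u)
  refine kumZ_eq hζ (by rw [AlgEquiv.mul_apply, hτζ, hσζ]) hu (rt_pow (p := p) u) ?_
  rw [AlgEquiv.mul_apply, h2, map_mul, map_zp hζ hσζ, h1, zp_add hζ]
  ring

theorem kumZ_one_left {u : Ω} (hu : u ≠ 0) : kumZ p ζ (1 : Ω ≃ₐ[K] Ω) u = 0 :=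
  kumZ_eq hζ (by simp) hu (rt_pow (p := p) u) (by rw [zp_zero, one_mul]; simp)

theorem kumZ_pow_self {σ : Ω ≃ₐ[K] Ω} (hσζ : σ ζ = ζ) {w : Ω} (hσw : σ w = w) (hw : w ≠ 0) :
    kumZ p ζ σ (w ^ p) = 0 :=
  kumZ_eq hζ hσζ (pow_ne_zero p hw) rfl (by rw [zp_zero, one_mul, hσw])

theorem kumZ_one_right {σ : Ω ≃ₐ[K] Ω} (hσζ : σ ζ = ζ) : kumZ p ζ σ (1 : Ω) = 0 :=
  kumZ_eq hζ hσζ one_ne_zero (one_pow p) (by rw [zp_zero, one_mul, map_one])

theorem kumZ_inv_left {σ : Ω ≃ₐ[K] Ω} (hσζ : σ ζ = ζ) {u : Ω} (hσu : σ u = u) (hu : u ≠ 0) :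
    kumZ p ζ σ⁻¹ u = - kumZ p ζ σ u := by
  have h1 : σ⁻¹ ζ = ζ := by
    have : σ⁻¹ (σ ζ) = ζ := by
      rw [← AlgEquiv.mul_apply, inv_mul_cancel, AlgEquiv.one_apply]
    rwa [hσζ] at this
  have h2 : σ⁻¹ u = u := by
    have : σ⁻¹ (σ u) = u := by
      rw [← AlgEquiv.mul_apply, inv_mul_cancel, AlgEquiv.one_apply]
    rwa [hσu] at this
  have h := kumZ_mul_left hζ h1 hσζ h2 hσu hu
  rw [inv_mul_cancel, kumZ_one_left hζ hu] at h
  exact eq_neg_of_add_eq_zero_left h.symm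

theorem kumZ_inv_right {σ : Ω ≃ₐ[K] Ω} (hσζ : σ ζ = ζ) {u : Ω} (hσu : σ u = u) (hu : u ≠ 0) :
    kumZ p ζ σ u⁻¹ = - kumZ p ζ σ u := by
  have h2 : σ u⁻¹ = u⁻¹ := by rw [map_inv₀, hσu]
  have h := kumZ_mul_right hζ hσζ hσu h2 hu (inv_ne_zero hu)
  rw [mul_inv_cancel₀ hu, kumZ_one_right hζ hσζ] at h
  exact eq_neg_of_add_eq_zero_right h.symm

/-- An automorphism fixing `ζ`, conjugated, still fixes `ζ`. -/
theorem conj_fix (g : Ω ≃ₐ[K] Ω) {σ : Ω ≃ₐ[K] Ω} (hσζ : σ ζ = ζ) : (g * σ * g⁻¹) ζ = ζ := by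
  have h1 : (g⁻¹ ζ) ^ p = 1 := by rw [← map_pow, hζ.pow_eq_one, map_one]
  obtain ⟨i, hi⟩ := exists_zp_eq hζ h1
  rw [AlgEquiv.mul_apply, AlgEquiv.mul_apply, hi, map_zp hζ hσζ, ← hi, ← AlgEquiv.mul_apply,
    mul_inv_cancel, AlgEquiv.one_apply]

/-- Conjugation: `⟨g σ g⁻¹, g u⟩ = ω ⟨σ, u⟩` when `g ζ = ζ ^ ω`. -/
theorem kumZ_conj (g : Ω ≃ₐ[K] Ω) {ω : ZMod p} (hg : g ζ = zp ζ ω) {σ : Ω ≃ₐ[K] Ω}
    (hσζ : σ ζ = ζ) {u : Ω} (hσu : σ u = u) (hu : u ≠ 0) :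
    kumZ p ζ (g * σ * g⁻¹) (g u) = ω * kumZ p ζ σ u := by
  have h1 := map_root hζ hσζ hσu hu (rt_pow (p := p) u)
  have hgu : g u ≠ 0 := by
    rw [Ne, map_eq_zero_iff g g.injective]
    exact hu
  refine kumZ_eq hζ (conj_fix hζ g hσζ) hgu (y := g (rt p u)) (by rw [← map_pow, rt_pow]) ?_
  rw [AlgEquiv.mul_apply, AlgEquiv.mul_apply, ← AlgEquiv.mul_apply g⁻¹ g, inv_mul_cancel,
    AlgEquiv.one_apply, h1, map_mul]
  congr 1
  rw [zp, map_pow, hg, ← zp_mul hζ, mul_comm]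

end Kummer

end Fermat.Agent.S56.Flat.KummerInj
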