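/-
PROJECT T (S56), block (a3) Flat, file ResField: the residue field of a finite subextension
`F` of `Ω = PadicAlgCl p` over `ℚ_[p]`, with the reduction map written as a TOTAL function
`res : Ω → kF` (junk value `0` outside the integers of `F`), so that all later statements are
about elements of `Ω` and the ambient norm.
-/
import Mathlib
import Fermat.Agent.CFT.Local.PadicAlgCl

set_option autoImplicit false
set_option linter.unusedSectionVars false

noncomputable section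

namespace Fermat.Agent.S56.Flat.ResField

open Fermat.Agent.CFT.Local.Model Fermat.Agent.CFT.Local.PadicAlgClLocal
  Fermat.Agent.CFT.LocalBridge

variable (p : ℕ) [Fact p.Prime]

local notation "Ω" => PadicAlgCl p

variable (F : IntermediateField ℚ_[p] (PadicAlgCl p)) [FiniteDimensional ℚ_[p] F]

/-- The residue field of `F`. -/
abbrev kF : Type := IsLocalRing.ResidueField ↥(𝒪 p ↥F)

/-- The `ZMod p`-algebra structure of the residue field (scoped instance). -/
@[instance_reducible]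
def algKF : Algebra (ZMod p) (kF p F) := ZMod.algebra _ p

scoped[Fermat.Agent.S56.Flat.ResField] attribute [instance] Fermat.Agent.S56.Flat.ResField.algKF

/-- An integral element of `F`, as an element of the valuation ring of `F`. -/
def toInt (x : Ω) (hx : x ∈ F) (h1 : ‖x‖ ≤ 1) : ↥(𝒪 p ↥F) :=
  ⟨⟨x, hx⟩, by rw [mem_𝒪_iff, nrm_eq_norm]; exact h1⟩

@[simp] theorem coe_toInt (x : Ω) (hx : x ∈ F) (h1 : ‖x‖ ≤ 1) :
    (((toInt p F x hx h1 : ↥(𝒪 p ↥F)) : ↥F) : Ω) = x := rfl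

open Classical in
/-- The reduction map, as a total function on `Ω`. -/
def res (x : Ω) : kF p F :=
  if h : x ∈ F ∧ ‖x‖ ≤ 1 then IsLocalRing.residue _ (toInt p F x h.1 h.2) else 0

variable {p F}

theorem res_eq {x : Ω} (hx : x ∈ F) (h1 : ‖x‖ ≤ 1) :
    res p F x = IsLocalRing.residue _ (toInt p F x hx h1) := by
  rw [res, dif_pos ⟨hx, h1⟩]

theorem norm_add_le_one {x y : Ω} (hx : ‖x‖ ≤ 1) (hy : ‖y‖ ≤ 1) : ‖x + y‖ ≤ 1 :=
  (IsUltrametricDist.norm_add_le_max x y).trans (max_le hx hy)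

theorem norm_mul_le_one {x y : Ω} (hx : ‖x‖ ≤ 1) (hy : ‖y‖ ≤ 1) : ‖x * y‖ ≤ 1 := by
  rw [norm_mul]
  exact mul_le_one₀ hx (norm_nonneg y) hy

theorem res_add {x y : Ω} (hx : x ∈ F) (hx1 : ‖x‖ ≤ 1) (hy : y ∈ F) (hy1 : ‖y‖ ≤ 1) :
    res p F (x + y) = res p F x + res p F y := by
  rw [res_eq hx hx1, res_eq hy hy1, res_eq (add_mem hx hy) (norm_add_le_one hx1 hy1), ← map_add]
  rfl

theorem res_mul {x y : Ω} (hx : x ∈ F) (hx1 : ‖x‖ ≤ 1) (hy : y ∈ F) (hy1 : ‖y‖ ≤ 1) :
    res p F (x * y) = res p F x * res p F y := by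
  rw [res_eq hx hx1, res_eq hy hy1, res_eq (mul_mem hx hy) (norm_mul_le_one hx1 hy1), ← map_mul]
  rfl

theorem res_one : res p F (1 : Ω) = 1 := by
  rw [res_eq (one_mem F) (by rw [norm_one]), ← map_one (IsLocalRing.residue ↥(𝒪 p ↥F))]
  rfl

theorem res_zero : res p F (0 : Ω) = 0 := by
  rw [res_eq (zero_mem F) (by rw [norm_zero]; exact zero_le_one),
    ← map_zero (IsLocalRing.residue ↥(𝒪 p ↥F))]
  rfl

theorem res_eq_zero_iff {x : Ω} (hx : x ∈ F) (h1 : ‖x‖ ≤ 1) : res p F x = 0 ↔ ‖x‖ < 1 := by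
  rw [res_eq hx h1, IsLocalRing.residue_eq_zero_iff, mem_maximalIdeal_iff, nrm_eq_norm]
  rfl

theorem res_neg {x : Ω} (hx : x ∈ F) (hx1 : ‖x‖ ≤ 1) : res p F (-x) = - res p F x := by
  have h := res_add (p := p) hx hx1 (neg_mem hx) (by rwa [norm_neg])
  rw [add_neg_cancel, res_zero] at h
  exact eq_neg_of_add_eq_zero_right h.symm

theorem res_sub {x y : Ω} (hx : x ∈ F) (hx1 : ‖x‖ ≤ 1) (hy : y ∈ F) (hy1 : ‖y‖ ≤ 1) :
    res p F (x - y) = res p F x - res p F y := by
  rw [sub_eq_add_neg, res_add hx hx1 (neg_mem hy) (by rwa [norm_neg]), res_neg hy hy1,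
    sub_eq_add_neg]

theorem res_eq_iff {x y : Ω} (hx : x ∈ F) (hx1 : ‖x‖ ≤ 1) (hy : y ∈ F) (hy1 : ‖y‖ ≤ 1) :
    res p F x = res p F y ↔ ‖x - y‖ < 1 := by
  rw [← sub_eq_zero, ← res_sub hx hx1 hy hy1,
    res_eq_zero_iff (sub_mem hx hy) (by
      rw [sub_eq_add_neg]; exact norm_add_le_one hx1 (by rwa [norm_neg]))]

theorem res_pow {x : Ω} (hx : x ∈ F) (hx1 : ‖x‖ ≤ 1) (n : ℕ) :
    res p F (x ^ n) = res p F x ^ n := by
  induction n with
  | zero => rw [pow_zero, pow_zero, res_one]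
  | succ n ih =>
    rw [pow_succ, pow_succ, res_mul (pow_mem hx n) (by
      rw [norm_pow]; exact pow_le_one₀ (norm_nonneg _) hx1) hx hx1, ih]

theorem res_surjective (y : kF p F) : ∃ x : Ω, x ∈ F ∧ ‖x‖ ≤ 1 ∧ res p F x = y := by
  obtain ⟨a, rfl⟩ := IsLocalRing.residue_surjective y
  have h1 : ‖((a : ↥F) : Ω)‖ ≤ 1 := by
    rw [← nrm_eq_norm]; exact a.2
  exact ⟨((a : ↥F) : Ω), (a : ↥F).2, h1, by rw [res_eq (a : ↥F).2 h1]; rfl⟩

variable (p F) in
/-- A chosen integral lift of a residue class. -/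
def lift (y : kF p F) : Ω := (res_surjective y).choose

theorem lift_mem (y : kF p F) : lift p F y ∈ F := (res_surjective y).choose_spec.1

theorem norm_lift_le (y : kF p F) : ‖lift p F y‖ ≤ 1 := (res_surjective y).choose_spec.2.1

@[simp] theorem res_lift (y : kF p F) : res p F (lift p F y) = y :=
  (res_surjective y).choose_spec.2.2

theorem res_natCast (n : ℕ) : res p F (n : Ω) = (n : kF p F) := by
  induction n with
  | zero => rw [Nat.cast_zero, Nat.cast_zero, res_zero]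
  | succ n ih =>
    have h1 : ‖(n : Ω)‖ ≤ 1 := IsUltrametricDist.norm_natCast_le_one Ω n
    rw [Nat.cast_succ, Nat.cast_succ, res_add (natCast_mem F n) h1 (one_mem F) (by rw [norm_one]), ih,
      res_one]

end Fermat.Agent.S56.Flat.ResField
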