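/-
PROJECT T (S56), block (a3) Flat, file Levels: the Kummer filtration of `Gal(Ω/F)` by the unit
levels of a finite normal extension `F` of `ℚ_[p]` containing `ζ_p`.

* `Ulev n`  : the non-zero elements `u` of `F` with `‖u - 1‖ ≤ ‖π‖ ^ n`;
* `Gam n`   : the subgroup of `Gal(Ω/F)` killing (for the Kummer symbol) all of `Ulev n`;
  increasing in `n`, normal in `LocGal p`, equal to `Gal(Ω/F)` for large `n`;
* `m n g`   : the action of `g` on `π ^ n O_F / π ^ (n+1) O_F ≅ kF` ;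
* `ρL n`    : the twisted contragredient action on `𝔏 = Hom(kF, ZMod p)`;
* `R n σ ∈ 𝔏`: `x̄ ↦ ⟨σ, 1 + π ^ n x⟩`, additive on `Gam (n+1)`, with kernel `Gam n`, equivariant.

These are exactly the inputs of `AbstractCount.card_cocycles_le`.
-/
import Mathlib
import Fermat.Agent.CFT.Local.PadicAlgCl
import Fermat.Agent.S56.Flat.KummerInj
import Fermat.Agent.S56.Flat.ResField
import Fermat.Agent.S56.Flat.Passage.NormFrame
import Fermat.Agent.S56.Flat.Passage.PthRootNear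

set_option autoImplicit false
set_option linter.unusedSectionVars false

noncomputable section

namespace Fermat.Agent.S56.Flat.Levels

open Fermat.Agent.CFT.Local.Model Fermat.Agent.CFT.Local.PadicAlgClLocal
  Fermat.Agent.CFT.LocalBridge Fermat.Agent.S56.Flat.KummerInj Fermat.Agent.S56.Flat.ResField
  Fermat.Agent.S56.Flat.Passage.NormFrame

open scoped Fermat.Agent.S56.Flat.ResField

variable (p : ℕ) [Fact p.Prime]

local notation "Ω" => PadicAlgCl p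

variable (F : IntermediateField ℚ_[p] (PadicAlgCl p))

/-! ### Generalities on `LocGal p` and a normal subfield -/

section Basic

variable {p F}

theorem map_mem [Normal ℚ_[p] F] (g : LocGal p) {x : Ω} (hx : x ∈ F) : g x ∈ F := by
  have h := AlgEquiv.restrictNormal_commutes g F ⟨x, hx⟩
  have h2 : g x = ((g.restrictNormal F ⟨x, hx⟩ : F) : Ω) := h.symm
  rw [h2]
  exact (g.restrictNormal F ⟨x, hx⟩).2

theorem inv_apply_apply (g : LocGal p) (x : Ω) : g⁻¹ (g x) = x := by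
  rw [← AlgEquiv.mul_apply, inv_mul_cancel, AlgEquiv.one_apply]

theorem apply_inv_apply (g : LocGal p) (x : Ω) : g (g⁻¹ x) = x := by
  rw [← AlgEquiv.mul_apply, mul_inv_cancel, AlgEquiv.one_apply]

theorem mem_fix_iff {σ : LocGal p} : σ ∈ F.fixingSubgroup ↔ ∀ x ∈ F, σ x = x :=
  IntermediateField.mem_fixingSubgroup_iff F σ

theorem conj_mem_fix [Normal ℚ_[p] F] (g : LocGal p) {σ : LocGal p} (hσ : σ ∈ F.fixingSubgroup) :
    g * σ * g⁻¹ ∈ F.fixingSubgroup := by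
  rw [mem_fix_iff] at hσ ⊢
  intro x hx
  rw [AlgEquiv.mul_apply, AlgEquiv.mul_apply, hσ _ (map_mem g⁻¹ hx), apply_inv_apply]

theorem normal_fix [Normal ℚ_[p] F] : (F.fixingSubgroup : Subgroup (LocGal p)).Normal :=
  ⟨fun _ hσ g => conj_mem_fix g hσ⟩

theorem norm_map (g : LocGal p) (x : Ω) : ‖g x‖ = ‖x‖ := norm_locGal_apply p g x

theorem norm_add_le (x y : Ω) : ‖x + y‖ ≤ max ‖x‖ ‖y‖ := IsUltrametricDist.norm_add_le_max x y

theorem norm_sub_le (x y : Ω) : ‖x - y‖ ≤ max ‖x‖ ‖y‖ := by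
  rw [sub_eq_add_neg]
  exact (norm_add_le x (-y)).trans (by rw [norm_neg])

/-- An element at distance `< 1` from `1` has norm `1`. -/
theorem norm_eq_one_of_sub_lt {u : Ω} (h : ‖u - 1‖ < 1) : ‖u‖ = 1 := by
  have h1 : u = (u - 1) + 1 := by ring
  rw [h1, IsUltrametricDist.norm_add_eq_max_of_norm_ne_norm (by rw [norm_one]; exact h.ne), norm_one]
  exact max_eq_right h.le

end Basic

/-! ### The cyclotomic character with values in `ZMod p` -/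

section Omega

variable {p}
variable {ζ : PadicAlgCl p} (hζ : IsPrimitiveRoot ζ p)

include hζ

theorem exists_omega (g : LocGal p) : ∃ ω : ZMod p, g ζ = zp ζ ω :=
  exists_zp_eq hζ (by rw [← map_pow, hζ.pow_eq_one, map_one])

/-- The mod `p` cyclotomic character, as a function to `ZMod p`. -/
def ωZ (g : LocGal p) : ZMod p := (exists_omega hζ g).choose

theorem ωZ_spec (g : LocGal p) : g ζ = zp ζ (ωZ hζ g) := (exists_omega hζ g).choose_spec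

theorem ωZ_eq_one {σ : LocGal p} (hσ : σ ζ = ζ) : ωZ hζ σ = 1 := by
  apply zp_injective hζ
  rw [← ωZ_spec hζ σ, hσ, zp, ZMod.val_one, pow_one]

theorem ωZ_one : ωZ hζ (1 : LocGal p) = 1 := ωZ_eq_one hζ (by simp)

theorem ωZ_mul (g h : LocGal p) : ωZ hζ (g * h) = ωZ hζ g * ωZ hζ h := by
  apply zp_injective hζ
  rw [← ωZ_spec hζ (g * h), AlgEquiv.mul_apply, ωZ_spec hζ h, zp, map_pow, ωZ_spec hζ g,
    mul_comm, zp_mul hζ]

theorem ωZ_mul_inv (g : LocGal p) : ωZ hζ g * ωZ hζ g⁻¹ = 1 := by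
  rw [← ωZ_mul, mul_inv_cancel, ωZ_one]

end Omega

/-! ### Unit levels and the Kummer filtration -/

section Filtration

variable (ζ π : PadicAlgCl p)

/-- The non-zero elements of `F` at distance `≤ ‖π‖ ^ n` from `1`. -/
def Ulev (n : ℕ) : Set (PadicAlgCl p) := {u | u ∈ F ∧ u ≠ 0 ∧ ‖u - 1‖ ≤ ‖π‖ ^ n}

variable {p F ζ π}

theorem Ulev_anti (hπ1 : ‖π‖ ≤ 1) {m n : ℕ} (h : m ≤ n) : Ulev p F π n ⊆ Ulev p F π m := by
  rintro u ⟨h1, h2, h3⟩
  exact ⟨h1, h2, h3.trans (pow_le_pow_of_le_one (norm_nonneg _) hπ1 h)⟩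

theorem map_mem_Ulev [Normal ℚ_[p] F] (g : LocGal p) {n : ℕ} {u : Ω} (hu : u ∈ Ulev p F π n) :
    g u ∈ Ulev p F π n := by
  obtain ⟨h1, h2, h3⟩ := hu
  refine ⟨map_mem g h1, ?_, ?_⟩
  · rw [Ne, map_eq_zero_iff g g.injective]; exact h2
  · have : g u - 1 = g (u - 1) := by rw [map_sub, map_one]
    rw [this, norm_map]
    exact h3

variable (p F ζ π) in
/-- The subgroup of `Gal(Ω/F)` killing the units of level `n` under the Kummer symbol. -/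
def Gam (hζ : IsPrimitiveRoot ζ p) (hζF : ζ ∈ F) (n : ℕ) : Subgroup (LocGal p) where
  carrier := {σ | σ ∈ F.fixingSubgroup ∧ ∀ u ∈ Ulev p F π n, kumZ p ζ σ u = 0}
  one_mem' := ⟨one_mem _, fun u hu => kumZ_one_left hζ hu.2.1⟩
  mul_mem' := by
    rintro σ τ ⟨hσ, hσ'⟩ ⟨hτ, hτ'⟩
    refine ⟨mul_mem hσ hτ, fun u hu => ?_⟩
    rw [mem_fix_iff] at hσ hτ
    rw [kumZ_mul_left hζ (hσ ζ hζF) (hτ ζ hζF) (hσ u hu.1) (hτ u hu.1) hu.2.1, hσ' u hu, hτ' u hu,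
      add_zero]
  inv_mem' := by
    rintro σ ⟨hσ, hσ'⟩
    refine ⟨inv_mem hσ, fun u hu => ?_⟩
    rw [mem_fix_iff] at hσ
    rw [kumZ_inv_left hζ (hσ ζ hζF) (hσ u hu.1) hu.2.1, hσ' u hu, neg_zero]

variable (hζ : IsPrimitiveRoot ζ p) (hζF : ζ ∈ F)

theorem mem_Gam {n : ℕ} {σ : LocGal p} :
    σ ∈ Gam p F ζ π hζ hζF n ↔
      σ ∈ F.fixingSubgroup ∧ ∀ u ∈ Ulev p F π n, kumZ p ζ σ u = 0 := Iff.rfl

theorem Gam_le_fix (n : ℕ) : Gam p F ζ π hζ hζF n ≤ F.fixingSubgroup := fun _ h => h.1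

theorem Gam_mono (hπ1 : ‖π‖ ≤ 1) {m n : ℕ} (h : m ≤ n) :
    Gam p F ζ π hζ hζF m ≤ Gam p F ζ π hζ hζF n :=
  fun _ hσ => ⟨hσ.1, fun u hu => hσ.2 u (Ulev_anti hπ1 h hu)⟩

theorem Gam_normal [Normal ℚ_[p] F] (n : ℕ) : (Gam p F ζ π hζ hζF n).Normal := by
  refine ⟨fun σ hσ g => ⟨conj_mem_fix g hσ.1, fun u hu => ?_⟩⟩
  have hσ1 := mem_fix_iff.1 hσ.1
  have hu' : g⁻¹ u ∈ Ulev p F π n := map_mem_Ulev g⁻¹ hu
  have h := kumZ_conj hζ g (ωZ_spec hζ g) (hσ1 ζ hζF) (hσ1 _ hu'.1) hu'.2.1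
  rw [apply_inv_apply] at h
  rw [h, hσ.2 _ hu', mul_zero]

/-- Above the level `p/(p-1)` every unit is a `p`-th power, so the filtration is exhausted. -/
theorem Gam_eq_fix [FiniteDimensional ℚ_[p] F] {n : ℕ}
    (hn : (‖π‖ ^ n) ^ (p - 1) < ((p : ℝ)⁻¹) ^ p) : Gam p F ζ π hζ hζF n = F.fixingSubgroup := by
  refine le_antisymm (Gam_le_fix hζ hζF n) fun σ hσ => ⟨hσ, fun u hu => ?_⟩
  have h1 : ‖u - 1‖ ^ (p - 1) < ((p : ℝ)⁻¹) ^ p :=
    lt_of_le_of_lt (pow_le_pow_left₀ (norm_nonneg _) hu.2.2 _) hn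
  obtain ⟨y, hyF, hy⟩ := Passage.PthRootNear.exists_pth_root_near_one p F hu.1 h1
  have hσ1 := mem_fix_iff.1 hσ
  have hy0 : y ≠ 0 := by
    rintro rfl
    rw [zero_pow (Fact.out : p.Prime).ne_zero] at hy
    exact hu.2.1 hy.symm
  rw [← hy]
  exact kumZ_pow_self hζ (hσ1 ζ hζF) (hσ1 y hyF) hy0

end Filtration

/-! ### The action on the graded pieces `π ^ n O_F / π ^ (n+1) O_F ≅ kF` -/

section Action

variable [FiniteDimensional ℚ_[p] F] [Normal ℚ_[p] F] (π : PadicAlgCl p)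

variable {p F} in
theorem IsUnif.ne_zero {π : PadicAlgCl p} (hπ : IsUnif p F π) : π ≠ 0 :=
  norm_pos_iff.mp hπ.2.1

variable {p F π} in
theorem twist_mem (hπ : IsUnif p F π) (g : LocGal p) (n : ℕ) {x : Ω} (hx : x ∈ F) :
    g (π ^ n * x) / π ^ n ∈ F :=
  div_mem (map_mem g (mul_mem (pow_mem hπ.1 n) hx)) (pow_mem hπ.1 n)

variable {p F π} in
theorem norm_twist (hπ : IsUnif p F π) (g : LocGal p) (n : ℕ) (x : Ω) :
    ‖g (π ^ n * x) / π ^ n‖ = ‖x‖ := by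
  rw [norm_div, norm_map, norm_mul, mul_div_assoc, mul_comm,
    div_mul_cancel₀ _ (norm_ne_zero_iff.mpr (pow_ne_zero n (IsUnif.ne_zero hπ)))]

/-- The action of `g` on `π ^ n O_F / π ^ (n+1) O_F`, transported to `kF` (as a function). -/
def mFun (n : ℕ) (g : LocGal p) (y : kF p F) : kF p F :=
  res p F (g (π ^ n * lift p F y) / π ^ n)

variable {p F π}

theorem mFun_res (hπ : IsUnif p F π) (n : ℕ) (g : LocGal p) {x : Ω} (hx : x ∈ F) (hx1 : ‖x‖ ≤ 1) :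
    mFun p F π n g (res p F x) = res p F (g (π ^ n * x) / π ^ n) := by
  set l := lift p F (res p F x) with hl
  have hlF : l ∈ F := lift_mem _
  have hl1 : ‖l‖ ≤ 1 := norm_lift_le _
  have hlx : ‖l - x‖ < 1 := (res_eq_iff hlF hl1 hx hx1).1 (res_lift _)
  rw [mFun, res_eq_iff (twist_mem hπ g n hlF) (by rw [norm_twist hπ]; exact hl1)
    (twist_mem hπ g n hx) (by rw [norm_twist hπ]; exact hx1)]
  have : g (π ^ n * l) / π ^ n - g (π ^ n * x) / π ^ n = g (π ^ n * (l - x)) / π ^ n := by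
    rw [mul_sub, map_sub, sub_div]
  rw [this, norm_twist hπ]
  exact hlx

theorem mFun_add (hπ : IsUnif p F π) (n : ℕ) (g : LocGal p) (y y' : kF p F) :
    mFun p F π n g (y + y') = mFun p F π n g y + mFun p F π n g y' := by
  have hl := lift_mem (p := p) (F := F) y
  have hl' := lift_mem (p := p) (F := F) y'
  have h1 := norm_lift_le (p := p) (F := F) y
  have h1' := norm_lift_le (p := p) (F := F) y'
  have h : y + y' = res p F (lift p F y + lift p F y') := by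
    rw [res_add hl h1 hl' h1', res_lift, res_lift]
  rw [h, mFun_res hπ n g (add_mem hl hl') (norm_add_le_one h1 h1'), mul_add, map_add, add_div,
    res_add (twist_mem hπ g n hl) (by rw [norm_twist hπ]; exact h1) (twist_mem hπ g n hl')
      (by rw [norm_twist hπ]; exact h1')]
  rfl

variable (p F π) in
/-- The action of `g` on the `n`-th graded piece, as a `ZMod p`-linear endomorphism of `kF`. -/
def m (hπ : IsUnif p F π) (n : ℕ) (g : LocGal p) : kF p F →ₗ[ZMod p] kF p F :=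
  (AddMonoidHom.mk' (mFun p F π n g) (mFun_add hπ n g)).toZModLinearMap p

theorem m_res (hπ : IsUnif p F π) (n : ℕ) (g : LocGal p) {x : Ω} (hx : x ∈ F) (hx1 : ‖x‖ ≤ 1) :
    m p F π hπ n g (res p F x) = res p F (g (π ^ n * x) / π ^ n) :=
  mFun_res hπ n g hx hx1

theorem m_mul (hπ : IsUnif p F π) (n : ℕ) (g h : LocGal p) :
    m p F π hπ n (g * h) = (m p F π hπ n g).comp (m p F π hπ n h) := by
  ext y
  obtain ⟨x, hx, hx1, rfl⟩ := res_surjective (p := p) (F := F) y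
  rw [LinearMap.comp_apply, m_res hπ n h hx hx1,
    m_res hπ n g (twist_mem hπ h n hx) (by rw [norm_twist hπ]; exact hx1), m_res hπ n (g * h) hx hx1,
    mul_div_cancel₀ _ (pow_ne_zero n (IsUnif.ne_zero hπ)), AlgEquiv.mul_apply]

theorem m_of_fix (hπ : IsUnif p F π) (n : ℕ) {σ : LocGal p} (hσ : σ ∈ F.fixingSubgroup) :
    m p F π hπ n σ = LinearMap.id := by
  ext y
  obtain ⟨x, hx, hx1, rfl⟩ := res_surjective (p := p) (F := F) y
  rw [m_res hπ n σ hx hx1, mem_fix_iff.1 hσ _ (mul_mem (pow_mem hπ.1 n) hx),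
    mul_div_cancel_left₀ _ (pow_ne_zero n (IsUnif.ne_zero hπ)), LinearMap.id_apply]

theorem m_one (hπ : IsUnif p F π) (n : ℕ) : m p F π hπ n (1 : LocGal p) = LinearMap.id :=
  m_of_fix hπ n (one_mem _)

/-- Semilinearity: `m n g (x y) = ḡ(x) · m n g (y)`, with `ḡ = m 0 g`. -/
theorem m_smul (hπ : IsUnif p F π) (n : ℕ) (g : LocGal p) (x y : kF p F) :
    m p F π hπ n g (x * y) = m p F π hπ 0 g x * m p F π hπ n g y := by
  obtain ⟨a, ha, ha1, rfl⟩ := res_surjective (p := p) (F := F) x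
  obtain ⟨b, hb, hb1, rfl⟩ := res_surjective (p := p) (F := F) y
  rw [← res_mul ha ha1 hb hb1, m_res hπ n g (mul_mem ha hb) (norm_mul_le_one ha1 hb1),
    m_res hπ 0 g ha ha1, m_res hπ n g hb hb1,
    ← res_mul (twist_mem hπ g 0 ha) (by rw [norm_twist hπ]; exact ha1) (twist_mem hπ g n hb)
      (by rw [norm_twist hπ]; exact hb1)]
  congr 1
  rw [pow_zero, one_mul, div_one, ← mul_div_assoc, ← map_mul]
  congr 2
  ring

/-- `ḡ = m 0 g` is multiplicative. -/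
theorem m_zero_mul (hπ : IsUnif p F π) (g : LocGal p) (x y : kF p F) :
    m p F π hπ 0 g (x * y) = m p F π hπ 0 g x * m p F π hπ 0 g y := m_smul hπ 0 g x y

theorem m_zero_one (hπ : IsUnif p F π) (g : LocGal p) : m p F π hπ 0 g 1 = 1 := by
  rw [← res_one, m_res hπ 0 g (one_mem F) (by rw [norm_one]), pow_zero, one_mul, div_one, map_one]

theorem m_apply_one (hπ : IsUnif p F π) (n : ℕ) (g : LocGal p) :
    m p F π hπ n g 1 = res p F ((g π / π) ^ n) := by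
  rw [← res_one, m_res hπ n g (one_mem F) (by rw [norm_one]), mul_one, map_pow, div_pow]

/-- The scalar by which `g` acts on `π`, reduced: `c̄(g) = res (g π / π)`. -/
theorem m_apply_one_eq_pow (hπ : IsUnif p F π) (n : ℕ) (g : LocGal p) :
    m p F π hπ n g 1 = (m p F π hπ 1 g 1) ^ n := by
  have hF : g π / π ∈ F := div_mem (map_mem g hπ.1) hπ.1
  have h1 : ‖g π / π‖ ≤ 1 := by
    rw [norm_div, norm_map, div_self (norm_ne_zero_iff.mpr (IsUnif.ne_zero hπ))]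
  rw [m_apply_one, m_apply_one, pow_one, res_pow hF h1]

end Action

/-! ### The twisted contragredient action on `𝔏 = Hom(kF, ZMod p)` -/

section Dual

variable [FiniteDimensional ℚ_[p] F] [Normal ℚ_[p] F]

/-- `𝔏`, the `ZMod p`-dual of the residue field. -/
abbrev LL : Type := kF p F →ₗ[ZMod p] ZMod p

variable {p F}
variable {ζ π : PadicAlgCl p}

variable (p F π) in
/-- The twisted contragredient action of `LocGal p` on `𝔏` at level `n`: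
`(g • ℓ)(y) = ω(g) ℓ(m n g⁻¹ y)`. -/
def ρL (hπ : IsUnif p F π) (hζ : IsPrimitiveRoot ζ p) (n : ℕ) :
    LocGal p →* (LL p F →ₗ[ZMod p] LL p F) where
  toFun g := ωZ hζ g • LinearMap.lcomp (ZMod p) (ZMod p) (m p F π hπ n g⁻¹)
  map_one' := by
    ext ℓ y
    rw [ωZ_one, inv_one, m_one, one_smul]
    rfl
  map_mul' g h := by
    ext ℓ y
    rw [ωZ_mul, mul_inv_rev, m_mul]
    simp only [LinearMap.smul_apply, LinearMap.lcomp_apply, LinearMap.comp_apply,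
      Module.End.mul_apply, smul_eq_mul]
    ring

theorem ρL_apply (hπ : IsUnif p F π) (hζ : IsPrimitiveRoot ζ p) (n : ℕ) (g : LocGal p)
    (ℓ : LL p F) (y : kF p F) :
    ρL p F π hπ hζ n g ℓ y = ωZ hζ g * ℓ (m p F π hπ n g⁻¹ y) := rfl

theorem ρL_of_fix (hπ : IsUnif p F π) (hζ : IsPrimitiveRoot ζ p) (hζF : ζ ∈ F) (n : ℕ)
    {σ : LocGal p} (hσ : σ ∈ F.fixingSubgroup) : ρL p F π hπ hζ n σ = 1 := by
  ext ℓ y
  rw [ρL_apply, ωZ_eq_one hζ (mem_fix_iff.1 hσ ζ hζF), m_of_fix hπ n (inv_mem hσ), one_mul]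
  rfl

end Dual

/-! ### The symbol maps `R n : Gam (n+1) → 𝔏` -/

section Symbol

variable [FiniteDimensional ℚ_[p] F] [Normal ℚ_[p] F]
variable {p F}
variable {ζ π : PadicAlgCl p}

/-- Discreteness: an element of `F` of norm `< 1` has norm `≤ ‖π‖`. -/
theorem IsUnif.le_of_lt_one (hπ : IsUnif p F π) {z : Ω} (hz : z ∈ F) (h : ‖z‖ < 1) :
    ‖z‖ ≤ ‖π‖ := by
  by_cases hz0 : z = 0
  · rw [hz0, norm_zero]; exact norm_nonneg _
  obtain ⟨k, hk⟩ := hπ.2.2.2 z hz hz0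
  rw [hk] at h ⊢
  have hk1 : 1 ≤ k := by
    by_contra hk0
    have hk0' : k ≤ 0 := by omega
    have : (1 : ℝ) ≤ ‖π‖ ^ k := by
      obtain ⟨j, rfl⟩ := Int.exists_eq_neg_ofNat hk0'
      rw [zpow_neg, zpow_natCast]
      exact (one_le_inv₀ (pow_pos hπ.2.1 j)).mpr (pow_le_one₀ hπ.2.1.le hπ.2.2.1.le)
    exact not_lt.mpr this h
  calc ‖π‖ ^ k ≤ ‖π‖ ^ (1 : ℤ) := zpow_le_zpow_right_of_le_one₀ hπ.2.1 hπ.2.2.1.le hk1
    _ = ‖π‖ := zpow_one _

theorem norm_pi_pow_mul_le (hπ : IsUnif p F π) (n : ℕ) {x : Ω} (hx1 : ‖x‖ ≤ 1) :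
    ‖π ^ n * x‖ ≤ ‖π‖ ^ n := by
  rw [norm_mul, norm_pow]
  exact mul_le_of_le_one_right (pow_nonneg (norm_nonneg _) n) hx1

theorem norm_pi_pow_lt_one (hπ : IsUnif p F π) {n : ℕ} (hn : 1 ≤ n) : ‖π‖ ^ n < 1 :=
  pow_lt_one₀ (norm_nonneg _) hπ.2.2.1 (by omega)

/-- `1 + π ^ n x` is a unit of level `n`. -/
theorem one_add_mem_Ulev (hπ : IsUnif p F π) {n : ℕ} (hn : 1 ≤ n) {x : Ω} (hx : x ∈ F)
    (hx1 : ‖x‖ ≤ 1) : 1 + π ^ n * x ∈ Ulev p F π n := by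
  have h1 : ‖(1 + π ^ n * x) - 1‖ ≤ ‖π‖ ^ n := by
    rw [add_sub_cancel_left]; exact norm_pi_pow_mul_le hπ n hx1
  refine ⟨add_mem (one_mem F) (mul_mem (pow_mem hπ.1 n) hx), ?_, h1⟩
  intro h0
  have := norm_eq_one_of_sub_lt (lt_of_le_of_lt h1 (norm_pi_pow_lt_one hπ hn))
  rw [h0, norm_zero] at this
  exact zero_ne_one this

/-- Every unit of level `n` is of the form `1 + π ^ n x`. -/
theorem exists_eq_one_add (hπ : IsUnif p F π) {n : ℕ} {u : Ω} (hu : u ∈ Ulev p F π n) :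
    ∃ x : Ω, x ∈ F ∧ ‖x‖ ≤ 1 ∧ u = 1 + π ^ n * x := by
  have hπn : π ^ n ≠ 0 := pow_ne_zero n (IsUnif.ne_zero hπ)
  refine ⟨(u - 1) / π ^ n, div_mem (sub_mem hu.1 (one_mem F)) (pow_mem hπ.1 n), ?_, ?_⟩
  · rw [norm_div, norm_pow]
    exact div_le_one_of_le₀ hu.2.2 (pow_nonneg (norm_nonneg _) n)
  · rw [mul_div_cancel₀ _ hπn]; ring

variable (hζ : IsPrimitiveRoot ζ p) (hζF : ζ ∈ F)

/-- The symbol of `σ ∈ Gam (n+1)` only depends on a unit modulo level `n + 1`. -/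
theorem kumZ_congr (hπ : IsUnif p F π) {n : ℕ} {σ : LocGal p}
    (hσ : σ ∈ Gam p F ζ π hζ hζF (n + 1)) {a a' : Ω} (ha : a ∈ F) (ha' : a' ∈ F) (ha1 : ‖a‖ = 1)
    (h : ‖a' - a‖ ≤ ‖π‖ ^ (n + 1)) : kumZ p ζ σ a' = kumZ p ζ σ a := by
  have ha0 : a ≠ 0 := by
    intro h0; rw [h0, norm_zero] at ha1; exact zero_ne_one ha1
  have hlt : ‖a' - a‖ < 1 := lt_of_le_of_lt h (norm_pi_pow_lt_one hπ (by omega))
  have ha'1 : ‖a'‖ = 1 := by
    have h1 : a' = (a' - a) + a := by ring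
    rw [h1, IsUltrametricDist.norm_add_eq_max_of_norm_ne_norm (by rw [ha1]; exact hlt.ne), ha1]
    exact max_eq_right hlt.le
  have ha'0 : a' ≠ 0 := by
    intro h0; rw [h0, norm_zero] at ha'1; exact zero_ne_one ha'1
  have hq : a' / a ∈ Ulev p F π (n + 1) := by
    refine ⟨div_mem ha' ha, div_ne_zero ha'0 ha0, ?_⟩
    have : a' / a - 1 = (a' - a) / a := by field_simp
    rw [this, norm_div, ha1, div_one]
    exact h
  have hσ1 := mem_fix_iff.1 hσ.1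
  have h2 := kumZ_mul_right hζ (hσ1 ζ hζF) (hσ1 a ha) (hσ1 _ hq.1) ha0 hq.2.1
  rw [mul_div_cancel₀ _ ha0] at h2
  rw [h2, hσ.2 _ hq, add_zero]

theorem kumZ_one_add_congr (hπ : IsUnif p F π) {n : ℕ} (hn : 1 ≤ n) {σ : LocGal p}
    (hσ : σ ∈ Gam p F ζ π hζ hζF (n + 1)) {x x' : Ω} (hx : x ∈ F) (hx1 : ‖x‖ ≤ 1)
    (hx' : x' ∈ F) (hx'1 : ‖x'‖ ≤ 1) (h : ‖x' - x‖ < 1) :
    kumZ p ζ σ (1 + π ^ n * x') = kumZ p ζ σ (1 + π ^ n * x) := by
  have hu := one_add_mem_Ulev hπ hn hx hx1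
  have hu' := one_add_mem_Ulev hπ hn hx' hx'1
  refine kumZ_congr hζ hζF hπ hσ hu.1 hu'.1
    (norm_eq_one_of_sub_lt (lt_of_le_of_lt hu.2.2 (norm_pi_pow_lt_one hπ hn))) ?_
  have : (1 + π ^ n * x') - (1 + π ^ n * x) = π ^ n * (x' - x) := by ring
  rw [this, norm_mul, norm_pow, pow_succ]
  exact mul_le_mul_of_nonneg_left (IsUnif.le_of_lt_one hπ (sub_mem hx' hx) h)
    (pow_nonneg (norm_nonneg _) n)

theorem kumZ_one_add_add (hπ : IsUnif p F π) {n : ℕ} (hn : 1 ≤ n) {σ : LocGal p}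
    (hσ : σ ∈ Gam p F ζ π hζ hζF (n + 1)) {x x' : Ω} (hx : x ∈ F) (hx1 : ‖x‖ ≤ 1)
    (hx' : x' ∈ F) (hx'1 : ‖x'‖ ≤ 1) :
    kumZ p ζ σ (1 + π ^ n * (x + x')) =
      kumZ p ζ σ (1 + π ^ n * x) + kumZ p ζ σ (1 + π ^ n * x') := by
  have hu := one_add_mem_Ulev hπ hn hx hx1
  have hu' := one_add_mem_Ulev hπ hn hx' hx'1
  have hs := one_add_mem_Ulev hπ hn (add_mem hx hx') (norm_add_le_one hx1 hx'1)
  have hσ1 := mem_fix_iff.1 hσ.1
  rw [← kumZ_mul_right hζ (hσ1 ζ hζF) (hσ1 _ hu.1) (hσ1 _ hu'.1) hu.2.1 hu'.2.1]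
  symm
  refine kumZ_congr hζ hζF hπ hσ hs.1 (mul_mem hu.1 hu'.1)
    (norm_eq_one_of_sub_lt (lt_of_le_of_lt hs.2.2 (norm_pi_pow_lt_one hπ hn))) ?_
  have : (1 + π ^ n * x) * (1 + π ^ n * x') - (1 + π ^ n * (x + x')) =
      π ^ (n + 1) * (π ^ (n - 1) * (x * x')) := by
    have : π ^ (n + 1) * π ^ (n - 1) = π ^ n * π ^ n := by
      rw [← pow_add, ← pow_add]; congr 1; omega
    rw [← mul_assoc, this]; ring
  rw [this]
  refine norm_pi_pow_mul_le hπ (n + 1) ?_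
  rw [norm_mul, norm_pow]
  exact mul_le_one₀ (pow_le_one₀ (norm_nonneg _) hπ.2.2.1.le) (norm_nonneg _)
    (norm_mul_le_one hx1 hx'1)

variable (p F ζ π) in
/-- The symbol function `y ↦ ⟨σ, 1 + π ^ n ỹ⟩`. -/
def Rfun (n : ℕ) (σ : LocGal p) (y : kF p F) : ZMod p := kumZ p ζ σ (1 + π ^ n * lift p F y)

theorem Rfun_res (hπ : IsUnif p F π) {n : ℕ} (hn : 1 ≤ n) {σ : LocGal p}
    (hσ : σ ∈ Gam p F ζ π hζ hζF (n + 1)) {x : Ω} (hx : x ∈ F) (hx1 : ‖x‖ ≤ 1) :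
    Rfun p F ζ π n σ (res p F x) = kumZ p ζ σ (1 + π ^ n * x) := by
  refine kumZ_one_add_congr hζ hζF hπ hn hσ hx hx1 (lift_mem _) (norm_lift_le _) ?_
  exact (res_eq_iff (lift_mem _) (norm_lift_le _) hx hx1).1 (res_lift _)

theorem Rfun_add (hπ : IsUnif p F π) {n : ℕ} (hn : 1 ≤ n) {σ : LocGal p}
    (hσ : σ ∈ Gam p F ζ π hζ hζF (n + 1)) (y y' : kF p F) :
    Rfun p F ζ π n σ (y + y') = Rfun p F ζ π n σ y + Rfun p F ζ π n σ y' := by
  have hl := lift_mem (p := p) (F := F) y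
  have hl' := lift_mem (p := p) (F := F) y'
  have h1 := norm_lift_le (p := p) (F := F) y
  have h1' := norm_lift_le (p := p) (F := F) y'
  have h : y + y' = res p F (lift p F y + lift p F y') := by
    rw [res_add hl h1 hl' h1', res_lift, res_lift]
  rw [h, Rfun_res hζ hζF hπ hn hσ (add_mem hl hl') (norm_add_le_one h1 h1'),
    kumZ_one_add_add hζ hζF hπ hn hσ hl h1 hl' h1']
  rfl

open Classical in
variable (p F ζ π) in
/-- The symbol map at level `n` (junk value `0` outside `Gam (n+1)` or for `n = 0`). -/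
def R (hπ : IsUnif p F π) (n : ℕ) (σ : LocGal p) : LL p F :=
  if h : 1 ≤ n ∧ σ ∈ Gam p F ζ π hζ hζF (n + 1) then
    (AddMonoidHom.mk' (Rfun p F ζ π n σ) (Rfun_add hζ hζF hπ h.1 h.2)).toZModLinearMap p
  else 0

theorem R_res (hπ : IsUnif p F π) {n : ℕ} (hn : 1 ≤ n) {σ : LocGal p}
    (hσ : σ ∈ Gam p F ζ π hζ hζF (n + 1)) {x : Ω} (hx : x ∈ F) (hx1 : ‖x‖ ≤ 1) :
    R p F ζ π hζ hζF hπ n σ (res p F x) = kumZ p ζ σ (1 + π ^ n * x) := by
  rw [R, dif_pos ⟨hn, hσ⟩]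
  exact Rfun_res hζ hζF hπ hn hσ hx hx1

theorem R_mul (hπ : IsUnif p F π) {n : ℕ} (hn : 1 ≤ n) {σ τ : LocGal p}
    (hσ : σ ∈ Gam p F ζ π hζ hζF (n + 1)) (hτ : τ ∈ Gam p F ζ π hζ hζF (n + 1)) :
    R p F ζ π hζ hζF hπ n (σ * τ) = R p F ζ π hζ hζF hπ n σ + R p F ζ π hζ hζF hπ n τ := by
  ext y
  obtain ⟨x, hx, hx1, rfl⟩ := res_surjective (p := p) (F := F) y
  have hu := one_add_mem_Ulev hπ hn hx hx1
  have hσ1 := mem_fix_iff.1 hσ.1
  have hτ1 := mem_fix_iff.1 hτ.1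
  rw [LinearMap.add_apply, R_res hζ hζF hπ hn (mul_mem hσ hτ) hx hx1, R_res hζ hζF hπ hn hσ hx hx1,
    R_res hζ hζF hπ hn hτ hx hx1,
    kumZ_mul_left hζ (hσ1 ζ hζF) (hτ1 ζ hζF) (hσ1 _ hu.1) (hτ1 _ hu.1) hu.2.1]

theorem mem_Gam_of_R_eq_zero (hπ : IsUnif p F π) {n : ℕ} (hn : 1 ≤ n) {σ : LocGal p}
    (hσ : σ ∈ Gam p F ζ π hζ hζF (n + 1)) (h : R p F ζ π hζ hζF hπ n σ = 0) :
    σ ∈ Gam p F ζ π hζ hζF n := by
  refine ⟨hσ.1, fun u hu => ?_⟩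
  obtain ⟨x, hx, hx1, rfl⟩ := exists_eq_one_add hπ hu
  rw [← R_res hζ hζF hπ hn hσ hx hx1, h, LinearMap.zero_apply]

theorem R_conj (hπ : IsUnif p F π) {n : ℕ} (hn : 1 ≤ n) (g : LocGal p) {σ : LocGal p}
    (hσ : σ ∈ Gam p F ζ π hζ hζF (n + 1)) :
    R p F ζ π hζ hζF hπ n (g * σ * g⁻¹) = ρL p F π hπ hζ n g (R p F ζ π hζ hζF hπ n σ) := by
  have hN := Gam_normal (π := π) hζ hζF (n + 1)
  have hconj : g * σ * g⁻¹ ∈ Gam p F ζ π hζ hζF (n + 1) := hN.conj_mem σ hσ g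
  ext y
  obtain ⟨x, hx, hx1, rfl⟩ := res_surjective (p := p) (F := F) y
  have hσ1 := mem_fix_iff.1 hσ.1
  rw [ρL_apply, R_res hζ hζF hπ hn hconj hx hx1, m_res hπ n g⁻¹ hx hx1,
    R_res hζ hζF hπ hn hσ (twist_mem hπ g⁻¹ n hx) (by rw [norm_twist hπ]; exact hx1)]
  have hu' := one_add_mem_Ulev hπ hn (twist_mem hπ g⁻¹ n hx)
    (by rw [norm_twist hπ]; exact hx1)
  have h := kumZ_conj hζ g (ωZ_spec hζ g) (hσ1 ζ hζF) (hσ1 _ hu'.1) hu'.2.1
  rw [← h]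
  congr 1
  rw [map_add, map_one, mul_div_cancel₀ _ (pow_ne_zero n (IsUnif.ne_zero hπ)), apply_inv_apply]

end Symbol

end Fermat.Agent.S56.Flat.Levels
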