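import Mathlib
import Fermat.Agent.S56.Flat.Levels
import Fermat.Agent.S56.Flat.Passage.Zeta

/-!
# PROJECT T (S56), block (a3) Flat, file CycloFrame: the cyclotomic frame of a finite normal
extension `F` of `ℚ_[p]` containing `ζ_p` (leaf (C1)-(C4) of helper27 #4155)

* `norm_zeta_sub_one_pow` (C1): `‖ζ - 1‖ ^ (p - 1) = p⁻¹`.
* `norm_map_div_sub_lt` (C2): `g (ζ - 1) / (ζ - 1) ≡ ω(g)` modulo the maximal ideal.
* `exists_ramIdx_eq_mul` (C3): `e = (p - 1) e'` with `‖ζ - 1‖ = ‖π‖ ^ e'`.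
* `res_pow_eq_omega` (C4): for `τ` inertial on `F`, `res (τ π / π) ^ e' = ω(τ)`.
-/

set_option autoImplicit false
set_option linter.unusedSectionVars false

noncomputable section

namespace Fermat.Agent.S56.Flat.CycloFrame

open Fermat.Agent.CFT.Local.Model Fermat.Agent.CFT.Local.PadicAlgClLocal
  Fermat.Agent.CFT.LocalBridge Fermat.Agent.S56.Flat.KummerInj Fermat.Agent.S56.Flat.ResField
  Fermat.Agent.S56.Flat.Passage.NormFrame Fermat.Agent.S56.Flat.Levels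

open scoped Fermat.Agent.S56.Flat.ResField

variable {p : ℕ} [Fact p.Prime]

local notation "Ω" => PadicAlgCl p

/-! ### `ζ - 1` -/

section Zeta

variable {ζ : PadicAlgCl p} (hζ : IsPrimitiveRoot ζ p)

include hζ

/-- (C1) -/
theorem norm_zeta_sub_one_pow : ‖ζ - 1‖ ^ (p - 1) = (p : ℝ)⁻¹ :=
  Fermat.Agent.S56.Flat.Passage.Zeta.norm_sub_one_pow (Fact.out : p.Prime) (norm_p p)
    hζ.pow_eq_one (hζ.ne_one (Fact.out : p.Prime).one_lt)

theorem norm_zeta_sub_one_lt : ‖ζ - 1‖ < 1 := by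
  have hp1 : (1 : ℝ) < p := by exact_mod_cast (Fact.out : p.Prime).one_lt
  have h := norm_zeta_sub_one_pow hζ
  by_contra hcon
  push Not at hcon
  have h1 : (1 : ℝ) ≤ ‖ζ - 1‖ ^ (p - 1) := one_le_pow₀ hcon
  rw [h] at h1
  exact absurd h1 (not_le.mpr (inv_lt_one_of_one_lt₀ hp1))

theorem zeta_sub_one_ne_zero : ζ - 1 ≠ 0 :=
  sub_ne_zero.mpr (hζ.ne_one (Fact.out : p.Prime).one_lt)

theorem norm_zeta : ‖ζ‖ = 1 := by
  have h1 : ‖ζ‖ ^ p = 1 := by rw [← norm_pow, hζ.pow_eq_one, norm_one]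
  exact (pow_eq_one_iff_of_nonneg (norm_nonneg _) (Fact.out : p.Prime).ne_zero).mp h1

theorem norm_zeta_pow_sub_one_le (i : ℕ) : ‖ζ ^ i - 1‖ ≤ ‖ζ - 1‖ := by
  have h : ζ ^ i - 1 = (∑ k ∈ Finset.range i, ζ ^ k) * (ζ - 1) := (geom_sum_mul ζ i).symm
  rw [h, norm_mul]
  have hs : ‖∑ k ∈ Finset.range i, ζ ^ k‖ ≤ 1 := by
    refine IsUltrametricDist.norm_sum_le_of_forall_le_of_nonneg zero_le_one fun k _ => ?_
    rw [norm_pow, norm_zeta hζ, one_pow]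
  calc ‖∑ k ∈ Finset.range i, ζ ^ k‖ * ‖ζ - 1‖ ≤ 1 * ‖ζ - 1‖ :=
        mul_le_mul_of_nonneg_right hs (norm_nonneg _)
    _ = ‖ζ - 1‖ := one_mul _

/-- (C2) -/
theorem norm_map_div_sub_lt (g : LocGal p) :
    ‖g (ζ - 1) / (ζ - 1) - ((ωZ hζ g).val : Ω)‖ < 1 := by
  set a := (ωZ hζ g).val with ha
  have hg : g ζ = ζ ^ a := ωZ_spec hζ g
  have h0 := zeta_sub_one_ne_zero hζ
  have h1 : g (ζ - 1) / (ζ - 1) = ∑ k ∈ Finset.range a, ζ ^ k := by
    rw [map_sub, map_one, hg, ← geom_sum_mul ζ a, mul_div_assoc, div_self h0, mul_one]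
  have h2 : (∑ k ∈ Finset.range a, ζ ^ k) - (a : Ω) = ∑ k ∈ Finset.range a, (ζ ^ k - 1) := by
    rw [Finset.sum_sub_distrib, Finset.sum_const, Finset.card_range, nsmul_eq_mul, mul_one]
  rw [h1, h2]
  refine lt_of_le_of_lt ?_ (norm_zeta_sub_one_lt hζ)
  exact IsUltrametricDist.norm_sum_le_of_forall_le_of_nonneg (norm_nonneg _)
    fun k _ => norm_zeta_pow_sub_one_le hζ k

end Zeta

/-! ### The ramification index and the tame character -/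

section Ram

variable {F : IntermediateField ℚ_[p] (PadicAlgCl p)} {ζ π : PadicAlgCl p}

/-- (C3) -/
theorem exists_ramIdx_eq_mul (hζ : IsPrimitiveRoot ζ p) (hζF : ζ ∈ F) (hπ : IsUnif p F π)
    {e : ℕ} (he : ‖π‖ ^ e = (p : ℝ)⁻¹) :
    ∃ e' : ℕ, e = (p - 1) * e' ∧ ‖ζ - 1‖ = ‖π‖ ^ e' := by
  obtain ⟨-, hπ0, hπ1, hval⟩ := hπ
  have hmem : ζ - 1 ∈ F := sub_mem hζF (one_mem F)
  obtain ⟨k, hk⟩ := hval (ζ - 1) hmem (zeta_sub_one_ne_zero hζ)
  have h1 := norm_zeta_sub_one_pow hζ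
  rw [hk, ← he, ← zpow_natCast, ← zpow_natCast, ← zpow_mul] at h1
  have h2 : k * ((p - 1 : ℕ) : ℤ) = (e : ℤ) := zpow_right_injective₀ hπ0 hπ1.ne h1
  have hp1 : 0 < p - 1 := Nat.sub_pos_of_lt (Fact.out : p.Prime).one_lt
  have hk0 : 0 ≤ k := by
    by_contra hneg
    push Not at hneg
    have : k * ((p - 1 : ℕ) : ℤ) < 0 := mul_neg_of_neg_of_pos hneg (by exact_mod_cast hp1)
    omega
  refine ⟨k.toNat, ?_, ?_⟩
  · have h3 : ((k.toNat : ℕ) : ℤ) = k := Int.toNat_of_nonneg hk0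
    have h4 : ((e : ℕ) : ℤ) = (((p - 1) * k.toNat : ℕ) : ℤ) := by
      rw [Nat.cast_mul, h3, ← h2, mul_comm]
    exact_mod_cast h4
  · rw [hk, ← zpow_natCast, Int.toNat_of_nonneg hk0]

variable [FiniteDimensional ℚ_[p] F] [Normal ℚ_[p] F]

/-- (C4) -/
theorem res_pow_eq_omega (hζ : IsPrimitiveRoot ζ p) (hζF : ζ ∈ F) (hπ : IsUnif p F π)
    {e' : ℕ} (he' : ‖ζ - 1‖ = ‖π‖ ^ e') {τ : LocGal p}
    (hτ : ∀ x ∈ F, ‖x‖ ≤ 1 → ‖τ x - x‖ < 1) :
    res p F (τ π / π) ^ e' = algebraMap (ZMod p) (kF p F) (ωZ hζ τ) := by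
  have hπF : π ∈ F := hπ.1
  have hπ0 : π ≠ 0 := norm_pos_iff.mp hπ.2.1
  have hz0 := zeta_sub_one_ne_zero hζ
  have hzF : ζ - 1 ∈ F := sub_mem hζF (one_mem F)
  -- the unit `v`
  set v : Ω := (ζ - 1) / π ^ e' with hv
  have hvF : v ∈ F := div_mem hzF (pow_mem hπF e')
  have hvn : ‖v‖ = 1 := by
    rw [hv, norm_div, norm_pow, he', div_self (pow_ne_zero e' (norm_pos_iff.mpr hπ0).ne')]
  have hv0 : v ≠ 0 := norm_pos_iff.mp (by rw [hvn]; exact zero_lt_one)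
  have hzv : ζ - 1 = π ^ e' * v := by
    rw [hv, mul_div_cancel₀ _ (pow_ne_zero e' hπ0)]
  -- the two quotients
  set q : Ω := τ π / π with hq
  have hqF : q ∈ F := div_mem (map_mem τ hπF) hπF
  have hqn : ‖q‖ = 1 := by
    rw [hq, norm_div, Levels.norm_map, div_self (norm_pos_iff.mpr hπ0).ne']
  set w : Ω := τ v / v with hw
  have hwF : w ∈ F := div_mem (map_mem τ hvF) hvF
  have hwn : ‖w‖ = 1 := by rw [hw, norm_div, Levels.norm_map, hvn, div_one]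
  have hw1 : ‖w - 1‖ < 1 := by
    have : w - 1 = (τ v - v) / v := by rw [hw, sub_div, div_self hv0]
    rw [this, norm_div, hvn, div_one]
    exact hτ v hvF hvn.le
  have hresw : res p F w = 1 := by
    rw [← res_one (p := p) (F := F)]
    exact (res_eq_iff hwF hwn.le (one_mem F) (by rw [norm_one])).2 hw1
  -- the identity `τ (ζ - 1) / (ζ - 1) = q ^ e' * w`
  have hid : τ (ζ - 1) / (ζ - 1) = q ^ e' * w := by
    rw [hzv, map_mul, map_pow, hq, hw, div_pow]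
    field_simp
  -- reduce
  have hqe : ‖q ^ e'‖ ≤ 1 := by rw [norm_pow, hqn, one_pow]
  have h1 : res p F (τ (ζ - 1) / (ζ - 1)) = res p F q ^ e' := by
    rw [hid, res_mul (pow_mem hqF e') hqe hwF hwn.le, hresw, mul_one, res_pow hqF hqn.le]
  have hcast : ‖(((ωZ hζ τ).val : ℕ) : Ω)‖ ≤ 1 := IsUltrametricDist.norm_natCast_le_one Ω _
  have hlhsF : τ (ζ - 1) / (ζ - 1) ∈ F := div_mem (map_mem τ hzF) hzF
  have hlhsn : ‖τ (ζ - 1) / (ζ - 1)‖ ≤ 1 := by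
    rw [norm_div, Levels.norm_map, div_self (norm_pos_iff.mpr hz0).ne']
  have h2 : res p F (τ (ζ - 1) / (ζ - 1)) = res p F (((ωZ hζ τ).val : ℕ) : Ω) :=
    (res_eq_iff hlhsF hlhsn (natCast_mem F _) hcast).2 (norm_map_div_sub_lt hζ τ)
  rw [← h1, h2, res_natCast]
  change (((ωZ hζ τ).val : ℕ) : kF p F) = ZMod.cast (ωZ hζ τ)
  exact ZMod.natCast_val _

end Ram

end Fermat.Agent.S56.Flat.CycloFrame
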