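import Mathlib

/-!
# Abstract counting lemmas for the level count (project T, block (a3), leaf L-ABC)

Three statements, Mathlib only:

* `exists_equivariant_extension` : Maschke-type averaging over `G ⧸ K` (index prime to `p`):
  an equivariant linear map on a stable submodule extends to an equivariant linear map.
* `exists_eq_coboundary_of_vanish` : a cocycle vanishing on `K` is a coboundary.
* `card_cocycles_le` : the cocycles vanishing on the bottom of a filtration are counted by the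
  coboundaries and the equivariant homomorphisms out of the graded pieces.
-/

namespace Fermat.Agent.S56.Flat.AbstractCount

section CosetSum

variable {G : Type*} [Group G] (K : Subgroup G) [K.FiniteIndex]

/-- Sum of a function over a system of representatives of `G ⧸ K`. -/
noncomputable def cosetSum {M : Type*} [AddCommMonoid M] (f : G → M) : M :=
  haveI : Fintype (G ⧸ K) := @Fintype.ofFinite _ Subgroup.finite_quotient_of_finiteIndex
  ∑ q : G ⧸ K, f q.out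

theorem cosetSum_mul_left [K.Normal] {M : Type*} [AddCommMonoid M] (f : G → M)
    (hf : ∀ g, ∀ k ∈ K, f (g * k) = f g) (g₀ : G) :
    cosetSum K (fun x => f (g₀ * x)) = cosetSum K f := by
  classical
  unfold cosetSum
  let _ : Fintype (G ⧸ K) := @Fintype.ofFinite _ Subgroup.finite_quotient_of_finiteIndex
  have h1 : ∀ q : G ⧸ K, f (g₀ * q.out) = f (((g₀ : G ⧸ K) * q).out) := by
    intro q
    have hq : ((g₀ : G ⧸ K) * q) = ((g₀ * q.out : G) : G ⧸ K) := by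
      rw [QuotientGroup.mk_mul, QuotientGroup.out_eq']
    obtain ⟨k, hk⟩ := QuotientGroup.mk_out_eq_mul K (g₀ * q.out)
    rw [hq, hk, hf _ _ k.2]
  calc ∑ q : G ⧸ K, f (g₀ * q.out)
      = ∑ q : G ⧸ K, f (((g₀ : G ⧸ K) * q).out) := Finset.sum_congr rfl (fun q _ => h1 q)
    _ = ∑ q : G ⧸ K, f q.out :=
        Equiv.sum_comp (Equiv.mulLeft (g₀ : G ⧸ K)) (fun q => f q.out)

theorem cosetSum_const {M : Type*} [AddCommMonoid M] (m : M) :
    cosetSum K (fun _ : G => m) = K.index • m := by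
  classical
  unfold cosetSum
  let _ : Fintype (G ⧸ K) := @Fintype.ofFinite _ Subgroup.finite_quotient_of_finiteIndex
  rw [Finset.sum_const, Finset.card_univ, Subgroup.index_eq_card, Nat.card_eq_fintype_card]

theorem cosetSum_add {M : Type*} [AddCommMonoid M] (f₁ f₂ : G → M) :
    cosetSum K (fun x => f₁ x + f₂ x) = cosetSum K f₁ + cosetSum K f₂ := by
  classical
  unfold cosetSum
  exact Finset.sum_add_distrib

theorem map_cosetSum {M M' : Type*} [AddCommMonoid M] [AddCommMonoid M'] {F : Type*}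
    [FunLike F M M'] [AddMonoidHomClass F M M'] (φ : F) (f : G → M) :
    φ (cosetSum K f) = cosetSum K (fun x => φ (f x)) := by
  classical
  unfold cosetSum
  exact map_sum φ _ _

theorem cosetSum_apply {R : Type*} [Semiring R] {M M' : Type*} [AddCommMonoid M] [AddCommMonoid M']
    [Module R M] [Module R M'] (T : G → (M →ₗ[R] M')) (x : M) :
    (cosetSum K T) x = cosetSum K (fun g => T g x) := by
  classical
  unfold cosetSum
  exact LinearMap.sum_apply _ _ _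

end CosetSum

section Index

variable {p : ℕ} [Fact p.Prime]

theorem index_smul_inv_smul {G : Type*} [Group G] (K : Subgroup G) (hK : ¬ p ∣ K.index)
    {M : Type*} [AddCommGroup M] [Module (ZMod p) M] (m : M) :
    ((K.index : ZMod p))⁻¹ • (K.index • m) = m := by
  have hne : (K.index : ZMod p) ≠ 0 := by
    rw [Ne, ZMod.natCast_eq_zero_iff]
    exact hK
  rw [← Nat.cast_smul_eq_nsmul (ZMod p), smul_smul, inv_mul_cancel₀ hne, one_smul]

end Index

/-- **Maschke-type extension.** -/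
theorem exists_equivariant_extension {p : ℕ} [Fact p.Prime] {G : Type*} [Group G] (K : Subgroup G)
    [K.Normal] [K.FiniteIndex] (hK : ¬ p ∣ K.index) {L N : Type*} [AddCommGroup L]
    [Module (ZMod p) L] [AddCommGroup N] [Module (ZMod p) N] (ρL : G →* (L →ₗ[ZMod p] L))
    (ρN : G →* (N →ₗ[ZMod p] N)) (hKL : ∀ g ∈ K, ρL g = 1) (hKN : ∀ g ∈ K, ρN g = 1)
    (X : Submodule (ZMod p) L) (hX : ∀ g, ∀ x ∈ X, ρL g x ∈ X) (h : X →ₗ[ZMod p] N)
    (hh : ∀ g (x : X), h ⟨ρL g x, hX g x x.2⟩ = ρN g (h x)) :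
    ∃ H : L →ₗ[ZMod p] N, (∀ g x, H (ρL g x) = ρN g (H x)) ∧ ∀ x : X, H x = h x := by
  obtain ⟨H0, hH0⟩ := h.exists_extend
  have hH0' : ∀ x : X, H0 x = h x := fun x => by
    rw [← hH0]; rfl
  -- the conjugates of `H0`
  set T : G → (L →ₗ[ZMod p] N) := fun g => (ρN g).comp (H0.comp (ρL g⁻¹)) with hT
  have hTapp : ∀ g x, T g x = ρN g (H0 (ρL g⁻¹ x)) := fun g x => rfl
  have hLinv : ∀ g x, ρL g⁻¹ (ρL g x) = x := by
    intro g x
    have : ρL g⁻¹ * ρL g = 1 := by rw [← map_mul, inv_mul_cancel, map_one]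
    calc ρL g⁻¹ (ρL g x) = (ρL g⁻¹ * ρL g) x := rfl
      _ = x := by rw [this]; rfl
  have hNinv : ∀ g y, ρN g (ρN g⁻¹ y) = y := by
    intro g y
    have : ρN g * ρN g⁻¹ = 1 := by rw [← map_mul, mul_inv_cancel, map_one]
    calc ρN g (ρN g⁻¹ y) = (ρN g * ρN g⁻¹) y := rfl
      _ = y := by rw [this]; rfl
  -- right `K`-invariance
  have hTK : ∀ g, ∀ k ∈ K, T (g * k) = T g := by
    intro g k hk
    have h1 : ρN (g * k) = ρN g := by rw [map_mul, hKN k hk, mul_one]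
    have h2 : ρL (g * k)⁻¹ = ρL g⁻¹ := by
      rw [mul_inv_rev, map_mul, hKL k⁻¹ (K.inv_mem hk), one_mul]
    simp only [hT, h1, h2]
  -- the translation rule
  have hTmul : ∀ g a x, T (g * a) (ρL g x) = ρN g (T a x) := by
    intro g a x
    rw [hTapp, hTapp, mul_inv_rev, map_mul, map_mul]
    change ρN g (ρN a (H0 (ρL a⁻¹ (ρL g⁻¹ (ρL g x))))) = _
    rw [hLinv]
  -- on `X` every conjugate is `h`
  have hTX : ∀ g (x : X), T g x = h x := by
    intro g x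
    rw [hTapp]
    have hx' : ρL g⁻¹ x ∈ X := hX g⁻¹ x x.2
    have e1 : H0 (ρL g⁻¹ x) = h ⟨ρL g⁻¹ x, hx'⟩ := hH0' ⟨ρL g⁻¹ x, hx'⟩
    rw [e1, hh g⁻¹ x, hNinv]
  set S : L →ₗ[ZMod p] N := cosetSum K T with hS
  have hSeq : ∀ g x, S (ρL g x) = ρN g (S x) := by
    intro g x
    rw [hS, cosetSum_apply, cosetSum_apply, map_cosetSum]
    have hinv : ∀ u, ∀ k ∈ K, (fun a => T a (ρL g x)) (u * k) = (fun a => T a (ρL g x)) u := by
      intro u k hk
      change T (u * k) (ρL g x) = T u (ρL g x)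
      rw [hTK u k hk]
    rw [← cosetSum_mul_left K (fun a => T a (ρL g x)) hinv g]
    congr 1
    funext a
    exact hTmul g a x
  have hSX : ∀ x : X, S x = K.index • h x := by
    intro x
    rw [hS, cosetSum_apply]
    have : (fun g => T g (x : L)) = fun _ => h x := funext fun g => hTX g x
    rw [this, cosetSum_const]
  refine ⟨((K.index : ZMod p))⁻¹ • S, ?_, ?_⟩
  · intro g x
    rw [LinearMap.smul_apply, LinearMap.smul_apply, hSeq, map_smul]
  · intro x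
    rw [LinearMap.smul_apply, hSX, index_smul_inv_smul K hK]

/-- **A cocycle vanishing on a normal subgroup of index prime to `p` is a coboundary.** -/
theorem exists_eq_coboundary_of_vanish {p : ℕ} [Fact p.Prime] {G : Type*} [Group G]
    (K : Subgroup G) [K.Normal] [K.FiniteIndex] (hK : ¬ p ∣ K.index) {N : Type*} [AddCommGroup N]
    [Module (ZMod p) N] (ρ : G →* (N →ₗ[ZMod p] N)) (c : G → N)
    (hc : ∀ g h, c (g * h) = c g + ρ g (c h)) (hv : ∀ k ∈ K, c k = 0) :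
    ∃ n : N, ∀ g, c g = ρ g n - n := by
  have hcK : ∀ g, ∀ k ∈ K, c (g * k) = c g := by
    intro g k hk
    rw [hc, hv k hk, map_zero, add_zero]
  set s : N := cosetSum K c with hs
  have hkey : ∀ g, s = K.index • c g + ρ g s := by
    intro g
    have h1 : cosetSum K (fun x => c (g * x)) = s := cosetSum_mul_left K c hcK g
    have h2 : (fun x => c (g * x)) = fun x => (fun _ => c g) x + (fun x => ρ g (c x)) x :=
      funext fun x => hc g x
    rw [h2, cosetSum_add, cosetSum_const, ← map_cosetSum] at h1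
    exact h1.symm
  refine ⟨-(((K.index : ZMod p))⁻¹ • s), fun g => ?_⟩
  have h3 : K.index • c g = s - ρ g s := eq_sub_of_add_eq (hkey g).symm
  have h4 : c g = ((K.index : ZMod p))⁻¹ • (s - ρ g s) := by
    rw [← h3, index_smul_inv_smul K hK]
  rw [h4, map_neg, map_smul, smul_sub]
  abel


/-! ### A counting lemma: fibres injecting into a fixed finite type -/

theorem finite_card_le_of_fibre {A B C : Type*} [Finite B] [Finite C] (f : A → B)
    (hfib : ∀ a₀ : A, ∃ j : {a : A // f a = f a₀} → C, Function.Injective j) :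
    Finite A ∧ Nat.card A ≤ Nat.card B * Nat.card C := by
  have hfib' : ∀ b : B, ∃ j : {a : A // f a = b} → C, Function.Injective j := by
    intro b
    by_cases hne : ∃ a₀, f a₀ = b
    · obtain ⟨a₀, rfl⟩ := hne
      exact hfib a₀
    · exact ⟨fun x => (hne ⟨x.1, x.2⟩).elim, fun x => (hne ⟨x.1, x.2⟩).elim⟩
  choose j hj using hfib'
  have key : ∀ (b₁ b₂ : B) (_ : b₁ = b₂) (x₁ : {a : A // f a = b₁}) (x₂ : {a : A // f a = b₂}),
      j b₁ x₁ = j b₂ x₂ → x₁.1 = x₂.1 := by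
    intro b₁ b₂ hb x₁ x₂ hx
    subst hb
    exact congrArg Subtype.val (hj b₁ hx)
  have hinj : Function.Injective (fun a : A => ((f a, j (f a) ⟨a, rfl⟩) : B × C)) := by
    intro a₁ a₂ h12
    have h1 : f a₁ = f a₂ := congrArg Prod.fst h12
    have h2 : j (f a₁) ⟨a₁, rfl⟩ = j (f a₂) ⟨a₂, rfl⟩ := congrArg Prod.snd h12
    exact key _ _ h1 ⟨a₁, rfl⟩ ⟨a₂, rfl⟩ h2
  have hfin : Finite A := Finite.of_injective _ hinj
  refine ⟨hfin, ?_⟩
  calc Nat.card A ≤ Nat.card (B × C) := Nat.card_le_card_of_injective _ hinj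
    _ = Nat.card B * Nat.card C := Nat.card_prod B C

/-! ### Factoring through one graded piece -/

/-- A function on `G`, additive and conjugation-equivariant on `Γ₁` and vanishing on `Γ₀`,
factors through `R : Γ₁ → L` (additive, equivariant, kernel inside `Γ₀`) by an equivariant linear
map defined on all of `L`. -/
theorem exists_factor {p : ℕ} [Fact p.Prime] {G : Type*} [Group G] (K : Subgroup G) [K.Normal]
    [K.FiniteIndex] (hK : ¬ p ∣ K.index) {L N : Type*} [AddCommGroup L] [Module (ZMod p) L]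
    [AddCommGroup N] [Module (ZMod p) N] (ρL : G →* (L →ₗ[ZMod p] L))
    (ρN : G →* (N →ₗ[ZMod p] N)) (hKL : ∀ g ∈ K, ρL g = 1) (hKN : ∀ g ∈ K, ρN g = 1)
    (Γ₀ Γ₁ : Subgroup G) (hΓ₁ : Γ₁.Normal) (R : G → L)
    (hRadd : ∀ σ ∈ Γ₁, ∀ τ ∈ Γ₁, R (σ * τ) = R σ + R τ)
    (hRker : ∀ σ ∈ Γ₁, R σ = 0 → σ ∈ Γ₀)
    (hRconj : ∀ g, ∀ σ ∈ Γ₁, R (g * σ * g⁻¹) = ρL g (R σ))
    (d : G → N) (hdadd : ∀ σ ∈ Γ₁, ∀ τ ∈ Γ₁, d (σ * τ) = d σ + d τ)
    (hdconj : ∀ g, ∀ σ ∈ Γ₁, d (g * σ * g⁻¹) = ρN g (d σ))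
    (hd0 : ∀ σ ∈ Γ₀, d σ = 0) :
    ∃ H : L →ₗ[ZMod p] N, (∀ g x, H (ρL g x) = ρN g (H x)) ∧ ∀ σ ∈ Γ₁, H (R σ) = d σ := by
  have hR1 : R 1 = 0 := by
    have h := hRadd 1 Γ₁.one_mem 1 Γ₁.one_mem
    rw [mul_one] at h
    have h' : R 1 + R 1 = R 1 + 0 := by rw [add_zero]; exact h.symm
    exact add_left_cancel h'
  have hRinv : ∀ σ ∈ Γ₁, R σ⁻¹ = -R σ := by
    intro σ hσ
    have h := hRadd σ hσ σ⁻¹ (Γ₁.inv_mem hσ)
    rw [mul_inv_cancel, hR1] at h
    exact eq_neg_of_add_eq_zero_right h.symm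
  -- well-definedness
  have hwd : ∀ σ ∈ Γ₁, ∀ τ ∈ Γ₁, R σ = R τ → d σ = d τ := by
    intro σ hσ τ hτ hστ
    have hu : σ * τ⁻¹ ∈ Γ₁ := Γ₁.mul_mem hσ (Γ₁.inv_mem hτ)
    have hRu : R (σ * τ⁻¹) = 0 := by
      rw [hRadd σ hσ τ⁻¹ (Γ₁.inv_mem hτ), hRinv τ hτ, hστ, add_neg_cancel]
    have hdu : d (σ * τ⁻¹) = 0 := hd0 _ (hRker _ hu hRu)
    have h := hdadd (σ * τ⁻¹) hu τ hτ
    rw [inv_mul_cancel_right, hdu, zero_add] at h
    exact h
  -- the image of `Γ₁`, an additive subgroup hence a `ZMod p`-submodule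
  let X₀ : AddSubgroup L :=
    { carrier := {x | ∃ σ ∈ Γ₁, R σ = x}
      add_mem' := by
        rintro x y ⟨σ, hσ, rfl⟩ ⟨τ, hτ, rfl⟩
        exact ⟨σ * τ, Γ₁.mul_mem hσ hτ, hRadd σ hσ τ hτ⟩
      zero_mem' := ⟨1, Γ₁.one_mem, hR1⟩
      neg_mem' := by
        rintro x ⟨σ, hσ, rfl⟩
        exact ⟨σ⁻¹, Γ₁.inv_mem hσ, hRinv σ hσ⟩ }
  let X : Submodule (ZMod p) L := AddSubgroup.toZModSubmodule p X₀
  have hXmem : ∀ x : L, x ∈ X ↔ ∃ σ ∈ Γ₁, R σ = x := fun x =>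
    (AddSubgroup.mem_toZModSubmodule p).trans Iff.rfl
  have hRX : ∀ σ ∈ Γ₁, R σ ∈ X := fun σ hσ => (hXmem _).2 ⟨σ, hσ, rfl⟩
  have hX : ∀ g, ∀ x ∈ X, ρL g x ∈ X := by
    intro g x hx
    obtain ⟨σ, hσ, rfl⟩ := (hXmem x).1 hx
    exact (hXmem _).2 ⟨g * σ * g⁻¹, hΓ₁.conj_mem σ hσ g, hRconj g σ hσ⟩
  -- the map on `X`
  have hex : ∀ x : X, ∃ σ ∈ Γ₁, R σ = (x : L) := fun x => (hXmem x).1 x.2
  choose sec hsecmem hsec using hex
  have hdsec : ∀ σ (hσ : σ ∈ Γ₁), d (sec ⟨R σ, hRX σ hσ⟩) = d σ := fun σ hσ =>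
    hwd _ (hsecmem _) σ hσ (hsec ⟨R σ, hRX σ hσ⟩)
  let h₀ : X →+ N :=
    { toFun := fun x => d (sec x)
      map_zero' := by
        have h := hdsec 1 Γ₁.one_mem
        have h1 : d 1 = 0 := by
          have h := hdadd 1 Γ₁.one_mem 1 Γ₁.one_mem
          rw [mul_one] at h
          have h' : d 1 + d 1 = d 1 + 0 := by rw [add_zero]; exact h.symm
          exact add_left_cancel h'
        have e : (0 : X) = ⟨R 1, hRX 1 Γ₁.one_mem⟩ := Subtype.ext hR1.symm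
        change d (sec 0) = 0
        rw [e, h, h1]
      map_add' := by
        intro x y
        change d (sec (x + y)) = d (sec x) + d (sec y)
        have hxy : R (sec x * sec y) = ((x + y : X) : L) := by
          rw [hRadd _ (hsecmem x) _ (hsecmem y), hsec, hsec]; rfl
        have e : (x + y : X) = ⟨R (sec x * sec y), hRX _ (Γ₁.mul_mem (hsecmem x) (hsecmem y))⟩ :=
          Subtype.ext hxy.symm
        rw [e, hdsec _ (Γ₁.mul_mem (hsecmem x) (hsecmem y)), hdadd _ (hsecmem x) _ (hsecmem y)] }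
  let h : X →ₗ[ZMod p] N := AddMonoidHom.toZModLinearMap p h₀
  have hhR : ∀ σ (hσ : σ ∈ Γ₁), h ⟨R σ, hRX σ hσ⟩ = d σ := fun σ hσ => hdsec σ hσ
  have hh : ∀ g (x : X), h ⟨ρL g x, hX g x x.2⟩ = ρN g (h x) := by
    intro g x
    obtain ⟨σ, hσ, hx⟩ := (hXmem x).1 x.2
    have ex : x = ⟨R σ, hRX σ hσ⟩ := Subtype.ext hx.symm
    have hc : g * σ * g⁻¹ ∈ Γ₁ := hΓ₁.conj_mem σ hσ g
    have e2 : (⟨ρL g x, hX g x x.2⟩ : X) = ⟨R (g * σ * g⁻¹), hRX _ hc⟩ :=
      Subtype.ext (by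
        change ρL g (x : L) = R (g * σ * g⁻¹)
        rw [hRconj g σ hσ, hx])
    rw [e2, hhR _ hc, hdconj g σ hσ, ex, hhR σ hσ]
  obtain ⟨H, hHeq, hHX⟩ := exists_equivariant_extension K hK ρL ρN hKL hKN X hX h hh
  exact ⟨H, hHeq, fun σ hσ => (hHX ⟨R σ, hRX σ hσ⟩).trans (hhR σ hσ)⟩

/-! ### The filtration count -/

section Filtration

variable {p : ℕ} [Fact p.Prime] {G : Type*} [Group G] {N : Type*} [AddCommGroup N]
  [Module (ZMod p) N] (ρ : G →* (N →ₗ[ZMod p] N)) (a : ℕ) (Γ : ℕ → Subgroup G)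

/-- The functions of level `i`: additive and conjugation-equivariant on `Γ i`, zero on `Γ a` and
outside `Γ i`. -/
def Elev (i : ℕ) : Set (G → N) :=
  {h | (∀ σ ∈ Γ i, ∀ τ ∈ Γ i, h (σ * τ) = h σ + h τ) ∧
    (∀ g, ∀ σ ∈ Γ i, h (g * σ * g⁻¹) = ρ g (h σ)) ∧ (∀ σ ∈ Γ a, h σ = 0) ∧
    ∀ σ, σ ∉ Γ i → h σ = 0}

variable {ρ a Γ}

theorem Elev_add {i : ℕ} (h : Elev ρ a Γ i) :
    ∀ σ ∈ Γ i, ∀ τ ∈ Γ i, h.1 (σ * τ) = h.1 σ + h.1 τ := by
  obtain ⟨h1, -, -, -⟩ := h.2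
  exact h1

theorem Elev_conj {i : ℕ} (h : Elev ρ a Γ i) :
    ∀ g, ∀ σ ∈ Γ i, h.1 (g * σ * g⁻¹) = ρ g (h.1 σ) := by
  obtain ⟨-, h2, -, -⟩ := h.2
  exact h2

theorem Elev_bot {i : ℕ} (h : Elev ρ a Γ i) : ∀ σ ∈ Γ a, h.1 σ = 0 := by
  obtain ⟨-, -, h3, -⟩ := h.2
  exact h3

theorem Elev_out {i : ℕ} (h : Elev ρ a Γ i) : ∀ σ, σ ∉ Γ i → h.1 σ = 0 := by
  obtain ⟨-, -, -, h4⟩ := h.2
  exact h4

variable (ρ a Γ)

theorem subsingleton_Elev_bottom : Subsingleton (Elev ρ a Γ a) := by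
  refine ⟨fun h₁ h₂ => Subtype.ext (funext fun σ => ?_)⟩
  by_cases hσ : σ ∈ Γ a
  · rw [Elev_bot h₁ σ hσ, Elev_bot h₂ σ hσ]
  · rw [Elev_out h₁ σ hσ, Elev_out h₂ σ hσ]

open Classical in
/-- Restriction from level `i + 1` to level `i` (extended by zero). -/
noncomputable def resElev (i : ℕ) (hmono : Γ i ≤ Γ (i + 1)) (hnormal : (Γ i).Normal)
    (h : Elev ρ a Γ (i + 1)) : Elev ρ a Γ i :=
  ⟨fun σ => if σ ∈ Γ i then h.1 σ else 0, by
    refine ⟨?_, ?_, ?_, ?_⟩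
    · intro σ hσ τ hτ
      simp only [if_pos hσ, if_pos hτ, if_pos ((Γ i).mul_mem hσ hτ)]
      exact Elev_add h σ (hmono hσ) τ (hmono hτ)
    · intro g σ hσ
      simp only [if_pos hσ, if_pos (hnormal.conj_mem σ hσ g)]
      exact Elev_conj h g σ (hmono hσ)
    · intro σ hσ
      by_cases hσi : σ ∈ Γ i
      · simp only [if_pos hσi]
        exact Elev_bot h σ hσ
      · simp only [if_neg hσi]
    · intro σ hσ
      simp only [if_neg hσ]⟩

open Classical in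
theorem resElev_apply_of_mem (i : ℕ) (hmono : Γ i ≤ Γ (i + 1)) (hnormal : (Γ i).Normal)
    (h : Elev ρ a Γ (i + 1)) {σ : G} (hσ : σ ∈ Γ i) :
    (resElev ρ a Γ i hmono hnormal h).1 σ = h.1 σ := by
  change (if σ ∈ Γ i then h.1 σ else 0) = h.1 σ
  rw [if_pos hσ]

/-- One step of the filtration. -/
theorem step_Elev [Finite N] (GF : Subgroup G) [GF.Normal] [GF.FiniteIndex] (hGF : ¬ p ∣ GF.index)
    (hρ : ∀ g ∈ GF, ρ g = 1) (i : ℕ) (hmono : Γ i ≤ Γ (i + 1)) (hnormal : (Γ i).Normal)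
    (hnormal' : (Γ (i + 1)).Normal) {L : Type*} [AddCommGroup L] [Module (ZMod p) L] [Finite L]
    (ρL : G →* (L →ₗ[ZMod p] L)) (hρL : ∀ g ∈ GF, ρL g = 1) (R : G → L)
    (hRadd : ∀ σ ∈ Γ (i + 1), ∀ τ ∈ Γ (i + 1), R (σ * τ) = R σ + R τ)
    (hRker : ∀ σ ∈ Γ (i + 1), R σ = 0 → σ ∈ Γ i)
    (hRconj : ∀ g, ∀ σ ∈ Γ (i + 1), R (g * σ * g⁻¹) = ρL g (R σ))
    [Finite (Elev ρ a Γ i)] :
    Finite (Elev ρ a Γ (i + 1)) ∧
      Nat.card (Elev ρ a Γ (i + 1)) ≤ Nat.card (Elev ρ a Γ i) *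
        Nat.card {H : L →ₗ[ZMod p] N // ∀ g x, H (ρL g x) = ρ g (H x)} := by
  have hfinHom : Finite {H : L →ₗ[ZMod p] N // ∀ g x, H (ρL g x) = ρ g (H x)} :=
    Finite.of_injective (fun H => ((H.1 : L →ₗ[ZMod p] N) : L → N))
      (fun H H' hHH' => Subtype.ext (DFunLike.coe_injective hHH'))
  refine finite_card_le_of_fibre (resElev ρ a Γ i hmono hnormal) ?_
  intro h₀
  have hex : ∀ h : {h : Elev ρ a Γ (i + 1) //
      resElev ρ a Γ i hmono hnormal h = resElev ρ a Γ i hmono hnormal h₀},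
      ∃ H : {H : L →ₗ[ZMod p] N // ∀ g x, H (ρL g x) = ρ g (H x)},
        ∀ σ ∈ Γ (i + 1), H.1 (R σ) = h.1.1 σ - h₀.1 σ := by
    intro h
    have hd0 : ∀ σ ∈ Γ i, h.1.1 σ - h₀.1 σ = 0 := by
      intro σ hσ
      have e := congrArg (fun t : Elev ρ a Γ i => t.1 σ) h.2
      simp only [resElev_apply_of_mem ρ a Γ i hmono hnormal _ hσ] at e
      rw [e, sub_self]
    obtain ⟨H, hHeq, hHR⟩ := exists_factor GF hGF ρL ρ hρL hρ (Γ i) (Γ (i + 1)) hnormal' R
      hRadd hRker hRconj (fun σ => h.1.1 σ - h₀.1 σ)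
      (by
        intro σ hσ τ hτ
        rw [Elev_add h.1 σ hσ τ hτ, Elev_add h₀ σ hσ τ hτ]
        abel)
      (by
        intro g σ hσ
        rw [Elev_conj h.1 g σ hσ, Elev_conj h₀ g σ hσ, map_sub])
      hd0
    exact ⟨⟨H, hHeq⟩, hHR⟩
  choose j hj using hex
  refine ⟨j, ?_⟩
  intro h h' hjj
  apply Subtype.ext
  apply Subtype.ext
  funext σ
  by_cases hσ : σ ∈ Γ (i + 1)
  · have e1 := hj h σ hσ
    have e2 := hj h' σ hσ
    rw [hjj] at e1
    exact sub_left_injective (e1.symm.trans e2)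
  · rw [Elev_out h.1 σ hσ, Elev_out h'.1 σ hσ]

end Filtration

/-- **The filtration count.** -/
theorem card_cocycles_le {p : ℕ} [Fact p.Prime] {G : Type*} [Group G] (GF : Subgroup G)
    [GF.Normal] [GF.FiniteIndex] (hGF : ¬ p ∣ GF.index) {N : Type*} [AddCommGroup N]
    [Module (ZMod p) N] [Finite N] (ρ : G →* (N →ₗ[ZMod p] N)) (hρ : ∀ g ∈ GF, ρ g = 1)
    (a b : ℕ) (hab : a ≤ b) (Γ : ℕ → Subgroup G) (hΓmono : ∀ i, Γ i ≤ Γ (i + 1))
    (hΓnormal : ∀ i, (Γ i).Normal) (hΓb : Γ b = GF) (𝔏 : ℕ → Type) [∀ i, AddCommGroup (𝔏 i)]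
    [∀ i, Module (ZMod p) (𝔏 i)] [∀ i, Finite (𝔏 i)] (ρL : ∀ i, G →* (𝔏 i →ₗ[ZMod p] 𝔏 i))
    (hρL : ∀ i, ∀ g ∈ GF, ρL i g = 1) (R : ∀ i, G → 𝔏 i)
    (hRadd : ∀ i, a ≤ i → i < b → ∀ σ ∈ Γ (i + 1), ∀ τ ∈ Γ (i + 1),
      R i (σ * τ) = R i σ + R i τ)
    (hRker : ∀ i, a ≤ i → i < b → ∀ σ ∈ Γ (i + 1), R i σ = 0 → σ ∈ Γ i)
    (hRconj : ∀ i, a ≤ i → i < b → ∀ g, ∀ σ ∈ Γ (i + 1),
      R i (g * σ * g⁻¹) = ρL i g (R i σ)) :
    Finite {c : G → N // (∀ g h, c (g * h) = c g + ρ g (c h)) ∧ ∀ σ ∈ Γ a, c σ = 0} ∧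
      Nat.card {c : G → N // (∀ g h, c (g * h) = c g + ρ g (c h)) ∧ ∀ σ ∈ Γ a, c σ = 0} ≤
        Nat.card {c : G → N // ∃ n, ∀ g, c g = ρ g n - n} *
          ∏ i ∈ Finset.Ico a b,
            Nat.card {H : 𝔏 i →ₗ[ZMod p] N // ∀ g x, H (ρL i g x) = ρ g (H x)} := by
  classical
  -- the levels
  have hlev : ∀ i (hai : a ≤ i), i ≤ b → Finite (Elev ρ a Γ i) ∧
      Nat.card (Elev ρ a Γ i) ≤ ∏ k ∈ Finset.Ico a i,
        Nat.card {H : 𝔏 k →ₗ[ZMod p] N // ∀ g x, H (ρL k g x) = ρ g (H x)} := by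
    intro i hai
    induction i, hai using Nat.le_induction with
    | base =>
      intro _
      have hss : Subsingleton (Elev ρ a Γ a) := subsingleton_Elev_bottom ρ a Γ
      have hfin : Finite (Elev ρ a Γ a) := Finite.of_subsingleton
      refine ⟨hfin, ?_⟩
      rw [Finset.Ico_self, Finset.prod_empty]
      exact Finite.card_le_one_iff_subsingleton.2 hss
    | succ i hai ih =>
      intro hib
      have hib' : i < b := hib
      obtain ⟨hfin, hcard⟩ := ih hib'.le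
      obtain ⟨hfin', hcard'⟩ := step_Elev ρ a Γ GF hGF hρ i (hΓmono i) (hΓnormal i)
        (hΓnormal (i + 1)) (ρL i) (hρL i) (R i) (hRadd i hai hib') (hRker i hai hib')
        (hRconj i hai hib')
      refine ⟨hfin', ?_⟩
      rw [Finset.prod_Ico_succ_top hai]
      exact hcard'.trans (Nat.mul_le_mul_right _ hcard)
  obtain ⟨hfinE, hcardE⟩ := hlev b hab le_rfl
  -- the coboundaries are finite
  have hfinB : Finite {c : G → N // ∃ n, ∀ g, c g = ρ g n - n} :=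
    Finite.of_surjective
      (fun n : N => (⟨fun g => ρ g n - n, n, fun _ => rfl⟩ :
        {c : G → N // ∃ n, ∀ g, c g = ρ g n - n}))
      (by
        rintro ⟨c, n, hn⟩
        exact ⟨n, Subtype.ext (funext fun g => (hn g).symm)⟩)
  have hρb : ∀ g ∈ Γ b, ρ g = 1 := fun g hg => hρ g (hΓb ▸ hg)
  -- restriction of a cocycle to `Γ b`
  have hres : ∀ c : {c : G → N // (∀ g h, c (g * h) = c g + ρ g (c h)) ∧ ∀ σ ∈ Γ a, c σ = 0},
      (fun σ => if σ ∈ Γ b then c.1 σ else 0) ∈ Elev ρ a Γ b := by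
    rintro ⟨c, hc, hca⟩
    have hc1 : c 1 = 0 := by
      have h := hc 1 1
      rw [mul_one, map_one] at h
      have h' : c 1 + c 1 = c 1 + 0 := by rw [add_zero]; exact h.symm
      exact add_left_cancel h'
    refine ⟨?_, ?_, ?_, ?_⟩
    · intro σ hσ τ hτ
      simp only [if_pos hσ, if_pos hτ, if_pos ((Γ b).mul_mem hσ hτ)]
      rw [hc, hρb σ hσ]
      rfl
    · intro g σ hσ
      simp only [if_pos hσ, if_pos ((hΓnormal b).conj_mem σ hσ g)]
      have h0 : c g + ρ g (c g⁻¹) = 0 := by rw [← hc, mul_inv_cancel, hc1]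
      have h1 : c (g * σ * g⁻¹) = c g + ρ g (c σ) + ρ g (c g⁻¹) := by
        rw [hc (g * σ) g⁻¹, hc g σ, map_mul, hρb σ hσ, mul_one]
      rw [h1, add_right_comm, h0, zero_add]
    · intro σ hσ
      by_cases hσb : σ ∈ Γ b
      · simp only [if_pos hσb]
        exact hca σ hσ
      · simp only [if_neg hσb]
    · intro σ hσ
      simp only [if_neg hσ]
  obtain ⟨hfinZ, hcardZ⟩ := finite_card_le_of_fibre
    (A := {c : G → N // (∀ g h, c (g * h) = c g + ρ g (c h)) ∧ ∀ σ ∈ Γ a, c σ = 0})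
    (B := Elev ρ a Γ b) (C := {c : G → N // ∃ n, ∀ g, c g = ρ g n - n})
    (fun c => ⟨_, hres c⟩)
    (by
      intro c₀
      have hmem : ∀ c : {c : {c : G → N // (∀ g h, c (g * h) = c g + ρ g (c h)) ∧
          ∀ σ ∈ Γ a, c σ = 0} // (⟨_, hres c⟩ : Elev ρ a Γ b) = ⟨_, hres c₀⟩},
          ∃ n, ∀ g, (fun g => c.1.1 g - c₀.1 g) g = ρ g n - n := by
        intro c
        refine exists_eq_coboundary_of_vanish GF hGF ρ (fun g => c.1.1 g - c₀.1 g) ?_ ?_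
        · intro g h
          rw [c.1.2.1, c₀.2.1, map_sub]
          abel
        · intro k hk
          have hkb : k ∈ Γ b := hΓb ▸ hk
          have e := congrArg (fun t : Elev ρ a Γ b => t.1 k) c.2
          simp only [if_pos hkb] at e
          change c.1.1 k - c₀.1 k = 0
          rw [e, sub_self]
      refine ⟨fun c => ⟨fun g => c.1.1 g - c₀.1 g, hmem c⟩, ?_⟩
      intro c c' hcc'
      apply Subtype.ext
      apply Subtype.ext
      funext g
      have e := congrFun (congrArg Subtype.val hcc') g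
      exact sub_left_injective e)
  refine ⟨hfinZ, ?_⟩
  calc Nat.card {c : G → N // (∀ g h, c (g * h) = c g + ρ g (c h)) ∧ ∀ σ ∈ Γ a, c σ = 0}
      ≤ Nat.card (Elev ρ a Γ b) * Nat.card {c : G → N // ∃ n, ∀ g, c g = ρ g n - n} := hcardZ
    _ ≤ (∏ i ∈ Finset.Ico a b,
          Nat.card {H : 𝔏 i →ₗ[ZMod p] N // ∀ g x, H (ρL i g x) = ρ g (H x)}) *
          Nat.card {c : G → N // ∃ n, ∀ g, c g = ρ g n - n} := Nat.mul_le_mul_right _ hcardE
    _ = _ := Nat.mul_comm _ _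

end Fermat.Agent.S56.Flat.AbstractCount
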