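/-
PROJECT T (S56), block (a3) Flat, leaf `Descent` (helper27): the twisted-form count (LC4').

Let `𝔽` be a finite field of characteristic `p`, `N` a finite `𝔽_p`-vector space with two
endomorphisms `A`, `B`, and `a b : 𝔽`, `b ≠ 0`.  The `𝔽_p`-linear maps `Φ : 𝔽 → N` with
`Φ (a y) = A (Φ y)` and `Φ (b y ^ p) = B (Φ y)` (equivariance for a tame inertia generator and a
Frobenius lift acting semilinearly on `𝔽`) satisfy
`card {Φ} ^ deg (minpoly a) ≤ card (ker (minpoly a)(A))`.
Pure algebra, Mathlib only.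
-/
import Mathlib

set_option autoImplicit false
set_option linter.unusedSectionVars false

namespace Fermat.Agent.S56.Flat.Descent

open Polynomial

/-! ### A Frobenius-stable subspace of `𝔽 ^ r` contains a nonzero `𝔽_p`-rational vector -/

section FrobStable

variable (p : ℕ) [Fact p.Prime] {𝔽 : Type*} [Field 𝔽] {ι : Type*} [Fintype ι]

open scoped Classical in

/-- Auxiliary induction on the size of the support. -/
theorem exists_fixed_aux (K : Submodule 𝔽 (ι → 𝔽))
    (hK : ∀ v ∈ K, (fun i => v i ^ p) ∈ K) :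
    ∀ n : ℕ, ∀ v ∈ K, v ≠ 0 → (Finset.univ.filter fun i => v i ≠ 0).card ≤ n →
      ∃ w ∈ K, w ≠ 0 ∧ ∀ i, w i ^ p = w i := by
  intro n
  induction n with
  | zero =>
    intro v _ hv0 hcard
    exfalso
    apply hv0
    funext i
    show v i = 0
    by_contra hi
    have : i ∈ Finset.univ.filter fun i => v i ≠ 0 := by simp [hi]
    have hpos : 0 < (Finset.univ.filter fun i => v i ≠ 0).card := Finset.card_pos.mpr ⟨i, this⟩
    omega
  | succ n ih =>
    intro v hvK hv0 hcard
    obtain ⟨i₀, hi₀⟩ : ∃ i, v i ≠ 0 := by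
      by_contra h
      push Not at h
      exact hv0 (funext h)
    set w : ι → 𝔽 := (v i₀)⁻¹ • v with hw
    have hwK : w ∈ K := K.smul_mem _ hvK
    have hwi₀ : w i₀ = 1 := by simp [hw, hi₀]
    have hw0 : w ≠ 0 := by
      intro h
      have := congrFun h i₀
      rw [hwi₀] at this
      exact one_ne_zero this
    have hsupp : ∀ i, w i ≠ 0 ↔ v i ≠ 0 := by
      intro i
      simp [hw, hi₀]
    set u : ι → 𝔽 := (fun i => w i ^ p) - w with hu
    have huK : u ∈ K := K.sub_mem (hK w hwK) hwK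
    by_cases hu0 : u = 0
    · refine ⟨w, hwK, hw0, fun i => ?_⟩
      have := congrFun hu0 i
      simp only [hu, Pi.sub_apply, Pi.zero_apply] at this
      exact sub_eq_zero.mp this
    · have hp0 : p ≠ 0 := (Fact.out : p.Prime).ne_zero
      have hsub : (Finset.univ.filter fun i => u i ≠ 0) ⊆
          (Finset.univ.filter fun i => v i ≠ 0).erase i₀ := by
        intro i hi
        simp only [Finset.mem_filter, Finset.mem_univ, true_and] at hi
        simp only [Finset.mem_erase, Finset.mem_filter, Finset.mem_univ, true_and]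
        constructor
        · rintro rfl
          apply hi
          simp [hu, hwi₀]
        · rw [← hsupp]
          intro hwi
          apply hi
          simp [hu, hwi, hp0]
      have hi₀mem : i₀ ∈ Finset.univ.filter fun i => v i ≠ 0 := by simp [hi₀]
      have hlt : (Finset.univ.filter fun i => u i ≠ 0).card ≤ n := by
        have h1 := Finset.card_le_card hsub
        rw [Finset.card_erase_of_mem hi₀mem] at h1
        omega
      exact ih u huK hu0 hlt

open scoped Classical in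
/-- A nonzero subspace of `𝔽 ^ ι` stable under the coordinatewise Frobenius contains a nonzero
vector fixed by Frobenius. -/
theorem exists_fixed_of_frobenius_stable (K : Submodule 𝔽 (ι → 𝔽))
    (hK : ∀ v ∈ K, (fun i => v i ^ p) ∈ K) (hne : K ≠ ⊥) :
    ∃ w ∈ K, w ≠ 0 ∧ ∀ i, w i ^ p = w i := by
  obtain ⟨v, hvK, hv0⟩ := (Submodule.ne_bot_iff K).mp hne
  exact exists_fixed_aux p K hK _ v hvK hv0 le_rfl

end FrobStable


/-! ### The spaces `W` (inertia-equivariant maps) and `S` (inertia- and Frobenius-equivariant) -/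

section Count

variable (p : ℕ) [Fact p.Prime] {𝔽 : Type*} [Field 𝔽] [Finite 𝔽] [Algebra (ZMod p) 𝔽]
  {N : Type*} [AddCommGroup N] [Module (ZMod p) N] [Finite N]

/-- `𝔽_p`-linear maps `Φ : 𝔽 → N` with `Φ (a y) = A (Φ y)`. -/
def Wsub (a : 𝔽) (A : N →ₗ[ZMod p] N) : Submodule (ZMod p) (𝔽 →ₗ[ZMod p] N) where
  carrier := {Φ | ∀ y, Φ (a * y) = A (Φ y)}
  add_mem' {Φ Ψ} hΦ hΨ y := by simp [hΦ y, hΨ y]
  zero_mem' y := by simp
  smul_mem' c Φ hΦ y := by simp [hΦ y]

/-- `𝔽_p`-linear maps `Φ : 𝔽 → N` with `Φ (a y) = A (Φ y)` and `Φ (b y ^ p) = B (Φ y)`. -/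
def Ssub (a b : 𝔽) (A B : N →ₗ[ZMod p] N) : Submodule (ZMod p) (𝔽 →ₗ[ZMod p] N) where
  carrier := {Φ | (∀ y, Φ (a * y) = A (Φ y)) ∧ ∀ y, Φ (b * y ^ p) = B (Φ y)}
  add_mem' {Φ Ψ} hΦ hΨ := ⟨fun y => by simp [hΦ.1 y, hΨ.1 y], fun y => by simp [hΦ.2 y, hΨ.2 y]⟩
  zero_mem' := ⟨fun y => by simp, fun y => by simp⟩
  smul_mem' c Φ hΦ := ⟨fun y => by simp [hΦ.1 y], fun y => by simp [hΦ.2 y]⟩

theorem mem_Wsub {a : 𝔽} {A : N →ₗ[ZMod p] N} {Φ : 𝔽 →ₗ[ZMod p] N} :
    Φ ∈ Wsub p a A ↔ ∀ y, Φ (a * y) = A (Φ y) := Iff.rfl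

theorem mem_Ssub {a b : 𝔽} {A B : N →ₗ[ZMod p] N} {Φ : 𝔽 →ₗ[ZMod p] N} :
    Φ ∈ Ssub p a b A B ↔ (∀ y, Φ (a * y) = A (Φ y)) ∧ ∀ y, Φ (b * y ^ p) = B (Φ y) := Iff.rfl

instance finite_linearMap : Finite (𝔽 →ₗ[ZMod p] N) :=
  Finite.of_injective (fun Φ => (Φ : 𝔽 → N)) DFunLike.coe_injective


include p in
theorem charP_of_algebra : CharP 𝔽 p :=
  charP_of_injective_algebraMap (algebraMap (ZMod p) 𝔽).injective p

/-- An element fixed by Frobenius comes from the prime field. -/
theorem exists_algebraMap_eq_of_pow_eq {x : 𝔽} (hx : x ^ p = x) :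
    ∃ c : ZMod p, algebraMap (ZMod p) 𝔽 c = x := by
  have := charP_of_algebra p (𝔽 := 𝔽)
  have h1 : x ∈ (⊥ : Subfield 𝔽) := (Subfield.mem_bot_iff_pow_eq_self 𝔽 p).mpr hx
  rw [Subfield.bot_eq_of_zMod_algebra p] at h1
  exact h1

/-- `y ↦ b y ^ p` is surjective on a finite field of characteristic `p` (`b ≠ 0`). -/
theorem exists_mul_pow_eq {b : 𝔽} (hb : b ≠ 0) (z : 𝔽) : ∃ y : 𝔽, b * y ^ p = z := by
  have := charP_of_algebra p (𝔽 := 𝔽)
  have hinj : Function.Injective (frobenius 𝔽 p) := frobenius_inj 𝔽 p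
  have hsurj : Function.Surjective (frobenius 𝔽 p) := Finite.surjective_of_injective hinj
  obtain ⟨y, hy⟩ := hsurj (b⁻¹ * z)
  refine ⟨y, ?_⟩
  rw [frobenius_def] at hy
  rw [hy, mul_inv_cancel_left₀ hb]

/-- The map `λ ↦ Σ_i Φ_i (λ_i ·)`. -/
noncomputable def J {r : ℕ} (Φ : Fin r → (𝔽 →ₗ[ZMod p] N)) (l : Fin r → 𝔽) : 𝔽 →ₗ[ZMod p] N :=
  ∑ i, (Φ i).comp (LinearMap.mulLeft (ZMod p) (l i))

theorem J_apply {r : ℕ} (Φ : Fin r → (𝔽 →ₗ[ZMod p] N)) (l : Fin r → 𝔽) (y : 𝔽) :
    J p Φ l y = ∑ i, Φ i (l i * y) := by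
  simp [J, LinearMap.sum_apply]

/-- The Artin-type independence: `card S ^ [𝔽 : 𝔽_p] ≤ card W`. -/
theorem card_Ssub_pow_le_card_Wsub (a : 𝔽) {b : 𝔽} (hb : b ≠ 0) (A B : N →ₗ[ZMod p] N) :
    Nat.card (Ssub p a b A B) ^ Module.finrank (ZMod p) 𝔽 ≤ Nat.card (Wsub p a A) := by
  classical
  have := charP_of_algebra p (𝔽 := 𝔽)
  set r := Module.finrank (ZMod p) (Ssub p a b A B) with hr
  let bs : Module.Basis (Fin r) (ZMod p) (Ssub p a b A B) := Module.finBasis (ZMod p) _
  let Φ : Fin r → (𝔽 →ₗ[ZMod p] N) := fun i => ((bs i : Ssub p a b A B) : 𝔽 →ₗ[ZMod p] N)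
  have hΦ1 : ∀ i y, Φ i (a * y) = A (Φ i y) := fun i y => (bs i).2.1 y
  have hΦ2 : ∀ i y, Φ i (b * y ^ p) = B (Φ i y) := fun i y => (bs i).2.2 y
  -- the kernel of `J`
  let K : Submodule 𝔽 (Fin r → 𝔽) :=
    { carrier := {l | J p Φ l = 0}
      add_mem' := by
        intro l l' hl hl'
        simp only [Set.mem_ofPred_eq] at hl hl' ⊢
        ext y
        have h1 := LinearMap.congr_fun hl y
        have h2 := LinearMap.congr_fun hl' y
        rw [J_apply] at h1 h2 ⊢
        simp only [Pi.add_apply, add_mul, map_add, Finset.sum_add_distrib, h1, h2,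
          LinearMap.zero_apply, add_zero]
      zero_mem' := by
        simp only [Set.mem_ofPred_eq]
        ext y
        rw [J_apply]
        simp
      smul_mem' := by
        intro μ l hl
        simp only [Set.mem_ofPred_eq] at hl ⊢
        ext y
        have h1 := LinearMap.congr_fun hl (μ * y)
        rw [J_apply] at h1 ⊢
        simp only [Pi.smul_apply, smul_eq_mul, LinearMap.zero_apply] at h1 ⊢
        rw [← h1]
        refine Finset.sum_congr rfl fun i _ => ?_
        congr 1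
        ring }
  have hKmem : ∀ l, l ∈ K ↔ J p Φ l = 0 := fun l => Iff.rfl
  have hKfrob : ∀ v ∈ K, (fun i => v i ^ p) ∈ K := by
    intro v hv
    rw [hKmem] at hv ⊢
    ext z
    obtain ⟨y, rfl⟩ := exists_mul_pow_eq p hb z
    have h1 := LinearMap.congr_fun hv y
    rw [J_apply] at h1 ⊢
    simp only [LinearMap.zero_apply] at h1 ⊢
    have : ∀ i, Φ i (v i ^ p * (b * y ^ p)) = B (Φ i (v i * y)) := by
      intro i
      rw [← hΦ2 i, mul_pow]
      congr 1
      ring
    simp only [this]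
    rw [← map_sum, h1, map_zero]
  have hKbot : K = ⊥ := by
    by_contra hne
    obtain ⟨w, hwK, hw0, hwfix⟩ := exists_fixed_of_frobenius_stable p K hKfrob hne
    choose c hc using fun i => exists_algebraMap_eq_of_pow_eq p (hwfix i)
    rw [hKmem] at hwK
    have hsum : ∑ i, c i • bs i = 0 := by
      apply Subtype.ext
      ext y
      have h1 := LinearMap.congr_fun hwK y
      rw [J_apply] at h1
      simp only [LinearMap.zero_apply] at h1
      simp only [Submodule.coe_sum, Submodule.coe_smul, LinearMap.sum_apply, LinearMap.smul_apply,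
        Submodule.coe_zero, LinearMap.zero_apply]
      rw [← h1]
      refine Finset.sum_congr rfl fun i _ => ?_
      show c i • Φ i y = Φ i (w i * y)
      rw [← hc i, ← Algebra.smul_def, map_smul]
    have hc0 : ∀ i, c i = 0 := by
      have := Fintype.linearIndependent_iff.mp bs.linearIndependent c hsum
      exact this
    apply hw0
    funext i
    rw [← hc i, hc0 i, map_zero]
    rfl
  -- injectivity of `J` into `W`
  have hJW : ∀ l, J p Φ l ∈ Wsub p a A := by
    intro l y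
    rw [J_apply, J_apply, map_sum]
    refine Finset.sum_congr rfl fun i _ => ?_
    rw [← hΦ1 i]
    congr 1
    ring
  have hJadd : ∀ l l', J p Φ (l - l') = J p Φ l - J p Φ l' := by
    intro l l'
    ext y
    simp only [LinearMap.sub_apply, J_apply, Pi.sub_apply, sub_mul, map_sub, Finset.sum_sub_distrib]
  let Jw : (Fin r → 𝔽) → Wsub p a A := fun l => ⟨J p Φ l, hJW l⟩
  have hinj : Function.Injective Jw := by
    intro l l' h
    have h1 : J p Φ l = J p Φ l' := congrArg Subtype.val h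
    have h2 : l - l' ∈ K := by
      rw [hKmem, hJadd, h1, sub_self]
    rw [hKbot, Submodule.mem_bot, sub_eq_zero] at h2
    exact h2
  have hcard := Nat.card_le_card_of_injective Jw hinj
  have h𝔽 : Nat.card 𝔽 = p ^ Module.finrank (ZMod p) 𝔽 := by
    rw [Module.natCard_eq_pow_finrank (K := ZMod p) (V := 𝔽), Nat.card_zmod]
  have hS : Nat.card (Ssub p a b A B) = p ^ r := by
    rw [Module.natCard_eq_pow_finrank (K := ZMod p) (V := Ssub p a b A B), Nat.card_zmod]
  have hfun : Nat.card (Fin r → 𝔽) = Nat.card 𝔽 ^ r := by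
    rw [Nat.card_fun, Nat.card_fin]
  rw [hfun, h𝔽] at hcard
  rw [hS, ← pow_mul, mul_comm, pow_mul]
  exact hcard


/-- For `Φ ∈ W` and a polynomial `g`: `Φ (g(a) y) = g(A) (Φ y)`. -/
theorem map_aeval_mul {a : 𝔽} {A : N →ₗ[ZMod p] N} {Φ : 𝔽 →ₗ[ZMod p] N}
    (hΦ : Φ ∈ Wsub p a A) (g : (ZMod p)[X]) (y : 𝔽) :
    Φ (aeval a g * y) = aeval A g (Φ y) := by
  induction g using Polynomial.induction_on' generalizing y with
  | add f g hf hg => simp [add_mul, hf, hg]
  | monomial n c =>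
    induction n generalizing y with
    | zero =>
      simp only [monomial_zero_left, aeval_C, Module.algebraMap_end_apply]
      rw [← Algebra.smul_def, map_smul]
    | succ n ih =>
      have h1 : (monomial (n + 1) c : (ZMod p)[X]) = monomial n c * X := (monomial_mul_X n c).symm
      have h2 : aeval a (monomial n c * X : (ZMod p)[X]) = aeval a (monomial n c) * a := by
        rw [map_mul, aeval_X]
      have h3 : aeval A (monomial n c * X : (ZMod p)[X]) = aeval A (monomial n c) * A := by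
        rw [map_mul, aeval_X]
      rw [h1, h2, h3, mul_assoc, ih, hΦ y, Module.End.mul_apply]

theorem mem_ker_of_mem_Wsub {a : 𝔽} {A : N →ₗ[ZMod p] N} {Φ : 𝔽 →ₗ[ZMod p] N}
    (hΦ : Φ ∈ Wsub p a A) (y : 𝔽) :
    Φ y ∈ LinearMap.ker (aeval A (minpoly (ZMod p) a)) := by
  rw [LinearMap.mem_ker, ← map_aeval_mul p hΦ, minpoly.aeval, zero_mul, map_zero]

theorem isIntegral_zmod (a : 𝔽) : IsIntegral (ZMod p) a := Algebra.IsIntegral.isIntegral a

/-- `card W ≤ card (ker (minpoly a)(A)) ^ [𝔽 : 𝔽_p(a)]`. -/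
theorem card_Wsub_le (a : 𝔽) (A : N →ₗ[ZMod p] N) :
    Nat.card (Wsub p a A) ≤
      Nat.card (LinearMap.ker (aeval A (minpoly (ZMod p) a))) ^
        Module.finrank (IntermediateField.adjoin (ZMod p) {a}) 𝔽 := by
  classical
  set E := IntermediateField.adjoin (ZMod p) {a} with hE
  set r := Module.finrank E 𝔽 with hr
  let ys : Module.Basis (Fin r) E 𝔽 := Module.finBasis E 𝔽
  have hrep : ∀ e : E, ∃ g : (ZMod p)[X], (e : 𝔽) = aeval a g := by
    intro e
    have h1 : (e : 𝔽) ∈ (IntermediateField.adjoin (ZMod p) {a}).toSubalgebra := e.2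
    rw [IntermediateField.adjoin_simple_toSubalgebra_of_isAlgebraic (isIntegral_zmod p a).isAlgebraic,
      Algebra.adjoin_singleton_eq_range_aeval] at h1
    obtain ⟨g, hg⟩ := h1
    exact ⟨g, hg.symm⟩
  let Ψ : Wsub p a A → (Fin r → LinearMap.ker (aeval A (minpoly (ZMod p) a))) :=
    fun Φ i => ⟨(Φ : 𝔽 →ₗ[ZMod p] N) (ys i), mem_ker_of_mem_Wsub p Φ.2 (ys i)⟩
  have hinj : Function.Injective Ψ := by
    intro Φ Φ' h
    apply Subtype.ext
    ext x
    have hval : ∀ i, (Φ : 𝔽 →ₗ[ZMod p] N) (ys i) = (Φ' : 𝔽 →ₗ[ZMod p] N) (ys i) := by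
      intro i
      have := congrFun h i
      exact congrArg Subtype.val this
    rw [← ys.sum_repr x, map_sum, map_sum]
    refine Finset.sum_congr rfl fun i _ => ?_
    obtain ⟨g, hg⟩ := hrep (ys.repr x i)
    have hsm : (ys.repr x i) • ys i = aeval a g * ys i := by
      rw [← hg]
      rfl
    rw [hsm, map_aeval_mul p Φ.2, map_aeval_mul p Φ'.2, hval i]
  have hcard := Nat.card_le_card_of_injective Ψ hinj
  rwa [Nat.card_fun, Nat.card_fin] at hcard

/-- **The twisted-form count (LC4').** -/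
theorem card_Ssub_pow_le (a : 𝔽) {b : 𝔽} (hb : b ≠ 0) (A B : N →ₗ[ZMod p] N) :
    Nat.card (Ssub p a b A B) ^ (minpoly (ZMod p) a).natDegree ≤
      Nat.card (LinearMap.ker (aeval A (minpoly (ZMod p) a))) := by
  set E := IntermediateField.adjoin (ZMod p) {a} with hE
  have h1 := card_Ssub_pow_le_card_Wsub p a hb A B
  have h2 := card_Wsub_le p a A
  have hdeg : Module.finrank (ZMod p) E = (minpoly (ZMod p) a).natDegree :=
    IntermediateField.adjoin.finrank (isIntegral_zmod p a)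
  have hmul : Module.finrank (ZMod p) E * Module.finrank E 𝔽 = Module.finrank (ZMod p) 𝔽 :=
    Module.finrank_mul_finrank (ZMod p) E 𝔽
  have hpos : Module.finrank E 𝔽 ≠ 0 := Module.finrank_pos.ne'
  rw [← hmul, hdeg, pow_mul] at h1
  exact (Nat.pow_le_pow_iff_left hpos).mp (h1.trans h2)

end Count

end Fermat.Agent.S56.Flat.Descent
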