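/-
PROJECT T (S56), block (a3) Flat, file LevelAux: three auxiliary facts for the level count.

* `index_fix`            : `[Gal(Ω/ℚ_p) : Gal(Ω/F)] = [F : ℚ_p]` for `F/ℚ_p` finite Galois;
* `commutator_mem_localInertia` : commutators of `LocGal p` lie in the inertia group
  (`Gal(ℚ_p^nr/ℚ_p)` is abelian);
* `mem_Gam_of_inertia`   : an inertial element of `Gal(Ω/F)` kills, under the Kummer symbol, every
  unit `u` of `F` with `‖u - 1‖ ≤ ‖ζ - 1‖ ^ p` (the extension `F(u^{1/p})/F` is unramified).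
-/
import Mathlib
import Fermat.Agent.S56.Flat.Levels
import Fermat.Agent.S56.Flat.Passage.UnitFiltration

set_option autoImplicit false
set_option linter.unusedSectionVars false

noncomputable section

namespace Fermat.Agent.S56.Flat.LevelAux

open Fermat.Agent.CFT.Local.Model Fermat.Agent.CFT.Local.PadicAlgClLocal
  Fermat.Agent.CFT.LocalBridge Fermat.Agent.S56.Flat.KummerInj Fermat.Agent.S56.Flat.ResField
  Fermat.Agent.S56.Flat.Passage.NormFrame Fermat.Agent.S56.Flat.Levels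

variable {p : ℕ} [Fact p.Prime]

local notation "Ω" => PadicAlgCl p

/-! ### The index of `Gal(Ω/F)` -/

theorem index_fix (F : IntermediateField ℚ_[p] (PadicAlgCl p)) [FiniteDimensional ℚ_[p] F]
    [IsGalois ℚ_[p] F] :
    (F.fixingSubgroup : Subgroup (LocGal p)).index = Module.finrank ℚ_[p] F := by
  rw [← IntermediateField.restrictNormalHom_ker F, Subgroup.index_ker,
    MonoidHom.range_eq_top.2 (AlgEquiv.restrictNormalHom_surjective (PadicAlgCl p)),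
    Subgroup.card_top, IsGalois.card_aut_eq_finrank]

theorem finiteIndex_fix (F : IntermediateField ℚ_[p] (PadicAlgCl p)) [FiniteDimensional ℚ_[p] F]
    [IsGalois ℚ_[p] F] : (F.fixingSubgroup : Subgroup (LocGal p)).FiniteIndex :=
  ⟨by rw [index_fix]; exact Module.finrank_pos.ne'⟩

/-! ### Commutators are inertial -/

/-- Two automorphisms commute on roots of unity. -/
theorem comm_on_roots (g σ : LocGal p) {m : ℕ} (hm : m ≠ 0) {ξ : Ω} (hξ : ξ ^ m = 1) :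
    g (σ ξ) = σ (g ξ) := by
  have : NeZero m := ⟨hm⟩
  obtain ⟨η, hη⟩ := HasEnoughRootsOfUnity.exists_primitiveRoot Ω m
  have hpow : ∀ f : LocGal p, ∃ a : ℕ, f η = η ^ a := by
    intro f
    have h1 : (f η) ^ m = 1 := by rw [← map_pow, hη.pow_eq_one, map_one]
    obtain ⟨a, -, ha⟩ := hη.eq_pow_of_pow_eq_one h1
    exact ⟨a, ha.symm⟩
  obtain ⟨a, ha⟩ := hpow g
  obtain ⟨b, hb⟩ := hpow σ
  obtain ⟨k, -, hk⟩ := hη.eq_pow_of_pow_eq_one hξ
  have h1 : g (σ (η ^ k)) = η ^ (a * b * k) := by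
    rw [map_pow, map_pow, hb, map_pow, ha, ← pow_mul, ← pow_mul, mul_assoc]
  have h2 : σ (g (η ^ k)) = η ^ (a * b * k) := by
    rw [map_pow, map_pow, ha, map_pow, hb, ← pow_mul, ← pow_mul]
    congr 1
    ring
  rw [← hk, h1, h2]

theorem commutator_mem_localInertia (g σ : LocGal p) : σ⁻¹ * g * σ * g⁻¹ ∈ localInertia p := by
  rw [localInertia_eq_fixingSubgroup, nrField, mem_fixingSubgroup_adjoin_iff]
  rintro ξ ⟨m, hm, hξ⟩
  have hm0 : m ≠ 0 := fun h0 => hm (h0 ▸ dvd_zero p)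
  have hξ' : (g⁻¹ ξ) ^ m = 1 := by rw [← map_pow, hξ, map_one]
  rw [AlgEquiv.mul_apply, AlgEquiv.mul_apply, AlgEquiv.mul_apply, comm_on_roots g σ hm0 hξ',
    apply_inv_apply, inv_apply_apply]

/-! ### Inertial elements kill the critical level -/

section Critical

variable {ζ : PadicAlgCl p} (hζ : IsPrimitiveRoot ζ p)

include hζ

theorem norm_zeta_sub_one_lt : ‖ζ - 1‖ < 1 := by
  have hp : p.Prime := Fact.out
  -- `(ζ - 1) ^ p ≡ ζ ^ p - 1 = 0` modulo `p`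
  by_contra hge
  have hge' : 1 ≤ ‖ζ - 1‖ := not_lt.mp hge
  have hz1 : ‖ζ‖ = 1 := norm_eq_one_of_pow_eq_one p hp.ne_zero hζ.pow_eq_one
  have hle : ‖ζ - 1‖ ≤ 1 := by
    refine (Levels.norm_sub_le ζ 1).trans ?_
    rw [hz1, norm_one, max_self]
  have h1 : ‖ζ - 1‖ = 1 := le_antisymm hle hge'
  have hexp := Passage.UnitFiltration.one_add_pow_prime hp (ζ - 1)
  rw [show (1 : Ω) + (ζ - 1) = ζ by ring, hζ.pow_eq_one] at hexp
  set s := ∑ j ∈ Finset.Ico 2 p, (ζ - 1) ^ (j - 2) * ((p.choose j / p : ℕ) : Ω) with hs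
  have hs1 : ‖s‖ ≤ 1 := Passage.UnitFiltration.norm_sum_le_one hle
  have h2 : (ζ - 1) ^ p = - ((p : Ω) * ((ζ - 1) + (ζ - 1) ^ 2 * s)) := by
    have : (1 : Ω) = 1 + (ζ - 1) ^ p + (p : Ω) * (ζ - 1) + (p : Ω) * (ζ - 1) ^ 2 * s := hexp
    linear_combination (-1 : Ω) * this
  have h3 : ‖(ζ - 1) ^ p‖ = 1 := by rw [norm_pow, h1, one_pow]
  have h4 : ‖- ((p : Ω) * ((ζ - 1) + (ζ - 1) ^ 2 * s))‖ ≤ (p : ℝ)⁻¹ := by
    rw [norm_neg, norm_mul, norm_p]
    refine mul_le_of_le_one_right (inv_nonneg.mpr (Nat.cast_nonneg p)) ?_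
    refine (Levels.norm_add_le _ _).trans (max_le hle ?_)
    rw [norm_mul, norm_pow, h1, one_pow, one_mul]
    exact hs1
  rw [h2] at h3
  rw [h3] at h4
  have : (p : ℝ)⁻¹ < 1 := inv_lt_one_of_one_lt₀ (by exact_mod_cast hp.one_lt)
  exact not_lt.mpr h4 this

/-- All the non-trivial `p`-th roots of unity are at the same distance from `1`. -/
theorem norm_zp_sub_one {j : ZMod p} (hj : j ≠ 0) : ‖zp ζ j - 1‖ = ‖ζ - 1‖ := by
  have hp : p.Prime := Fact.out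
  have hz1 : ‖ζ‖ = 1 := norm_eq_one_of_pow_eq_one p hp.ne_zero hζ.pow_eq_one
  have key : ∀ (η : Ω) (n : ℕ), ‖η‖ = 1 → ‖η ^ n - 1‖ ≤ ‖η - 1‖ := by
    intro η n hη
    induction n with
    | zero => rw [pow_zero, sub_self, norm_zero]; exact norm_nonneg _
    | succ n ih =>
      have : η ^ (n + 1) - 1 = η * (η ^ n - 1) + (η - 1) := by ring
      rw [this]
      refine (Levels.norm_add_le _ _).trans (max_le ?_ le_rfl)
      rw [norm_mul, hη, one_mul]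
      exact ih
  apply le_antisymm
  · exact key ζ j.val hz1
  · have hj' : j * j⁻¹ = 1 := mul_inv_cancel₀ hj
    have h1 : zp ζ j ^ (j⁻¹).val = ζ := by
      rw [← zp_mul hζ, mul_comm, hj', zp, ZMod.val_one, pow_one]
    have h2 : ‖zp ζ j‖ = 1 :=
      norm_eq_one_of_pow_eq_one p hp.ne_zero (zp_pow hζ j)
    have := key (zp ζ j) (j⁻¹).val h2
    rwa [h1] at this

/-- A `p`-th root of a unit `u` with `‖u - 1‖ ≤ ‖ζ - 1‖ ^ p` is at distance `≤ ‖ζ - 1‖` of `1`. -/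
theorem norm_root_sub_one_le {u y : Ω} (hy : y ^ p = u) (hu : ‖u - 1‖ ≤ ‖ζ - 1‖ ^ p) :
    ‖y - 1‖ ≤ ‖ζ - 1‖ := by
  have hp : p.Prime := Fact.out
  have hlam : ‖ζ - 1‖ < 1 := norm_zeta_sub_one_lt hζ
  have hu1 : ‖u‖ = 1 :=
    norm_eq_one_of_sub_lt (lt_of_le_of_lt hu (pow_lt_one₀ (norm_nonneg _) hlam hp.ne_zero))
  have hy1 : ‖y‖ = 1 := by
    have : ‖y‖ ^ p = 1 := by rw [← norm_pow, hy, hu1]
    exact (pow_eq_one_iff_of_nonneg (norm_nonneg _) hp.ne_zero).mp this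
  by_contra hgt
  have hgt' : ‖ζ - 1‖ < ‖y - 1‖ := not_le.mp hgt
  set a := y - 1 with ha
  have ha1 : ‖a‖ ≤ 1 := by
    refine (Levels.norm_sub_le y 1).trans ?_
    rw [hy1, norm_one, max_self]
  have hexp := Passage.UnitFiltration.one_add_pow_prime hp a
  rw [show (1 : Ω) + a = y by rw [ha]; ring, hy] at hexp
  set s := ∑ j ∈ Finset.Ico 2 p, a ^ (j - 2) * ((p.choose j / p : ℕ) : Ω) with hs
  have hs1 : ‖s‖ ≤ 1 := Passage.UnitFiltration.norm_sum_le_one ha1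
  have h2 : u - 1 = a ^ p + (p : Ω) * (a + a ^ 2 * s) := by
    rw [hexp]; ring
  -- `‖p‖ = ‖ζ - 1‖ ^ (p - 1)` is not needed: only `‖p * (..)‖ < ‖a‖ ^ p` via `‖p‖ ≤ ‖ζ-1‖^(p-1)`
  have hpz : ‖(p : Ω)‖ ≤ ‖ζ - 1‖ ^ (p - 1) := by
    -- from `0 = (ζ - 1) ^ p + p (ζ - 1)(1 + ...)`: `‖p (ζ-1)‖ = ‖ζ - 1‖ ^ p`
    have hexp' := Passage.UnitFiltration.one_add_pow_prime hp (ζ - 1)
    rw [show (1 : Ω) + (ζ - 1) = ζ by ring, hζ.pow_eq_one] at hexp'
    set s' := ∑ j ∈ Finset.Ico 2 p, (ζ - 1) ^ (j - 2) * ((p.choose j / p : ℕ) : Ω) with hs'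
    have hs'1 : ‖s'‖ ≤ 1 := Passage.UnitFiltration.norm_sum_le_one hlam.le
    have hζ1 : ζ - 1 ≠ 0 := sub_ne_zero.mpr (hζ.ne_one hp.one_lt)
    have h3 : (ζ - 1) ^ (p - 1) = - ((p : Ω) * (1 + (ζ - 1) * s')) := by
      have h4 : (ζ - 1) * (ζ - 1) ^ (p - 1) = (ζ - 1) * (- ((p : Ω) * (1 + (ζ - 1) * s'))) := by
        rw [← pow_succ', show p - 1 + 1 = p by have := hp.two_le; omega]
        have : (1 : Ω) = 1 + (ζ - 1) ^ p + (p : Ω) * (ζ - 1) + (p : Ω) * (ζ - 1) ^ 2 * s' := hexp'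
        linear_combination (-1 : Ω) * this
      exact mul_left_cancel₀ hζ1 h4
    have h5 : ‖(1 : Ω) + (ζ - 1) * s'‖ = 1 := by
      apply norm_eq_one_of_sub_lt
      rw [add_sub_cancel_left, norm_mul]
      exact lt_of_le_of_lt (mul_le_of_le_one_right (norm_nonneg _) hs'1) hlam
    have h6 : ‖ζ - 1‖ ^ (p - 1) = ‖(p : Ω)‖ := by
      rw [← norm_pow, h3, norm_neg, norm_mul, h5, mul_one]
    exact h6.ge
  have hB : ‖(p : Ω) * (a + a ^ 2 * s)‖ < ‖a ^ p‖ := by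
    have hapos : 0 < ‖a‖ := lt_of_le_of_lt (norm_nonneg _) hgt'
    have h7 : ‖a + a ^ 2 * s‖ ≤ ‖a‖ := by
      refine (Levels.norm_add_le _ _).trans (max_le le_rfl ?_)
      rw [norm_mul, norm_pow, pow_two, mul_assoc]
      exact mul_le_of_le_one_right (norm_nonneg _)
        (mul_le_one₀ ha1 (norm_nonneg _) hs1)
    calc ‖(p : Ω) * (a + a ^ 2 * s)‖ = ‖(p : Ω)‖ * ‖a + a ^ 2 * s‖ := norm_mul _ _
      _ ≤ ‖ζ - 1‖ ^ (p - 1) * ‖a‖ := mul_le_mul hpz h7 (norm_nonneg _) (by positivity)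
      _ < ‖a‖ ^ (p - 1) * ‖a‖ := by
          refine mul_lt_mul_of_pos_right ?_ hapos
          exact pow_lt_pow_left₀ hgt' (norm_nonneg _) (by have := hp.two_le; omega)
      _ = ‖a ^ p‖ := by
          rw [norm_pow, ← pow_succ, show p - 1 + 1 = p by have := hp.two_le; omega]
  have h8 : ‖u - 1‖ = ‖a ^ p‖ := by
    rw [h2, IsUltrametricDist.norm_add_eq_max_of_norm_ne_norm hB.ne']
    exact max_eq_left hB.le
  rw [h8, norm_pow] at hu
  exact not_lt.mpr hu (pow_lt_pow_left₀ hgt' (norm_nonneg _) hp.ne_zero)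

/-- **Inertial elements kill the critical level.** -/
theorem kumZ_eq_zero_of_inertia {κ : LocGal p} (hκζ : κ ζ = ζ) (hκI : κ ∈ localInertia p)
    {u : Ω} (hκu : κ u = u) (hu0 : u ≠ 0) (hu : ‖u - 1‖ ≤ ‖ζ - 1‖ ^ p) :
    kumZ p ζ κ u = 0 := by
  have hp : p.Prime := Fact.out
  by_contra hj
  have hy := rt_pow (p := p) u
  have h1 := map_root hζ hκζ hκu hu0 hy
  have hle := norm_root_sub_one_le hζ hy hu
  have hlam : ‖ζ - 1‖ < 1 := norm_zeta_sub_one_lt hζ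
  have hζ1 : ζ - 1 ≠ 0 := sub_ne_zero.mpr (hζ.ne_one hp.one_lt)
  have hlampos : 0 < ‖ζ - 1‖ := norm_pos_iff.mpr hζ1
  have hy1 : ‖rt p u‖ = 1 :=
    norm_eq_one_of_sub_lt (lt_of_le_of_lt hle hlam)
  set z := (rt p u - 1) / (ζ - 1) with hz
  have hz1 : ‖z‖ ≤ 1 := by
    rw [hz, norm_div]
    exact div_le_one_of_le₀ hle (norm_nonneg _)
  have h2 : κ z - z = (zp ζ (kumZ p ζ κ u) - 1) * rt p u / (ζ - 1) := by
    rw [hz, map_div₀, map_sub, map_sub, map_one, hκζ, h1]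
    field_simp
    ring
  have h3 := (mem_localInertia_iff p).1 hκI z hz1
  rw [h2, norm_div, norm_mul, hy1, mul_one, norm_zp_sub_one hζ hj, div_self hlampos.ne'] at h3
  exact lt_irrefl _ h3

end Critical

/-- Inertial elements of `Gal(Ω/F)` lie in `Gam n` as soon as `‖π‖ ^ n ≤ ‖ζ - 1‖ ^ p`. -/
theorem mem_Gam_of_inertia (F : IntermediateField ℚ_[p] (PadicAlgCl p)) {ζ π : PadicAlgCl p}
    (hζ : IsPrimitiveRoot ζ p) (hζF : ζ ∈ F) {n : ℕ} (hn : ‖π‖ ^ n ≤ ‖ζ - 1‖ ^ p)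
    {κ : LocGal p} (hκ : κ ∈ F.fixingSubgroup) (hκI : κ ∈ localInertia p) :
    κ ∈ Gam p F ζ π hζ hζF n := by
  refine ⟨hκ, fun u hu => ?_⟩
  have hκ1 := mem_fix_iff.1 hκ
  exact kumZ_eq_zero_of_inertia hζ (hκ1 ζ hζF) hκI (hκ1 u hu.1) hu.2.1 (hu.2.2.trans hn)

end Fermat.Agent.S56.Flat.LevelAux
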