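/-
PROJECT T (S56), block (a3) Flat, file LevelCount: the count of cocycles killed by the Kummer
level `e = e(F/ℚ_p)`.

For `F/ℚ_p` finite Galois of degree prime to `p`, containing `ζ_p`, and a finite `𝔽_p[Gal(F/ℚ_p)]`
module `N`, the cocycles `c : LocGal p → N` vanishing on `Gam e` (the Galois group of `Ω` over
`F((1 + p O_F)^{1/p})`) number at most

  `#B¹ · #N^G · ∏_{e ≤ n < e + e'} #Ssub(a_n, b_n, ρ τ, ρ φ)`,     `e = (p - 1) e'`,

where `τ` is inertial on `F`, `φ` a Frobenius lift, and `Ssub` is the descent module of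
`Flat/Descent.lean` (`a_n = ω̄(τ) · c̄(τ)^{-n}`).
-/
import Mathlib
import Fermat.Agent.S56.Flat.Levels
import Fermat.Agent.S56.Flat.LevelAux
import Fermat.Agent.S56.Flat.Descent
import Fermat.Agent.S56.Flat.AbstractCount

set_option autoImplicit false
set_option linter.unusedSectionVars false

noncomputable section

namespace Fermat.Agent.S56.Flat.LevelCount

open Fermat.Agent.CFT.Local.Model Fermat.Agent.CFT.Local.PadicAlgClLocal
  Fermat.Agent.CFT.LocalBridge Fermat.Agent.S56.Flat.KummerInj Fermat.Agent.S56.Flat.ResField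
  Fermat.Agent.S56.Flat.Passage.NormFrame Fermat.Agent.S56.Flat.Levels
  Fermat.Agent.S56.Flat.LevelAux Fermat.Agent.S56.Flat.Descent

open scoped Fermat.Agent.S56.Flat.ResField

variable (p : ℕ) [Fact p.Prime]

local notation "Ω" => PadicAlgCl p

variable (F : IntermediateField ℚ_[p] (PadicAlgCl p)) [FiniteDimensional ℚ_[p] F]
  [IsGalois ℚ_[p] F]

variable {ζ π : PadicAlgCl p} (hζ : IsPrimitiveRoot ζ p) (hζF : ζ ∈ F) (hπ : IsUnif p F π)

/-! ### The image modules `X i ⊆ 𝔏` -/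

section Image

variable {p F}

theorem R_eq_zero_of_not {i : ℕ} {σ : LocGal p}
    (h : ¬ (1 ≤ i ∧ σ ∈ Gam p F ζ π hζ hζF (i + 1))) : R p F ζ π hζ hζF hπ i σ = 0 := by
  rw [R, dif_neg h]

theorem R_eq_zero_of_mem_Gam {i : ℕ} (hi : 1 ≤ i) {σ : LocGal p}
    (hσ : σ ∈ Gam p F ζ π hζ hζF i) : R p F ζ π hζ hζF hπ i σ = 0 := by
  have hσ' : σ ∈ Gam p F ζ π hζ hζF (i + 1) :=
    Gam_mono hζ hζF hπ.2.2.1.le (Nat.le_succ i) hσ
  ext y
  obtain ⟨x, hx, hx1, rfl⟩ := res_surjective (p := p) (F := F) y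
  rw [R_res hζ hζF hπ hi hσ' hx hx1, LinearMap.zero_apply]
  exact hσ.2 _ (one_add_mem_Ulev hπ hi hx hx1)

variable (p F) in
/-- The submodule of `𝔏` generated by the symbols at level `i`. -/
def X (i : ℕ) : Submodule (ZMod p) (LL p F) :=
  Submodule.span (ZMod p) (Set.range (R p F ζ π hζ hζF hπ i))

theorem ρL_mem_X (i : ℕ) (g : LocGal p) {ℓ : LL p F} (hℓ : ℓ ∈ X p F hζ hζF hπ i) :
    ρL p F π hπ hζ i g ℓ ∈ X p F hζ hζF hπ i := by
  induction hℓ using Submodule.span_induction with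
  | mem ℓ hℓ =>
    obtain ⟨σ, rfl⟩ := hℓ
    by_cases h : 1 ≤ i ∧ σ ∈ Gam p F ζ π hζ hζF (i + 1)
    · rw [← R_conj hζ hζF hπ h.1 g h.2]
      exact Submodule.subset_span ⟨_, rfl⟩
    · rw [R_eq_zero_of_not hζ hζF hπ h, map_zero]
      exact zero_mem _
  | zero => rw [map_zero]; exact zero_mem _
  | add x y _ _ hx hy => rw [map_add]; exact add_mem hx hy
  | smul c x _ hx => rw [map_smul]; exact Submodule.smul_mem _ c hx

variable (p F) in
/-- The action of `LocGal p` on `X i`. -/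
def ρX (i : ℕ) : LocGal p →* (↥(X p F hζ hζF hπ i) →ₗ[ZMod p] ↥(X p F hζ hζF hπ i)) where
  toFun g := (ρL p F π hπ hζ i g).restrict (fun _ hℓ => ρL_mem_X hζ hζF hπ i g hℓ)
  map_one' := by
    ext ℓ : 2
    simp [LinearMap.restrict_apply]
  map_mul' g h := by
    ext ℓ : 2
    simp [LinearMap.restrict_apply]

theorem coe_ρX (i : ℕ) (g : LocGal p) (x : ↥(X p F hζ hζF hπ i)) :
    ((ρX p F hζ hζF hπ i g x : ↥(X p F hζ hζF hπ i)) : LL p F) =
      ρL p F π hπ hζ i g (x : LL p F) := rfl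

variable (p F) in
/-- The symbol map, with values in its image module. -/
def RX (i : ℕ) (σ : LocGal p) : ↥(X p F hζ hζF hπ i) :=
  ⟨R p F ζ π hζ hζF hπ i σ, Submodule.subset_span ⟨σ, rfl⟩⟩

end Image

/-! ### Instantiating the abstract count -/

section Instantiate

variable {p F}

theorem one_le_of_pow_eq {e : ℕ} (he : ‖π‖ ^ e = (p : ℝ)⁻¹) : 1 ≤ e := by
  rcases Nat.eq_zero_or_pos e with h0 | h0
  · exfalso
    rw [h0, pow_zero] at he
    have : (p : ℝ)⁻¹ < 1 :=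
      inv_lt_one_of_one_lt₀ (by exact_mod_cast (Fact.out : p.Prime).one_lt)
    rw [← he] at this
    exact lt_irrefl _ this
  · exact h0

include hπ in
/-- The top of the filtration: `Gam (e + e' + 1)` is all of `Gal(Ω/F)`. -/
theorem Gam_top {e e' : ℕ} (he : ‖π‖ ^ e = (p : ℝ)⁻¹) (hee' : e = (p - 1) * e') :
    Gam p F ζ π hζ hζF (e + e' + 1) = F.fixingSubgroup := by
  apply Gam_eq_fix hζ hζF
  have hp : p.Prime := Fact.out
  have h1 : (‖π‖ ^ (e + e' + 1)) ^ (p - 1) = ((p : ℝ)⁻¹) ^ p * ‖π‖ ^ (p - 1) := by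
    have h2 : (e + e' + 1) * (p - 1) = e * p + (p - 1) := by
      have hq : p = (p - 1) + 1 := by have := hp.two_le; omega
      have h3 : e' * (p - 1) = e := by rw [hee', mul_comm]
      calc (e + e' + 1) * (p - 1) = e * (p - 1) + e' * (p - 1) + (p - 1) := by ring
        _ = e * (p - 1) + e + (p - 1) := by rw [h3]
        _ = e * p + (p - 1) := by
            congr 1
            conv_rhs => rw [hq]
            ring
    rw [← pow_mul, h2, pow_add, pow_mul, he]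
  rw [h1]
  have h3 : ‖π‖ ^ (p - 1) < 1 :=
    pow_lt_one₀ (norm_nonneg _) hπ.2.2.1 (by have := hp.two_le; omega)
  calc ((p : ℝ)⁻¹) ^ p * ‖π‖ ^ (p - 1) < ((p : ℝ)⁻¹) ^ p * 1 :=
        mul_lt_mul_of_pos_left h3 (pow_pos (inv_pos.mpr (by exact_mod_cast hp.pos)) p)
    _ = ((p : ℝ)⁻¹) ^ p := mul_one _

/-- Equivariant homomorphisms (instance paths as in `AbstractCount.card_cocycles_le`). -/
abbrev HomG {G L N : Type*} [Group G] [AddCommGroup L] [Module (ZMod p) L] [AddCommGroup N]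
    [Module (ZMod p) N] (ρL : G →* (L →ₗ[ZMod p] L)) (ρ : G →* (N →ₗ[ZMod p] N)) : Type _ :=
  {H : L →ₗ[ZMod p] N // ∀ g x, H (ρL g x) = ρ g (H x)}

theorem card_Z_le_prod_HomG (hpF : ¬ p ∣ Module.finrank ℚ_[p] F) {e e' : ℕ}
    (he : ‖π‖ ^ e = (p : ℝ)⁻¹) (hee' : e = (p - 1) * e')
    {N : Type*} [AddCommGroup N] [Module (ZMod p) N] [Finite N]
    (ρ : LocGal p →* (N →ₗ[ZMod p] N)) (hρ : ∀ σ ∈ F.fixingSubgroup, ρ σ = 1) :
    Finite {c : LocGal p → N // (∀ g h, c (g * h) = c g + ρ g (c h)) ∧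
        ∀ σ ∈ Gam p F ζ π hζ hζF e, c σ = 0} ∧
      Nat.card {c : LocGal p → N // (∀ g h, c (g * h) = c g + ρ g (c h)) ∧
        ∀ σ ∈ Gam p F ζ π hζ hζF e, c σ = 0} ≤
      Nat.card {c : LocGal p → N // ∃ n, ∀ g, c g = ρ g n - n} *
        ∏ i ∈ Finset.Ico e (e + e' + 1),
          Nat.card (HomG (ρX p F hζ hζF hπ i) ρ) := by
  have he1 : 1 ≤ e := one_le_of_pow_eq he
  haveI : (F.fixingSubgroup : Subgroup (LocGal p)).Normal := normal_fix
  haveI : (F.fixingSubgroup : Subgroup (LocGal p)).FiniteIndex := finiteIndex_fix F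
  have hidx : ¬ p ∣ (F.fixingSubgroup : Subgroup (LocGal p)).index := by rwa [index_fix]
  have h1 : ∀ i, ∀ g ∈ (F.fixingSubgroup : Subgroup (LocGal p)), ρX p F hζ hζF hπ i g = 1 := by
    intro i g hg
    ext x : 2
    rw [coe_ρX, ρL_of_fix hπ hζ hζF i hg]
    rfl
  have h2 : ∀ i, e ≤ i → i < e + e' + 1 → ∀ σ ∈ Gam p F ζ π hζ hζF (i + 1),
      ∀ τ ∈ Gam p F ζ π hζ hζF (i + 1),
      RX p F hζ hζF hπ i (σ * τ) = RX p F hζ hζF hπ i σ + RX p F hζ hζF hπ i τ := by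
    intro i hi _ σ hσ τ hτ
    apply Subtype.ext
    exact R_mul hζ hζF hπ (by omega) hσ hτ
  have h3 : ∀ i, e ≤ i → i < e + e' + 1 → ∀ σ ∈ Gam p F ζ π hζ hζF (i + 1),
      RX p F hζ hζF hπ i σ = 0 → σ ∈ Gam p F ζ π hζ hζF i := by
    intro i hi _ σ hσ h0
    exact mem_Gam_of_R_eq_zero hζ hζF hπ (by omega) hσ (congrArg Subtype.val h0)
  have h4 : ∀ i, e ≤ i → i < e + e' + 1 → ∀ g, ∀ σ ∈ Gam p F ζ π hζ hζF (i + 1),
      RX p F hζ hζF hπ i (g * σ * g⁻¹) = ρX p F hζ hζF hπ i g (RX p F hζ hζF hπ i σ) := by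
    intro i hi _ g σ hσ
    apply Subtype.ext
    exact R_conj hζ hζF hπ (by omega) g hσ
  have key := AbstractCount.card_cocycles_le (p := p) (G := LocGal p)
    (F.fixingSubgroup : Subgroup (LocGal p)) hidx (N := N) ρ hρ e
    (e + e' + 1) (by omega) (fun i => Gam p F ζ π hζ hζF i)
    (fun i => Gam_mono hζ hζF hπ.2.2.1.le (Nat.le_succ i)) (fun i => Gam_normal hζ hζF i)
    (Gam_top hζ hζF hπ he hee') (fun i => ↥(X p F hζ hζF hπ i)) (fun i => ρX p F hζ hζF hπ i)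
    h1 (fun i => RX p F hζ hζF hπ i) h2 h3 h4
  refine ⟨key.1, le_trans key.2 (le_of_eq ?_)⟩
  congr 1

end Instantiate

/-! ### Identification of `𝔏` with `kF`, inertial and Frobenius elements -/

section Theta

variable {p F}

/-- `x ↦ (y ↦ ℓ₀ (x y))`: the `kF`-line `𝔏` is generated by any non-zero functional. -/
def Θ (ℓ₀ : LL p F) : kF p F →ₗ[ZMod p] LL p F where
  toFun x := ℓ₀.comp (LinearMap.mulLeft (ZMod p) x)
  map_add' x y := by
    ext z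
    simp [add_mul]
  map_smul' c x := by
    ext z
    simp

theorem Θ_apply (ℓ₀ : LL p F) (x y : kF p F) : Θ ℓ₀ x y = ℓ₀ (x * y) := rfl

theorem Θ_injective {ℓ₀ : LL p F} (hℓ₀ : ℓ₀ ≠ 0) : Function.Injective (Θ ℓ₀) := by
  rw [← LinearMap.ker_eq_bot, LinearMap.ker_eq_bot']
  intro x hx
  by_contra hx0
  apply hℓ₀
  ext z
  have := congrArg (fun ℓ : LL p F => ℓ (x⁻¹ * z)) hx
  simp only [Θ_apply, LinearMap.zero_apply] at this
  rw [← mul_assoc, mul_inv_cancel₀ hx0, one_mul] at this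
  rw [this, LinearMap.zero_apply]

theorem Θ_surjective {ℓ₀ : LL p F} (hℓ₀ : ℓ₀ ≠ 0) : Function.Surjective (Θ ℓ₀) := by
  have h : Module.finrank (ZMod p) (kF p F) = Module.finrank (ZMod p) (LL p F) :=
    (Subspace.dual_finrank_eq (K := ZMod p) (V := kF p F)).symm
  exact (LinearMap.injective_iff_surjective_of_finrank_eq_finrank h).1 (Θ_injective hℓ₀)

theorem exists_ne_zero_LL : ∃ ℓ₀ : LL p F, ℓ₀ ≠ 0 := by
  have h : 0 < Module.finrank (ZMod p) (LL p F) := by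
    rw [Subspace.dual_finrank_eq (K := ZMod p) (V := kF p F)]
    exact Module.finrank_pos
  have := Module.nontrivial_of_finrank_pos h
  exact exists_ne 0

/-- An element inertial on `F` acts trivially on the residue field. -/
theorem m_zero_of_inertial {τ : LocGal p} (hτ : ∀ x ∈ F, ‖x‖ ≤ 1 → ‖τ x - x‖ < 1) :
    m p F π hπ 0 τ = LinearMap.id := by
  ext y
  obtain ⟨x, hx, hx1, rfl⟩ := res_surjective (p := p) (F := F) y
  rw [m_res hπ 0 τ hx hx1, pow_zero, one_mul, div_one, LinearMap.id_apply,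
    res_eq_iff (map_mem τ hx) (by rw [Levels.norm_map]; exact hx1) hx hx1]
  exact hτ x hx hx1

theorem m_zero_inv_of_inertial {τ : LocGal p} (hτ : ∀ x ∈ F, ‖x‖ ≤ 1 → ‖τ x - x‖ < 1) :
    m p F π hπ 0 τ⁻¹ = LinearMap.id := by
  have h := m_mul hπ 0 τ τ⁻¹
  rw [mul_inv_cancel, m_one, m_zero_of_inertial hπ hτ, LinearMap.id_comp] at h
  exact h.symm

/-- A Frobenius lift acts as `y ↦ y ^ p` on the residue field. -/
theorem m_zero_of_frob {φ : LocGal p} (hφ : ∀ x ∈ F, ‖x‖ ≤ 1 → ‖φ x - x ^ p‖ < 1)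
    (y : kF p F) : m p F π hπ 0 φ y = y ^ p := by
  obtain ⟨x, hx, hx1, rfl⟩ := res_surjective (p := p) (F := F) y
  rw [m_res hπ 0 φ hx hx1, pow_zero, one_mul, div_one, ← res_pow hx hx1,
    res_eq_iff (map_mem φ hx) (by rw [Levels.norm_map]; exact hx1) (pow_mem hx p)
      (by rw [norm_pow]; exact pow_le_one₀ (norm_nonneg _) hx1)]
  exact hφ x hx hx1

theorem m_zero_inv_frob {φ : LocGal p} (hφ : ∀ x ∈ F, ‖x‖ ≤ 1 → ‖φ x - x ^ p‖ < 1)
    (y : kF p F) : m p F π hπ 0 φ⁻¹ (y ^ p) = y := by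
  have h := m_mul hπ 0 φ⁻¹ φ
  rw [inv_mul_cancel, m_one] at h
  have h2 := congrArg (fun f : kF p F →ₗ[ZMod p] kF p F => f y) h
  simp only [LinearMap.id_apply, LinearMap.comp_apply] at h2
  rw [m_zero_of_frob hπ hφ] at h2
  exact h2.symm

variable (p F) in
/-- The level scalar `a_i = ω̄(τ) · c̄(τ⁻¹)^i` of an inertial `τ`. -/
def aLev (τ : LocGal p) (i : ℕ) : kF p F :=
  algebraMap (ZMod p) (kF p F) (ωZ hζ τ) * m p F π hπ i τ⁻¹ 1

theorem ρL_Θ_inertial {τ : LocGal p} (hτ : ∀ x ∈ F, ‖x‖ ≤ 1 → ‖τ x - x‖ < 1) (i : ℕ)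
    (ℓ₀ : LL p F) (x : kF p F) :
    ρL p F π hπ hζ i τ (Θ ℓ₀ x) = Θ ℓ₀ (aLev p F hζ hπ τ i * x) := by
  ext y
  rw [ρL_apply, Θ_apply, Θ_apply]
  have h1 : m p F π hπ i τ⁻¹ y = y * m p F π hπ i τ⁻¹ 1 := by
    have := m_smul hπ i τ⁻¹ y 1
    rw [mul_one, m_zero_inv_of_inertial hπ hτ, LinearMap.id_apply] at this
    exact this
  rw [h1, aLev, Algebra.algebraMap_eq_smul_one, smul_mul_assoc, one_mul, smul_mul_assoc,
    smul_mul_assoc, map_smul, smul_eq_mul]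
  congr 2
  ring

theorem ρL_Θ_frob {φ : LocGal p} (hφ : ∀ x ∈ F, ‖x‖ ≤ 1 → ‖φ x - x ^ p‖ < 1) (i : ℕ)
    {ℓ₀ : LL p F} {b : kF p F} (hb : Θ ℓ₀ b = ρL p F π hπ hζ i φ ℓ₀) (x : kF p F) :
    ρL p F π hπ hζ i φ (Θ ℓ₀ x) = Θ ℓ₀ (b * x ^ p) := by
  ext y
  have h2 : Θ ℓ₀ (b * x ^ p) y = Θ ℓ₀ b (x ^ p * y) := by
    rw [Θ_apply, Θ_apply, mul_assoc]
  rw [h2, hb, ρL_apply, ρL_apply, Θ_apply, m_smul hπ i φ⁻¹ (x ^ p) y, m_zero_inv_frob hπ hφ]

end Theta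

/-! ### The bound of one level by a descent module -/

section LevelBound

variable {p F}
variable {N : Type*} [AddCommGroup N] [Module (ZMod p) N] [Finite N]
  (ρ : LocGal p →* (N →ₗ[ZMod p] N))

theorem ρL_inv_apply (i : ℕ) (g : LocGal p) (ℓ : LL p F) :
    ρL p F π hπ hζ i g⁻¹ (ρL p F π hπ hζ i g ℓ) = ℓ := by
  rw [← Module.End.mul_apply, ← map_mul, inv_mul_cancel, map_one, Module.End.one_apply]

/-- Every equivariant map on `X i` extends to `𝔏` (Maschke). -/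
theorem exists_extension (hpF : ¬ p ∣ Module.finrank ℚ_[p] F)
    (hρ : ∀ σ ∈ F.fixingSubgroup, ρ σ = 1) (i : ℕ) (H : HomG (ρX p F hζ hζF hπ i) ρ) :
    ∃ Ht : LL p F →ₗ[ZMod p] N, (∀ g ℓ, Ht (ρL p F π hπ hζ i g ℓ) = ρ g (Ht ℓ)) ∧
      ∀ x : ↥(X p F hζ hζF hπ i), Ht x = H.1 x := by
  have : (F.fixingSubgroup : Subgroup (LocGal p)).Normal := normal_fix
  have : (F.fixingSubgroup : Subgroup (LocGal p)).FiniteIndex := finiteIndex_fix F
  have hidx : ¬ p ∣ (F.fixingSubgroup : Subgroup (LocGal p)).index := by rwa [index_fix]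
  exact AbstractCount.exists_equivariant_extension (F.fixingSubgroup : Subgroup (LocGal p)) hidx
    (ρL p F π hπ hζ i) ρ (fun g hg => ρL_of_fix hπ hζ hζF i hg) hρ (X p F hζ hζF hπ i)
    (fun g x hx => ρL_mem_X hζ hζF hπ i g hx) H.1 (fun g x => H.2 g x)

theorem card_HomG_le_card_Ssub (hpF : ¬ p ∣ Module.finrank ℚ_[p] F)
    (hρ : ∀ σ ∈ F.fixingSubgroup, ρ σ = 1) {τ φ : LocGal p}
    (hτ : ∀ x ∈ F, ‖x‖ ≤ 1 → ‖τ x - x‖ < 1) (hφ : ∀ x ∈ F, ‖x‖ ≤ 1 → ‖φ x - x ^ p‖ < 1)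
    (i : ℕ) :
    ∃ b : kF p F, b ≠ 0 ∧ Nat.card (HomG (ρX p F hζ hζF hπ i) ρ) ≤
      Nat.card (Ssub p (aLev p F hζ hπ τ i) b (ρ τ) (ρ φ)) := by
  obtain ⟨ℓ₀, hℓ₀⟩ := exists_ne_zero_LL (p := p) (F := F)
  obtain ⟨b, hb⟩ := Θ_surjective hℓ₀ (ρL p F π hπ hζ i φ ℓ₀)
  have hb0 : b ≠ 0 := by
    rintro rfl
    rw [map_zero] at hb
    apply hℓ₀
    rw [← ρL_inv_apply hζ hπ i φ ℓ₀, ← hb, map_zero]
  refine ⟨b, hb0, ?_⟩
  choose ext hext1 hext2 using exists_extension hζ hζF hπ ρ hpF hρ i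
  have hmem : ∀ H, (ext H).comp (Θ ℓ₀) ∈ Ssub p (aLev p F hζ hπ τ i) b (ρ τ) (ρ φ) := by
    intro H
    rw [mem_Ssub]
    constructor
    · intro y
      rw [LinearMap.comp_apply, LinearMap.comp_apply, ← ρL_Θ_inertial hζ hπ hτ, hext1]
    · intro y
      rw [LinearMap.comp_apply, LinearMap.comp_apply, ← ρL_Θ_frob hζ hπ hφ i hb, hext1]
  refine Nat.card_le_card_of_injective (fun H => ⟨(ext H).comp (Θ ℓ₀), hmem H⟩) ?_
  intro H H' h
  have h1 : (ext H).comp (Θ ℓ₀) = (ext H').comp (Θ ℓ₀) := congrArg Subtype.val h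
  have h2 : ext H = ext H' := by
    ext ℓ
    obtain ⟨x, rfl⟩ := Θ_surjective hℓ₀ ℓ
    exact congrArg (fun f : kF p F →ₗ[ZMod p] N => f x) h1
  apply Subtype.ext
  ext x
  rw [← hext2 H x, ← hext2 H' x, h2]

end LevelBound

/-! ### The top piece: the critical level `‖π‖ ^ n ≤ ‖ζ - 1‖ ^ p` -/

section Top

variable {p F}
variable {N : Type*} [AddCommGroup N] [Module (ZMod p) N] [Finite N]
  (ρ : LocGal p →* (N →ₗ[ZMod p] N))

/-- At the critical level the symbols are invariant under the whole group. -/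
theorem ρL_eq_self_of_mem_X {n : ℕ} (hn1 : 1 ≤ n) (hn : ‖π‖ ^ n ≤ ‖ζ - 1‖ ^ p) (g : LocGal p)
    {ℓ : LL p F} (hℓ : ℓ ∈ X p F hζ hζF hπ n) : ρL p F π hπ hζ n g ℓ = ℓ := by
  induction hℓ using Submodule.span_induction with
  | mem ℓ hℓ =>
    obtain ⟨σ, rfl⟩ := hℓ
    by_cases h : 1 ≤ n ∧ σ ∈ Gam p F ζ π hζ hζF (n + 1)
    · rw [← R_conj hζ hζF hπ h.1 g h.2]
      have hN : (F.fixingSubgroup : Subgroup (LocGal p)).Normal := normal_fix
      have hκF : σ⁻¹ * g * σ * g⁻¹ ∈ F.fixingSubgroup := by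
        have h1 : g * σ * g⁻¹ ∈ F.fixingSubgroup := conj_mem_fix g h.2.1
        have h2 := mul_mem (inv_mem h.2.1) h1
        have h3 : σ⁻¹ * (g * σ * g⁻¹) = σ⁻¹ * g * σ * g⁻¹ := by group
        rwa [h3] at h2
      have hκ : σ⁻¹ * g * σ * g⁻¹ ∈ Gam p F ζ π hζ hζF n :=
        mem_Gam_of_inertia F hζ hζF hn hκF (commutator_mem_localInertia g σ)
      have hκ' : σ⁻¹ * g * σ * g⁻¹ ∈ Gam p F ζ π hζ hζF (n + 1) :=
        Gam_mono hζ hζF hπ.2.2.1.le (Nat.le_succ n) hκ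
      have h4 : g * σ * g⁻¹ = σ * (σ⁻¹ * g * σ * g⁻¹) := by group
      rw [h4, R_mul hζ hζF hπ h.1 h.2 hκ', R_eq_zero_of_mem_Gam hζ hζF hπ hn1 hκ, add_zero]
    · rw [R_eq_zero_of_not hζ hζF hπ h, map_zero]
  | zero => rw [map_zero]
  | add x y _ _ hx hy => rw [map_add, hx, hy]
  | smul c x _ hx => rw [map_smul, hx]

theorem m_apply_one_ne_zero (i : ℕ) (g : LocGal p) : m p F π hπ i g 1 ≠ 0 := by
  rw [m_apply_one]
  have hF : (g π / π) ^ i ∈ F := pow_mem (div_mem (map_mem g hπ.1) hπ.1) i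
  have h1 : ‖(g π / π) ^ i‖ = 1 := by
    rw [norm_pow, norm_div, Levels.norm_map, div_self (norm_ne_zero_iff.mpr (IsUnif.ne_zero hπ)),
      one_pow]
  intro h0
  rw [res_eq_zero_iff hF h1.le, h1] at h0
  exact lt_irrefl _ h0

/-- An invariant functional at level `n` lies in a descent module for `N = ZMod p`. -/
theorem mem_Ssub_of_invariant {n : ℕ} {τ φ : LocGal p}
    (hτ : ∀ x ∈ F, ‖x‖ ≤ 1 → ‖τ x - x‖ < 1) (hφ : ∀ x ∈ F, ‖x‖ ≤ 1 → ‖φ x - x ^ p‖ < 1)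
    {ℓ : LL p F} (hℓ : ∀ g, ρL p F π hπ hζ n g ℓ = ℓ) :
    ℓ ∈ Ssub p (m p F π hπ n τ 1) (m p F π hπ n φ 1)
      ((ωZ hζ τ) • (LinearMap.id : ZMod p →ₗ[ZMod p] ZMod p))
      ((ωZ hζ φ) • (LinearMap.id : ZMod p →ₗ[ZMod p] ZMod p)) := by
  have key : ∀ (g : LocGal p) (y : kF p F), ℓ (m p F π hπ n g y) = ωZ hζ g * ℓ y := by
    intro g y
    have h1 := congrArg (fun f : LL p F => f y) (hℓ g⁻¹)
    simp only [ρL_apply, inv_inv] at h1
    rw [← h1, ← mul_assoc, ωZ_mul_inv, one_mul]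
  rw [mem_Ssub]
  constructor
  · intro y
    have h2 := m_smul hπ n τ y 1
    rw [mul_one, m_zero_of_inertial hπ hτ, LinearMap.id_apply] at h2
    rw [mul_comm, ← h2, key τ y]
    rfl
  · intro y
    have h2 := m_smul hπ n φ y 1
    rw [mul_one, m_zero_of_frob hπ hφ] at h2
    rw [mul_comm, ← h2, key φ y]
    rfl

theorem card_X_le {n : ℕ} (hn1 : 1 ≤ n) (hn : ‖π‖ ^ n ≤ ‖ζ - 1‖ ^ p) {τ φ : LocGal p}
    (hτ : ∀ x ∈ F, ‖x‖ ≤ 1 → ‖τ x - x‖ < 1) (hφ : ∀ x ∈ F, ‖x‖ ≤ 1 → ‖φ x - x ^ p‖ < 1) :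
    Nat.card ↥(X p F hζ hζF hπ n) ≤ p := by
  set S := Ssub p (m p F π hπ n τ 1) (m p F π hπ n φ 1)
      ((ωZ hζ τ) • (LinearMap.id : ZMod p →ₗ[ZMod p] ZMod p))
      ((ωZ hζ φ) • (LinearMap.id : ZMod p →ₗ[ZMod p] ZMod p)) with hS
  have h1 : Nat.card ↥(X p F hζ hζF hπ n) ≤ Nat.card S := by
    refine Nat.card_le_card_of_injective
      (fun x => (⟨x.1, mem_Ssub_of_invariant hζ hπ hτ hφ
        (fun g => ρL_eq_self_of_mem_X hζ hζF hπ hn1 hn g x.2)⟩ : S)) ?_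
    intro x y h
    have h' := congrArg (fun s : ↥S => (s : LL p F)) h
    exact Subtype.ext h'
  have h2 := card_Ssub_pow_le p (m p F π hπ n τ 1) (m_apply_one_ne_zero hπ n φ)
    ((ωZ hζ τ) • (LinearMap.id : ZMod p →ₗ[ZMod p] ZMod p))
    ((ωZ hζ φ) • (LinearMap.id : ZMod p →ₗ[ZMod p] ZMod p))
  have h3 : Nat.card (LinearMap.ker (Polynomial.aeval
      ((ωZ hζ τ) • (LinearMap.id : ZMod p →ₗ[ZMod p] ZMod p))
      (minpoly (ZMod p) (m p F π hπ n τ 1)))) ≤ p := by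
    calc _ ≤ Nat.card (ZMod p) := Nat.card_le_card_of_injective _ Subtype.val_injective
      _ = p := Nat.card_zmod p
  have hd : (minpoly (ZMod p) (m p F π hπ n τ 1)).natDegree ≠ 0 :=
    (minpoly.natDegree_pos (isIntegral_zmod p _)).ne'
  calc Nat.card ↥(X p F hζ hζF hπ n) ≤ Nat.card S := h1
    _ ≤ Nat.card S ^ (minpoly (ZMod p) (m p F π hπ n τ 1)).natDegree := Nat.le_self_pow hd _
    _ ≤ p := h2.trans h3

end Top

end Fermat.Agent.S56.Flat.LevelCount
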