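/-
PROJECT T (S56), block (a3) Flat, file LevelMain (helper27): the top piece of the level count and
the final bound

  `card Z¹_{Gam e} ≤ card B¹ * (card N^G * ∏_{n ∈ [e, e+e')} card (Ssub p (aLev τ n) (b n) (ρ τ) (ρ φ)))`.
-/
import Mathlib
import Fermat.Agent.S56.Flat.LevelCount

set_option autoImplicit false
set_option linter.unusedSectionVars false

noncomputable section

namespace Fermat.Agent.S56.Flat.LevelMain

open Fermat.Agent.CFT.Local.Model Fermat.Agent.CFT.Local.PadicAlgClLocal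
  Fermat.Agent.CFT.LocalBridge Fermat.Agent.S56.Flat.KummerInj Fermat.Agent.S56.Flat.ResField
  Fermat.Agent.S56.Flat.Passage.NormFrame Fermat.Agent.S56.Flat.Levels
  Fermat.Agent.S56.Flat.LevelAux Fermat.Agent.S56.Flat.Descent
  Fermat.Agent.S56.Flat.LevelCount

open scoped Fermat.Agent.S56.Flat.ResField

variable {p : ℕ} [Fact p.Prime]

local notation "Ω" => PadicAlgCl p

variable {F : IntermediateField ℚ_[p] (PadicAlgCl p)} [FiniteDimensional ℚ_[p] F]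
  [IsGalois ℚ_[p] F]

variable {ζ π : PadicAlgCl p} (hζ : IsPrimitiveRoot ζ p) (hζF : ζ ∈ F) (hπ : IsUnif p F π)

variable {N : Type*} [AddCommGroup N] [Module (ZMod p) N] [Finite N]
  (ρ : LocGal p →* (N →ₗ[ZMod p] N))

/-- a generator of `X n` at the critical level -/
theorem exists_generator_X {n : ℕ} (hn1 : 1 ≤ n) (hn : ‖π‖ ^ n ≤ ‖ζ - 1‖ ^ p) {τ φ : LocGal p}
    (hτ : ∀ x ∈ F, ‖x‖ ≤ 1 → ‖τ x - x‖ < 1) (hφ : ∀ x ∈ F, ‖x‖ ≤ 1 → ‖φ x - x ^ p‖ < 1) :
    ∃ x₀ : LL p F, x₀ ∈ X p F hζ hζF hπ n ∧ ∀ x ∈ X p F hζ hζF hπ n, ∃ c : ZMod p, x = c • x₀ := by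
  have hcard := card_X_le hζ hζF hπ hn1 hn hτ hφ
  by_cases h : ∃ x₀ ∈ X p F hζ hζF hπ n, x₀ ≠ 0
  · obtain ⟨x₀, hx₀X, hx₀⟩ := h
    refine ⟨x₀, hx₀X, ?_⟩
    have hinj0 : Function.Injective (fun c : ZMod p => c • x₀) :=
      smul_left_injective (ZMod p) hx₀
    let f : ZMod p → ↥(X p F hζ hζF hπ n) := fun c =>
      ⟨c • x₀, Submodule.smul_mem _ c hx₀X⟩
    have hinj : Function.Injective f := by
      intro c c' hcc
      exact hinj0 (congrArg (fun s : ↥(X p F hζ hζF hπ n) => (s : LL p F)) hcc)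
    have hbij := hinj.bijective_of_nat_card_le (by rw [Nat.card_zmod]; exact hcard)
    intro x hx
    obtain ⟨c, hc⟩ := hbij.2 ⟨x, hx⟩
    exact ⟨c, (congrArg (fun s : ↥(X p F hζ hζF hπ n) => (s : LL p F)) hc).symm⟩
  · push Not at h
    exact ⟨0, Submodule.zero_mem _, fun x hx => ⟨0, by rw [zero_smul]; exact h x hx⟩⟩

/-- **The top piece**: equivariant maps out of the critical level are invariant vectors. -/
theorem card_HomG_top_le (hpF : ¬ p ∣ Module.finrank ℚ_[p] F)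
    (hρ : ∀ σ ∈ F.fixingSubgroup, ρ σ = 1) {n : ℕ} (hn1 : 1 ≤ n)
    (hn : ‖π‖ ^ n ≤ ‖ζ - 1‖ ^ p) {τ φ : LocGal p}
    (hτ : ∀ x ∈ F, ‖x‖ ≤ 1 → ‖τ x - x‖ < 1) (hφ : ∀ x ∈ F, ‖x‖ ≤ 1 → ‖φ x - x ^ p‖ < 1) :
    Nat.card (HomG (ρX p F hζ hζF hπ n) ρ) ≤ Nat.card {x : N // ∀ g, ρ g x = x} := by
  obtain ⟨x₀, hx₀X, hx₀⟩ := exists_generator_X hζ hζF hπ hn1 hn hτ hφ
  choose ext hext1 hext2 using exists_extension hζ hζF hπ ρ hpF hρ n
  have hinv : ∀ H : HomG (ρX p F hζ hζF hπ n) ρ, ∀ g, ρ g (ext H x₀) = ext H x₀ := by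
    intro H g
    have h1 := hext1 H g x₀
    rw [ρL_eq_self_of_mem_X hζ hζF hπ hn1 hn g hx₀X] at h1
    exact h1.symm
  have hdet : ∀ (H : HomG (ρX p F hζ hζF hπ n) ρ) (x : ↥(X p F hζ hζF hπ n)) (c : ZMod p),
      (x : LL p F) = c • x₀ → H.1 x = c • ext H x₀ := by
    intro H x c hc
    have h1 : ext H (x : LL p F) = ext H (c • x₀) := congrArg (ext H) hc
    have h2 : ext H (c • x₀) = c • ext H x₀ := LinearMap.map_smul (ext H) c x₀
    exact (hext2 H x).symm.trans (h1.trans h2)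
  let f : HomG (ρX p F hζ hζF hπ n) ρ → {x : N // ∀ g, ρ g x = x} :=
    fun H => ⟨ext H x₀, hinv H⟩
  refine Nat.card_le_card_of_injective f ?_
  intro H H' h
  have h1 : ext H x₀ = ext H' x₀ := congrArg (fun s : {x : N // ∀ g, ρ g x = x} => (s : N)) h
  apply Subtype.ext
  refine LinearMap.ext fun x => ?_
  obtain ⟨c, hc⟩ := hx₀ x.1 x.2
  rw [hdet H x c hc, hdet H' x c hc, h1]

/-- `card B¹ * card N^G = card N`. -/
theorem card_B1_mul_card_fixed {G : Type*} [Group G] {N : Type*} [AddCommGroup N]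
    [Module (ZMod p) N] [Finite N] (ρ : G →* (N →ₗ[ZMod p] N)) :
    Nat.card {c : G → N // ∃ n, ∀ g, c g = ρ g n - n} * Nat.card {x : N // ∀ g, ρ g x = x} =
      Nat.card N := by
  let d : N →ₗ[ZMod p] (G → N) :=
    { toFun := fun n g => ρ g n - n
      map_add' := fun n n' => by
        funext g
        simp only [map_add, Pi.add_apply]
        abel
      map_smul' := fun a n => by
        funext g
        simp only [map_smul, Pi.smul_apply, RingHom.id_apply, smul_sub] }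
  have hd : ∀ n g, d n g = ρ g n - n := fun _ _ => rfl
  have e1 : {c : G → N // ∃ n, ∀ g, c g = ρ g n - n} ≃ ↥(LinearMap.range d) :=
    Equiv.subtypeEquivRight fun c => by
      rw [LinearMap.mem_range]
      constructor
      · rintro ⟨n, hn⟩
        exact ⟨n, funext fun g => (hn g).symm⟩
      · rintro ⟨n, rfl⟩
        exact ⟨n, fun g => rfl⟩
  have e2 : {x : N // ∀ g, ρ g x = x} ≃ ↥(LinearMap.ker d) :=
    Equiv.subtypeEquivRight fun x => by
      rw [LinearMap.mem_ker]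
      constructor
      · intro h
        funext g
        rw [hd, h g, sub_self]
        rfl
      · intro h g
        have := congrFun h g
        rw [hd] at this
        exact sub_eq_zero.mp this
  have e3 : (N ⧸ LinearMap.ker d) ≃ ↥(LinearMap.range d) := (d.quotKerEquivRange).toEquiv
  rw [Nat.card_congr e1, Nat.card_congr e2, ← Nat.card_congr e3]
  rw [mul_comm]
  exact (Submodule.card_eq_card_quotient_mul_card (LinearMap.ker d)).symm

/-- **The level count.** -/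
theorem card_Z_le (hpF : ¬ p ∣ Module.finrank ℚ_[p] F) {e e' : ℕ}
    (he : ‖π‖ ^ e = (p : ℝ)⁻¹) (hee' : e = (p - 1) * e') (hlam : ‖ζ - 1‖ = ‖π‖ ^ e')
    (hρ : ∀ σ ∈ F.fixingSubgroup, ρ σ = 1) {τ φ : LocGal p}
    (hτ : ∀ x ∈ F, ‖x‖ ≤ 1 → ‖τ x - x‖ < 1) (hφ : ∀ x ∈ F, ‖x‖ ≤ 1 → ‖φ x - x ^ p‖ < 1) :
    ∃ b : ℕ → kF p F, (∀ n, b n ≠ 0) ∧
      Finite {c : LocGal p → N // (∀ g h, c (g * h) = c g + ρ g (c h)) ∧
        ∀ σ ∈ Gam p F ζ π hζ hζF e, c σ = 0} ∧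
      Nat.card {c : LocGal p → N // (∀ g h, c (g * h) = c g + ρ g (c h)) ∧
        ∀ σ ∈ Gam p F ζ π hζ hζF e, c σ = 0} ≤
      Nat.card N * ∏ n ∈ Finset.Ico e (e + e'),
        Nat.card (Ssub p (aLev p F hζ hπ τ n) (b n) (ρ τ) (ρ φ)) := by
  have hp : p.Prime := Fact.out
  choose b hb0 hb using fun i => card_HomG_le_card_Ssub hζ hζF hπ ρ hpF hρ hτ hφ i
  refine ⟨b, hb0, ?_⟩
  obtain ⟨hfin, hle⟩ := card_Z_le_prod_HomG hζ hζF hπ hpF he hee' ρ hρ
  refine ⟨hfin, hle.trans ?_⟩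
  have he1 : 1 ≤ e := one_le_of_pow_eq he
  have hpe : e + e' = p * e' := by
    have hq : p = (p - 1) + 1 := by have := hp.two_le; omega
    calc e + e' = (p - 1) * e' + 1 * e' := by rw [hee', one_mul]
      _ = ((p - 1) + 1) * e' := by ring
      _ = p * e' := by rw [← hq]
  have hcrit : ‖π‖ ^ (e + e') ≤ ‖ζ - 1‖ ^ p := by
    rw [hlam, ← pow_mul, hpe, mul_comm]
  have htop := card_HomG_top_le hζ hζF hπ ρ hpF hρ (n := e + e') (by omega) hcrit hτ hφ
  rw [Finset.prod_Ico_succ_top (by omega : e ≤ e + e'), ← card_B1_mul_card_fixed ρ]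
  calc Nat.card {c : LocGal p → N // ∃ n, ∀ g, c g = ρ g n - n} *
        ((∏ i ∈ Finset.Ico e (e + e'), Nat.card (HomG (ρX p F hζ hζF hπ i) ρ)) *
          Nat.card (HomG (ρX p F hζ hζF hπ (e + e')) ρ))
      ≤ Nat.card {c : LocGal p → N // ∃ n, ∀ g, c g = ρ g n - n} *
        ((∏ n ∈ Finset.Ico e (e + e'),
          Nat.card (Ssub p (aLev p F hζ hπ τ n) (b n) (ρ τ) (ρ φ))) *
          Nat.card {x : N // ∀ g, ρ g x = x}) :=
        Nat.mul_le_mul_left _ (Nat.mul_le_mul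
          (Finset.prod_le_prod (fun _ _ => Nat.zero_le _) (fun i _ => hb i)) htop)
    _ = _ := by ring

end Fermat.Agent.S56.Flat.LevelMain
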