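/-
PROJECT T (S56), block (a3) Flat, file LevelNum (helper27): the level scalars `aLev τ n` in terms of
`c̄ := res (τ π / π)`: `aLev τ n * c̄ ^ n = c̄ ^ e'`, `c̄ ^ e' = ω̄(τ)`, `c̄` of exact order `e` for the
tame generator.  These are the hypotheses of the numerics leaves `NumA` / `NumB`.
-/
import Mathlib
import Fermat.Agent.S56.Flat.LevelMain
import Fermat.Agent.S56.Flat.CycloFrame

set_option autoImplicit false
set_option linter.unusedSectionVars false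

noncomputable section

namespace Fermat.Agent.S56.Flat.LevelNum

open Fermat.Agent.CFT.Local.Model Fermat.Agent.CFT.Local.PadicAlgClLocal
  Fermat.Agent.CFT.LocalBridge Fermat.Agent.S56.Flat.KummerInj Fermat.Agent.S56.Flat.ResField
  Fermat.Agent.S56.Flat.Passage.NormFrame Fermat.Agent.S56.Flat.Levels
  Fermat.Agent.S56.Flat.LevelAux Fermat.Agent.S56.Flat.Descent
  Fermat.Agent.S56.Flat.LevelCount

open scoped Fermat.Agent.S56.Flat.ResField

variable {p : ℕ} [Fact p.Prime]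

local notation "Ω" => PadicAlgCl p

variable {F : IntermediateField ℚ_[p] (PadicAlgCl p)} [FiniteDimensional ℚ_[p] F]
  [IsGalois ℚ_[p] F]

variable {ζ π : PadicAlgCl p} (hζ : IsPrimitiveRoot ζ p) (hζF : ζ ∈ F) (hπ : IsUnif p F π)

variable (p F π) in
/-- `c̄(τ) = res (τ π / π)`. -/
def cbar (τ : LocGal p) : kF p F := res p F (τ π / π)

include hπ in
theorem cbar_mem (τ : LocGal p) : τ π / π ∈ F := div_mem (map_mem τ hπ.1) hπ.1

include hπ in
theorem norm_cbar (τ : LocGal p) : ‖τ π / π‖ = 1 := by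
  rw [norm_div, Levels.norm_map, div_self (norm_ne_zero_iff.mpr (IsUnif.ne_zero hπ))]

include hπ in
theorem cbar_pow (τ : LocGal p) (n : ℕ) : cbar p F π τ ^ n = m p F π hπ n τ 1 := by
  rw [m_apply_one, cbar, res_pow (cbar_mem hπ τ) (norm_cbar hπ τ).le]

include hπ in
theorem cbar_ne_zero (τ : LocGal p) : cbar p F π τ ≠ 0 := by
  have h := m_apply_one_ne_zero hπ 1 τ
  rwa [← cbar_pow hπ, pow_one] at h

include hπ in
/-- exact order of `c̄(τ)` for the tame generator. -/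
theorem dvd_of_cbar_pow_eq_one {e : ℕ} {τ : LocGal p}
    (hgen : ∀ m : ℕ, ‖(τ π / π) ^ m - 1‖ < 1 → e ∣ m) {m : ℕ} (h : cbar p F π τ ^ m = 1) :
    e ∣ m := by
  apply hgen
  rw [cbar, ← res_pow (cbar_mem hπ τ) (norm_cbar hπ τ).le, ← res_one (p := p) (F := F)] at h
  exact (res_eq_iff (pow_mem (cbar_mem hπ τ) m) (by rw [norm_pow, norm_cbar hπ τ, one_pow])
    (one_mem F) (by rw [norm_one])).1 h

/-- `aLev τ n * c̄ ^ n = ω̄(τ)`. -/
theorem aLev_mul_cbar_pow {τ : LocGal p} (hτ : ∀ x ∈ F, ‖x‖ ≤ 1 → ‖τ x - x‖ < 1) (n : ℕ) :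
    aLev p F hζ hπ τ n * cbar p F π τ ^ n = algebraMap (ZMod p) (kF p F) (ωZ hζ τ) := by
  have h1 : m p F π hπ n τ (m p F π hπ n τ⁻¹ 1) = 1 := by
    have h2 := m_mul hπ n τ τ⁻¹
    rw [mul_inv_cancel, m_one] at h2
    have h3 := congrArg (fun f : kF p F →ₗ[ZMod p] kF p F => f 1) h2
    simp only [LinearMap.id_apply, LinearMap.comp_apply] at h3
    exact h3.symm
  have h4 := m_smul hπ n τ (m p F π hπ n τ⁻¹ 1) 1
  rw [mul_one, m_zero_of_inertial hπ hτ, LinearMap.id_apply, h1, ← cbar_pow hπ τ n] at h4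
  rw [aLev, mul_assoc, ← h4, mul_one]

include hζF in
/-- `aLev τ n * c̄ ^ n = c̄ ^ e'`. -/
theorem aLev_mul_cbar_pow' {e' : ℕ} (he' : ‖ζ - 1‖ = ‖π‖ ^ e') {τ : LocGal p}
    (hτ : ∀ x ∈ F, ‖x‖ ≤ 1 → ‖τ x - x‖ < 1) (n : ℕ) :
    aLev p F hζ hπ τ n * cbar p F π τ ^ n = cbar p F π τ ^ e' := by
  rw [aLev_mul_cbar_pow hζ hπ hτ n, cbar, CycloFrame.res_pow_eq_omega hζ hζF hπ he' hτ]

end Fermat.Agent.S56.Flat.LevelNum
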