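/-
PROJECT T (S56), block (a3) Flat/LevelCount, leaf (L-F) of helper27 #4103 (3) (typist helper21):
THE TAME FRAME of a finite Galois extension `F` of `ℚ_[p]` inside `Ω := PadicAlgCl p`, in the norm
language of `Ω`.

* (F1) `exists_frobLift`        : a Frobenius lift `φ`;
* (F2) `eq_on_of_wild`          : for `p ∤ [F : ℚ_p]`, an automorphism moving every `x ∈ F` by less than
                                  `‖x‖` is trivial on `F`;
* (F3) `exists_tame_generator`  : for `p ∤ [F : ℚ_p]` the inertia group of `F` is cyclic, generated by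
                                  one `τ` whose tame character has exact order `e`;
* (F4) `exists_pow_frob`        : every automorphism is congruent on `F` to a power of a Frobenius lift;
* (F5) `conj_frob_tame`         : `φ τ φ⁻¹ = τ ^ p` on `F`.
-/
import Mathlib
import Fermat.Agent.CFT.Local.Model
import Fermat.Agent.CFT.Local.PadicAlgCl
import Fermat.Agent.CFT.Local.PowIndexModel
import Fermat.Agent.CFT.Local.Tower
import Fermat.Agent.CFT.LocalBridge.Krasner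
import Fermat.Agent.CFT.LocalBridge.Inertia
import Fermat.Agent.Lib.FrobeniusExists
import Fermat.Agent.S56.Unip.ProCyclic
import Fermat.Agent.S56.Flat.Passage.NormFrame

set_option autoImplicit false

namespace Fermat.Agent.S56.Flat.TameFrame

open scoped Fermat.Agent.CFT.Local.Model

open Fermat.Agent.CFT.Local Fermat.Agent.CFT.Local.Model Fermat.Agent.CFT.Local.PadicAlgClLocal
  Fermat.Agent.CFT.LocalBridge IsLocalRing

variable (p : ℕ) [Fact p.Prime]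

/-! ### (F1) a Frobenius lift -/

/-- (F1), in the strong form: a Frobenius lift on all of the unit ball of `Ω`. -/
theorem exists_locFrob : ∃ φ : LocGal p, ∀ z : PadicAlgCl p, ‖z‖ ≤ 1 → ‖φ z - z ^ p‖ < 1 := by
  have hp : p.Prime := Fact.out
  obtain ⟨φ, hφ⟩ := Fermat.Agent.Lib.FrobeniusExists.exists_isFrobeniusAt_algebraicClosure
    (padicPlace p) hp (liesOverPrime_padicPlace p)
  obtain ⟨τ, -, hτ⟩ := Fermat.Agent.S56.Unip.ProCyclic.exists_locFrob p hφ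
  exact ⟨τ, hτ⟩

variable (F : IntermediateField ℚ_[p] (PadicAlgCl p))

/-- (F1) -/
theorem exists_frobLift : ∃ φ : LocGal p, ∀ x ∈ F, ‖x‖ ≤ 1 → ‖φ x - x ^ p‖ < 1 := by
  obtain ⟨φ, hφ⟩ := exists_locFrob p
  exact ⟨φ, fun x _ hx => hφ x hx⟩

/-! ### Ultrametric bookkeeping in `Ω` -/

theorem norm_add_lt {a b : PadicAlgCl p} {r : ℝ} (ha : ‖a‖ < r) (hb : ‖b‖ < r) : ‖a + b‖ < r :=
  lt_of_le_of_lt (IsUltrametricDist.norm_add_le_max a b) (max_lt ha hb)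

theorem norm_sub_lt {a b : PadicAlgCl p} {r : ℝ} (ha : ‖a‖ < r) (hb : ‖b‖ < r) : ‖a - b‖ < r :=
  lt_of_le_of_lt (norm_sub_le_max' p a b) (max_lt ha hb)

theorem norm_sum_lt {ι : Type*} (s : Finset ι) (f : ι → PadicAlgCl p) {r : ℝ} (hr : 0 < r)
    (h : ∀ i ∈ s, ‖f i‖ < r) : ‖∑ i ∈ s, f i‖ < r := by
  classical
  induction s using Finset.induction_on with
  | empty => simpa using hr
  | insert a s ha ih =>
    rw [Finset.sum_insert ha]
    exact norm_add_lt p (h a (Finset.mem_insert_self a s))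
      (ih fun i hi => h i (Finset.mem_insert_of_mem hi))

/-! ### Normality: the action of `LocGal p` on `F` -/

variable [FiniteDimensional ℚ_[p] F] [IsGalois ℚ_[p] F]

omit [FiniteDimensional ℚ_[p] F] in
theorem restrict_apply (σ : LocGal p) (x : F) :
    ((AlgEquiv.restrictNormalHom F σ x : F) : PadicAlgCl p) = σ (x : PadicAlgCl p) :=
  AlgEquiv.restrictNormal_commutes σ F x

omit [FiniteDimensional ℚ_[p] F] in
theorem map_mem (σ : LocGal p) {x : PadicAlgCl p} (hx : x ∈ F) : σ x ∈ F := by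
  have := restrict_apply p F σ ⟨x, hx⟩
  rw [← this]
  exact (AlgEquiv.restrictNormalHom F σ ⟨x, hx⟩).2

theorem pow_finrank_apply (σ : LocGal p) {x : PadicAlgCl p} (hx : x ∈ F) :
    (σ ^ Module.finrank ℚ_[p] F) x = x := by
  have h1 : (AlgEquiv.restrictNormalHom F σ) ^ Module.finrank ℚ_[p] F = 1 := by
    rw [← IsGalois.card_aut_eq_finrank ℚ_[p] F]
    exact pow_card_eq_one'
  have h2 := restrict_apply p F (σ ^ Module.finrank ℚ_[p] F) ⟨x, hx⟩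
  rw [map_pow, h1] at h2
  exact h2.symm

/-! ### (F2) no wild inertia in degree prime to `p` -/

theorem pow_apply_sub_lt {σ : LocGal p} {y : PadicAlgCl p} (hy : ‖σ y - y‖ < ‖y‖) (i : ℕ) :
    ‖(σ ^ i) y - y‖ < ‖y‖ := by
  have hy0 : 0 < ‖y‖ := lt_of_le_of_lt (norm_nonneg _) hy
  induction i with
  | zero => simpa using hy0
  | succ i ih =>
    have e : (σ ^ (i + 1)) y - y = σ ((σ ^ i) y - y) + (σ y - y) := by
      rw [pow_succ', AlgEquiv.mul_apply, map_sub]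
      ring
    rw [e]
    refine norm_add_lt p ?_ hy
    rw [norm_locGal_apply]
    exact ih

/-- (F2) -/
theorem eq_on_of_wild (hpF : ¬ p ∣ Module.finrank ℚ_[p] F) {σ : LocGal p}
    (hσ : ∀ x ∈ F, x ≠ 0 → ‖σ x - x‖ < ‖x‖) : ∀ x ∈ F, σ x = x := by
  intro x hx
  by_contra hne
  set m := Module.finrank ℚ_[p] F with hm
  set y := σ x - x with hy
  have hy0 : y ≠ 0 := fun h => hne (sub_eq_zero.mp h)
  have hyF : y ∈ F := F.sub_mem (map_mem p F σ hx) hx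
  have hyy : ‖σ y - y‖ < ‖y‖ := hσ y hyF hy0
  -- telescoping
  have htel : ∀ n : ℕ, ∑ i ∈ Finset.range n, (σ ^ i) y = (σ ^ n) x - x := by
    intro n
    induction n with
    | zero => simp
    | succ n ih =>
      rw [Finset.sum_range_succ, ih, hy, map_sub, ← AlgEquiv.mul_apply, ← pow_succ]
      ring
  have h0 : ∑ i ∈ Finset.range m, (σ ^ i) y = 0 := by
    rw [htel, pow_finrank_apply p F σ hx, sub_self]
  have h1 : (m : PadicAlgCl p) * y = - ∑ i ∈ Finset.range m, ((σ ^ i) y - y) := by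
    rw [Finset.sum_sub_distrib, h0, Finset.sum_const, Finset.card_range, nsmul_eq_mul]
    ring
  have h2 : ‖(m : PadicAlgCl p) * y‖ < ‖y‖ := by
    rw [h1, norm_neg]
    exact norm_sum_lt p _ _ (norm_pos_iff.mpr hy0) fun i _ => pow_apply_sub_lt p hyy i
  rw [norm_mul, norm_natCast_eq_one p hpF, one_mul] at h2
  exact lt_irrefl _ h2

/-! ### Dictionary with the ring of integers `𝒪 p F` of `CFT/Local/Model` -/

omit [IsGalois ℚ_[p] F] in
theorem norm_coe_le_one (b : ↥(𝒪 p F)) : ‖((b : F) : PadicAlgCl p)‖ ≤ 1 := by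
  rw [← nrm_eq_norm]
  exact b.2

omit [IsGalois ℚ_[p] F] in
theorem mem_maximalIdeal_iff_norm (b : ↥(𝒪 p F)) :
    b ∈ maximalIdeal ↥(𝒪 p F) ↔ ‖((b : F) : PadicAlgCl p)‖ < 1 := by
  rw [Model.mem_maximalIdeal_iff, nrm_eq_norm]

omit [IsGalois ℚ_[p] F] in
theorem residue_eq_iff (a b : ↥(𝒪 p F)) :
    residue ↥(𝒪 p F) a = residue ↥(𝒪 p F) b ↔
      ‖((a : F) : PadicAlgCl p) - ((b : F) : PadicAlgCl p)‖ < 1 := by
  rw [← sub_eq_zero, ← map_sub, residue_eq_zero_iff, mem_maximalIdeal_iff_norm]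
  rfl

/-- an element of the closed unit ball of `F`, as an element of `𝒪 p F` -/
noncomputable def mkInt (x : PadicAlgCl p) (hx : x ∈ F) (h1 : ‖x‖ ≤ 1) : ↥(𝒪 p F) :=
  ⟨⟨x, hx⟩, by rw [mem_𝒪_iff, nrm_eq_norm]; exact h1⟩

omit [IsGalois ℚ_[p] F] in
@[simp] theorem coe_mkInt (x : PadicAlgCl p) (hx : x ∈ F) (h1 : ‖x‖ ≤ 1) :
    (((mkInt p F x hx h1 : ↥(𝒪 p F)) : F) : PadicAlgCl p) = x := rfl

omit [IsGalois ℚ_[p] F] in
theorem coe_galRestrict (s : F ≃ₐ[ℚ_[p]] F) (b : ↥(𝒪 p F)) :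
    ((galRestrict ℤ_[p] ℚ_[p] F ↥(𝒪 p F) s b : ↥(𝒪 p F)) : F) = s (b : F) :=
  algebraMap_galRestrict_apply ℤ_[p] s b

theorem coe_galRestrict_restrict (σ : LocGal p) (b : ↥(𝒪 p F)) :
    (((galRestrict ℤ_[p] ℚ_[p] F ↥(𝒪 p F) (AlgEquiv.restrictNormalHom F σ) b : ↥(𝒪 p F)) : F) :
      PadicAlgCl p) = σ ((b : F) : PadicAlgCl p) := by
  rw [coe_galRestrict, restrict_apply]

/-- the inertia group of `F / ℚ_p`, as a subgroup of the finite Galois group -/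
noncomputable def inertiaF : Subgroup (F ≃ₐ[ℚ_[p]] F) :=
  (Tower.redHom ℤ_[p] ℚ_[p] ↥(𝒪 p F) F).ker

omit [IsGalois ℚ_[p] F] in
theorem mem_inertiaF_iff (s : F ≃ₐ[ℚ_[p]] F) :
    s ∈ inertiaF p F ↔ ∀ x : F, ‖(x : PadicAlgCl p)‖ ≤ 1 →
      ‖((s x : F) : PadicAlgCl p) - (x : PadicAlgCl p)‖ < 1 := by
  unfold inertiaF
  rw [Tower.mem_ker_redHom_iff]
  constructor
  · intro h x hx
    have := h (mkInt p F x x.2 hx)
    rw [mem_maximalIdeal_iff_norm] at this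
    have e : (((galRestrict ℤ_[p] ℚ_[p] F ↥(𝒪 p F) s (mkInt p F x x.2 hx) - mkInt p F x x.2 hx :
        ↥(𝒪 p F)) : F) : PadicAlgCl p) = ((s x : F) : PadicAlgCl p) - (x : PadicAlgCl p) := by
      push_cast
      rw [coe_galRestrict]
      rfl
    rwa [e] at this
  · intro h b
    rw [mem_maximalIdeal_iff_norm]
    have := h (b : F) (norm_coe_le_one p F b)
    have e : (((galRestrict ℤ_[p] ℚ_[p] F ↥(𝒪 p F) s b - b : ↥(𝒪 p F)) : F) : PadicAlgCl p)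
        = ((s (b : F) : F) : PadicAlgCl p) - ((b : F) : PadicAlgCl p) := by
      push_cast
      rw [coe_galRestrict]
    rwa [e]

theorem restrict_mem_inertiaF_iff (σ : LocGal p) :
    AlgEquiv.restrictNormalHom F σ ∈ inertiaF p F ↔ ∀ x ∈ F, ‖x‖ ≤ 1 → ‖σ x - x‖ < 1 := by
  rw [mem_inertiaF_iff]
  constructor
  · intro h x hx h1
    have := h ⟨x, hx⟩ h1
    rwa [restrict_apply] at this
  · intro h x h1
    rw [restrict_apply]
    exact h x x.2 h1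

/-! ### the unit `σ π / π`: an inertial automorphism fixing a uniformizer up to a principal unit is
trivial on `F` -/

theorem norm_zpow_sub_one_lt {u : PadicAlgCl p} (hu : ‖u‖ = 1) (h : ‖u - 1‖ < 1) (k : ℤ) :
    ‖u ^ k - 1‖ < 1 := by
  have hn : ∀ n : ℕ, ‖u ^ n - 1‖ < 1 := fun n => by
    have := Fermat.Agent.S56.Unip.ProCyclic.norm_pow_sub_pow_lt p hu.le (norm_one.le) h n
    rwa [one_pow] at this
  have hu0 : u ≠ 0 := by
    intro h0
    rw [h0, norm_zero] at hu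
    exact zero_ne_one hu
  cases k with
  | ofNat n =>
    rw [Int.ofNat_eq_natCast, zpow_natCast]
    exact hn n
  | negSucc n =>
    rw [zpow_negSucc]
    have e : (u ^ (n + 1))⁻¹ - 1 = -((u ^ (n + 1))⁻¹ * (u ^ (n + 1) - 1)) := by
      have : u ^ (n + 1) ≠ 0 := pow_ne_zero _ hu0
      field_simp
      ring
    rw [e, norm_neg, norm_mul, norm_inv, norm_pow, hu, one_pow, inv_one, one_mul]
    exact hn (n + 1)

/-- (N1) -/
theorem eq_on_of_inert_of_unif (hpF : ¬ p ∣ Module.finrank ℚ_[p] F) {π : PadicAlgCl p}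
    (hπ : Passage.NormFrame.IsUnif p F π) {σ : LocGal p}
    (hσ : ∀ x ∈ F, ‖x‖ ≤ 1 → ‖σ x - x‖ < 1) (hσπ : ‖σ π - π‖ < ‖π‖) : ∀ x ∈ F, σ x = x := by
  apply eq_on_of_wild p F hpF
  intro x hx hx0
  obtain ⟨hπF, hπ0, hπ1, hval⟩ := hπ
  obtain ⟨k, hk⟩ := hval x hx hx0
  have hπne : π ≠ 0 := norm_pos_iff.mp hπ0
  have hπk : π ^ k ≠ 0 := zpow_ne_zero k hπne
  obtain ⟨c, hc⟩ : ∃ c : PadicAlgCl p, c = x / π ^ k := ⟨_, rfl⟩
  have hcF : c ∈ F := by
    rw [hc]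
    exact F.div_mem hx (zpow_mem hπF k)
  have hc1 : ‖c‖ = 1 := by
    rw [hc, norm_div, norm_zpow, hk, div_self]
    rw [← hk]
    exact (norm_pos_iff.mpr hx0).ne'
  have hx' : x = π ^ k * c := by
    rw [hc]
    field_simp
  obtain ⟨u, hu⟩ : ∃ u : PadicAlgCl p, u = σ π / π := ⟨_, rfl⟩
  have hu1 : ‖u‖ = 1 := by
    rw [hu, norm_div, norm_locGal_apply, div_self hπ0.ne']
  have hulT : ‖u - 1‖ < 1 := by
    have : u - 1 = (σ π - π) / π := by
      rw [hu]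
      field_simp
    rw [this, norm_div, div_lt_one hπ0]
    exact hσπ
  have hσπ' : σ π = u * π := by
    rw [hu]
    field_simp
  have e : σ x - x = π ^ k * ((u ^ k - 1) * σ c + (σ c - c)) := by
    rw [hx', map_mul, map_zpow₀, hσπ', mul_zpow]
    ring
  have h1 : ‖(u ^ k - 1) * σ c + (σ c - c)‖ < 1 := by
    refine norm_add_lt p ?_ (hσ c hcF hc1.le)
    rw [norm_mul, norm_locGal_apply, hc1, mul_one]
    exact norm_zpow_sub_one_lt p hu1 hulT k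
  rw [e, norm_mul, norm_zpow, ← hk]
  calc ‖x‖ * ‖(u ^ k - 1) * σ c + (σ c - c)‖ < ‖x‖ * 1 :=
        mul_lt_mul_of_pos_left h1 (norm_pos_iff.mpr hx0)
    _ = ‖x‖ := mul_one _

/-! ### the tame character `θ : inertiaF →* (residue field of F)`, `s ↦ s π / π` -/

section Theta

variable {F} {π : PadicAlgCl p} (hπF : π ∈ F) (hπ0 : π ≠ 0)

omit [FiniteDimensional ℚ_[p] F] [IsGalois ℚ_[p] F] in
include hπ0 in
theorem mkF_ne_zero : (⟨π, hπF⟩ : F) ≠ 0 := fun h => hπ0 (congrArg Subtype.val h)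

/-- the unit `s π / π` of `𝒪 p F` -/
noncomputable def unitOf (s : F ≃ₐ[ℚ_[p]] F) : ↥(𝒪 p F) :=
  ⟨s ⟨π, hπF⟩ * (⟨π, hπF⟩ : F)⁻¹, by
    rw [mem_𝒪_iff, nrm_mul, nrm_inv, nrm_algEquiv,
      mul_inv_cancel₀ (fun h => mkF_ne_zero p hπF hπ0 ((nrm_eq_zero_iff p F).mp h))]⟩

omit [IsGalois ℚ_[p] F] in
theorem coe_unitOf (s : F ≃ₐ[ℚ_[p]] F) :
    ((unitOf p hπF hπ0 s : ↥(𝒪 p F)) : F) = s ⟨π, hπF⟩ * (⟨π, hπF⟩ : F)⁻¹ := rfl

theorem coe_unitOf_restrict (σ : LocGal p) :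
    (((unitOf p hπF hπ0 (AlgEquiv.restrictNormalHom F σ) : ↥(𝒪 p F)) : F) : PadicAlgCl p)
      = σ π / π := by
  rw [coe_unitOf]
  push_cast
  rw [restrict_apply, div_eq_mul_inv]

omit [IsGalois ℚ_[p] F] in
theorem unitOf_one : unitOf p hπF hπ0 1 = 1 := by
  apply Subtype.ext
  rw [coe_unitOf, AlgEquiv.one_apply, mul_inv_cancel₀ (mkF_ne_zero p hπF hπ0)]
  rfl

omit [IsGalois ℚ_[p] F] in
theorem unitOf_mul (s t : F ≃ₐ[ℚ_[p]] F) :
    unitOf p hπF hπ0 (s * t) =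
      galRestrict ℤ_[p] ℚ_[p] F ↥(𝒪 p F) s (unitOf p hπF hπ0 t) * unitOf p hπF hπ0 s := by
  apply Subtype.ext
  have h0 := mkF_ne_zero p hπF hπ0
  have h1 : s ⟨π, hπF⟩ ≠ 0 := (map_ne_zero s).mpr h0
  push_cast
  rw [coe_galRestrict, coe_unitOf, coe_unitOf, coe_unitOf, AlgEquiv.mul_apply, map_mul, map_inv₀]
  field_simp

omit [IsGalois ℚ_[p] F] in
theorem residue_galRestrict {s : F ≃ₐ[ℚ_[p]] F} (hs : s ∈ inertiaF p F) (b : ↥(𝒪 p F)) :
    residue ↥(𝒪 p F) (galRestrict ℤ_[p] ℚ_[p] F ↥(𝒪 p F) s b) = residue ↥(𝒪 p F) b := by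
  have := (Tower.mem_ker_redHom_iff ℤ_[p] ℚ_[p] ↥(𝒪 p F) F s).mp hs b
  rwa [← residue_eq_zero_iff, map_sub, sub_eq_zero] at this

/-- the tame character -/
noncomputable def theta : inertiaF p F →* ResidueField ↥(𝒪 p F) where
  toFun s := residue ↥(𝒪 p F) (unitOf p hπF hπ0 s.1)
  map_one' := by
    change residue ↥(𝒪 p F) (unitOf p hπF hπ0 1) = 1
    rw [unitOf_one, map_one]
  map_mul' s t := by
    change residue ↥(𝒪 p F) (unitOf p hπF hπ0 (s.1 * t.1)) = _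
    rw [unitOf_mul, map_mul, residue_galRestrict p s.2, mul_comm]

omit [IsGalois ℚ_[p] F] in
theorem theta_apply (s : inertiaF p F) :
    theta p hπF hπ0 s = residue ↥(𝒪 p F) (unitOf p hπF hπ0 s.1) := rfl

end Theta

/-! ### injectivity of the tame character, the order of the inertia group -/

theorem theta_injective (hpF : ¬ p ∣ Module.finrank ℚ_[p] F) {π : PadicAlgCl p}
    (hπ : Passage.NormFrame.IsUnif p F π) :
    Function.Injective (theta p hπ.1 (norm_pos_iff.mp hπ.2.1)) := by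
  have hπ0 : π ≠ 0 := norm_pos_iff.mp hπ.2.1
  rw [injective_iff_map_eq_one]
  intro s hs
  rw [theta_apply, ← map_one (residue ↥(𝒪 p F)), residue_eq_iff] at hs
  obtain ⟨σ, hσ⟩ := AlgEquiv.restrictNormalHom_surjective (F := ℚ_[p]) (K₁ := F) (PadicAlgCl p) s.1
  rw [← hσ, coe_unitOf_restrict] at hs
  have hin : ∀ x ∈ F, ‖x‖ ≤ 1 → ‖σ x - x‖ < 1 :=
    (restrict_mem_inertiaF_iff p F σ).mp (hσ ▸ s.2)
  have hσπ : ‖σ π - π‖ < ‖π‖ := by
    have e : σ π - π = π * (σ π / π - 1) := by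
      field_simp
    have h1 : ((((1 : ↥(𝒪 p F)) : ↥(𝒪 p F)) : F) : PadicAlgCl p) = 1 := rfl
    rw [h1] at hs
    rw [e, norm_mul]
    calc ‖π‖ * ‖σ π / π - 1‖ < ‖π‖ * 1 := mul_lt_mul_of_pos_left hs hπ.2.1
      _ = ‖π‖ := mul_one _
  have hfix := eq_on_of_inert_of_unif p F hpF hπ hin hσπ
  apply Subtype.ext
  apply AlgEquiv.ext
  intro x
  apply Subtype.ext
  rw [← hσ, restrict_apply]
  exact hfix x x.2

theorem card_inertiaF : Nat.card (inertiaF p F) = Tower.ramIdx ℤ_[p] ↥(𝒪 p F) :=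
  Tower.card_ker_redHom ℤ_[p] ℚ_[p] ↥(𝒪 p F) F

omit [IsGalois ℚ_[p] F] in
theorem norm_unif_eq {π : PadicAlgCl p} (hπ : Passage.NormFrame.IsUnif p F π) :
    ‖π‖ = nrm p F (ϖu p F) := by
  obtain ⟨hπF, hπ0, hπ1, hval⟩ := hπ
  apply le_antisymm
  · have h1 : nrm p F (⟨π, hπF⟩ : F) < 1 := by rw [nrm_eq_norm]; exact hπ1
    have := (nrm_lt_one_iff_le_nrm_ϖ p F _).mp h1
    rwa [nrm_eq_norm] at this
  · have hne : ((ϖu p F : F) : PadicAlgCl p) ≠ 0 := fun h =>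
      (ϖu p F).ne_zero (Subtype.ext h)
    obtain ⟨k, hk⟩ := hval _ (ϖu p F : F).2 hne
    rw [nrm_eq_norm, hk]
    have hlt : ‖π‖ ^ k < 1 := by
      rw [← hk, ← nrm_eq_norm]
      exact nrm_ϖu_lt_one p F
    have hk1 : 1 ≤ k := by
      by_contra hcon
      have hk0 : k ≤ 0 := by omega
      have : 1 ≤ ‖π‖ ^ k := one_le_zpow_of_nonpos₀ hπ0 hπ1.le hk0
      exact not_lt_of_ge this hlt
    calc ‖π‖ ^ k ≤ ‖π‖ ^ (1 : ℤ) := zpow_le_zpow_right_of_le_one₀ hπ0 hπ1.le hk1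
      _ = ‖π‖ := zpow_one _

omit [IsGalois ℚ_[p] F] in
theorem nrm_ϖu_pow_towerRamIdx :
    nrm p F (ϖu p F) ^ Tower.ramIdx ℤ_[p] ↥(𝒪 p F) = (p : ℝ)⁻¹ := by
  have hmap : Ideal.span {((p : ℕ) : ↥(𝒪 p F))} =
      maximalIdeal ↥(𝒪 p F) ^ Tower.ramIdx ℤ_[p] ↥(𝒪 p F) :=
    (PowIndexModel.map_maximalIdeal_int p F).symm.trans
      (Tower.map_maximalIdeal_eq ℤ_[p] ℚ_[p] ↥(𝒪 p F) F)
  apply le_antisymm
  · have h1 : ϖ p F ^ Tower.ramIdx ℤ_[p] ↥(𝒪 p F) ∈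
        maximalIdeal ↥(𝒪 p F) ^ Tower.ramIdx ℤ_[p] ↥(𝒪 p F) := by
      apply Ideal.pow_mem_pow
      rw [maximalIdeal_eq_span_ϖ]
      exact Ideal.mem_span_singleton_self _
    rw [← hmap, Ideal.mem_span_singleton, dvd_iff_nrm_le p F (natCast_𝒪_ne_zero p F),
      coe_natCast_𝒪, nrm_q] at h1
    have h2 : ((ϖ p F ^ Tower.ramIdx ℤ_[p] ↥(𝒪 p F) : ↥(𝒪 p F)) : F)
        = (ϖu p F : F) ^ Tower.ramIdx ℤ_[p] ↥(𝒪 p F) := rfl
    rwa [h2, nrm_pow] at h1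
  · have h1 : ((p : ℕ) : ↥(𝒪 p F)) ∈ Ideal.span {((p : ℕ) : ↥(𝒪 p F))} :=
      Ideal.mem_span_singleton_self _
    rw [hmap, mem_maximalIdeal_pow_iff, coe_natCast_𝒪, nrm_q] at h1
    exact h1

omit [IsGalois ℚ_[p] F] in
theorem ramIdx_eq_of_norm_pow {π : PadicAlgCl p} (hπ : Passage.NormFrame.IsUnif p F π) {e : ℕ}
    (he : ‖π‖ ^ e = (p : ℝ)⁻¹) : Tower.ramIdx ℤ_[p] ↥(𝒪 p F) = e := by
  have h1 := nrm_ϖu_pow_towerRamIdx p F
  rw [← norm_unif_eq p F hπ, ← he] at h1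
  exact pow_right_injective₀ hπ.2.1 hπ.2.2.1.ne h1

/-- (F3) -/
theorem exists_tame_generator (hpF : ¬ p ∣ Module.finrank ℚ_[p] F) {π : PadicAlgCl p}
    (hπ : Passage.NormFrame.IsUnif p F π) {e : ℕ} (he : ‖π‖ ^ e = (p : ℝ)⁻¹) :
    ∃ τ : LocGal p, (∀ x ∈ F, ‖x‖ ≤ 1 → ‖τ x - x‖ < 1) ∧
      (∀ m : ℕ, ‖(τ π / π) ^ m - 1‖ < 1 → e ∣ m) ∧
      ∀ σ : LocGal p, (∀ x ∈ F, ‖x‖ ≤ 1 → ‖σ x - x‖ < 1) →
        ∃ j : ℕ, ∀ x ∈ F, σ x = (τ ^ j) x := by
  have hπF := hπ.1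
  have hπ0 : π ≠ 0 := norm_pos_iff.mp hπ.2.1
  have hinj := theta_injective p F hpF hπ
  have : Finite (inertiaF p F) := inferInstance
  have : IsCyclic (inertiaF p F) := isCyclic_of_injective_ringHom (theta p hπF hπ0) hinj
  obtain ⟨g, hg⟩ := IsCyclic.exists_generator (α := inertiaF p F)
  obtain ⟨τ, hτ⟩ :=
    AlgEquiv.restrictNormalHom_surjective (F := ℚ_[p]) (K₁ := F) (PadicAlgCl p) g.1
  have hord : orderOf g = e := by
    rw [orderOf_eq_card_of_forall_mem_zpowers hg, card_inertiaF, ramIdx_eq_of_norm_pow p F hπ he]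
  refine ⟨τ, (restrict_mem_inertiaF_iff p F τ).mp (hτ ▸ g.2), ?_, ?_⟩
  · intro m hm
    rw [← hord]
    apply orderOf_dvd_of_pow_eq_one
    apply hinj
    rw [map_pow, map_one, theta_apply, ← map_pow, ← map_one (residue ↥(𝒪 p F)), residue_eq_iff]
    have h1 : ((((1 : ↥(𝒪 p F)) : ↥(𝒪 p F)) : F) : PadicAlgCl p) = 1 := rfl
    rw [h1]
    push_cast
    rw [← hτ, coe_unitOf_restrict]
    exact hm
  · intro σ hσ
    have hmem : AlgEquiv.restrictNormalHom F σ ∈ inertiaF p F :=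
      (restrict_mem_inertiaF_iff p F σ).mpr hσ
    have h2 : (⟨_, hmem⟩ : inertiaF p F) ∈ Submonoid.powers g := by
      rw [(isOfFinOrder_of_finite g).mem_powers_iff_mem_zpowers]
      exact hg _
    obtain ⟨j, hj⟩ := h2
    refine ⟨j, fun x hx => ?_⟩
    have h3 : AlgEquiv.restrictNormalHom F σ = (AlgEquiv.restrictNormalHom F τ) ^ j := by
      have := congrArg Subtype.val hj
      rw [hτ]
      simpa using this.symm
    have h4 := restrict_apply p F σ ⟨x, hx⟩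
    rw [h3, ← map_pow, restrict_apply] at h4
    exact h4.symm

/-! ### (F4) every automorphism is a power of the Frobenius on the residue field of `F` -/

/-- (F4) -/
theorem exists_pow_frob {φ : LocGal p} (hφ : ∀ x ∈ F, ‖x‖ ≤ 1 → ‖φ x - x ^ p‖ < 1)
    (g : LocGal p) : ∃ j : ℕ, ∀ x ∈ F, ‖x‖ ≤ 1 → ‖g x - (φ ^ j) x‖ < 1 := by
  classical
  have : Fintype (ResidueField ℤ_[p]) := Fintype.ofFinite _
  have hcard : Fintype.card (ResidueField ℤ_[p]) = p := by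
    rw [← Nat.card_eq_fintype_card]
    exact Fermat.Agent.S56.Unip.ProCyclic.card_residueField_padicInt p
  have hfrob : Tower.redHom ℤ_[p] ℚ_[p] ↥(𝒪 p F) F (AlgEquiv.restrictNormalHom F φ) =
      FiniteField.frobeniusAlgEquivOfAlgebraic (ResidueField ℤ_[p]) (ResidueField ↥(𝒪 p F)) := by
    ext x
    obtain ⟨b, rfl⟩ := residue_surjective x
    rw [Tower.redHom_residue, FiniteField.frobeniusAlgEquivOfAlgebraic_apply, hcard, ← map_pow,
      residue_eq_iff, coe_galRestrict_restrict]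
    push_cast
    exact hφ _ (b : F).2 (norm_coe_le_one p F b)
  obtain ⟨n, hn⟩ := (FiniteField.bijective_frobeniusAlgEquivOfAlgebraic_pow (ResidueField ℤ_[p])
    (ResidueField ↥(𝒪 p F))).2
    (Tower.redHom ℤ_[p] ℚ_[p] ↥(𝒪 p F) F (AlgEquiv.restrictNormalHom F g))
  refine ⟨n, fun x hx h1 => ?_⟩
  have h2 : Tower.redHom ℤ_[p] ℚ_[p] ↥(𝒪 p F) F (AlgEquiv.restrictNormalHom F g) =
      Tower.redHom ℤ_[p] ℚ_[p] ↥(𝒪 p F) F (AlgEquiv.restrictNormalHom F (φ ^ (n : ℕ))) := by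
    rw [map_pow, map_pow, hfrob]
    exact hn.symm
  have h3 := congrArg (fun t => t (residue _ (mkInt p F x hx h1))) h2
  simp only [Tower.redHom_residue] at h3
  rw [residue_eq_iff, coe_galRestrict_restrict, coe_galRestrict_restrict] at h3
  exact h3

/-! ### (F5) the Frobenius acts on tame inertia by the `p`-th power -/

omit [FiniteDimensional ℚ_[p] F] in
theorem inert_conj {τ : LocGal p} (hτ : ∀ x ∈ F, ‖x‖ ≤ 1 → ‖τ x - x‖ < 1) (g : LocGal p) :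
    ∀ x ∈ F, ‖x‖ ≤ 1 → ‖(g * τ * g⁻¹) x - x‖ < 1 := by
  intro x hx h1
  have hy : (g⁻¹ : LocGal p) x ∈ F := map_mem p F g⁻¹ hx
  have hy1 : ‖(g⁻¹ : LocGal p) x‖ ≤ 1 := by rw [norm_locGal_apply]; exact h1
  have e : (g * τ * g⁻¹) x - x = g (τ ((g⁻¹ : LocGal p) x) - (g⁻¹ : LocGal p) x) := by
    rw [map_sub, AlgEquiv.mul_apply, AlgEquiv.mul_apply, ← AlgEquiv.mul_apply g g⁻¹,
      mul_inv_cancel, AlgEquiv.one_apply]
  rw [e, norm_locGal_apply]
  exact hτ _ hy hy1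

/-- (F5) -/
theorem conj_frob_tame (hpF : ¬ p ∣ Module.finrank ℚ_[p] F) {τ φ : LocGal p}
    (hτ : ∀ x ∈ F, ‖x‖ ≤ 1 → ‖τ x - x‖ < 1) (hφ : ∀ x ∈ F, ‖x‖ ≤ 1 → ‖φ x - x ^ p‖ < 1) :
    ∀ x ∈ F, (φ * τ * φ⁻¹) x = (τ ^ p) x := by
  obtain ⟨π, hπ⟩ := Passage.NormFrame.exists_isUnif p F
  have hπF := hπ.1
  have hπpos := hπ.2.1
  have hπ0 : π ≠ 0 := norm_pos_iff.mp hπpos
  -- the second uniformizer `π' = φ⁻¹ π`
  obtain ⟨π', hπ'⟩ : ∃ π' : PadicAlgCl p, π' = (φ⁻¹ : LocGal p) π := ⟨_, rfl⟩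
  have hπ'F : π' ∈ F := by rw [hπ']; exact map_mem p F φ⁻¹ hπF
  have hπ'n : ‖π'‖ = ‖π‖ := by rw [hπ', norm_locGal_apply]
  have hπ'0 : π' ≠ 0 := by
    rw [← norm_pos_iff, hπ'n]
    exact hπpos
  have hφπ' : φ π' = π := by
    rw [hπ', ← AlgEquiv.mul_apply, mul_inv_cancel, AlgEquiv.one_apply]
  obtain ⟨c, hc⟩ : ∃ c : PadicAlgCl p, c = π' / π := ⟨_, rfl⟩
  have hcF : c ∈ F := by rw [hc]; exact F.div_mem hπ'F hπF
  have hc1 : ‖c‖ = 1 := by rw [hc, norm_div, hπ'n, div_self hπpos.ne']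
  have hc0 : c ≠ 0 := by
    rw [← norm_pos_iff, hc1]
    exact one_pos
  have hπ'c : π' = c * π := by
    rw [hc]
    field_simp
  obtain ⟨a, ha⟩ : ∃ a : PadicAlgCl p, a = τ π' / π' := ⟨_, rfl⟩
  obtain ⟨b, hb⟩ : ∃ b : PadicAlgCl p, b = τ π / π := ⟨_, rfl⟩
  have haF : a ∈ F := by rw [ha]; exact F.div_mem (map_mem p F τ hπ'F) hπ'F
  have ha1 : ‖a‖ = 1 := by
    rw [ha, norm_div, norm_locGal_apply, div_self]
    rw [hπ'n]
    exact hπpos.ne'
  have hb1 : ‖b‖ = 1 := by rw [hb, norm_div, norm_locGal_apply, div_self hπpos.ne']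
  have hτc0 : τ c ≠ 0 := (map_ne_zero τ).mpr hc0
  have hτπ0 : τ π ≠ 0 := (map_ne_zero τ).mpr hπ0
  have hab : ‖a - b‖ < 1 := by
    have e : a - b = b * ((τ c - c) / c) := by
      rw [ha, hb, hπ'c, map_mul]
      field_simp
    rw [e, norm_mul, hb1, one_mul, norm_div, hc1, div_one]
    exact hτ c hcF hc1.le
  have hkey : (φ * τ * φ⁻¹) π / π = φ a := by
    rw [ha, map_div₀, hφπ', AlgEquiv.mul_apply, AlgEquiv.mul_apply, ← hπ']
  have hcong : ‖(φ * τ * φ⁻¹) π / π - b ^ p‖ < 1 := by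
    have e : (φ * τ * φ⁻¹) π / π - b ^ p = (φ a - a ^ p) + (a ^ p - b ^ p) := by
      rw [hkey]
      ring
    rw [e]
    exact norm_add_lt p (hφ a haF ha1.le)
      (Fermat.Agent.S56.Unip.ProCyclic.norm_pow_sub_pow_lt p ha1.le hb1.le hab p)
  -- the two elements of the inertia group
  have h1 : AlgEquiv.restrictNormalHom F (φ * τ * φ⁻¹) ∈ inertiaF p F :=
    (restrict_mem_inertiaF_iff p F _).mpr (inert_conj p F hτ φ)
  have h2 : AlgEquiv.restrictNormalHom F τ ∈ inertiaF p F :=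
    (restrict_mem_inertiaF_iff p F _).mpr hτ
  have hθ : theta p hπF hπ0 ⟨_, h1⟩ = theta p hπF hπ0 (⟨_, h2⟩ ^ p) := by
    rw [map_pow, theta_apply, theta_apply, ← map_pow, residue_eq_iff]
    push_cast
    rw [coe_unitOf_restrict, coe_unitOf_restrict, ← hb]
    exact hcong
  have h3 := congrArg Subtype.val (theta_injective p F hpF hπ hθ)
  intro x hx
  have h4 := restrict_apply p F (φ * τ * φ⁻¹) ⟨x, hx⟩
  have h5 : AlgEquiv.restrictNormalHom F (φ * τ * φ⁻¹) = AlgEquiv.restrictNormalHom F (τ ^ p) := by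
    rw [map_pow]
    simpa using h3
  rw [h5, restrict_apply] at h4
  exact h4.symm

end Fermat.Agent.S56.Flat.TameFrame
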