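/-
PROJECT T (S56), block (a3) Flat, file Frame (helper27): the tame frame of a finite Galois `F/ℚ_p`
of degree prime to `p` containing `ζ_p`, packaged for the two assemblies `CharTable` and `CaseB`:
a uniformizer `π`, `e`, `e'`, the tame generator `τ`, a Frobenius lift `φ`, and the consequences
for homomorphisms trivial on `Gal(Ω/F)`.
-/
import Mathlib
import Fermat.Agent.S56.Flat.LevelNum
import Fermat.Agent.S56.Flat.TameFrame
import Fermat.Agent.S56.Flat.Main.Omega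

set_option autoImplicit false
set_option linter.unusedSectionVars false

noncomputable section

namespace Fermat.Agent.S56.Flat.Frame

open Fermat.Agent.CFT.Local.Model Fermat.Agent.CFT.Local.PadicAlgClLocal
  Fermat.Agent.CFT.LocalBridge Fermat.Agent.S56.Flat.KummerInj Fermat.Agent.S56.Flat.ResField
  Fermat.Agent.S56.Flat.Passage.NormFrame Fermat.Agent.S56.Flat.Levels
  Fermat.Agent.S56.Flat.LevelAux Fermat.Agent.S56.Flat.LevelCount Fermat.Agent.S56.Flat.LevelNum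
  Fermat.Agent.S56.Flat.Main

variable {p : ℕ} [Fact p.Prime]

local notation "Ω" => PadicAlgCl p

variable {F : IntermediateField ℚ_[p] (PadicAlgCl p)} [FiniteDimensional ℚ_[p] F]
  [IsGalois ℚ_[p] F]

variable {ζ : PadicAlgCl p} (hζ : IsPrimitiveRoot ζ p) (hζF : ζ ∈ F)

include hζ hζF in
/-- **The tame frame.** -/
theorem exists_frame (hpF : ¬ p ∣ Module.finrank ℚ_[p] F) :
    ∃ (π : PadicAlgCl p) (e e' : ℕ) (τ φ : LocGal p), IsUnif p F π ∧ ‖π‖ ^ e = (p : ℝ)⁻¹ ∧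
      e = (p - 1) * e' ∧ ‖ζ - 1‖ = ‖π‖ ^ e' ∧ 0 < e' ∧
      (∀ x ∈ F, ‖x‖ ≤ 1 → ‖τ x - x‖ < 1) ∧
      (∀ m : ℕ, ‖(τ π / π) ^ m - 1‖ < 1 → e ∣ m) ∧
      (∀ σ : LocGal p, (∀ x ∈ F, ‖x‖ ≤ 1 → ‖σ x - x‖ < 1) → ∃ j : ℕ, ∀ x ∈ F, σ x = (τ ^ j) x) ∧
      (∀ x ∈ F, ‖x‖ ≤ 1 → ‖φ x - x ^ p‖ < 1) := by
  obtain ⟨π, hπ⟩ := exists_isUnif p F
  obtain ⟨e, he0, he⟩ := hπ.exists_pow_eq
  obtain ⟨e', hee', hlam⟩ := CycloFrame.exists_ramIdx_eq_mul hζ hζF hπ he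
  obtain ⟨τ, hτ, hgen, hall⟩ := TameFrame.exists_tame_generator p F hpF hπ he
  obtain ⟨φ, hφ⟩ := TameFrame.exists_frobLift p F
  refine ⟨π, e, e', τ, φ, hπ, he, hee', hlam, ?_, hτ, hgen, hall, hφ⟩
  rcases Nat.eq_zero_or_pos e' with h0 | h0
  · rw [h0, mul_zero] at hee'
    omega
  · exact h0

/-- A homomorphism trivial on `Gal(Ω/F)` only sees the restriction to `F`. -/
theorem map_eq_of_eqOn {A : Type*} [Group A] (r : LocGal p →* A)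
    (hr : ∀ σ ∈ F.fixingSubgroup, r σ = 1) {g g' : LocGal p} (h : ∀ x ∈ F, g x = g' x) :
    r g = r g' := by
  have h1 : g'⁻¹ * g ∈ F.fixingSubgroup := by
    rw [mem_fix_iff]
    intro x hx
    rw [AlgEquiv.mul_apply, h x hx]
    exact inv_apply_apply g' x
  have h2 := hr _ h1
  rw [map_mul, map_inv, inv_mul_eq_one] at h2
  exact h2.symm

/-- Every element of `LocGal p` is `φ ^ j * τ ^ i` on `F`. -/
theorem exists_eqOn_pow_mul_pow {τ φ : LocGal p}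
    (hall : ∀ σ : LocGal p, (∀ x ∈ F, ‖x‖ ≤ 1 → ‖σ x - x‖ < 1) →
      ∃ j : ℕ, ∀ x ∈ F, σ x = (τ ^ j) x)
    (hφ : ∀ x ∈ F, ‖x‖ ≤ 1 → ‖φ x - x ^ p‖ < 1) (g : LocGal p) :
    ∃ i j : ℕ, ∀ x ∈ F, g x = (φ ^ j * τ ^ i) x := by
  obtain ⟨j, hj⟩ := TameFrame.exists_pow_frob p F hφ g
  have hin : ∀ x ∈ F, ‖x‖ ≤ 1 → ‖((φ ^ j)⁻¹ * g) x - x‖ < 1 := by
    intro x hx hx1
    have h1 : ((φ ^ j)⁻¹ * g) x - x = ((φ ^ j)⁻¹ : LocGal p) (g x - (φ ^ j) x) := by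
      rw [map_sub, AlgEquiv.mul_apply, inv_apply_apply]
    rw [h1, Levels.norm_map]
    exact hj x hx hx1
  obtain ⟨i, hi⟩ := hall _ hin
  refine ⟨i, j, fun x hx => ?_⟩
  rw [AlgEquiv.mul_apply, ← hi x hx, AlgEquiv.mul_apply, apply_inv_apply]

/-- `ωZ` from the action on `ζ`. -/
theorem ωZ_eq_natCast {g : LocGal p} {a : ℕ} (h : g ζ = ζ ^ a) : ωZ hζ g = (a : ZMod p) := by
  apply zp_injective hζ
  rw [← ωZ_spec hζ g, zp_natCast hζ, h]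

theorem ωZ_pow (g : LocGal p) (j : ℕ) : ωZ hζ (g ^ j) = ωZ hζ g ^ j := by
  induction j with
  | zero => rw [pow_zero, pow_zero, ωZ_one]
  | succ j ih => rw [pow_succ, pow_succ, ωZ_mul, ih]

/-- `τ` acts on `μ_p` through (a lift of) `ωZ τ`. -/
theorem actsOnMuP_val (g : LocGal p) : ActsOnMuP g (ωZ hζ g).val :=
  actsOnMuP_of_primitiveRoot hζ (ωZ_spec hζ g)

include hζF in
theorem ωZ_eq_of_eqOn {g g' : LocGal p} (h : ∀ x ∈ F, g x = g' x) : ωZ hζ g = ωZ hζ g' := by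
  apply zp_injective hζ
  rw [← ωZ_spec hζ g, ← ωZ_spec hζ g', h ζ hζF]

end Fermat.Agent.S56.Flat.Frame
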