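/-
PROJECT T (S56), block (a3) Flat, file CaseB (helper27): Case B of the level count = the seam
(S27-B) with the devissage: for an irreducible `rb : LocGal p →* GL₂(k)` with eigenvalues in `k`,
determinant the mod `p` cyclotomic character, trivial on `Gal(Ω/F)` for a tame `F ∋ ζ_p`, the
trace-zero cocycles `c` with `V_c` locally flat lie in a set of at most `#k ^ 4` elements.
-/
import Mathlib
import Fermat.Agent.S56.Flat.Frame
import Fermat.Agent.S56.Flat.NumB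
import Fermat.Agent.S56.Flat.AdEigen
import Fermat.Agent.S56.Flat.EigB
import Fermat.Agent.S56.Flat.FB

set_option autoImplicit false
set_option linter.unusedSectionVars false

noncomputable section

namespace Fermat.Agent.S56.Flat.CaseB

open Fermat.Agent.CFT.Local.Model Fermat.Agent.CFT.Local.PadicAlgClLocal
  Fermat.Agent.CFT.LocalBridge Fermat.Agent.S56.Flat.KummerInj Fermat.Agent.S56.Flat.ResField
  Fermat.Agent.S56.Flat.Passage.NormFrame Fermat.Agent.S56.Flat.Levels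
  Fermat.Agent.S56.Flat.LevelAux Fermat.Agent.S56.Flat.LevelCount Fermat.Agent.S56.Flat.LevelNum
  Fermat.Agent.S56.Flat.Main Fermat.Agent.S56.Flat.Frame Fermat.Agent.S56.Flat.Descent
  Fermat.Agent.S56.Flat.Dict Fermat.Agent.S56.Flat.Dev Fermat.Agent.S56.Flat.FB
  Fermat.Agent.S56.Flat.AdRep Matrix

open scoped Fermat.Agent.S56.Flat.ResField

variable {p : ℕ} [Fact p.Prime] {k : Type} [Field k]

local notation "Ω" => PadicAlgCl p

/-! ### Eigenvectors of powers and products -/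

theorem mulVec_pow_eigen {M : Matrix (Fin 2) (Fin 2) k} {v : Fin 2 → k} {a : k}
    (h : M *ᵥ v = a • v) (i : ℕ) : (M ^ i) *ᵥ v = a ^ i • v := by
  induction i with
  | zero => rw [pow_zero, pow_zero, Matrix.one_mulVec, one_smul]
  | succ i ih =>
    rw [pow_succ, ← Matrix.mulVec_mulVec, h, Matrix.mulVec_smul, ih, smul_smul, pow_succ,
      mul_comm]

/-- A common eigenvector of `T` and `Φ` is an eigenvector of every `Φ ^ j * T ^ i`. -/
theorem exists_eigen_pow_mul_pow {T Φ : GL (Fin 2) k} {v : Fin 2 → k} {a b : k}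
    (hT : (T : Matrix (Fin 2) (Fin 2) k) *ᵥ v = a • v)
    (hΦ : (Φ : Matrix (Fin 2) (Fin 2) k) *ᵥ v = b • v) (i j : ℕ) :
    ((Φ ^ j * T ^ i : GL (Fin 2) k) : Matrix (Fin 2) (Fin 2) k) *ᵥ v = (b ^ j * a ^ i) • v := by
  rw [Units.val_mul, Units.val_pow_eq_pow_val, Units.val_pow_eq_pow_val, ← Matrix.mulVec_mulVec,
    mulVec_pow_eigen hT i, Matrix.mulVec_smul, mulVec_pow_eigen hΦ j, smul_smul, mul_comm]

/-! ### The count -/

section Count

variable [Finite k] [CharP k p]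

/-- **(S27-B).** -/
theorem caseB_finite (hp2 : p ≠ 2) {ζ : PadicAlgCl p} (hζ : IsPrimitiveRoot ζ p)
    (hKL : KummerLevelPrinciple p ζ) (rb : LocGal p →* GL (Fin 2) k)
    (F : IntermediateField ℚ_[p] (PadicAlgCl p)) [FiniteDimensional ℚ_[p] F] [IsGalois ℚ_[p] F]
    (hζF : ζ ∈ F) (hpF : ¬ p ∣ Module.finrank ℚ_[p] F)
    (hF : ∀ σ ∈ F.fixingSubgroup, rb σ = 1) (hirr : ¬ HasStableLine rb)
    (heig : HasEigenvectors rb) (hdet : DetIsOmega rb) :
    ∃ S : Set (LocGal p → Matrix (Fin 2) (Fin 2) k), S.Finite ∧ S.ncard ≤ Nat.card k ^ 4 ∧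
      ∀ c ∈ Zalg rb, IsLocFlat p (actV rb c) → c ∈ S := by
  letI : Algebra (ZMod p) k := ZMod.algebra k p
  obtain ⟨π, e, e', τ, φ, hπ, he, hee', hlam, he'0, hτ, hgen, hall, hφ⟩ :=
    exists_frame hζ hζF hpF
  -- the adjoint representation
  set ρ : LocGal p →* (↥(tz k) →ₗ[ZMod p] ↥(tz k)) := (adHom p).comp rb with hρ
  have hρapp : ∀ g, ρ g = ad p (rb g) := fun g => rfl
  have hρF : ∀ σ ∈ F.fixingSubgroup, ρ σ = 1 := by
    intro σ hσ
    rw [hρ, MonoidHom.comp_apply, hF σ hσ, map_one]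
  obtain ⟨b, hb0, hfin, hcard⟩ :=
    LevelMain.card_Z_le hζ hζF hπ ρ hpF he hee' hlam hρF hτ hφ
  rw [card_tz] at hcard
  -- the eigen-data of `T = rb τ`, `Φ = rb φ`
  have hrel : rb φ * rb τ * (rb φ)⁻¹ = rb τ ^ p := by
    rw [← map_inv, ← map_mul, ← map_mul, ← map_pow]
    exact map_eq_of_eqOn rb hF (TameFrame.conj_frob_tame p F hpF hτ hφ)
  have hirr' : ¬ ∃ v : Fin 2 → k, v ≠ 0 ∧
      (∃ a : k, (rb τ : Matrix (Fin 2) (Fin 2) k) *ᵥ v = a • v) ∧
      ∃ a : k, (rb φ : Matrix (Fin 2) (Fin 2) k) *ᵥ v = a • v := by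
    rintro ⟨v, hv, ⟨a, ha⟩, ⟨b', hb'⟩⟩
    apply hirr
    refine ⟨v, hv, fun g => ?_⟩
    obtain ⟨i, j, hij⟩ := exists_eqOn_pow_mul_pow hall hφ g
    have h1 : rb g = rb φ ^ j * rb τ ^ i := by
      rw [← map_pow, ← map_pow, ← map_mul]
      exact map_eq_of_eqOn rb hF hij
    exact ⟨b' ^ j * a ^ i, by rw [h1]; exact exists_eigen_pow_mul_pow ha hb' i j⟩
  obtain ⟨β, v, v', hv, hv', hTv, hTv', hβp, hdetβ⟩ :=
    EigB.exists_eigen_of_irred p (rb τ) (rb φ) hrel (heig τ) (heig φ) hirr'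
  have hβ0 : β ≠ 0 := by
    rintro rfl
    exact hβp (by rw [zero_pow (Fact.out : p.Prime).ne_zero])
  have hquot : β ^ p / β = β ^ (p - 1) := by
    have hp1 : p = (p - 1) + 1 := by have := (Fact.out : p.Prime).one_lt; omega
    rw [div_eq_iff hβ0]
    conv_lhs => rw [hp1]
    rw [pow_succ]
  have hβ1 : β ^ (p - 1) ≠ 1 := by
    intro h1
    apply hβp
    rw [← hquot, div_eq_iff hβ0, one_mul] at h1
    exact h1
  have hβdet : β ^ (p + 1) = algebraMap (ZMod p) k (ωZ hζ τ) := by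
    rw [← hdetβ, hdet τ _ (actsOnMuP_val hζ τ), ← map_natCast (algebraMap (ZMod p) k),
      ZMod.natCast_zmod_val]
  -- the numerics
  have hnum := NumB.prod_card_Ssub_le_of_eigen p hp2 he'0 hee' (cbar_ne_zero hπ τ)
    (fun m hm => dvd_of_cbar_pow_eq_one hπ hgen hm)
    (CycloFrame.res_pow_eq_omega hζ hζF hπ hlam hτ)
    (aLev p F hζ hπ τ) b (fun n => aLev_mul_cbar_pow' hζ hζF hπ hlam hτ n) hb0
    hβdet hβ1 (ρ τ) (ρ φ)
    (fun P h1 h2 h3 => by
      rw [hρapp]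
      exact AdEigen.ker_aeval_ad_eq_bot p hv hv' hTv hTv' (Ne.symm hβp) P h1
        (by rwa [hquot]) (by rwa [hquot]))
    (fun P h1 => by
      rw [hρapp]
      exact AdEigen.card_ker_aeval_ad_le p hv hv' hTv hTv' (Ne.symm hβp) P h1)
  -- the set
  set S : Set (LocGal p → Matrix (Fin 2) (Fin 2) k) :=
    {c | (∀ g, (c g).trace = 0) ∧
      (∀ g h, c (g * h) = (rb g : Matrix (Fin 2) (Fin 2) k) * c h *
        (((rb g)⁻¹ : GL (Fin 2) k) : Matrix (Fin 2) (Fin 2) k) + c g) ∧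
      ∀ σ ∈ Gam p F ζ π hζ hζF e, c σ = 0} with hS
  let f : ↥S → {c : LocGal p → ↥(tz k) // (∀ g h, c (g * h) = c g + ρ g (c h)) ∧
      ∀ σ ∈ Gam p F ζ π hζ hζF e, c σ = 0} := fun c =>
    ⟨fun g => ⟨c.1 g, mem_tz.2 (c.2.1 g)⟩, by
      refine ⟨fun g h => ?_, fun σ hσ => ?_⟩
      · apply Subtype.ext
        rw [Submodule.coe_add, hρapp, coe_ad]
        show c.1 (g * h) = c.1 g + (rb g : Matrix (Fin 2) (Fin 2) k) * c.1 h *
          (((rb g)⁻¹ : GL (Fin 2) k) : Matrix (Fin 2) (Fin 2) k)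
        rw [c.2.2.1 g h, add_comm]
      · apply Subtype.ext
        exact c.2.2.2 σ hσ⟩
  have hf : Function.Injective f := by
    intro c c' hcc
    apply Subtype.ext
    funext g
    have h1 := congrArg (fun z => ((z.1 g : ↥(tz k)) : Matrix (Fin 2) (Fin 2) k)) hcc
    exact h1
  haveI : Finite ↥S := Finite.of_injective f hf
  refine ⟨S, Set.toFinite S, ?_, fun c hc hflat => ?_⟩
  · rw [← Nat.card_coe_set_eq S]
    calc Nat.card ↥S ≤ _ := Nat.card_le_card_of_injective f hf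
      _ ≤ Nat.card k ^ 3 * _ := hcard
      _ ≤ Nat.card k ^ 3 * Nat.card k := Nat.mul_le_mul_left _ hnum
      _ = Nat.card k ^ 4 := by ring
  · exact ⟨hc.2, hc.1, fun σ hσ =>
      eq_zero_of_isLocFlat_actV F hζ hζF hπ he hKL rb hF c hc.1 hflat hσ⟩

end Count

end Fermat.Agent.S56.Flat.CaseB
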