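/-
PROJECT T (S56), block (a3) Flat, leaf `NumA` (helper25; literals of helper27): the numerics of
Case A of the level count.  For scalar endomorphisms `A = x ·`, `B = y ·` of `N = k` the twisted
forms `Ssub p a b A B` of `Flat/Descent` vanish unless `a` and `x` come from the same element of
the prime field; along the levels `n ∈ [e, e + e')` only the level `n = e` can contribute.
Mathlib + `Flat/Descent` only.
-/
import Mathlib
import Fermat.Agent.S56.Flat.Descent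

set_option autoImplicit false

namespace Fermat.Agent.S56.Flat.NumA

open Polynomial Fermat.Agent.S56.Flat.Descent

variable (p : ℕ) [Fact p.Prime] {𝔽 : Type*} [Field 𝔽] [Finite 𝔽] [Algebra (ZMod p) 𝔽]
  {k : Type*} [Field k] [Finite k] [Algebra (ZMod p) k]

/-- The commutation trick: a twisted form for two scalar endomorphisms vanishes unless `a` and `x`
come from the same element of the prime field. -/
theorem eq_zero_of_mem_Ssub_mulLeft (a : 𝔽) {b : 𝔽} {x y : k} (hy : y ≠ 0)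
    (h : ¬ ∃ w : ZMod p, a = algebraMap (ZMod p) 𝔽 w ∧ x = algebraMap (ZMod p) k w)
    {Φ : 𝔽 →ₗ[ZMod p] k}
    (hΦ : Φ ∈ Ssub p a b (LinearMap.mulLeft (ZMod p) x) (LinearMap.mulLeft (ZMod p) y)) :
    Φ = 0 := by
  obtain ⟨h1, h2⟩ := (mem_Ssub p).1 hΦ
  have h1' : ∀ z, Φ (a * z) = x * Φ z := fun z => by
    rw [h1 z, LinearMap.mulLeft_apply]
  have h2' : ∀ z, Φ (b * z ^ p) = y * Φ z := fun z => by
    rw [h2 z, LinearMap.mulLeft_apply]
  have hpow : ∀ (n : ℕ) (z : 𝔽), Φ (a ^ n * z) = x ^ n * Φ z := by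
    intro n
    induction n with
    | zero => intro z; rw [pow_zero, pow_zero, one_mul, one_mul]
    | succ n ih =>
      intro z
      rw [pow_succ, mul_assoc, ih, h1', pow_succ, mul_assoc]
  by_contra hΦ0
  obtain ⟨z, hz⟩ : ∃ z, Φ z ≠ 0 := by
    by_contra hh
    apply hΦ0
    apply LinearMap.ext
    intro z
    by_contra hz
    exact hh ⟨z, hz⟩
  -- `x ^ p = x`
  have hkey : y * (x * Φ z) = x ^ p * (y * Φ z) := by
    have e1 : b * (a * z) ^ p = a ^ p * (b * z ^ p) := by rw [mul_pow]; ring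
    rw [← h1', ← h2', e1, hpow, h2']
  have hxp : x ^ p = x := by
    have e2 : (x ^ p * y) * Φ z = (x * y) * Φ z := by
      rw [mul_assoc, ← hkey]; ring
    have e3 : x ^ p * y = x * y := mul_right_cancel₀ hz e2
    exact mul_right_cancel₀ hy e3
  obtain ⟨w, hw⟩ := exists_algebraMap_eq_of_pow_eq p hxp
  by_cases haw : a = algebraMap (ZMod p) 𝔽 w
  · exact h ⟨w, haw, hw.symm⟩
  · have hu : a - algebraMap (ZMod p) 𝔽 w ≠ 0 := sub_ne_zero.2 haw
    have hkill : ∀ t, Φ ((a - algebraMap (ZMod p) 𝔽 w) * t) = 0 := by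
      intro t
      have e4 : Φ (algebraMap (ZMod p) 𝔽 w * t) = x * Φ t := by
        rw [← Algebra.smul_def, map_smul, Algebra.smul_def, hw]
      rw [sub_mul, map_sub, h1', e4, sub_self]
    apply hz
    have e5 : z = (a - algebraMap (ZMod p) 𝔽 w) * ((a - algebraMap (ZMod p) 𝔽 w)⁻¹ * z) := by
      rw [← mul_assoc, mul_inv_cancel₀ hu, one_mul]
    rw [e5]
    exact hkill _

/-- (NumA-1) -/
theorem card_Ssub_mulLeft_le (a : 𝔽) {b : 𝔽} (hb : b ≠ 0) {x y : k} (hx : x ≠ 0) (hy : y ≠ 0) :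
    Nat.card (Ssub p a b (LinearMap.mulLeft (ZMod p) x) (LinearMap.mulLeft (ZMod p) y)) ≤
      Nat.card k := by
  have _ := hx
  have _ := hy
  have hd : (minpoly (ZMod p) a).natDegree ≠ 0 :=
    (minpoly.natDegree_pos (isIntegral_zmod p a)).ne'
  have h1 := card_Ssub_pow_le p a hb (LinearMap.mulLeft (ZMod p) x) (LinearMap.mulLeft (ZMod p) y)
  have h2 : Nat.card (LinearMap.ker (aeval (LinearMap.mulLeft (ZMod p) x) (minpoly (ZMod p) a))) ≤
      Nat.card k := Nat.card_le_card_of_injective Subtype.val Subtype.val_injective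
  exact (Nat.le_self_pow hd _).trans (h1.trans h2)

/-- (NumA-2) -/
theorem card_Ssub_mulLeft_eq_one (a : 𝔽) {b : 𝔽} (hb : b ≠ 0) {x y : k} (hx : x ≠ 0) (hy : y ≠ 0)
    (h : ¬ ∃ w : ZMod p, a = algebraMap (ZMod p) 𝔽 w ∧ x = algebraMap (ZMod p) k w) :
    Nat.card (Ssub p a b (LinearMap.mulLeft (ZMod p) x) (LinearMap.mulLeft (ZMod p) y)) = 1 := by
  have _ := hb
  have _ := hx
  rw [Nat.card_eq_one_iff_unique]
  refine ⟨⟨fun Φ Ψ => ?_⟩, ⟨0⟩⟩
  apply Subtype.ext
  rw [eq_zero_of_mem_Ssub_mulLeft p a hy h Φ.2, eq_zero_of_mem_Ssub_mulLeft p a hy h Ψ.2]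

/-- (NumA-3) -/
theorem prod_card_Ssub_mulLeft_le {e e' : ℕ} (he' : 0 < e') (hee' : e = (p - 1) * e')
    {c : 𝔽} (hc0 : c ≠ 0) (hc : ∀ m : ℕ, c ^ m = 1 → e ∣ m)
    {w₀ : ZMod p} (hw₀ : c ^ e' = algebraMap (ZMod p) 𝔽 w₀)
    (a b : ℕ → 𝔽) (ha : ∀ n, a n * c ^ n = c ^ e') (hb : ∀ n, b n ≠ 0)
    {x y : k} (hx : x ≠ 0) (hy : y ≠ 0) :
    (∏ n ∈ Finset.Ico e (e + e'), Nat.card (Ssub p (a n) (b n)
        (LinearMap.mulLeft (ZMod p) x) (LinearMap.mulLeft (ZMod p) y)) ≤ Nat.card k) ∧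
    (x ≠ algebraMap (ZMod p) k w₀ →
      ∏ n ∈ Finset.Ico e (e + e'), Nat.card (Ssub p (a n) (b n)
        (LinearMap.mulLeft (ZMod p) x) (LinearMap.mulLeft (ZMod p) y)) = 1) := by
  have hp : p.Prime := Fact.out
  have hp1 : 0 < p - 1 := Nat.sub_pos_of_lt hp.one_lt
  -- `c ^ e = 1`
  have hw₀ne : w₀ ≠ 0 := by
    rintro rfl
    rw [map_zero] at hw₀
    exact hc0 (pow_eq_zero_iff he'.ne' |>.1 hw₀)
  have hunit : ∀ w : ZMod p, w ≠ 0 → (algebraMap (ZMod p) 𝔽 w) ^ (p - 1) = 1 := by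
    intro w hw
    rw [← map_pow, ZMod.pow_card_sub_one_eq_one hw, map_one]
  have hce : c ^ e = 1 := by
    rw [hee', pow_mul', hw₀, hunit w₀ hw₀ne]
  have hae : a e = algebraMap (ZMod p) 𝔽 w₀ := by
    have := ha e
    rw [hce, mul_one] at this
    rw [this, hw₀]
  -- only the level `e` contributes
  have hone : ∀ n ∈ Finset.Ico e (e + e'), n ≠ e →
      Nat.card (Ssub p (a n) (b n) (LinearMap.mulLeft (ZMod p) x)
        (LinearMap.mulLeft (ZMod p) y)) = 1 := by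
    intro n hn hne
    obtain ⟨hen, hne'⟩ := Finset.mem_Ico.1 hn
    apply card_Ssub_mulLeft_eq_one p (a n) (hb n) hx hy
    rintro ⟨w, haw, hxw⟩
    have hw : w ≠ 0 := by
      rintro rfl
      rw [map_zero] at hxw
      exact hx hxw
    have h1 : (a n) ^ (p - 1) = 1 := by rw [haw, hunit w hw]
    have h2 : (c ^ n) ^ (p - 1) = 1 := by
      have := congrArg (fun t => t ^ (p - 1)) (ha n)
      simp only [mul_pow, h1, one_mul] at this
      rw [this, ← pow_mul', ← hee', hce]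
    have h3 : e ∣ n * (p - 1) := hc _ (by rw [pow_mul]; exact h2)
    have h4 : e' ∣ n := by
      rw [hee', mul_comm n] at h3
      exact Nat.dvd_of_mul_dvd_mul_left hp1 h3
    have h5 : e' ∣ e := ⟨p - 1, by rw [hee', mul_comm]⟩
    have h6 : n - e = 0 := Nat.eq_zero_of_dvd_of_lt (Nat.dvd_sub h4 h5) (by omega)
    exact hne (by omega)
  have hmem : e ∈ Finset.Ico e (e + e') := Finset.mem_Ico.2 ⟨le_rfl, by omega⟩
  have hprod : ∏ n ∈ Finset.Ico e (e + e'), Nat.card (Ssub p (a n) (b n)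
      (LinearMap.mulLeft (ZMod p) x) (LinearMap.mulLeft (ZMod p) y)) =
      Nat.card (Ssub p (a e) (b e) (LinearMap.mulLeft (ZMod p) x)
        (LinearMap.mulLeft (ZMod p) y)) :=
    Finset.prod_eq_single e hone (fun h => absurd hmem h)
  refine ⟨?_, ?_⟩
  · rw [hprod]
    exact card_Ssub_mulLeft_le p (a e) (hb e) hx hy
  · intro hxw₀
    rw [hprod]
    apply card_Ssub_mulLeft_eq_one p (a e) (hb e) hx hy
    rintro ⟨w, haw, hxw⟩
    have : w = w₀ := (algebraMap (ZMod p) 𝔽).injective (by rw [← haw, hae])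
    exact hxw₀ (by rw [hxw, this])

end Fermat.Agent.S56.Flat.NumA
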