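/-
PROJECT T (S56), block (a3) Flat, file CharTable (helper27): Case A of the level count = the seam
(S27-A) with the devissage: the classes of the locally flat extensions of `k(χ')` by `k(χ'')` lie in
a set of at most `#k ^ 2` elements, and of at most `#k` elements when `χ''/χ'` differs from the
mod `p` cyclotomic character on inertia.
-/
import Mathlib
import Fermat.Agent.S56.Flat.Frame
import Fermat.Agent.S56.Flat.NumA
import Fermat.Agent.S56.Flat.FB
import Fermat.Agent.S56.Flat.FieldOfHom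

set_option autoImplicit false
set_option linter.unusedSectionVars false

noncomputable section

namespace Fermat.Agent.S56.Flat.CharTable

open Fermat.Agent.CFT.Local.Model Fermat.Agent.CFT.Local.PadicAlgClLocal
  Fermat.Agent.CFT.LocalBridge Fermat.Agent.S56.Flat.KummerInj Fermat.Agent.S56.Flat.ResField
  Fermat.Agent.S56.Flat.Passage.NormFrame Fermat.Agent.S56.Flat.Levels
  Fermat.Agent.S56.Flat.LevelAux Fermat.Agent.S56.Flat.LevelCount Fermat.Agent.S56.Flat.LevelNum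
  Fermat.Agent.S56.Flat.Main Fermat.Agent.S56.Flat.Frame Fermat.Agent.S56.Flat.Descent
  Fermat.Agent.S56.Flat.Dict Fermat.Agent.S56.Flat.Dev Fermat.Agent.S56.Flat.FB

open scoped Fermat.Agent.S56.Flat.ResField IntermediateField

variable {p : ℕ} [Fact p.Prime] {k : Type} [Field k] [Finite k] [CharP k p]
  [Algebra (ZMod p) k]

local notation "Ω" => PadicAlgCl p

/-- The character `ψ` as a `ZMod p`-linear representation on `k`. -/
def rhoChar (ψ : LocGal p →* kˣ) : LocGal p →* (k →ₗ[ZMod p] k) where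
  toFun g := LinearMap.mulLeft (ZMod p) ((ψ g : kˣ) : k)
  map_one' := by
    ext x
    simp
  map_mul' g h := by
    ext x
    simp

theorem rhoChar_apply (ψ : LocGal p →* kˣ) (g : LocGal p) :
    rhoChar ψ g = LinearMap.mulLeft (ZMod p) ((ψ g : kˣ) : k) := rfl

theorem rhoChar_apply_apply (ψ : LocGal p →* kˣ) (g : LocGal p) (x : k) :
    rhoChar ψ g x = ((ψ g : kˣ) : k) * x := rfl

/-- `p ∤ #kˣ`. -/
theorem not_dvd_card_units (p : ℕ) [Fact p.Prime] (k : Type) [Field k] [Finite k] [CharP k p] :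
    ¬ p ∣ Nat.card kˣ := by
  have hp : p.Prime := Fact.out
  letI : Fintype k := Fintype.ofFinite k
  obtain ⟨n, -, hn⟩ := FiniteField.card k p
  rw [Nat.card_units, Nat.card_eq_fintype_card, hn]
  intro h
  have h1 : p ∣ p ^ (n : ℕ) := dvd_pow_self p n.pos.ne'
  have h2 : 1 ≤ p ^ (n : ℕ) := Nat.one_le_pow _ _ hp.pos
  have h3 : p ∣ 1 := by
    have := (Nat.dvd_sub h1 h)
    rwa [Nat.sub_sub_self h2] at this
  exact hp.one_lt.ne' (Nat.dvd_one.mp h3)

section Core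

variable {F : IntermediateField ℚ_[p] (PadicAlgCl p)} [FiniteDimensional ℚ_[p] F]
  [IsGalois ℚ_[p] F] {ζ : PadicAlgCl p}

/-- **Case A for a given tame field `F`.** -/
theorem extBound_core (hζ : IsPrimitiveRoot ζ p) (hKL : KummerLevelPrinciple p ζ)
    (χ' χ'' : LocGal p →* kˣ) (hζF : ζ ∈ F) (hpF : ¬ p ∣ Module.finrank ℚ_[p] F)
    (hF' : ∀ σ ∈ F.fixingSubgroup, χ' σ = 1) (hF'' : ∀ σ ∈ F.fixingSubgroup, χ'' σ = 1) :
    ExtBound (fun g => ((χ' g : kˣ) : k)) (fun g => ((χ'' g : kˣ) : k)) (Nat.card k ^ 2) ∧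
    (NeOmegaOnInertia (fun g => ((χ'' g : kˣ) : k) / ((χ' g : kˣ) : k)) →
      ExtBound (fun g => ((χ' g : kˣ) : k)) (fun g => ((χ'' g : kˣ) : k)) (Nat.card k)) := by
  obtain ⟨π, e, e', τ, φ, hπ, he, hee', hlam, he'0, hτ, hgen, hall, hφ⟩ :=
    exists_frame hζ hζF hpF
  set ψ : LocGal p →* kˣ := χ'' / χ' with hψ
  have hψF : ∀ σ ∈ F.fixingSubgroup, ψ σ = 1 := by
    intro σ hσ
    rw [hψ, MonoidHom.div_apply, hF' σ hσ, hF'' σ hσ, div_one]
  have hψval : ∀ g, ((ψ g : kˣ) : k) = ((χ'' g : kˣ) : k) / ((χ' g : kˣ) : k) := by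
    intro g
    rw [hψ, MonoidHom.div_apply, Units.val_div_eq_div_val]
  have hρF : ∀ σ ∈ F.fixingSubgroup, rhoChar ψ σ = 1 := by
    intro σ hσ
    ext x
    rw [rhoChar_apply_apply, hψF σ hσ, Units.val_one, one_mul, Module.End.one_apply]
  obtain ⟨b, hb0, hfin, hcard⟩ :=
    LevelMain.card_Z_le hζ hζF hπ (rhoChar ψ) hpF he hee' hlam hρF hτ hφ
  -- the set
  set S : Set (LocGal p → k) := {c | (∀ g h, c (g * h) = c g + rhoChar ψ g (c h)) ∧
    ∀ σ ∈ Gam p F ζ π hζ hζF e, c σ = 0} with hS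
  haveI : Finite ↥S := hfin
  have hSfin : S.Finite := Set.toFinite S
  have hScard : S.ncard = Nat.card ↥S := (Nat.card_coe_set_eq S).symm
  rw [rhoChar_apply, rhoChar_apply] at hcard
  have hmem : ∀ f : LocGal p → k,
      (∀ g h, f (g * h) * ((χ' g : kˣ) : k) =
        ((χ'' g : kˣ) : k) * f h + f g * ((χ' g : kˣ) : k)) →
      IsLocFlat p (actE (fun g => ((χ' g : kˣ) : k)) (fun g => ((χ'' g : kˣ) : k)) f) →
      f ∈ S := by
    intro f hf hflat
    refine ⟨fun g h => ?_, fun σ hσ => ?_⟩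
    · rw [rhoChar_apply_apply, hψval]
      have h0 : ((χ' g : kˣ) : k) ≠ 0 := Units.ne_zero _
      have := hf g h
      field_simp
      linear_combination this
    · exact eq_zero_of_isLocFlat_actE F hζ hζF hπ he hKL _ _ f
        (fun σ hσ => by rw [hF' σ hσ, Units.val_one])
        (fun σ hσ => by rw [hF'' σ hσ, Units.val_one]) hf hflat hσ
  -- the numerics
  have hnum := NumA.prod_card_Ssub_mulLeft_le p he'0 hee' (cbar_ne_zero hπ τ)
    (fun m hm => dvd_of_cbar_pow_eq_one hπ hgen hm)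
    (CycloFrame.res_pow_eq_omega hζ hζF hπ hlam hτ)
    (aLev p F hζ hπ τ) b (fun n => aLev_mul_cbar_pow' hζ hζF hπ hlam hτ n) hb0
    (Units.ne_zero (ψ τ)) (Units.ne_zero (ψ φ))
  constructor
  · refine ⟨S, hSfin, ?_, hmem⟩
    rw [hScard, pow_two]
    exact hcard.trans (Nat.mul_le_mul_left _ hnum.1)
  · intro hne
    refine ⟨S, hSfin, ?_, hmem⟩
    rw [hScard]
    refine hcard.trans ?_
    have hx : ((ψ τ : kˣ) : k) ≠ algebraMap (ZMod p) k (ωZ hζ τ) := by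
      intro hx
      obtain ⟨s, hs, a, hsa, hsne⟩ := hne
      have hsF : ∀ x ∈ F, ‖x‖ ≤ 1 → ‖s x - x‖ < 1 :=
        fun x _ hx1 => (mem_localInertia_iff p).1 hs x hx1
      obtain ⟨j, hj⟩ := hall s hsF
      have h1 : ψ s = ψ τ ^ j := by
        rw [← map_pow]
        exact map_eq_of_eqOn ψ hψF hj
      have h2 : ωZ hζ s = ωZ hζ τ ^ j := by
        rw [← ωZ_pow]
        exact ωZ_eq_of_eqOn hζ hζF hj
      have h3 : ωZ hζ s = (a : ZMod p) := ωZ_eq_natCast hζ (hsa ζ hζ.pow_eq_one)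
      apply hsne
      show ((χ'' s : kˣ) : k) / ((χ' s : kˣ) : k) = (a : k)
      rw [← hψval, h1, Units.val_pow_eq_pow_val, hx, ← map_pow, ← h2, h3, map_natCast]
    rw [hnum.2 hx, mul_one]

end Core

/-! ### The tame field of two characters -/

section Field

variable {ζ : PadicAlgCl p}

/-- the mod `p` cyclotomic character is trivial exactly on the automorphisms fixing `ζ` -/
theorem autToPow_eq_one_iff (hζ : IsPrimitiveRoot ζ p) (σ : LocGal p) :
    hζ.autToPow ℚ_[p] σ = 1 ↔ σ ζ = ζ := by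
  haveI : NeZero p := ⟨(Fact.out : p.Prime).ne_zero⟩
  haveI : Fact (1 < p) := ⟨(Fact.out : p.Prime).one_lt⟩
  have hspec := hζ.autToPow_spec ℚ_[p] σ
  constructor
  · intro h
    rw [h, Units.val_one, ZMod.val_one, pow_one] at hspec
    exact hspec.symm
  · intro h
    rw [h] at hspec
    have hfin : IsOfFinOrder ζ :=
      isOfFinOrder_iff_pow_eq_one.2 ⟨p, (Fact.out : p.Prime).pos, hζ.pow_eq_one⟩
    have h2 : ζ ^ ((hζ.autToPow ℚ_[p] σ : (ZMod p)ˣ) : ZMod p).val = ζ ^ 1 := by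
      rw [hspec, pow_one]
    have h3 := hfin.pow_eq_pow_iff_modEq.1 h2
    rw [← hζ.eq_orderOf] at h3
    have h4 : ((((hζ.autToPow ℚ_[p] σ : (ZMod p)ˣ) : ZMod p).val : ℕ) : ZMod p) =
        ((1 : ℕ) : ZMod p) := (ZMod.natCast_eq_natCast_iff _ _ _).2 h3
    rw [ZMod.natCast_zmod_val, Nat.cast_one] at h4
    exact Units.ext h4

omit [Algebra (ZMod p) k] in
/-- **The tame field of two characters**: finite Galois of degree prime to `p`, containing `ζ`,
trivialising both characters. -/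
theorem exists_tame_field (hζ : IsPrimitiveRoot ζ p) (χ' χ'' : LocGal p →* kˣ)
    (LV : IntermediateField ℚ_[p] (PadicAlgCl p)) [FiniteDimensional ℚ_[p] LV]
    (hLV : ∀ σ ∈ LV.fixingSubgroup, χ' σ = 1 ∧ χ'' σ = 1) :
    ∃ F : IntermediateField ℚ_[p] (PadicAlgCl p), FiniteDimensional ℚ_[p] F ∧ IsGalois ℚ_[p] F ∧
      ζ ∈ F ∧ ¬ p ∣ Module.finrank ℚ_[p] F ∧ (∀ σ ∈ F.fixingSubgroup, χ' σ = 1) ∧
      ∀ σ ∈ F.fixingSubgroup, χ'' σ = 1 := by
  have hp : p.Prime := Fact.out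
  let ω : LocGal p →* (ZMod p)ˣ := hζ.autToPow ℚ_[p]
  let χ : LocGal p →* kˣ × (kˣ × (ZMod p)ˣ) := χ'.prod (χ''.prod ω)
  have hζint : IsIntegral ℚ_[p] ζ :=
    IsIntegral.of_pow hp.pos (by rw [hζ.pow_eq_one]; exact isIntegral_one)
  haveI : FiniteDimensional ℚ_[p] ℚ_[p]⟮ζ⟯ := IntermediateField.adjoin.finiteDimensional hζint
  haveI : FiniteDimensional ℚ_[p] ↥(LV ⊔ ℚ_[p]⟮ζ⟯) :=
    IntermediateField.finiteDimensional_sup LV ℚ_[p]⟮ζ⟯
  have hker : ∀ σ : LocGal p, σ ∈ χ.ker ↔ χ' σ = 1 ∧ χ'' σ = 1 ∧ σ ζ = ζ := by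
    intro σ
    rw [MonoidHom.mem_ker, MonoidHom.prod_apply, Prod.mk_eq_one, MonoidHom.prod_apply,
      Prod.mk_eq_one, autToPow_eq_one_iff hζ σ]
  have hLV' : (LV ⊔ ℚ_[p]⟮ζ⟯).fixingSubgroup ≤ χ.ker := by
    intro σ hσ
    rw [IntermediateField.mem_fixingSubgroup_iff] at hσ
    rw [hker]
    have h1 : σ ∈ LV.fixingSubgroup := by
      rw [IntermediateField.mem_fixingSubgroup_iff]
      exact fun x hx => hσ x ((le_sup_left : LV ≤ LV ⊔ ℚ_[p]⟮ζ⟯) hx)
    exact ⟨(hLV σ h1).1, (hLV σ h1).2, hσ ζ ((le_sup_right : ℚ_[p]⟮ζ⟯ ≤ LV ⊔ ℚ_[p]⟮ζ⟯)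
      (IntermediateField.mem_adjoin_simple_self _ ζ))⟩
  obtain ⟨F, hfd, hgal, hfix, hcard, hζF⟩ :=
    FieldOfHom.exists_field_of_hom_mem χ (LV ⊔ ℚ_[p]⟮ζ⟯) hLV'
      (fun σ hσ => ((hker σ).1 hσ).2.2)
  refine ⟨F, hfd, hgal, hζF, ?_, fun σ hσ => ?_, fun σ hσ => ?_⟩
  · rw [hcard]
    have h1 : Nat.card ↥χ.range ∣ Nat.card (kˣ × (kˣ × (ZMod p)ˣ)) :=
      Subgroup.card_subgroup_dvd_card χ.range
    rw [Nat.card_prod, Nat.card_prod] at h1
    intro hdvd
    have h2 := hdvd.trans h1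
    have hk := not_dvd_card_units p k
    have hz := not_dvd_card_units p (ZMod p)
    rcases (Nat.Prime.dvd_mul hp).1 h2 with h | h
    · exact hk h
    · rcases (Nat.Prime.dvd_mul hp).1 h with h | h
      · exact hk h
      · exact hz h
  · rw [hfix] at hσ
    exact ((hker σ).1 hσ).1
  · rw [hfix] at hσ
    exact ((hker σ).1 hσ).2.1

end Field

/-! ### The exported bounds (S27-A) -/

section Export

variable {ζ : PadicAlgCl p}

omit [Algebra (ZMod p) k] in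
/-- (S27-A), both bounds at once. -/
theorem extBound_both (hζ : IsPrimitiveRoot ζ p) (hKL : KummerLevelPrinciple p ζ)
    (χ' χ'' : LocGal p →* kˣ) :
    ExtBound (fun g => ((χ' g : kˣ) : k)) (fun g => ((χ'' g : kˣ) : k)) (Nat.card k ^ 2) ∧
    (NeOmegaOnInertia (fun g => ((χ'' g : kˣ) : k) / ((χ' g : kˣ) : k)) →
      ExtBound (fun g => ((χ' g : kˣ) : k)) (fun g => ((χ'' g : kˣ) : k)) (Nat.card k)) := by
  letI : Algebra (ZMod p) k := ZMod.algebra k p
  by_cases hex : ∃ f : LocGal p → k,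
      IsLocFlat p (actE (fun g => ((χ' g : kˣ) : k)) (fun g => ((χ'' g : kˣ) : k)) f)
  · obtain ⟨f₀, hf₀⟩ := hex
    obtain ⟨LV, hLVfd, hLV⟩ := exists_field_of_isLocFlat_actE hKL _ _ f₀ hf₀
    haveI := hLVfd
    obtain ⟨F, hfd, hgal, hζF, hpF, hF', hF''⟩ := exists_tame_field hζ χ' χ'' LV
      (fun σ hσ => ⟨Units.ext (hLV σ hσ).1, Units.ext (hLV σ hσ).2⟩)
    haveI := hfd
    haveI := hgal
    exact extBound_core hζ hKL χ' χ'' hζF hpF hF' hF''
  · push Not at hex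
    have h0 : ∀ n : ℕ, ExtBound (fun g => ((χ' g : kˣ) : k)) (fun g => ((χ'' g : kˣ) : k)) n :=
      fun n => ⟨∅, Set.finite_empty, by rw [Set.ncard_empty]; exact Nat.zero_le n,
        fun f _ hf => (hex f hf).elim⟩
    exact ⟨h0 _, fun _ => h0 _⟩

omit [Algebra (ZMod p) k] in
/-- **(S27-A)(i)** -/
theorem extBound_sq (hζ : IsPrimitiveRoot ζ p) (hKL : KummerLevelPrinciple p ζ)
    (χ' χ'' : LocGal p →* kˣ) :
    ExtBound (fun g => ((χ' g : kˣ) : k)) (fun g => ((χ'' g : kˣ) : k)) (Nat.card k ^ 2) :=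
  (extBound_both hζ hKL χ' χ'').1

omit [Algebra (ZMod p) k] in
/-- **(S27-A)(ii)** -/
theorem extBound_of_ne (hζ : IsPrimitiveRoot ζ p) (hKL : KummerLevelPrinciple p ζ)
    (χ' χ'' : LocGal p →* kˣ)
    (h : NeOmegaOnInertia (fun g => ((χ'' g : kˣ) : k) / ((χ' g : kˣ) : k))) :
    ExtBound (fun g => ((χ' g : kˣ) : k)) (fun g => ((χ'' g : kˣ) : k)) (Nat.card k) :=
  (extBound_both hζ hKL χ' χ'').2 h

end Export

end Fermat.Agent.S56.Flat.CharTable
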