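import Mathlib
import Fermat.Agent.CFT.Local.Model

/-!
# PROJECT T (S56), block (a3) Flat: the closed-ball ideals of the ring of integers of a local field

Frame = main's `CFT/Local/Model`: `K` a field with `[Algebra ℚ_[q] K] [FiniteDimensional ℚ_[q] K]`,
`nrm q K` its absolute value, `𝒪 q K` its ring of integers.  `ballIdeal q K r` is the ideal
`{x ∈ 𝒪 q K | nrm q K x ≤ r}` (for `r < 0` it is the zero ideal: the bound is `max r 0`).

In Fontaine's notation (`v(q) = 1`, `r = q ^ (-s)`): `ballIdeal r = I_s = {v ≥ s}`,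
`ballIdeal (r / q) = q • I_s = a^{1+s}`, and `s > 1/(q-1)` reads `r ^ (q - 1) < q⁻¹`.
-/

set_option autoImplicit false

namespace Fermat.Agent.S56.Flat.Ball

open Fermat.Agent.CFT.Local.Model

variable (q : ℕ) [Fact q.Prime] (K : Type*) [Field K] [Algebra ℚ_[q] K]
  [FiniteDimensional ℚ_[q] K]

/-- The ideal `{x ∈ 𝒪 q K | nrm q K x ≤ r}` of the ring of integers. -/
noncomputable def ballIdeal (r : ℝ) : Ideal ↥(𝒪 q K) where
  carrier := {x | nrm q K (x : K) ≤ max r 0}
  add_mem' {x y} hx hy := by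
    simp only [Set.mem_ofPred_eq] at hx hy ⊢
    exact (nrm_add_le_max q K (x : K) (y : K)).trans (max_le hx hy)
  zero_mem' := by
    simp only [Set.mem_ofPred_eq, ZeroMemClass.coe_zero, nrm_zero]
    exact le_max_right r 0
  smul_mem' a x hx := by
    simp only [Set.mem_ofPred_eq, smul_eq_mul, MulMemClass.coe_mul] at hx ⊢
    rw [nrm_mul]
    calc nrm q K (a : K) * nrm q K (x : K) ≤ 1 * max r 0 :=
          mul_le_mul a.2 hx (nrm_nonneg q K _) zero_le_one
      _ = max r 0 := one_mul _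

variable {q K}

theorem mem_ballIdeal' {r : ℝ} {x : ↥(𝒪 q K)} :
    x ∈ ballIdeal q K r ↔ nrm q K (x : K) ≤ max r 0 := Iff.rfl

theorem mem_ballIdeal {r : ℝ} (hr : 0 ≤ r) {x : ↥(𝒪 q K)} :
    x ∈ ballIdeal q K r ↔ nrm q K (x : K) ≤ r := by
  rw [mem_ballIdeal', max_eq_left hr]

theorem ballIdeal_mono {r r' : ℝ} (h : r ≤ r') : ballIdeal q K r ≤ ballIdeal q K r' := by
  intro x hx
  rw [mem_ballIdeal'] at hx ⊢
  exact hx.trans (max_le_max h le_rfl)

theorem ballIdeal_eq_top {r : ℝ} (hr : 1 ≤ r) : ballIdeal q K r = ⊤ := by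
  rw [Ideal.eq_top_iff_one, mem_ballIdeal (zero_le_one.trans hr)]
  simpa using hr

end Fermat.Agent.S56.Flat.Ball
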