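/-
PROJECT T (S56), block (a3) Flat, FILE 1 of helper15's chain (#3858 (R0) (R1) (R2), #3889):
`p`-th roots near `1` in a `ϖ`-adically complete commutative ring.

Setting: `C` a commutative ring, `ϖ : C` a non-zero-divisor, `C` is `(ϖ)`-adically complete,
`(p : C) = υ * ϖ ^ e` with `υ` a unit, `p` a prime, and `e < j * (p - 1)`.

* `eq_one_of_pow_eq_one` (R0): `t ∈ 1 + ϖ^j C`, `t ^ p = 1` implies `t = 1`.
* `exists_root` (R1): every `c ∈ 1 + ϖ^(e+j) C` has a `p`-th root in `1 + ϖ^j C`.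
* `root_unique`, `root`, `root_mul`, `root_pow_self`, `map_root` (R2): the root in `1 + ϖ^j C` is
  unique, hence multiplicative and functorial.

Mathlib only.
-/
import Mathlib

set_option autoImplicit false

namespace Fermat.Agent.S56.Flat.PthRoot

/-- The standing hypotheses, bundled in one `Prop`-structure. -/
structure Setting (C : Type*) [CommRing C] (ϖ : C) (p e j : ℕ) : Prop where
  prime : p.Prime
  regular : ∀ x : C, ϖ * x = 0 → x = 0
  complete : IsAdicComplete (Ideal.span {ϖ}) C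
  p_eq : ∃ υ : Cˣ, (p : C) = υ * ϖ ^ e
  lt : e < j * (p - 1)

section Basic

variable {C : Type*} [CommRing C]

/-- Membership in `(ϖ ^ n)` in product form. -/
theorem mem_span_pow_iff {ϖ : C} {n : ℕ} {x : C} :
    x ∈ Ideal.span {ϖ ^ n} ↔ ∃ y, x = ϖ ^ n * y :=
  Ideal.mem_span_singleton

theorem span_pow_le {ϖ : C} {m n : ℕ} (h : m ≤ n) :
    Ideal.span {ϖ ^ n} ≤ Ideal.span {ϖ ^ m} := by
  rw [Ideal.span_singleton_le_span_singleton]
  exact pow_dvd_pow ϖ h

/-- Congruence modulo `(ϖ)^n • ⊤` is membership of the difference in `(ϖ ^ n)`. -/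
theorem smodEq_iff {ϖ : C} {n : ℕ} {x y : C} :
    x ≡ y [SMOD ((Ideal.span {ϖ}) ^ n • ⊤ : Submodule C C)] ↔ x - y ∈ Ideal.span {ϖ ^ n} := by
  rw [SModEq.sub_mem, smul_eq_mul, Ideal.mul_top, Ideal.span_singleton_pow]

/-- A binomial expansion for a prime exponent, keeping track of the factor `p` in the middle
terms. -/
theorem add_pow_prime {p : ℕ} (hp : p.Prime) (a b : C) :
    ∃ s : C, (a + b) ^ p = a ^ p + (p : C) * a ^ (p - 1) * b + (p : C) * b ^ 2 * s + b ^ p := by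
  obtain ⟨q, rfl⟩ : ∃ q, p = q + 2 := ⟨p - 2, by have := hp.two_le; omega⟩
  refine ⟨∑ m ∈ Finset.range q,
    b ^ m * a ^ (q + 2 - (m + 2)) * (((q + 2).choose (m + 2) / (q + 2) : ℕ) : C), ?_⟩
  have hterm : ∀ m ∈ Finset.range q,
      b ^ (m + 2) * a ^ (q + 2 - (m + 2)) * (((q + 2).choose (m + 2) : ℕ) : C) =
        ((q + 2 : ℕ) : C) * b ^ 2 *
          (b ^ m * a ^ (q + 2 - (m + 2)) * (((q + 2).choose (m + 2) / (q + 2) : ℕ) : C)) := by
    intro m hm
    have hm' : m < q := Finset.mem_range.mp hm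
    have hdvd : (q + 2) ∣ (q + 2).choose (m + 2) :=
      hp.dvd_choose_self (by omega) (by omega)
    obtain ⟨k, hk⟩ := hdvd
    rw [hk, Nat.mul_div_cancel_left k (by omega : 0 < q + 2)]
    push_cast
    ring
  rw [add_comm a b, add_pow, Finset.sum_range_succ, Finset.sum_range_succ', Finset.sum_range_succ',
    Finset.sum_congr rfl hterm, ← Finset.mul_sum]
  simp only [Nat.choose_self, Nat.choose_zero_right, Nat.choose_one_right, Nat.sub_self, pow_zero,
    Nat.cast_one, mul_one, one_mul, zero_add, pow_one, Nat.sub_zero]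
  push_cast
  ring

/-- `r ≡ 1` modulo `ϖ ^ j` implies `r ^ n ≡ 1` modulo `ϖ ^ j`. -/
theorem pow_sub_one_mem {ϖ : C} {j : ℕ} {r : C} (hr : r - 1 ∈ Ideal.span {ϖ ^ j}) (n : ℕ) :
    r ^ n - 1 ∈ Ideal.span {ϖ ^ j} := by
  have hd : r - 1 ∣ r ^ n - 1 := by
    have := sub_dvd_pow_sub_pow r 1 n
    rwa [one_pow] at this
  obtain ⟨d, hd⟩ := hd
  rw [hd]
  exact Ideal.mul_mem_right _ _ hr

/-- `1 + (ϖ ^ n)` is closed under multiplication. -/
theorem mul_sub_one_mem {ϖ : C} {n : ℕ} {a b : C} (ha : a - 1 ∈ Ideal.span {ϖ ^ n})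
    (hb : b - 1 ∈ Ideal.span {ϖ ^ n}) : a * b - 1 ∈ Ideal.span {ϖ ^ n} := by
  have : a * b - 1 = (a - 1) * b + (b - 1) := by ring
  rw [this]
  exact add_mem (Ideal.mul_mem_right _ _ ha) hb

/-- `1 + (ϖ ^ n)` is closed under inverses of units. -/
theorem sub_one_mem_of_inv {ϖ : C} {n : ℕ} (u : Cˣ) (h : (u : C) - 1 ∈ Ideal.span {ϖ ^ n}) :
    ((u⁻¹ : Cˣ) : C) - 1 ∈ Ideal.span {ϖ ^ n} := by
  have huu : (u : C) * ((u⁻¹ : Cˣ) : C) = 1 := by
    rw [← Units.val_mul, mul_inv_cancel, Units.val_one]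
  have : ((u⁻¹ : Cˣ) : C) - 1 = -(((u : C) - 1) * ((u⁻¹ : Cˣ) : C)) := by
    linear_combination huu
  rw [this]
  exact neg_mem (Ideal.mul_mem_right _ _ h)

end Basic

namespace Setting

variable {C : Type*} [CommRing C] {ϖ : C} {p e j : ℕ}

theorem one_le_j (h : Setting C ϖ p e j) : 1 ≤ j := by
  rcases Nat.eq_zero_or_pos j with h0 | h0
  · have := h.lt
    rw [h0, zero_mul] at this
    omega
  · exact h0

theorem regular_pow (h : Setting C ϖ p e j) (n : ℕ) (x : C) (hx : ϖ ^ n * x = 0) : x = 0 := by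
  induction n with
  | zero => simpa using hx
  | succ n ih =>
    apply ih
    apply h.regular
    rw [← mul_assoc, ← pow_succ']
    exact hx

/-- Separatedness in elementary form. -/
theorem eq_zero_of_forall_mem (h : Setting C ϖ p e j) {x : C}
    (hx : ∀ n, x ∈ Ideal.span {ϖ ^ n}) : x = 0 := by
  have := h.complete
  refine IsHausdorff.haus' (I := Ideal.span {ϖ}) x fun n => ?_
  rw [smodEq_iff, sub_zero]
  exact hx n

/-- Completeness in elementary form. -/
theorem exists_limit (h : Setting C ϖ p e j) (f : ℕ → C)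
    (hf : ∀ n, f (n + 1) - f n ∈ Ideal.span {ϖ ^ n}) :
    ∃ L : C, ∀ n, L - f n ∈ Ideal.span {ϖ ^ n} := by
  have := h.complete
  have hc : AdicCompletion.IsAdicCauchy (Ideal.span {ϖ}) C f := by
    rw [AdicCompletion.isAdicCauchy_iff]
    intro n
    rw [smodEq_iff, ← neg_sub]
    exact neg_mem (hf n)
  obtain ⟨L, hL⟩ := IsPrecomplete.prec' (I := Ideal.span {ϖ}) f hc
  refine ⟨L, fun n => ?_⟩
  have := hL n
  rw [smodEq_iff, ← neg_sub] at this
  simpa using neg_mem this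

theorem isUnit_of_sub_one_mem (h : Setting C ϖ p e j) {r : C}
    (hr : r - 1 ∈ Ideal.span {ϖ ^ j}) : IsUnit r := by
  have := h.complete
  have h1 : r - 1 ∈ Ideal.span {ϖ} := by
    have := span_pow_le (ϖ := ϖ) h.one_le_j hr
    rwa [pow_one] at this
  have h2 := IsAdicComplete.le_jacobson_bot (Ideal.span {ϖ}) h1
  have h3 := (Ideal.mem_jacobson_bot.mp h2) 1
  have : (r - 1) * 1 + 1 = r := by ring
  rwa [this] at h3

/-- **(R0)** uniqueness of `p`-th roots of `1` near `1`. -/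
theorem eq_one_of_pow_eq_one (h : Setting C ϖ p e j) {t : C}
    (h1 : t - 1 ∈ Ideal.span {ϖ ^ j}) (hp : t ^ p = 1) : t = 1 := by
  obtain ⟨υ, hυ⟩ := h.p_eq
  set w : C := t - 1 with hw
  have ht : t = 1 + w := by rw [hw]; ring
  obtain ⟨s, hs⟩ := add_pow_prime h.prime (1 : C) w
  rw [← ht, hp, one_pow, one_pow, mul_one] at hs
  -- the key relation
  have key : (p : C) * w + (p : C) * w ^ 2 * s + w ^ p = 0 := by
    linear_combination -hs
  have hall : ∀ n, j ≤ n → w ∈ Ideal.span {ϖ ^ n} := by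
    intro n hn
    induction n, hn using Nat.le_induction with
    | base => exact h1
    | succ n hn ih =>
      obtain ⟨w0, hw0⟩ := mem_span_pow_iff.mp ih
      have hjn : 1 ≤ n := le_trans h.one_le_j hn
      obtain ⟨n', rfl⟩ : ∃ n', n = n' + 1 := ⟨n - 1, by omega⟩
      have hlt : e + (n' + 1) < p * (n' + 1) := by
        have h2 := h.lt
        have h3 : j * (p - 1) ≤ (n' + 1) * (p - 1) := Nat.mul_le_mul_right _ hn
        have h4 : 1 ≤ p := h.prime.one_lt.le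
        have h5 : (n' + 1) * (p - 1) + (n' + 1) = p * (n' + 1) := by
          have : p - 1 + 1 = p := by omega
          calc (n' + 1) * (p - 1) + (n' + 1) = (n' + 1) * (p - 1 + 1) := by ring
            _ = p * (n' + 1) := by rw [this, mul_comm]
        omega
      obtain ⟨k, hk⟩ : ∃ k, p * (n' + 1) = e + (n' + 1) + (k + 1) :=
        ⟨p * (n' + 1) - (e + (n' + 1)) - 1, by omega⟩
      have hwp : w ^ p = ϖ ^ (e + (n' + 1)) * (ϖ ^ (k + 1) * w0 ^ p) := by
        rw [hw0, mul_pow, ← pow_mul, mul_comm (n' + 1) p, hk, pow_add _ (e + (n' + 1)) (k + 1),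
          mul_assoc]
      have hfac : ϖ ^ (e + (n' + 1)) *
          ((υ : C) * w0 + (υ : C) * ϖ ^ (n' + 1) * w0 ^ 2 * s + ϖ ^ (k + 1) * w0 ^ p) = 0 := by
        have e1 : (p : C) * w = ϖ ^ (e + (n' + 1)) * ((υ : C) * w0) := by
          rw [hυ, hw0, pow_add]; ring
        have e2 : (p : C) * w ^ 2 * s =
            ϖ ^ (e + (n' + 1)) * ((υ : C) * ϖ ^ (n' + 1) * w0 ^ 2 * s) := by
          rw [hυ, hw0, pow_add]; ring
        rw [mul_add, mul_add, ← e1, ← e2, ← hwp]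
        exact key
      have hcan := h.regular_pow _ _ hfac
      have hw0' : w0 = ϖ * (-(↑(υ⁻¹) : C) *
          ((υ : C) * ϖ ^ n' * w0 ^ 2 * s + ϖ ^ k * w0 ^ p)) := by
        have hυυ : (↑(υ⁻¹) : C) * (υ : C) = 1 := by
          rw [← Units.val_mul, inv_mul_cancel, Units.val_one]
        linear_combination (↑(υ⁻¹) : C) * hcan - w0 * hυυ
      rw [mem_span_pow_iff]
      refine ⟨-(↑(υ⁻¹) : C) * ((υ : C) * ϖ ^ n' * w0 ^ 2 * s + ϖ ^ k * w0 ^ p), ?_⟩
      rw [hw0]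
      conv_lhs => rw [hw0']
      ring
  have hw_zero : w = 0 := by
    apply h.eq_zero_of_forall_mem
    intro n
    exact span_pow_le (Nat.le_max_left n j) (hall (max n j) (Nat.le_max_right n j))
  rw [ht, hw_zero, add_zero]

/-- One step of the (linear) Newton iteration for `X ^ p = c` near `1`. -/
theorem exists_step (h : Setting C ϖ p e j) {c : C} (n : ℕ) {r : C}
    (hr : r - 1 ∈ Ideal.span {ϖ ^ j}) (hrc : r ^ p - c ∈ Ideal.span {ϖ ^ (e + j + n)}) :
    ∃ r' : C, r' - 1 ∈ Ideal.span {ϖ ^ j} ∧ r' ^ p - c ∈ Ideal.span {ϖ ^ (e + j + (n + 1))} ∧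
      r' - r ∈ Ideal.span {ϖ ^ (j + n)} := by
  obtain ⟨υ, hυ⟩ := h.p_eq
  obtain ⟨d, hd⟩ := mem_span_pow_iff.mp hrc
  obtain ⟨u, hu⟩ := mem_span_pow_iff.mp (pow_sub_one_mem hr (p - 1))
  have hυυ : (υ : C) * (↑(υ⁻¹) : C) = 1 := by
    rw [← Units.val_mul, mul_inv_cancel, Units.val_one]
  have hj1 := h.one_le_j
  -- the correction
  set x : C := -(↑(υ⁻¹) : C) * d with hx
  set hh : C := ϖ ^ (j + n) * x with hhh
  obtain ⟨s, hs⟩ := add_pow_prime h.prime r hh
  have hlt : e + (j + n) < p * (j + n) := by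
    have h2 := h.lt
    have h3 : j * (p - 1) ≤ (j + n) * (p - 1) := Nat.mul_le_mul_right _ (Nat.le_add_right j n)
    have h4 : 1 ≤ p := h.prime.one_lt.le
    have h5 : (j + n) * (p - 1) + (j + n) = p * (j + n) := by
      have : p - 1 + 1 = p := by omega
      calc (j + n) * (p - 1) + (j + n) = (j + n) * (p - 1 + 1) := by ring
        _ = p * (j + n) := by rw [this, mul_comm]
    omega
  obtain ⟨k, hk⟩ : ∃ k, p * (j + n) = e + j + (n + 1) + k :=
    ⟨p * (j + n) - (e + j + (n + 1)), by omega⟩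
  obtain ⟨j', hj'⟩ : ∃ j', j = j' + 1 := ⟨j - 1, by omega⟩
  refine ⟨r + hh, ?_, ?_, ?_⟩
  · have : r + hh - 1 = (r - 1) + hh := by ring
    rw [this]
    refine add_mem hr ?_
    rw [hhh]
    exact Ideal.mul_mem_right _ _ (span_pow_le (Nat.le_add_right j n) (Ideal.subset_span rfl))
  · -- the main estimate
    have e0 : ϖ ^ (e + j + (n + 1)) = ϖ ^ (e + j + n) * ϖ := by
      rw [← add_assoc, pow_succ]
    have e1 : (p : C) * r ^ (p - 1) * hh =
        -(ϖ ^ (e + j + n) * d) + ϖ ^ (e + j + (n + 1)) * (-(ϖ ^ j' * u * d)) := by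
      have hr' : r ^ (p - 1) = 1 + ϖ ^ j * u := by rw [← hu]; ring
      have e2 : ϖ ^ (e + j + n) = ϖ ^ e * ϖ ^ (j + n) := by rw [add_assoc, pow_add]
      have e3 : ϖ ^ j = ϖ ^ j' * ϖ := by rw [hj', pow_succ]
      rw [e0, hr', hhh, hx, hυ, e2, e3]
      linear_combination (-(ϖ ^ e * ϖ ^ (j + n) * d) - ϖ ^ e * ϖ ^ (j + n) * d * ϖ ^ j' * ϖ * u) * hυυ
    have e4 : (p : C) * hh ^ 2 * s =
        ϖ ^ (e + j + (n + 1)) * ((υ : C) * ϖ ^ (j' + n) * x ^ 2 * s) := by
      have e5 : ϖ ^ (e + j + (n + 1)) * ϖ ^ (j' + n) = ϖ ^ e * (ϖ ^ (j + n)) ^ 2 := by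
        rw [← pow_mul, ← pow_add, ← pow_add]
        congr 1
        omega
      rw [hhh, hυ]
      linear_combination (υ : C) * x ^ 2 * s * (-e5)
    have e6 : hh ^ p = ϖ ^ (e + j + (n + 1)) * (ϖ ^ k * x ^ p) := by
      rw [hhh, mul_pow, ← pow_mul, mul_comm (j + n) p, hk, pow_add _ _ k, mul_assoc]
    have : (r + hh) ^ p - c = ϖ ^ (e + j + (n + 1)) *
        (-(ϖ ^ j' * u * d) + (υ : C) * ϖ ^ (j' + n) * x ^ 2 * s + ϖ ^ k * x ^ p) := by
      rw [hs, e1, e4, e6]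
      linear_combination hd
    rw [this]
    exact mem_span_pow_iff.mpr ⟨_, rfl⟩
  · have : r + hh - r = hh := by ring
    rw [this, hhh]
    exact mem_span_pow_iff.mpr ⟨_, rfl⟩

/-- **(R1)** existence of `p`-th roots near `1`. -/
theorem exists_root (h : Setting C ϖ p e j) {c : C}
    (hc : c - 1 ∈ Ideal.span {ϖ ^ (e + j)}) :
    ∃ r : C, r - 1 ∈ Ideal.span {ϖ ^ j} ∧ r ^ p = c := by
  -- the approximating sequence, with its invariants
  let P : ℕ → C → Prop := fun n r =>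
    r - 1 ∈ Ideal.span {ϖ ^ j} ∧ r ^ p - c ∈ Ideal.span {ϖ ^ (e + j + n)}
  have hP0 : P 0 1 := by
    refine ⟨by simp, ?_⟩
    have : (1 : C) ^ p - c = -(c - 1) := by ring
    rw [this, add_zero]
    exact neg_mem hc
  have hstep : ∀ n (r : {r : C // P n r}), ∃ r' : {r : C // P (n + 1) r},
      r'.1 - r.1 ∈ Ideal.span {ϖ ^ (j + n)} := by
    intro n r
    obtain ⟨r', h1, h2, h3⟩ := h.exists_step n r.2.1 r.2.2
    exact ⟨⟨r', h1, h2⟩, h3⟩
  let seq : (n : ℕ) → {r : C // P n r} := fun n =>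
    Nat.rec (motive := fun n => {r : C // P n r}) ⟨1, hP0⟩ (fun n r => (hstep n r).choose) n
  have hseq : ∀ n, (seq (n + 1)).1 - (seq n).1 ∈ Ideal.span {ϖ ^ (j + n)} := fun n =>
    (hstep n (seq n)).choose_spec
  obtain ⟨L, hL⟩ := h.exists_limit (fun n => (seq n).1)
    (fun n => span_pow_le (Nat.le_add_left n j) (hseq n))
  refine ⟨L, ?_, ?_⟩
  · have : L - 1 = (L - (seq j).1) + ((seq j).1 - 1) := by ring
    rw [this]
    exact add_mem (hL j) (seq j).2.1
  · rw [← sub_eq_zero]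
    apply h.eq_zero_of_forall_mem
    intro n
    have h1 : L ^ p - (seq n).1 ^ p ∈ Ideal.span {ϖ ^ n} := by
      obtain ⟨d, hd⟩ := sub_dvd_pow_sub_pow L (seq n).1 p
      rw [hd]
      exact Ideal.mul_mem_right _ _ (hL n)
    have h2 : (seq n).1 ^ p - c ∈ Ideal.span {ϖ ^ n} :=
      span_pow_le (by omega) (seq n).2.2
    have : L ^ p - c = (L ^ p - (seq n).1 ^ p) + ((seq n).1 ^ p - c) := by ring
    rw [this]
    exact add_mem h1 h2

/-- **(R2)**, core: the `p`-th root near `1` is unique. -/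
theorem root_unique (h : Setting C ϖ p e j) {r r' : C} (hr : r - 1 ∈ Ideal.span {ϖ ^ j})
    (hr' : r' - 1 ∈ Ideal.span {ϖ ^ j}) (hpow : r ^ p = r' ^ p) : r = r' := by
  obtain ⟨v, hv⟩ := h.isUnit_of_sub_one_mem hr'
  have hvv : r' * (↑(v⁻¹) : C) = 1 := by
    rw [← hv, ← Units.val_mul, mul_inv_cancel, Units.val_one]
  have h1 : r * (↑(v⁻¹) : C) - 1 ∈ Ideal.span {ϖ ^ j} := by
    have : r * (↑(v⁻¹) : C) - 1 = ((r - 1) - (r' - 1)) * (↑(v⁻¹) : C) := by
      linear_combination hvv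
    rw [this]
    exact Ideal.mul_mem_right _ _ (sub_mem hr hr')
  have h2 : (r * (↑(v⁻¹) : C)) ^ p = 1 := by
    rw [mul_pow, hpow, ← mul_pow, hvv, one_pow]
  have h3 := h.eq_one_of_pow_eq_one h1 h2
  calc r = r * (r' * (↑(v⁻¹) : C)) := by rw [hvv, mul_one]
    _ = r' * (r * (↑(v⁻¹) : C)) := by ring
    _ = r' := by rw [h3, mul_one]

open Classical in
/-- The `p`-th root of `c ∈ 1 + ϖ^(e+j) C` in `1 + ϖ^j C` (junk value `1` elsewhere). -/
noncomputable def root (h : Setting C ϖ p e j) (c : C) : C :=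
  if hc : c - 1 ∈ Ideal.span {ϖ ^ (e + j)} then (h.exists_root hc).choose else 1

theorem root_sub_one_mem (h : Setting C ϖ p e j) (c : C) :
    h.root c - 1 ∈ Ideal.span {ϖ ^ j} := by
  unfold root
  split_ifs with hc
  · exact (h.exists_root hc).choose_spec.1
  · simp

theorem root_pow (h : Setting C ϖ p e j) {c : C} (hc : c - 1 ∈ Ideal.span {ϖ ^ (e + j)}) :
    h.root c ^ p = c := by
  unfold root
  rw [dif_pos hc]
  exact (h.exists_root hc).choose_spec.2

theorem root_eq_of_pow_eq (h : Setting C ϖ p e j) {c r : C} (hr : r - 1 ∈ Ideal.span {ϖ ^ j})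
    (hc : c - 1 ∈ Ideal.span {ϖ ^ (e + j)}) (hrp : r ^ p = c) : h.root c = r :=
  h.root_unique (h.root_sub_one_mem c) hr (by rw [h.root_pow hc, hrp])

theorem isUnit_root (h : Setting C ϖ p e j) (c : C) : IsUnit (h.root c) :=
  h.isUnit_of_sub_one_mem (h.root_sub_one_mem c)

theorem root_one (h : Setting C ϖ p e j) : h.root 1 = 1 :=
  h.root_eq_of_pow_eq (by simp) (by simp) (one_pow p)

theorem root_mul (h : Setting C ϖ p e j) {c c' : C} (hc : c - 1 ∈ Ideal.span {ϖ ^ (e + j)})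
    (hc' : c' - 1 ∈ Ideal.span {ϖ ^ (e + j)}) : h.root (c * c') = h.root c * h.root c' :=
  h.root_eq_of_pow_eq (mul_sub_one_mem (h.root_sub_one_mem c) (h.root_sub_one_mem c'))
    (mul_sub_one_mem hc hc') (by rw [mul_pow, h.root_pow hc, h.root_pow hc'])

/-- **(R2)**: the root of a `p`-th power of an element near `1` is that element. -/
theorem root_pow_self (h : Setting C ϖ p e j) {c' : C} (hc' : c' - 1 ∈ Ideal.span {ϖ ^ j})
    (hcp : c' ^ p - 1 ∈ Ideal.span {ϖ ^ (e + j)}) : h.root (c' ^ p) = c' :=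
  h.root_eq_of_pow_eq hc' hcp rfl

/-- **(R2)**, functoriality: ring homomorphisms respecting `ϖ` commute with `root`. -/
theorem map_root (h : Setting C ϖ p e j) {C' : Type*} [CommRing C'] {ϖ' : C'}
    (h' : Setting C' ϖ' p e j) (Ψ : C →+* C') (hΨ : Ψ ϖ = ϖ') {c : C}
    (hc : c - 1 ∈ Ideal.span {ϖ ^ (e + j)}) : Ψ (h.root c) = h'.root (Ψ c) := by
  have hmap : ∀ (n : ℕ) (x : C), x - 1 ∈ Ideal.span {ϖ ^ n} → Ψ x - 1 ∈ Ideal.span {ϖ' ^ n} := by
    intro n x hx
    obtain ⟨y, hy⟩ := mem_span_pow_iff.mp hx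
    have : Ψ x - 1 = ϖ' ^ n * Ψ y := by
      rw [← hΨ, ← map_pow, ← map_mul, ← hy, map_sub, map_one]
    rw [this]
    exact mem_span_pow_iff.mpr ⟨_, rfl⟩
  symm
  refine h'.root_eq_of_pow_eq (hmap j _ (h.root_sub_one_mem c)) (hmap (e + j) _ hc) ?_
  rw [← map_pow, h.root_pow hc]

end Setting

end Fermat.Agent.S56.Flat.PthRoot
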