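import Fermat.Agent.CFT.LocalBridge.Krasner

/-!
# S56, block (a3) `Flat`, leaf (L-TI): the field cut out by a homomorphism with open kernel

`χ : LocGal p →* A` (`A` any group) whose kernel contains the fixing subgroup of a finite
subextension `LV` of `Ω = PadicAlgCl p` over `ℚ_p`.  Then `F := fixedField (ker χ)` is a finite
Galois extension of `ℚ_p` with `Gal(Ω/F) = ker χ` and `[F : ℚ_p] = #(range χ)`
(`exists_field_of_hom`, `exists_field_of_hom'`); if `ker χ` fixes `ζ` then `ζ ∈ F`
(`exists_field_of_hom_mem`).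
-/

set_option autoImplicit false

noncomputable section

namespace Fermat.Agent.S56.Flat.FieldOfHom

open Fermat.Agent.CFT.LocalBridge

variable {p : ℕ} [Fact p.Prime]

local notation "Ω" => PadicAlgCl p

theorem fixedField_le_of_fixingSubgroup_le (N : Subgroup (LocGal p))
    (E₁ : IntermediateField ℚ_[p] Ω) (hE₁ : E₁.fixingSubgroup ≤ N) :
    IntermediateField.fixedField N ≤ E₁ :=
  (IntermediateField.fixedField_antitone hE₁).trans
    (InfiniteGalois.fixedField_fixingSubgroup E₁).le

theorem finiteDimensional_of_le {E E' : IntermediateField ℚ_[p] Ω} [FiniteDimensional ℚ_[p] E']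
    (h : E ≤ E') : FiniteDimensional ℚ_[p] E :=
  Module.Finite.of_injective (IntermediateField.inclusion h).toLinearMap
    (IntermediateField.inclusion_injective h)

/-- The fixed field of a normal subgroup is normal over the base. -/
theorem normal_fixedField (N : Subgroup (LocGal p)) [N.Normal] :
    Normal ℚ_[p] (IntermediateField.fixedField N) := by
  rw [IntermediateField.normal_iff_forall_map_le']
  rintro σ _ ⟨x, hx, rfl⟩
  change x ∈ IntermediateField.fixedField N at hx
  rw [IntermediateField.mem_fixedField_iff] at hx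
  change σ x ∈ IntermediateField.fixedField N
  rw [IntermediateField.mem_fixedField_iff]
  intro n hn
  have h1 : σ⁻¹ * n * σ ∈ N := by
    have := ‹N.Normal›.conj_mem n hn σ⁻¹
    rwa [inv_inv] at this
  have h2 := hx _ h1
  have h3 : n (σ x) = σ ((σ⁻¹ * n * σ) x) := by
    rw [AlgEquiv.mul_apply, AlgEquiv.mul_apply]
    change n (σ x) = σ (σ.symm (n (σ x)))
    rw [σ.apply_symm_apply]
  rw [h3, h2]

/-- A subgroup containing the fixing subgroup of a finite subextension is closed, hence it is the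
fixing subgroup of its fixed field. -/
theorem fixingSubgroup_fixedField_of_le (N : Subgroup (LocGal p))
    (E₁ : IntermediateField ℚ_[p] Ω) [FiniteDimensional ℚ_[p] E₁]
    (hE₁ : E₁.fixingSubgroup ≤ N) :
    (IntermediateField.fixedField N).fixingSubgroup = N := by
  have hopen : IsOpen (N : Set (LocGal p)) :=
    Subgroup.isOpen_mono hE₁ (IntermediateField.fixingSubgroup_isOpen E₁)
  have hclosed : IsClosed (N : Set (LocGal p)) := Subgroup.isClosed_of_isOpen N hopen
  exact InfiniteGalois.fixingSubgroup_fixedField (⟨N, hclosed⟩ : ClosedSubgroup (LocGal p))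

/-- **(L-TI), with the field named.**  The field cut out by a homomorphism with open kernel. -/
theorem exists_field_of_hom' {A : Type*} [Group A] (χ : LocGal p →* A)
    (LV : IntermediateField ℚ_[p] Ω) [FiniteDimensional ℚ_[p] LV]
    (hLV : LV.fixingSubgroup ≤ χ.ker) :
    ∃ F : IntermediateField ℚ_[p] Ω, FiniteDimensional ℚ_[p] F ∧ IsGalois ℚ_[p] F ∧
      F.fixingSubgroup = χ.ker ∧ Module.finrank ℚ_[p] F = Nat.card χ.range ∧
      F = IntermediateField.fixedField χ.ker := by
  let F : IntermediateField ℚ_[p] Ω := IntermediateField.fixedField χ.ker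
  have hFle : F ≤ LV := fixedField_le_of_fixingSubgroup_le χ.ker LV hLV
  have hfd : FiniteDimensional ℚ_[p] F := finiteDimensional_of_le hFle
  have hnorm : Normal ℚ_[p] F := normal_fixedField χ.ker
  have hgal : IsGalois ℚ_[p] F := ⟨⟩
  have hfix : F.fixingSubgroup = χ.ker := fixingSubgroup_fixedField_of_le χ.ker LV hLV
  refine ⟨F, hfd, hgal, hfix, ?_, rfl⟩
  rw [← IsGalois.card_aut_eq_finrank]
  have hsurj : Function.Surjective (AlgEquiv.restrictNormalHom (F := ℚ_[p]) (K₁ := Ω) F) :=
    AlgEquiv.restrictNormalHom_surjective (F := ℚ_[p]) (K₁ := F) Ω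
  have hker : (AlgEquiv.restrictNormalHom (F := ℚ_[p]) (K₁ := Ω) F).ker = χ.ker := by
    rw [IntermediateField.restrictNormalHom_ker, hfix]
  have e1 : (LocGal p ⧸ (AlgEquiv.restrictNormalHom (F := ℚ_[p]) (K₁ := Ω) F).ker) ≃*
      (F ≃ₐ[ℚ_[p]] F) := QuotientGroup.quotientKerEquivOfSurjective _ hsurj
  have e2 : (LocGal p ⧸ χ.ker) ≃* χ.range := QuotientGroup.quotientKerEquivRange χ
  have e3 : (LocGal p ⧸ (AlgEquiv.restrictNormalHom (F := ℚ_[p]) (K₁ := Ω) F).ker) ≃
      (LocGal p ⧸ χ.ker) := Quotient.congrRight fun a b => by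
    rw [QuotientGroup.leftRel_apply, QuotientGroup.leftRel_apply, hker]
  rw [← Nat.card_congr e1.toEquiv, Nat.card_congr e3, Nat.card_congr e2.toEquiv]

/-- **(L-TI).**  The field cut out by a homomorphism with open kernel. -/
theorem exists_field_of_hom {A : Type*} [Group A] (χ : LocGal p →* A)
    (LV : IntermediateField ℚ_[p] Ω) [FiniteDimensional ℚ_[p] LV]
    (hLV : LV.fixingSubgroup ≤ χ.ker) :
    ∃ F : IntermediateField ℚ_[p] Ω, FiniteDimensional ℚ_[p] F ∧ IsGalois ℚ_[p] F ∧
      F.fixingSubgroup = χ.ker ∧ Module.finrank ℚ_[p] F = Nat.card χ.range := by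
  obtain ⟨F, hfd, hgal, hfix, hcard, -⟩ := exists_field_of_hom' χ LV hLV
  exact ⟨F, hfd, hgal, hfix, hcard⟩

/-- **(L-TI), with a root of unity.**  If the kernel fixes `ζ` then `ζ` lies in the field. -/
theorem exists_field_of_hom_mem {A : Type*} [Group A] (χ : LocGal p →* A)
    (LV : IntermediateField ℚ_[p] Ω) [FiniteDimensional ℚ_[p] LV]
    (hLV : LV.fixingSubgroup ≤ χ.ker) {ζ : Ω} (hζ : ∀ σ ∈ χ.ker, σ ζ = ζ) :
    ∃ F : IntermediateField ℚ_[p] Ω, FiniteDimensional ℚ_[p] F ∧ IsGalois ℚ_[p] F ∧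
      F.fixingSubgroup = χ.ker ∧ Module.finrank ℚ_[p] F = Nat.card χ.range ∧ ζ ∈ F := by
  obtain ⟨F, hfd, hgal, hfix, hcard, hF⟩ := exists_field_of_hom' χ LV hLV
  refine ⟨F, hfd, hgal, hfix, hcard, ?_⟩
  rw [hF, IntermediateField.mem_fixedField_iff]
  exact hζ

end Fermat.Agent.S56.Flat.FieldOfHom
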