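import Mathlib

/-!
# PROJECT T (S56), block (a3) Flat, FILE 2: points of a Hopf algebra as group-like elements of the
convolution algebra

`R` a commutative ring, `H` a commutative `R`-bialgebra, `S` a commutative `R`-algebra.
`C1 := WithConv (H →ₗ[R] S)` and `C2 := WithConv (H ⊗[R] H →ₗ[R] S)` are `S`-algebras (Mathlib's
convolution algebras; commutative when `H` is cocommutative).

* `pullStar h`: pull-back along a coalgebra map, an `S`-algebra hom; `pushStar φ`: push-forward
  along an algebra map of the targets, a ring hom.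
* `mulStar`, `pr1Star`, `pr2Star : C1 →ₐ[S] C2` (pull-back along `m`, `id ⊗ ε`, `ε ⊗ id`),
  `oneStar : C1 →ₐ[S] S` (evaluation at `1`), `prodStar f g = (a ⊗ b ↦ f a * g b)` and
  `pr1Star f * pr2Star g = prodStar f g`.
* `exists_algHom_iff`: a linear map `f : H → S` is (the linear map of) an `R`-algebra hom iff
  `mulStar f = pr1Star f * pr2Star f` and `oneStar f = 1`.
* `mem_span_algebraMap_iff`: divisibility by a regular scalar in `C1` is pointwise divisibility;
  `regular_algebraMap`, `isAdicComplete_conv`: `C1`, `C2` inherit `ϖ`-regularity and `ϖ`-adic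
  completeness from `S` (no finiteness of `H` needed).
* `exists_linear_lift`: linear maps out of a projective module lift along `S → S ⧸ J`.
-/

set_option autoImplicit false

namespace Fermat.Agent.S56.Flat.GroupLike

open TensorProduct WithConv Coalgebra

/-! ### Pull-back and push-forward of convolution algebras -/

section Pull

variable {R : Type*} [CommRing R] {S : Type*} [CommRing S] [Algebra R S]
variable {B C : Type*} [AddCommGroup B] [Module R B] [Coalgebra R B]
  [AddCommGroup C] [Module R C] [Coalgebra R C]

/-- Pull-back of convolution algebras along a coalgebra hom. -/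
noncomputable def pullStar (h : B →ₗc[R] C) :
    WithConv (C →ₗ[R] S) →ₐ[S] WithConv (B →ₗ[R] S) where
  toFun f := toConv (f.ofConv ∘ₗ h.toLinearMap)
  map_one' := by
    apply WithConv.ofConv_injective
    ext b
    simp [LinearMap.convOne_def]
  map_mul' f g := by
    apply WithConv.ofConv_injective
    simpa using LinearMap.convMul_comp_coalgHom_distrib f g h
  map_zero' := by
    apply WithConv.ofConv_injective
    ext b; simp
  map_add' f g := by
    apply WithConv.ofConv_injective
    ext b; simp
  commutes' s := by
    apply WithConv.ofConv_injective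
    ext b
    simp [Algebra.algebraMap_eq_smul_one]

@[simp] theorem pullStar_apply (h : B →ₗc[R] C) (f : WithConv (C →ₗ[R] S)) (b : B) :
    pullStar h f b = f (h b) := rfl

variable {S' : Type*} [CommRing S'] [Algebra R S']

/-- Push-forward of convolution algebras along an algebra hom of the targets. -/
noncomputable def pushStar (φ : S →ₐ[R] S') :
    WithConv (C →ₗ[R] S) →+* WithConv (C →ₗ[R] S') where
  toFun f := toConv (φ.toLinearMap ∘ₗ f.ofConv)
  map_one' := by
    apply WithConv.ofConv_injective
    ext c
    simp [LinearMap.convOne_def]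
  map_mul' f g := by
    apply WithConv.ofConv_injective
    simpa using LinearMap.algHom_comp_convMul_distrib φ f g
  map_zero' := by
    apply WithConv.ofConv_injective
    ext c; simp
  map_add' f g := by
    apply WithConv.ofConv_injective
    ext c; simp

@[simp] theorem pushStar_apply (φ : S →ₐ[R] S') (f : WithConv (C →ₗ[R] S)) (c : C) :
    pushStar φ f c = φ (f c) := rfl

theorem pushStar_pullStar (φ : S →ₐ[R] S') (h : B →ₗc[R] C) (f : WithConv (C →ₗ[R] S)) :
    pushStar φ (pullStar h f) = pullStar h (pushStar φ f) := rfl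

end Pull

/-! ### Regular scalars and completeness -/

section Complete

variable {R : Type*} [CommRing R] {S : Type*} [CommRing S] [Algebra R S]
variable {M : Type*} [AddCommGroup M] [Module R M] [Coalgebra R M]

theorem algebraMap_mul_apply (s : S) (f : WithConv (M →ₗ[R] S)) (m : M) :
    (algebraMap S (WithConv (M →ₗ[R] S)) s * f) m = s * f m := by
  rw [← Algebra.smul_def]
  rfl

/-- Divisibility by a regular scalar in the convolution algebra is pointwise divisibility. -/
theorem mem_span_algebraMap_iff {x : S} (hx : ∀ y : S, x * y = 0 → y = 0)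
    (f : WithConv (M →ₗ[R] S)) :
    f ∈ Ideal.span {algebraMap S (WithConv (M →ₗ[R] S)) x} ↔ ∀ m, f m ∈ Ideal.span {x} := by
  constructor
  · intro hf m
    rw [Ideal.mem_span_singleton'] at hf
    obtain ⟨g, rfl⟩ := hf
    rw [← Algebra.commutes, algebraMap_mul_apply]
    exact Ideal.mul_mem_right _ _ (Ideal.mem_span_singleton_self x)
  · intro hf
    have hex : ∀ m, ∃ y : S, x * y = f m := fun m => by
      have := hf m
      rw [Ideal.mem_span_singleton'] at this
      obtain ⟨y, hy⟩ := this
      exact ⟨y, by rw [mul_comm, hy]⟩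
    choose g hg using hex
    have hinj : ∀ a b : S, x * a = x * b → a = b := fun a b hab => by
      have : x * (a - b) = 0 := by rw [mul_sub, hab, sub_self]
      exact sub_eq_zero.mp (hx _ this)
    let G : M →ₗ[R] S :=
      { toFun := g
        map_add' := fun a b => hinj _ _ (by rw [hg, mul_add, hg, hg]; exact map_add f.ofConv a b)
        map_smul' := fun r a => hinj _ _ (by
          rw [hg, RingHom.id_apply, mul_smul_comm, hg]; exact map_smul f.ofConv r a) }
    rw [Ideal.mem_span_singleton']
    refine ⟨toConv G, ?_⟩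
    apply WithConv.ofConv_injective
    ext m
    have := algebraMap_mul_apply x (toConv G) m
    rw [← Algebra.commutes]
    change (algebraMap S (WithConv (M →ₗ[R] S)) x * toConv G) m = f m
    rw [this]
    exact hg m

theorem regular_pow {x : S} (hx : ∀ y : S, x * y = 0 → y = 0) (n : ℕ) :
    ∀ y : S, x ^ n * y = 0 → y = 0 := by
  induction n with
  | zero => intro y hy; simpa using hy
  | succ n ih =>
    intro y hy
    rw [pow_succ, mul_assoc] at hy
    exact hx y (ih _ hy)

theorem regular_algebraMap {x : S} (hx : ∀ y : S, x * y = 0 → y = 0)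
    (f : WithConv (M →ₗ[R] S)) (hf : algebraMap S (WithConv (M →ₗ[R] S)) x * f = 0) : f = 0 := by
  apply WithConv.ofConv_injective
  ext m
  have := algebraMap_mul_apply x f m
  rw [hf] at this
  exact hx _ this.symm

/-- The convolution algebra of maps into a `ϖ`-adically complete ring is `ϖ`-adically complete. -/
theorem isAdicComplete_conv [IsCocomm R M] (ϖ : S) (hreg : ∀ y : S, ϖ * y = 0 → y = 0)
    [hS : IsAdicComplete (Ideal.span {ϖ}) S] :
    IsAdicComplete (Ideal.span {algebraMap S (WithConv (M →ₗ[R] S)) ϖ})
      (WithConv (M →ₗ[R] S)) := by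
  have key : ∀ (n : ℕ) (f : WithConv (M →ₗ[R] S)),
      f ∈ ((Ideal.span {algebraMap S (WithConv (M →ₗ[R] S)) ϖ}) ^ n •
        (⊤ : Submodule (WithConv (M →ₗ[R] S)) (WithConv (M →ₗ[R] S)))) ↔
      ∀ m, f m ∈ (Ideal.span {ϖ} ^ n • (⊤ : Submodule S S)) := by
    intro n f
    rw [Ideal.span_singleton_pow, Ideal.span_singleton_pow, ← map_pow, smul_eq_mul, smul_eq_mul,
      Ideal.mul_top, Ideal.mul_top]
    exact mem_span_algebraMap_iff (regular_pow hreg n) f
  refine { toIsHausdorff := ⟨?_⟩, toIsPrecomplete := ⟨?_⟩ }
  · intro f hf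
    apply WithConv.ofConv_injective
    ext m
    refine IsHausdorff.haus hS.toIsHausdorff (f m) fun n => ?_
    have := hf n
    rw [SModEq.zero] at this ⊢
    exact (key n f).mp this m
  · intro f hf
    have hpt : ∀ m : M, ∃ L : S,
        ∀ n, f n m ≡ L [SMOD (Ideal.span {ϖ} ^ n • (⊤ : Submodule S S))] := by
      intro m
      refine IsPrecomplete.prec hS.toIsPrecomplete (f := fun n => f n m) ?_
      intro a b hab
      have := hf hab
      rw [SModEq.sub_mem] at this ⊢
      exact (key a _).mp this m
    choose L hL using hpt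
    have huniq : ∀ a b : S,
        (∀ n, a - b ∈ (Ideal.span {ϖ} ^ n • (⊤ : Submodule S S))) → a = b := by
      intro a b h
      have := IsHausdorff.haus hS.toIsHausdorff (a - b) fun n => by
        rw [SModEq.zero]; exact h n
      exact sub_eq_zero.mp this
    let G : M →ₗ[R] S :=
      { toFun := L
        map_add' := fun a b => huniq _ _ fun n => by
          have h1 := (hL (a + b) n).symm
          have h2 := (hL a n).add (hL b n)
          have h3 : f n (a + b) = f n a + f n b := map_add (f n).ofConv a b
          rw [h3] at h1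
          exact SModEq.sub_mem.mp (h1.trans h2)
        map_smul' := fun r a => huniq _ _ fun n => by
          have h1 := (hL (r • a) n).symm
          have h2 := (hL a n).smul (algebraMap R S r)
          rw [algebraMap_smul, algebraMap_smul] at h2
          have h3 : f n (r • a) = r • f n a := map_smul (f n).ofConv r a
          rw [h3] at h1
          exact SModEq.sub_mem.mp (h1.trans h2) }
    refine ⟨toConv G, fun n => ?_⟩
    rw [SModEq.sub_mem, key]
    intro m
    exact SModEq.sub_mem.mp (hL m n)

omit [Coalgebra R M] in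
/-- Linear maps out of a projective module lift along a quotient map of the target. -/
theorem exists_linear_lift [Module.Projective R M] (J : Ideal S)
    (g : M →ₗ[R] S ⧸ J) : ∃ f : M →ₗ[R] S, ∀ m, Ideal.Quotient.mk J (f m) = g m := by
  obtain ⟨f, hf⟩ := Module.projective_lifting_property
    ((Ideal.Quotient.mkₐ R J).toLinearMap) g (Ideal.Quotient.mkₐ_surjective R J)
  exact ⟨f, fun m => by simpa using LinearMap.congr_fun hf m⟩

end Complete

/-! ### The structure maps for a bialgebra -/

section Bialg

variable {R : Type*} [CommRing R] {H : Type*} [CommRing H] [Bialgebra R H]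
variable {S : Type*} [CommRing S] [Algebra R S]

variable (R H) in
/-- `a ⊗ b ↦ ε(b) a`, a coalgebra hom. -/
noncomputable def pr1CoalgHom : H ⊗[R] H →ₗc[R] H :=
  (Coalgebra.TensorProduct.rid R R H).toCoalgHom.comp
    (Coalgebra.TensorProduct.map (CoalgHom.id R H) (Coalgebra.counitCoalgHom R H))

variable (R H) in
/-- `a ⊗ b ↦ ε(a) b`, a coalgebra hom. -/
noncomputable def pr2CoalgHom : H ⊗[R] H →ₗc[R] H :=
  (Coalgebra.TensorProduct.lid R H).toCoalgHom.comp
    (Coalgebra.TensorProduct.map (Coalgebra.counitCoalgHom R H) (CoalgHom.id R H))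

@[simp] theorem pr1CoalgHom_tmul (a b : H) :
    pr1CoalgHom R H (a ⊗ₜ b) = counit (R := R) b • a := by
  simp [pr1CoalgHom]

@[simp] theorem pr2CoalgHom_tmul (a b : H) :
    pr2CoalgHom R H (a ⊗ₜ b) = counit (R := R) a • b := by
  simp [pr2CoalgHom]

/-- The convolution algebra `Hom_R(H, S)`. -/
abbrev C1 (R H S : Type*) [CommRing R] [CommRing H] [Bialgebra R H] [CommRing S] [Algebra R S] :=
  WithConv (H →ₗ[R] S)

/-- The convolution algebra `Hom_R(H ⊗ H, S)`. -/
abbrev C2 (R H S : Type*) [CommRing R] [CommRing H] [Bialgebra R H] [CommRing S] [Algebra R S] :=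
  WithConv (H ⊗[R] H →ₗ[R] S)

/-- Pull-back along the multiplication `H ⊗ H → H`. -/
noncomputable def mulStar : C1 R H S →ₐ[S] C2 R H S := pullStar (Bialgebra.mulCoalgHom R H)

/-- Pull-back along `id ⊗ ε`. -/
noncomputable def pr1Star : C1 R H S →ₐ[S] C2 R H S := pullStar (pr1CoalgHom R H)

/-- Pull-back along `ε ⊗ id`. -/
noncomputable def pr2Star : C1 R H S →ₐ[S] C2 R H S := pullStar (pr2CoalgHom R H)

@[simp] theorem mulStar_tmul (f : C1 R H S) (a b : H) : mulStar f (a ⊗ₜ b) = f (a * b) := by
  simp [mulStar]

@[simp] theorem pr1Star_tmul (f : C1 R H S) (a b : H) :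
    pr1Star f (a ⊗ₜ b) = counit (R := R) b • f a := by
  simp [pr1Star]

@[simp] theorem pr2Star_tmul (f : C1 R H S) (a b : H) :
    pr2Star f (a ⊗ₜ b) = counit (R := R) a • f b := by
  simp [pr2Star]

/-- `(a ⊗ b) ↦ f a * g b`. -/
noncomputable def prodStar (f g : C1 R H S) : C2 R H S :=
  toConv (LinearMap.mul' R S ∘ₗ TensorProduct.map f.ofConv g.ofConv)

@[simp] theorem prodStar_tmul (f g : C1 R H S) (a b : H) :
    prodStar f g (a ⊗ₜ b) = f a * g b := by
  simp [prodStar]

theorem pr1Star_mul_pr2Star (f g : C1 R H S) : pr1Star f * pr2Star g = prodStar f g := by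
  have h1 : pr1Star f = toConv (LinearMap.mul' R S ∘ₗ
      TensorProduct.map f.ofConv (1 : C1 R H S).ofConv) := by
    apply WithConv.ofConv_injective
    ext a b
    simp [Algebra.smul_def, mul_comm]
  have h2 : pr2Star g = toConv (LinearMap.mul' R S ∘ₗ
      TensorProduct.map (1 : C1 R H S).ofConv g.ofConv) := by
    apply WithConv.ofConv_injective
    ext a b
    simp [Algebra.smul_def]
  rw [h1, h2]
  have key := LinearMap.algHom_comp_convMul_distrib (R := R) (C := H ⊗[R] H)
    (Algebra.TensorProduct.lmul' (S := S) R)
    (toConv (TensorProduct.map f.ofConv (1 : C1 R H S).ofConv))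
    (toConv (TensorProduct.map (1 : C1 R H S).ofConv g.ofConv))
  rw [TensorProduct.map_convMul_map] at key
  simp only [mul_one, one_mul] at key
  apply WithConv.ofConv_injective
  rw [prodStar]
  simpa [Algebra.TensorProduct.lmul'_toLinearMap] using key.symm

/-- Evaluation at `1`, an `S`-algebra hom (`1` is group-like). -/
noncomputable def oneStar : C1 R H S →ₐ[S] S where
  toFun f := f 1
  map_one' := by simp
  map_mul' f g := by
    simp [LinearMap.convMul_apply, Algebra.TensorProduct.one_def]
  map_zero' := rfl
  map_add' f g := rfl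
  commutes' s := by
    simp [Algebra.algebraMap_eq_smul_one]

@[simp] theorem oneStar_apply (f : C1 R H S) : oneStar f = f 1 := rfl

/-- A linear map `H → S` comes from an algebra hom iff it is group-like in the convolution
algebra. -/
theorem exists_algHom_iff (f : C1 R H S) :
    (∃ ψ : H →ₐ[R] S, ψ.toLinearMap = f.ofConv) ↔
      mulStar f = pr1Star f * pr2Star f ∧ oneStar f = 1 := by
  rw [pr1Star_mul_pr2Star]
  constructor
  · rintro ⟨ψ, hψ⟩
    have hψ' : ∀ a, f a = ψ a := fun a => by
      change f.ofConv a = ψ a
      rw [← hψ]; rfl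
    refine ⟨?_, ?_⟩
    · apply WithConv.ofConv_injective
      ext a b
      change mulStar f (a ⊗ₜ b) = prodStar f f (a ⊗ₜ b)
      rw [mulStar_tmul, prodStar_tmul, hψ', hψ', hψ', map_mul]
    · rw [oneStar_apply, hψ', map_one]
  · rintro ⟨hm, h1⟩
    have hmul : ∀ a b, f (a * b) = f a * f b := fun a b => by
      have := congrArg (fun F : C2 R H S => F (a ⊗ₜ b)) hm
      simpa using this
    refine ⟨AlgHom.ofLinearMap f.ofConv (by simpa using h1) hmul, ?_⟩
    rfl

end Bialg

end Fermat.Agent.S56.Flat.GroupLike
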