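import Mathlib
import Fermat.Agent.S56.Flat.PthRoot
import Fermat.Agent.S56.Flat.GroupLike

/-!
# PROJECT T (S56), block (a3) Flat, FILE 3: Fontaine's lifting property for a group killed by `p`
-/

set_option autoImplicit false

namespace Fermat.Agent.S56.Flat.Lifting

open TensorProduct WithConv Coalgebra
open Fermat.Agent.S56.Flat.PthRoot Fermat.Agent.S56.Flat.GroupLike

section Conv

variable {R : Type*} [CommRing R] {S : Type*} [CommRing S] [Algebra R S]
variable {M : Type*} [AddCommGroup M] [Module R M] [Coalgebra R M] [IsCocomm R M]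
variable {ϖ : S} {p e j : ℕ}

/-- The convolution algebra inherits the `p`-th-root setting of `S`. -/
theorem setting_conv (hS : Setting S ϖ p e j) :
    Setting (WithConv (M →ₗ[R] S)) (algebraMap S (WithConv (M →ₗ[R] S)) ϖ) p e j where
  prime := hS.prime
  regular := fun f hf => regular_algebraMap hS.regular f hf
  complete := by
    have := hS.complete
    exact isAdicComplete_conv ϖ hS.regular
  p_eq := by
    obtain ⟨υ, hυ⟩ := hS.p_eq
    refine ⟨Units.map (algebraMap S (WithConv (M →ₗ[R] S))).toMonoidHom υ, ?_⟩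
    have : ((p : ℕ) : WithConv (M →ₗ[R] S)) = algebraMap S _ ((p : ℕ) : S) :=
      (map_natCast _ p).symm
    rw [this, hυ, map_mul, map_pow]
    rfl
  lt := hS.lt

end Conv

section Torsion

variable {C : Type*} [CommRing C] {ϖ : C} {p e j : ℕ}

/-- Two `p`-torsion elements which are congruent modulo `ϖ ^ j` are equal. -/
theorem eq_of_pow_eq_one (hC : Setting C ϖ p e j) {A B : C}
    (hA : A ^ p = 1) (hB : B ^ p = 1) (hAB : A - B ∈ Ideal.span {ϖ ^ j}) : A = B := by
  have hp1 : 1 ≤ p := hC.prime.one_lt.le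
  have hBB : B * B ^ (p - 1) = 1 := by rw [← pow_succ', Nat.sub_add_cancel hp1, hB]
  have hB' : (B ^ (p - 1)) ^ p = 1 := by rw [← pow_mul, mul_comm, pow_mul, hB, one_pow]
  have ht : (A * B ^ (p - 1)) ^ p = 1 := by rw [mul_pow, hA, hB', one_mul]
  have h1 : A * B ^ (p - 1) - 1 ∈ Ideal.span {ϖ ^ j} := by
    have : A * B ^ (p - 1) - 1 = (A - B) * B ^ (p - 1) := by rw [sub_mul, hBB]
    rw [this]
    exact Ideal.mul_mem_right _ _ hAB
  have key := hC.eq_one_of_pow_eq_one h1 ht
  calc A = A * (B * B ^ (p - 1)) := by rw [hBB, mul_one]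
    _ = (A * B ^ (p - 1)) * B := by ring
    _ = B := by rw [key, one_mul]

end Torsion

section FL

variable {R : Type*} [CommRing R] {H : Type*} [CommRing H] [Bialgebra R H] [IsCocomm R H]
variable {S : Type*} [CommRing S] [Algebra R S] {ϖ : S} {p e j : ℕ}

omit [IsCocomm R H] in
theorem toLinearMap_pow_eq_one {S' : Type*} [CommRing S'] [Algebra R S'] (φ : H →ₐ[R] S')
    (n : ℕ) (hφ : toConv φ ^ n = 1) : (toConv φ.toLinearMap : C1 R H S') ^ n = 1 := by
  have := AlgHom.toLinearMap_convPow (toConv φ) n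
  rw [hφ] at this
  simpa using this.symm

omit [IsCocomm R H] in
theorem sub_mem_span_iff {M : Type*} [AddCommGroup M] [Module R M] [Coalgebra R M]
    (hS : Setting S ϖ p e j) (n : ℕ) (f g : WithConv (M →ₗ[R] S)) :
    f - g ∈ Ideal.span {(algebraMap S (WithConv (M →ₗ[R] S)) ϖ) ^ n} ↔
      ∀ m, f m - g m ∈ Ideal.span {ϖ ^ n} := by
  rw [← map_pow]
  exact mem_span_algebraMap_iff (regular_pow hS.regular n) (f - g)

omit [IsCocomm R H] in
/-- An `S`-algebra hom between convolution algebras preserves divisibility by powers of `ϖ`. -/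
theorem map_mem_span {A B : Type*} [Ring A] [Ring B] [Algebra S A] [Algebra S B]
    (Ψ : A →ₐ[S] B) (n : ℕ) {x : A} (hx : x ∈ Ideal.span {(algebraMap S A ϖ) ^ n}) :
    Ψ x ∈ Ideal.span {(algebraMap S B ϖ) ^ n} := by
  rw [Ideal.mem_span_singleton'] at hx ⊢
  obtain ⟨y, rfl⟩ := hx
  exact ⟨Ψ y, by rw [map_mul, map_pow, AlgHom.commutes]⟩

/-- **(FL-i)**: two `p`-torsion points which are congruent modulo `ϖ ^ j` are equal. -/
theorem FL_inj (hS : Setting S ϖ p e j) (φ φ' : H →ₐ[R] S)
    (hφ : toConv φ ^ p = 1) (hφ' : toConv φ' ^ p = 1)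
    (hc : ∀ h, φ h - φ' h ∈ Ideal.span {ϖ ^ j}) : φ = φ' := by
  have hC : Setting (C1 R H S) (algebraMap S (C1 R H S) ϖ) p e j := setting_conv hS
  have key := eq_of_pow_eq_one hC (toLinearMap_pow_eq_one φ p hφ)
    (toLinearMap_pow_eq_one φ' p hφ') ((sub_mem_span_iff hS j _ _).mpr hc)
  apply AlgHom.toLinearMap_injective
  exact WithConv.toConv_injective key

/-- **(FL-ii)**: a `p`-torsion point modulo `ϖ ^ (e + j)` agrees modulo `ϖ ^ j` with a
(`p`-torsion) point over `S`. -/
theorem FL_lift [Module.Projective R H] (hS : Setting S ϖ p e j)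
    (φt : H →ₐ[R] S ⧸ Ideal.span {ϖ ^ (e + j)}) (hφt : toConv φt ^ p = 1) :
    ∃ φ : H →ₐ[R] S, toConv φ ^ p = 1 ∧
      ∀ (h : H) (s : S), Ideal.Quotient.mk (Ideal.span {ϖ ^ (e + j)}) s = φt h →
        φ h - s ∈ Ideal.span {ϖ ^ j} := by
  have hJle : Ideal.span {ϖ ^ (e + j)} ≤ Ideal.span {ϖ ^ j} := by
    rw [Ideal.span_singleton_le_span_singleton, pow_add]
    exact Dvd.intro_left _ rfl
  have hj1 : 1 ≤ j := by
    rcases Nat.eq_zero_or_pos j with h0 | h0
    · have := hS.lt; rw [h0, zero_mul] at this; exact absurd this (Nat.not_lt_zero e)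
    · exact h0
  obtain ⟨g0, hg0'⟩ := exists_linear_lift (Ideal.span {ϖ ^ (e + j)}) φt.toLinearMap
  have hg0 : ∀ h, Ideal.Quotient.mk (Ideal.span {ϖ ^ (e + j)}) (g0 h) = φt h := fun h => hg0' h
  have hC1 : Setting (C1 R H S) (algebraMap S (C1 R H S) ϖ) p e j := setting_conv hS
  have hC2 : Setting (C2 R H S) (algebraMap S (C2 R H S) ϖ) p e j := setting_conv hS
  set G0 : C1 R H S := toConv g0 with hG0
  have hG0app : ∀ h, G0 h = g0 h := fun _ => rfl
  -- reduction modulo `J`
  have hredp : pushStar (Ideal.Quotient.mkₐ R (Ideal.span {ϖ ^ (e + j)})) (G0 ^ p) = (1 : C1 R H (S ⧸ Ideal.span {ϖ ^ (e + j)})) := by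
    have h0 : pushStar (Ideal.Quotient.mkₐ R (Ideal.span {ϖ ^ (e + j)})) G0 = (toConv φt.toLinearMap : C1 R H (S ⧸ Ideal.span {ϖ ^ (e + j)})) := by
      apply WithConv.ofConv_injective
      ext h
      exact hg0 h
    rw [map_pow, h0, toLinearMap_pow_eq_one φt p hφt]
  have hG0p : G0 ^ p - 1 ∈ Ideal.span {(algebraMap S (C1 R H S) ϖ) ^ (e + j)} := by
    rw [sub_mem_span_iff hS]
    intro h
    have h1 := congrArg (fun F : C1 R H (S ⧸ Ideal.span {ϖ ^ (e + j)}) => F h) hredp
    simp only [pushStar_apply, Ideal.Quotient.mkₐ_eq_mk] at h1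
    rw [← Ideal.Quotient.eq_zero_iff_mem, map_sub, h1, sub_eq_zero]
    change algebraMap R (S ⧸ Ideal.span {ϖ ^ (e + j)}) (counit h) =
      Ideal.Quotient.mk _ (algebraMap R S (counit h))
    rfl
  -- `G0 ^ p` is a unit
  have hunit : IsUnit (G0 ^ p) := by
    have hmem : G0 ^ p - 1 ∈ Ideal.span {algebraMap S (C1 R H S) ϖ} := by
      refine (Ideal.span_singleton_le_span_singleton.mpr ?_) hG0p
      exact dvd_pow_self _ (by omega)
    have := hC1.complete
    have hjac := IsAdicComplete.le_jacobson_bot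
      (Ideal.span {algebraMap S (C1 R H S) ϖ}) hmem
    have := (Ideal.mem_jacobson_bot.mp hjac) 1
    simpa using this
  obtain ⟨u, hu⟩ := hunit
  have hc : ((u⁻¹ : (C1 R H S)ˣ) : C1 R H S) - 1 ∈
      Ideal.span {(algebraMap S (C1 R H S) ϖ) ^ (e + j)} := by
    have : ((u⁻¹ : (C1 R H S)ˣ) : C1 R H S) - 1 = -(((u⁻¹ : (C1 R H S)ˣ) : C1 R H S) * (G0 ^ p - 1)) := by
      rw [← hu, mul_sub, Units.inv_mul, mul_one]; ring
    rw [this]
    exact neg_mem (Ideal.mul_mem_left _ _ hG0p)
  obtain ⟨r, hr1, hrp⟩ := hC1.exists_root hc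
  set G : C1 R H S := G0 * r with hG
  have hGp : G ^ p = 1 := by rw [hG, mul_pow, hrp, ← hu, Units.mul_inv]
  have hGG0 : G - G0 ∈ Ideal.span {(algebraMap S (C1 R H S) ϖ) ^ j} := by
    have : G - G0 = G0 * (r - 1) := by rw [hG]; ring
    rw [this]
    exact Ideal.mul_mem_left _ _ hr1
  -- multiplicativity
  have hmul : mulStar G = pr1Star G * pr2Star G := by
    refine eq_of_pow_eq_one hC2 ?_ ?_ ?_
    · rw [← map_pow, hGp, map_one]
    · rw [mul_pow, ← map_pow, ← map_pow, hGp, map_one, map_one, one_mul]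
    · have e1 : mulStar G - pr1Star G * pr2Star G =
          mulStar (G - G0) + (mulStar G0 - pr1Star G0 * pr2Star G0)
            - (pr1Star G0 * pr2Star (G - G0) + pr1Star (G - G0) * pr2Star G) := by
        simp only [map_sub]; ring
      rw [e1]
      refine sub_mem (add_mem (map_mem_span mulStar j hGG0) ?_)
        (add_mem (Ideal.mul_mem_left _ _ (map_mem_span pr2Star j hGG0))
          (Ideal.mul_mem_right _ _ (map_mem_span pr1Star j hGG0)))
      rw [pr1Star_mul_pr2Star, sub_mem_span_iff hS]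
      intro t
      induction t using TensorProduct.induction_on with
      | zero => simp
      | tmul a b =>
        rw [mulStar_tmul, prodStar_tmul, hG0app, hG0app, hG0app]
        apply hJle
        rw [← Ideal.Quotient.eq_zero_iff_mem, map_sub, RingHom.map_mul, hg0, hg0, hg0,
          map_mul φt, sub_self]
      | add x y hx hy =>
        have : (mulStar G0) (x + y) - (prodStar G0 G0) (x + y) =
            ((mulStar G0) x - (prodStar G0 G0) x) + ((mulStar G0) y - (prodStar G0 G0) y) := by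
          rw [map_add, map_add]; ring
        rw [this]
        exact add_mem hx hy
  have hone : oneStar G = 1 := by
    refine hS.eq_one_of_pow_eq_one ?_ ?_
    · have e1 : oneStar G - 1 = oneStar (G - G0) + (g0 1 - 1) := by
        rw [map_sub, oneStar_apply, oneStar_apply, hG0app]; ring
      rw [e1]
      refine add_mem ?_ (hJle ?_)
      · have := map_mem_span (ϖ := ϖ) (oneStar (R := R) (H := H) (S := S)) j hGG0
        simpa using this
      · rw [← Ideal.Quotient.eq_zero_iff_mem, map_sub, hg0, map_one, map_one, sub_self]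
    · rw [← map_pow, hGp, map_one]
  obtain ⟨ψ, hψ⟩ := (exists_algHom_iff G).mpr ⟨hmul, hone⟩
  refine ⟨ψ, ?_, fun h s hs => ?_⟩
  · have h1 := AlgHom.toLinearMap_convPow (toConv ψ) p
    have h2 : (toConv (toConv ψ).ofConv.toLinearMap : C1 R H S) = G := by
      apply WithConv.ofConv_injective
      exact hψ
    rw [h2, hGp] at h1
    have h3 : (toConv ((toConv ψ ^ p).ofConv.toLinearMap) : C1 R H S) =
        toConv ((1 : WithConv (H →ₐ[R] S)).ofConv.toLinearMap) := by
      rw [h1]; rfl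
    exact WithConv.ofConv_injective (AlgHom.toLinearMap_injective (WithConv.toConv_injective h3))
  · have hψh : ψ h = G h := by
      change ψ.toLinearMap h = G.ofConv h
      rw [hψ]
    have e1 : ψ h - s = (G h - G0 h) + (g0 h - s) := by rw [hψh, hG0app]; ring
    rw [e1]
    refine add_mem ((sub_mem_span_iff hS j G G0).mp hGG0 h) (hJle ?_)
    rw [← Ideal.Quotient.eq_zero_iff_mem, map_sub, hg0, hs, sub_self]

end FL

end Fermat.Agent.S56.Flat.Lifting
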