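/-
PROJECT T (S56), block (a3) Flat, leaf (LS) of helper15's chain #4012 (typed by helper3):
the ring of integers `𝒪 q K` of a `q`-adic local field (main's `CFT/Local/Model`) as an instance of
the abstract `PthRoot.Setting`, the closed-ball ideals as powers of the uniformizer, preservation
of absolute values by ring homomorphisms `𝒪 q L → 𝒪 q E ⧸ ballIdeal ρ` (`ρ < q⁻¹`), and the
automatic `ℤ_[q]`-linearity of ring homomorphisms into a ring killed by a power of `q`.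

* `setting_𝒪` (LS1), `exists_level` (LS2), `valuation_preserved` (LS3),
* `ringHom_commutes`, `exists_pow_mem_ballIdeal`, `algHomOfRingHom` (LS4).
-/
import Mathlib
import Fermat.Agent.CFT.Local.Model
import Fermat.Agent.S56.Flat.Ball
import Fermat.Agent.S56.Flat.PthRoot

set_option autoImplicit false
set_option linter.unusedSectionVars false

namespace Fermat.Agent.S56.Flat.LocalSetting

open Fermat.Agent.CFT.Local.Model Fermat.Agent.S56.Flat.Ball Fermat.Agent.S56.Flat.PthRoot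
open scoped Fermat.Agent.CFT.Local.Model

variable (q : ℕ) [Fact q.Prime]

section OneField

variable (K : Type*) [Field K] [Algebra ℚ_[q] K] [FiniteDimensional ℚ_[q] K]

/-! ### Elementary facts on `nrm` -/

/-- The coercion of a natural number of `𝒪 q K` to `K`. -/
theorem coe_natCast (n : ℕ) : (((n : ℕ) : ↥(𝒪 q K)) : K) = (n : K) := by
  simp

/-- Ultrametric: `‖x - y‖ < ‖y‖` forces `‖x‖ = ‖y‖`. -/
theorem nrm_eq_of_sub_lt {x y : K} (h : nrm q K (x - y) < nrm q K y) : nrm q K x = nrm q K y := by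
  apply le_antisymm
  · have h1 : nrm q K x ≤ max (nrm q K (x - y)) (nrm q K y) := by
      have := nrm_add_le_max q K (x - y) y
      rwa [sub_add_cancel] at this
    exact h1.trans (max_le h.le le_rfl)
  · have h1 : nrm q K y ≤ max (nrm q K x) (nrm q K (x - y)) := by
      have := nrm_sub_le_max q K x (x - y)
      rwa [sub_sub_cancel] at this
    rcases le_max_iff.mp h1 with h2 | h2
    · exact h2
    · exact absurd h2 (not_le.mpr h)

theorem nrm_ϖ_pow (n : ℕ) : nrm q K ((ϖ q K ^ n : ↥(𝒪 q K)) : K) = nrm q K (ϖu q K) ^ n := by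
  rw [SubmonoidClass.coe_pow, nrm_pow, coe_ϖ]

theorem ϖ_pow_ne_zero (n : ℕ) : ϖ q K ^ n ≠ 0 := pow_ne_zero n (ϖ_ne_zero q K)

/-- Membership in `(ϖ ^ n)` is a bound on the absolute value. -/
theorem mem_span_ϖ_pow_iff (n : ℕ) (x : ↥(𝒪 q K)) :
    x ∈ Ideal.span {ϖ q K ^ n} ↔ nrm q K (x : K) ≤ nrm q K (ϖu q K) ^ n := by
  rw [Ideal.mem_span_singleton, dvd_iff_nrm_le q K (ϖ_pow_ne_zero q K n), nrm_ϖ_pow]

/-- The absolute value of a non-zero integer is a natural power of that of the uniformizer. -/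
theorem exists_nrm_eq_pow {x : ↥(𝒪 q K)} (hx : x ≠ 0) :
    ∃ m : ℕ, nrm q K (x : K) = nrm q K (ϖu q K) ^ m := by
  have hx0 : (x : K) ≠ 0 := fun h => hx (Subtype.ext h)
  have h1 := nrm_eq_zpow_ordFun q K (Units.mk0 (x : K) hx0)
  have h2 : 0 ≤ ordFun q K (Units.mk0 (x : K) hx0) := by
    rw [← nrm_le_one_iff_ordFun, Units.val_mk0]
    exact x.2
  obtain ⟨m, hm⟩ := Int.eq_ofNat_of_zero_le h2
  refine ⟨m, ?_⟩
  rw [Units.val_mk0, hm, zpow_natCast] at h1
  exact h1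

/-- A non-zero integer is a power of the uniformizer times a unit. -/
theorem exists_eq_ϖ_pow_mul_unit {x : ↥(𝒪 q K)} (hx : x ≠ 0) :
    ∃ (m : ℕ) (v : (↥(𝒪 q K))ˣ), x = ϖ q K ^ m * v ∧
      nrm q K (x : K) = nrm q K (ϖu q K) ^ m := by
  obtain ⟨m, hm⟩ := exists_nrm_eq_pow q K hx
  have hdvd : ϖ q K ^ m ∣ x := by
    rw [dvd_iff_nrm_le q K (ϖ_pow_ne_zero q K m), nrm_ϖ_pow, hm]
  obtain ⟨z, hz⟩ := hdvd
  have hpos : 0 < nrm q K (ϖu q K) ^ m := pow_pos (nrm_ϖu_pos q K) m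
  have hz1 : nrm q K (z : K) = 1 := by
    have h := hm
    rw [hz, MulMemClass.coe_mul, nrm_mul, nrm_ϖ_pow] at h
    have : nrm q K (ϖu q K) ^ m * nrm q K (z : K) = nrm q K (ϖu q K) ^ m * 1 := by
      rw [h, mul_one]
    exact mul_left_cancel₀ hpos.ne' this
  obtain ⟨v, hv⟩ := (isUnit_iff_nrm_eq_one q K z).mpr hz1
  exact ⟨m, v, by rw [hv]; exact hz, hm⟩

/-! ### (LS1) `𝒪 q K` is a `PthRoot.Setting` -/

/-- `q = υ * ϖ ^ e` in `𝒪 q K`, with `υ` a unit and `e` the absolute ramification index. -/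
theorem exists_unit_q_eq :
    ∃ υ : (↥(𝒪 q K))ˣ, ((q : ℕ) : ↥(𝒪 q K)) = υ * ϖ q K ^ ramIdx q K := by
  have hq0 : ((q : ℕ) : ↥(𝒪 q K)) ≠ 0 := by
    intro h
    have := congrArg (fun y : ↥(𝒪 q K) => (y : K)) h
    simp only [coe_natCast, ZeroMemClass.coe_zero] at this
    exact q_ne_zero q K this
  obtain ⟨m, v, hv, hm⟩ := exists_eq_ϖ_pow_mul_unit q K hq0
  have hm' : nrm q K (ϖu q K) ^ m = nrm q K (ϖu q K) ^ ramIdx q K := by
    rw [← hm, coe_natCast, nrm_q, nrm_ϖu_pow_ramIdx]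
  have hme : m = ramIdx q K :=
    pow_right_injective₀ (nrm_ϖu_pos q K) (nrm_ϖu_lt_one q K).ne hm'
  refine ⟨v, ?_⟩
  rw [hv, hme, mul_comm]

/-- **(LS1)** The ring of integers of a `q`-adic local field satisfies the standing hypotheses of
`PthRoot`, with `ϖ` the chosen uniformizer and `e` the absolute ramification index. -/
theorem setting_𝒪 {j : ℕ} (hj : ramIdx q K < j * (q - 1)) :
    Setting ↥(𝒪 q K) (ϖ q K) q (ramIdx q K) j where
  prime := Fact.out
  regular x hx := by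
    rcases mul_eq_zero.mp hx with h | h
    · exact absurd h (ϖ_ne_zero q K)
    · exact h
  complete := by
    rw [← maximalIdeal_eq_span_ϖ]
    infer_instance
  p_eq := exists_unit_q_eq q K
  lt := hj

/-! ### (LS2) closed balls are powers of the uniformizer -/

/-- **(LS2)** For `0 < r` with `r ^ (q - 1) < q⁻¹` the closed balls of radius `r` and `r / q` are
the ideals `(ϖ ^ j)` and `(ϖ ^ (e + j))` for one `j` with `e < j * (q - 1)`. -/
theorem exists_level {r : ℝ} (hr0 : 0 < r) (hr : r ^ (q - 1) < (q : ℝ)⁻¹) :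
    ∃ j : ℕ, ramIdx q K < j * (q - 1) ∧ ballIdeal q K r = Ideal.span {ϖ q K ^ j} ∧
      ballIdeal q K (r / q) = Ideal.span {ϖ q K ^ (ramIdx q K + j)} := by
  classical
  set t := nrm q K (ϖu q K) with ht
  have ht0 : 0 < t := nrm_ϖu_pos q K
  have ht1 : t < 1 := nrm_ϖu_lt_one q K
  have hte : t ^ ramIdx q K = (q : ℝ)⁻¹ := nrm_ϖu_pow_ramIdx q K
  have hq0 : (0 : ℝ) < q := q_pos q
  have hq1 : 1 ≤ q - 1 := by
    have := (Fact.out : q.Prime).two_le
    omega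
  -- `r < 1`
  have hr1 : r < 1 := by
    by_contra hge
    rw [not_lt] at hge
    have h1 : (1 : ℝ) ≤ r ^ (q - 1) := one_le_pow₀ hge
    have h2 : (q : ℝ)⁻¹ < 1 := inv_lt_one_of_one_lt₀ (one_lt_q q)
    linarith
  have hex : ∃ n : ℕ, t ^ n ≤ r := by
    have := (tendsto_nrm_ϖu_pow q K).eventually (gt_mem_nhds hr0)
    obtain ⟨n, hn⟩ := this.exists
    exact ⟨n, hn.le⟩
  set j := Nat.find hex with hjdef
  have hj : t ^ j ≤ r := Nat.find_spec hex
  have hjmin : ∀ m : ℕ, t ^ m ≤ r → j ≤ m := fun m hm => Nat.find_min' hex hm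
  -- the two descriptions of the balls on non-zero elements
  have hA : ∀ x : ↥(𝒪 q K), nrm q K (x : K) ≤ r ↔ nrm q K (x : K) ≤ t ^ j := by
    intro x
    constructor
    · intro hx
      by_cases hx0 : x = 0
      · subst hx0
        simp only [ZeroMemClass.coe_zero, nrm_zero]
        positivity
      · obtain ⟨m, hm⟩ := exists_nrm_eq_pow q K hx0
        rw [hm] at hx ⊢
        exact pow_le_pow_of_le_one ht0.le ht1.le (hjmin m hx)
    · intro hx
      exact hx.trans hj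
  have hB : ∀ x : ↥(𝒪 q K),
      nrm q K (x : K) ≤ r / q ↔ nrm q K (x : K) ≤ t ^ (ramIdx q K + j) := by
    intro x
    have hrq : r / q = r * t ^ ramIdx q K := by rw [hte, div_eq_mul_inv]
    constructor
    · intro hx
      by_cases hx0 : x = 0
      · subst hx0
        simp only [ZeroMemClass.coe_zero, nrm_zero]
        positivity
      · obtain ⟨m, hm⟩ := exists_nrm_eq_pow q K hx0
        rw [hm, hrq] at hx
        rw [hm]
        by_cases hem : ramIdx q K ≤ m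
        · obtain ⟨d, rfl⟩ := Nat.exists_eq_add_of_le hem
          rw [pow_add] at hx
          have hd : t ^ d ≤ r := by
            have hpos : 0 < t ^ ramIdx q K := pow_pos ht0 _
            rw [mul_comm r] at hx
            exact le_of_mul_le_mul_left hx hpos
          exact pow_le_pow_of_le_one ht0.le ht1.le (Nat.add_le_add_left (hjmin d hd) _)
        · exfalso
          rw [not_le] at hem
          have h1 : t ^ ramIdx q K ≤ t ^ m := pow_le_pow_of_le_one ht0.le ht1.le hem.le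
          have h2 : r * t ^ ramIdx q K < t ^ ramIdx q K := by
            have hpos : 0 < t ^ ramIdx q K := pow_pos ht0 _
            nlinarith
          linarith
    · intro hx
      rw [hrq]
      refine hx.trans ?_
      rw [pow_add, mul_comm]
      exact mul_le_mul_of_nonneg_right hj (pow_pos ht0 _).le
  refine ⟨j, ?_, ?_, ?_⟩
  · -- `e < j (q - 1)`
    have h1 : t ^ (j * (q - 1)) < t ^ ramIdx q K := by
      rw [pow_mul, hte]
      exact lt_of_le_of_lt (pow_le_pow_left₀ (pow_pos ht0 j).le hj (q - 1)) hr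
    exact (pow_lt_pow_iff_right_of_lt_one₀ ht0 ht1).mp h1
  · ext x
    rw [mem_ballIdeal hr0.le, hA x, mem_span_ϖ_pow_iff]
  · ext x
    rw [mem_ballIdeal (div_pos hr0 hq0).le, hB x, mem_span_ϖ_pow_iff]

/-! ### (LS4, second part) a power of `q` lies in every ball of positive radius -/

theorem exists_pow_mem_ballIdeal {ρ : ℝ} (hρ : 0 < ρ) :
    ∃ n : ℕ, ((q : ℕ) : ↥(𝒪 q K)) ^ n ∈ ballIdeal q K ρ := by
  have hq1 : ((q : ℝ)⁻¹) < 1 := inv_lt_one_of_one_lt₀ (one_lt_q q)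
  have hq0 : (0 : ℝ) ≤ (q : ℝ)⁻¹ := inv_nonneg.mpr (q_pos q).le
  have := (tendsto_pow_atTop_nhds_zero_of_lt_one hq0 hq1).eventually (gt_mem_nhds hρ)
  obtain ⟨n, hn⟩ := this.exists
  refine ⟨n, ?_⟩
  rw [mem_ballIdeal hρ.le, SubmonoidClass.coe_pow, nrm_pow, coe_natCast, nrm_q]
  exact hn.le

end OneField

/-! ### (LS3) ring homomorphisms modulo a small ball preserve absolute values -/

section TwoFields

variable {L E : Type*} [Field L] [Algebra ℚ_[q] L] [FiniteDimensional ℚ_[q] L]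
  [Field E] [Algebra ℚ_[q] E] [FiniteDimensional ℚ_[q] E]

theorem mk_eq_mk_iff {ρ : ℝ} (hρ0 : 0 ≤ ρ) (x y : ↥(𝒪 q E)) :
    (Ideal.Quotient.mk (ballIdeal q E ρ) x = Ideal.Quotient.mk (ballIdeal q E ρ) y) ↔
      nrm q E ((x : E) - (y : E)) ≤ ρ := by
  rw [Ideal.Quotient.eq, mem_ballIdeal hρ0]
  rfl

/-- A lift of the image of a unit has absolute value `1`. -/
theorem nrm_lift_unit {ρ : ℝ} (hρ0 : 0 ≤ ρ) (hρ1 : ρ < 1)
    (η : ↥(𝒪 q L) →+* ↥(𝒪 q E) ⧸ ballIdeal q E ρ) (v : (↥(𝒪 q L))ˣ) (v' : ↥(𝒪 q E))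
    (hv : η v = Ideal.Quotient.mk _ v') : nrm q E (v' : E) = 1 := by
  obtain ⟨w', hw'⟩ := Ideal.Quotient.mk_surjective (η ((v⁻¹ : (↥(𝒪 q L))ˣ) : ↥(𝒪 q L)))
  have h1 : Ideal.Quotient.mk (ballIdeal q E ρ) (v' * w') = Ideal.Quotient.mk _ 1 := by
    rw [map_mul, ← hv, hw', ← map_mul, Units.mul_inv, map_one, map_one]
  have h2 := (mk_eq_mk_iff q hρ0 _ _).mp h1
  have h3 : nrm q E (((v' * w' : ↥(𝒪 q E)) : E)) = nrm q E ((1 : ↥(𝒪 q E)) : E) := by
    apply nrm_eq_of_sub_lt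
    rw [OneMemClass.coe_one, nrm_one]
    exact lt_of_le_of_lt h2 hρ1
  rw [OneMemClass.coe_one, nrm_one, MulMemClass.coe_mul, nrm_mul] at h3
  have hv1 : nrm q E (v' : E) ≤ 1 := v'.2
  have hw1 : nrm q E (w' : E) ≤ 1 := w'.2
  have hv0 := nrm_nonneg q E (v' : E)
  have hw0 := nrm_nonneg q E (w' : E)
  nlinarith

/-- A lift of the image of the uniformizer of `L` has the absolute value of that uniformizer. -/
theorem nrm_lift_ϖ {ρ : ℝ} (hρ0 : 0 ≤ ρ) (hρ : ρ < (q : ℝ)⁻¹)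
    (η : ↥(𝒪 q L) →+* ↥(𝒪 q E) ⧸ ballIdeal q E ρ) (π' : ↥(𝒪 q E))
    (hπ : η (ϖ q L) = Ideal.Quotient.mk _ π') : nrm q E (π' : E) = nrm q L (ϖu q L) := by
  have hq1 : ((q : ℝ)⁻¹) < 1 := inv_lt_one_of_one_lt₀ (one_lt_q q)
  obtain ⟨w, hw⟩ := exists_unit_q_eq q L
  obtain ⟨w', hw'⟩ := Ideal.Quotient.mk_surjective (η (w : ↥(𝒪 q L)))
  have hw1 : nrm q E (w' : E) = 1 := nrm_lift_unit q hρ0 (hρ.trans hq1) η w w' hw'.symm
  have h1 : Ideal.Quotient.mk (ballIdeal q E ρ) (w' * π' ^ ramIdx q L) =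
      Ideal.Quotient.mk _ ((q : ℕ) : ↥(𝒪 q E)) := by
    rw [map_mul, map_pow, hw', ← hπ, ← map_pow, ← map_mul, ← hw, map_natCast, map_natCast]
  have h2 := (mk_eq_mk_iff q hρ0 _ _).mp h1
  have h3 : nrm q E (((w' * π' ^ ramIdx q L : ↥(𝒪 q E)) : E)) =
      nrm q E ((((q : ℕ) : ↥(𝒪 q E))) : E) := by
    apply nrm_eq_of_sub_lt
    rw [coe_natCast, nrm_q]
    exact lt_of_le_of_lt h2 hρ
  rw [coe_natCast, nrm_q, MulMemClass.coe_mul, nrm_mul, hw1, one_mul, SubmonoidClass.coe_pow,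
    nrm_pow, ← nrm_ϖu_pow_ramIdx q L] at h3
  exact (pow_left_inj₀ (nrm_nonneg q E _) (nrm_nonneg q L _) (ramIdx_pos q L).ne').mp h3

/-- **(LS3)** A ring homomorphism `𝒪 q L → 𝒪 q E ⧸ ballIdeal ρ` with `ρ < q⁻¹` does not increase
absolute values above `ρ`: if a lift `a'` of `η a` has `‖a'‖ ≤ c` with `ρ ≤ c`, then `‖a‖ ≤ c`. -/
theorem valuation_preserved {ρ : ℝ} (hρ0 : 0 ≤ ρ) (hρ : ρ < (q : ℝ)⁻¹)
    (η : ↥(𝒪 q L) →+* ↥(𝒪 q E) ⧸ ballIdeal q E ρ) (a : ↥(𝒪 q L)) (a' : ↥(𝒪 q E))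
    (ha : η a = Ideal.Quotient.mk _ a') {c : ℝ} (hc : ρ ≤ c) (h : nrm q E (a' : E) ≤ c) :
    nrm q L (a : L) ≤ c := by
  have hq1 : ((q : ℝ)⁻¹) < 1 := inv_lt_one_of_one_lt₀ (one_lt_q q)
  by_cases ha0 : a = 0
  · subst ha0
    simp only [ZeroMemClass.coe_zero, nrm_zero]
    exact hρ0.trans hc
  obtain ⟨m, v, hav, hm⟩ := exists_eq_ϖ_pow_mul_unit q L ha0
  obtain ⟨π', hπ'⟩ := Ideal.Quotient.mk_surjective (η (ϖ q L))
  obtain ⟨v', hv'⟩ := Ideal.Quotient.mk_surjective (η (v : ↥(𝒪 q L)))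
  have hπn : nrm q E (π' : E) = nrm q L (ϖu q L) := nrm_lift_ϖ q hρ0 hρ η π' hπ'.symm
  have hvn : nrm q E (v' : E) = 1 := nrm_lift_unit q hρ0 (hρ.trans hq1) η v v' hv'.symm
  have h1 : Ideal.Quotient.mk (ballIdeal q E ρ) a' = Ideal.Quotient.mk _ (π' ^ m * v') := by
    rw [← ha, hav, map_mul, map_pow, map_mul, map_pow, hπ', hv']
  have h2 := (mk_eq_mk_iff q hρ0 _ _).mp h1
  have h3 : nrm q E (((π' ^ m * v' : ↥(𝒪 q E)) : E)) = nrm q L (a : L) := by
    rw [MulMemClass.coe_mul, nrm_mul, SubmonoidClass.coe_pow, nrm_pow, hπn, hvn, mul_one, hm]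
  by_contra hlt
  rw [not_le] at hlt
  have h4 : nrm q E (a' : E) = nrm q E (((π' ^ m * v' : ↥(𝒪 q E)) : E)) := by
    apply nrm_eq_of_sub_lt
    rw [h3]
    exact lt_of_le_of_lt (h2.trans hc) hlt
  rw [h4, h3] at h
  exact absurd h (not_le.mpr hlt)

end TwoFields

/-! ### (LS4) ring homomorphisms into a ring killed by a power of `q` are `ℤ_[q]`-linear -/

/-- **(LS4)** A ring homomorphism between `ℤ_[q]`-algebras whose target is killed by a power of `q`
commutes with the structure maps. -/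
theorem ringHom_commutes {A B : Type*} [CommRing A] [CommRing B] [Algebra ℤ_[q] A]
    [Algebra ℤ_[q] B] (n : ℕ) (hB : ((q : ℕ) : B) ^ n = 0) (f : A →+* B) (a : ℤ_[q]) :
    f (algebraMap ℤ_[q] A a) = algebraMap ℤ_[q] B a := by
  have h := PadicInt.appr_spec n a
  rw [Ideal.mem_span_singleton] at h
  obtain ⟨b, hb⟩ := h
  have ha : a = ((a.appr n : ℕ) : ℤ_[q]) + ((q : ℕ) : ℤ_[q]) ^ n * b := by
    have : a = ((a.appr n : ℕ) : ℤ_[q]) + (a - (a.appr n : ℕ)) := by ring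
    rw [hb] at this
    exact_mod_cast this
  have hA : f (algebraMap ℤ_[q] A a) = ((a.appr n : ℕ) : B) := by
    conv_lhs => rw [ha]
    rw [map_add, map_mul, map_pow, map_natCast, map_natCast, map_add, map_mul, map_pow,
      map_natCast, map_natCast, hB, zero_mul, add_zero]
  have hB' : algebraMap ℤ_[q] B a = ((a.appr n : ℕ) : B) := by
    conv_lhs => rw [ha]
    rw [map_add, map_mul, map_pow, map_natCast, map_natCast, hB, zero_mul, add_zero]
  rw [hA, hB']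

section Package

variable {L E : Type*} [Field L] [Algebra ℚ_[q] L] [FiniteDimensional ℚ_[q] L]
  [Field E] [Algebra ℚ_[q] E] [FiniteDimensional ℚ_[q] E]

/-- A ring homomorphism `𝒪 q L → 𝒪 q E ⧸ ballIdeal ρ` (`0 < ρ`) as a `ℤ_[q]`-algebra
homomorphism. -/
noncomputable def algHomOfRingHom {ρ : ℝ} (hρ : 0 < ρ)
    (η : ↥(𝒪 q L) →+* ↥(𝒪 q E) ⧸ ballIdeal q E ρ) :
    ↥(𝒪 q L) →ₐ[ℤ_[q]] ↥(𝒪 q E) ⧸ ballIdeal q E ρ :=
  { η with
    commutes' := by
      intro a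
      obtain ⟨n, hn⟩ := exists_pow_mem_ballIdeal q E hρ
      refine ringHom_commutes q n ?_ η a
      rw [← map_natCast (Ideal.Quotient.mk (ballIdeal q E ρ)), ← map_pow]
      exact Ideal.Quotient.eq_zero_iff_mem.mpr hn }

@[simp] theorem algHomOfRingHom_apply {ρ : ℝ} (hρ : 0 < ρ)
    (η : ↥(𝒪 q L) →+* ↥(𝒪 q E) ⧸ ballIdeal q E ρ) (x : ↥(𝒪 q L)) :
    algHomOfRingHom q hρ η x = η x := rfl

end Package

end Fermat.Agent.S56.Flat.LocalSetting
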