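/-
PROJECT T (S56), block (a3) Flat, LevelCount leaf (NumB) (helper27 #4363): the numerical bound of
the level product in Case B (irreducible local representation).

`c ∈ 𝔽ˣ` of exact order `e = (p - 1) e'`, `c ^ e' = w₀ ∈ 𝔽_p`, `a n = c ^ (e' - n)`; `β ∈ k` with
`β ^ (p + 1) = w₀`, `α := β ^ (p - 1) ≠ 1`; `A` an endomorphism of `N` such that `P(A)` is injective
whenever `P(1), P(α), P(α⁻¹) ≠ 0` and has a kernel of size `≤ (card k)²` whenever `P(1) ≠ 0`.
Then `∏_{n ∈ [e, e + e')} card (Ssub p (a n) (b n) A B) ≤ card k`: all factors are `1` except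
possibly the one with `(p + 1) (e + e' - n) = (p - 1) e'`, where the minimal polynomial of `a n`
is the (quadratic) minimal polynomial of `α`.
-/
import Mathlib
import Fermat.Agent.S56.Flat.Descent

set_option autoImplicit false

namespace Fermat.Agent.S56.Flat.NumB

open Polynomial Fermat.Agent.S56.Flat.Descent

variable (p : ℕ) [Fact p.Prime] {𝔽 : Type*} [Field 𝔽] [Finite 𝔽] [Algebra (ZMod p) 𝔽]
  {k : Type*} [Field k] [Finite k] [Algebra (ZMod p) k]

/-! ### Polynomials over the prime field -/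

omit [Finite k] in
/-- Frobenius commutes with evaluation of polynomials over the prime field. -/
theorem aeval_pow_prime (x : k) (P : (ZMod p)[X]) : aeval (x ^ p) P = (aeval x P) ^ p := by
  rw [← expand_aeval, ZMod.expand_card, map_pow]

omit [Finite k] in
/-- The minimal polynomial of `x ≠ 1` does not vanish at `1`. -/
theorem aeval_one_minpoly_ne_zero {x : 𝔽} (hx : x ≠ 1) :
    aeval (1 : k) (minpoly (ZMod p) x) ≠ 0 := by
  intro h
  have h1 : aeval (algebraMap (ZMod p) k 1) (minpoly (ZMod p) x) =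
      algebraMap (ZMod p) k ((minpoly (ZMod p) x).eval 1) :=
    aeval_algebraMap_apply_eq_algebraMap_eval 1 _
  rw [map_one, h] at h1
  have h2 : (minpoly (ZMod p) x).eval 1 = 0 :=
    (algebraMap (ZMod p) k).injective (by rw [map_zero]; exact h1.symm)
  have h3 : (X - C (1 : ZMod p)) ∣ minpoly (ZMod p) x := dvd_iff_isRoot.mpr h2
  have h4 : minpoly (ZMod p) x ∣ X - C (1 : ZMod p) :=
    (irreducible_X_sub_C (1 : ZMod p)).dvd_symm (minpoly.irreducible (isIntegral_zmod p x)) h3
  obtain ⟨Q, hQ⟩ := h4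
  have h5 : aeval x (X - C (1 : ZMod p)) = 0 := by
    rw [hQ, map_mul, minpoly.aeval, zero_mul]
  rw [map_sub, aeval_X, aeval_C, map_one] at h5
  exact hx (sub_eq_zero.mp h5)

omit [Finite k] in
/-- A common root forces equal minimal polynomials. -/
theorem minpoly_eq_of_aeval_eq_zero {x : 𝔽} {y : k} (h : aeval y (minpoly (ZMod p) x) = 0) :
    minpoly (ZMod p) x = minpoly (ZMod p) y :=
  minpoly.eq_of_irreducible_of_monic (minpoly.irreducible (isIntegral_zmod p x)) h
    (minpoly.monic (isIntegral_zmod p x))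

omit [Finite 𝔽] [Finite k] in
/-- Elements with the same minimal polynomial satisfy the same relations `x ^ m = 1`. -/
theorem pow_eq_one_of_minpoly_eq {x : 𝔽} {y : k} (h : minpoly (ZMod p) x = minpoly (ZMod p) y)
    {m : ℕ} (hy : y ^ m = 1) : x ^ m = 1 := by
  have h1 : aeval y (X ^ m - 1 : (ZMod p)[X]) = 0 := by
    rw [map_sub, map_pow, aeval_X, map_one, hy, sub_self]
  obtain ⟨Q, hQ⟩ := minpoly.dvd (ZMod p) y h1
  have h2 : aeval x (X ^ m - 1 : (ZMod p)[X]) = 0 := by
    rw [hQ, ← h, map_mul, minpoly.aeval, zero_mul]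
  rw [map_sub, map_pow, aeval_X, map_one] at h2
  exact sub_eq_zero.mp h2

/-! ### One level -/

variable {N : Type*} [AddCommGroup N] [Module (ZMod p) N] [Finite N]

omit [Finite k] in
/-- The analysis of one level `a = c ^ i`, `0 < i ≤ e'`. -/
theorem level_bound (hp2 : p ≠ 2) {e e' : ℕ} (hee' : e = (p - 1) * e')
    {c : 𝔽} (hc0 : c ≠ 0) (hc : ∀ m : ℕ, c ^ m = 1 → e ∣ m)
    {w₀ : ZMod p} (hw₀ : c ^ e' = algebraMap (ZMod p) 𝔽 w₀)
    {β : k} (hβ : β ^ (p + 1) = algebraMap (ZMod p) k w₀) (hβ1 : β ^ (p - 1) ≠ 1)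
    (A B : N →ₗ[ZMod p] N)
    (hA1 : ∀ P : (ZMod p)[X], aeval (1 : k) P ≠ 0 → aeval (β ^ (p - 1)) P ≠ 0 →
      aeval (β ^ (p - 1))⁻¹ P ≠ 0 → LinearMap.ker (aeval A P) = ⊥)
    (hA2 : ∀ P : (ZMod p)[X], aeval (1 : k) P ≠ 0 →
      Nat.card (LinearMap.ker (aeval A P)) ≤ Nat.card k ^ 2)
    {i : ℕ} (hi0 : 0 < i) (hie : i ≤ e') {an bn : 𝔽} (han : an = c ^ i) (hbn : bn ≠ 0) :
    Nat.card (Ssub p an bn A B) ≤ 1 ∨
      (Nat.card (Ssub p an bn A B) ≤ Nat.card k ∧ (p + 1) * i = (p - 1) * e') := by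
  have hp : p.Prime := Fact.out
  have hp3 : 3 ≤ p := by
    have := hp.two_le
    omega
  obtain ⟨q, hq⟩ : ∃ q, p = q + 1 := ⟨p - 1, (Nat.sub_add_cancel hp.pos).symm⟩
  have hpq : p - 1 = q := by omega
  have hq2 : 2 ≤ q := by omega
  have he'0 : 0 < e' := lt_of_lt_of_le hi0 hie
  have hw₀0 : w₀ ≠ 0 := by
    intro h0
    rw [h0, map_zero] at hw₀
    exact hc0 (pow_eq_zero_iff he'0.ne' |>.mp hw₀)
  have hw₀1 : w₀ ^ (p - 1) = 1 := ZMod.pow_card_sub_one_eq_one hw₀0
  -- `c ^ e = 1`
  have hce : c ^ e = 1 := by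
    rw [hee', mul_comm, pow_mul, hw₀, ← map_pow, hw₀1, map_one]
  -- `α`
  set α := β ^ (p - 1) with hα
  have hα1 : α ^ (p + 1) = 1 := by
    rw [hα, ← pow_mul, mul_comm, pow_mul, hβ, ← map_pow, hw₀1, map_one]
  have hαinv : α⁻¹ = α ^ p := by
    have : α ^ p * α = 1 := by rw [← pow_succ]; exact hα1
    exact (eq_inv_of_mul_eq_one_left this).symm
  -- `an ≠ 1`
  have hee'lt : e' < e := by
    rw [hee', hpq]
    nlinarith
  have han1 : an ≠ 1 := by
    intro h1
    rw [han] at h1
    have := Nat.le_of_dvd hi0 (hc i h1)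
    omega
  set P := minpoly (ZMod p) an with hP
  have h1 : aeval (1 : k) P ≠ 0 := aeval_one_minpoly_ne_zero p han1
  have hDpos : 0 < P.natDegree := minpoly.natDegree_pos (isIntegral_zmod p an)
  have hmain := card_Ssub_pow_le p an hbn A B
  rw [← hP] at hmain
  by_cases h2 : aeval α P = 0
  · -- the exceptional level
    right
    have hPα : P = minpoly (ZMod p) α := minpoly_eq_of_aeval_eq_zero p h2
    -- `i ≠ e'`
    have hine : i ≠ e' := by
      intro hieq
      have han' : an = algebraMap (ZMod p) 𝔽 w₀ := by rw [han, hieq, hw₀]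
      have hPX : P = X - C w₀ := by
        rw [hP, han']
        exact minpoly.eq_X_sub_C_of_algebraMap_inj w₀ (algebraMap (ZMod p) 𝔽).injective
      rw [hPX, map_sub, aeval_X, aeval_C] at h2
      have hαw : α = algebraMap (ZMod p) k w₀ := sub_eq_zero.mp h2
      have hαp : α ^ p = α := by rw [hαw, ← map_pow, ZMod.pow_card]
      have hα2 : α * α = 1 := by
        have : α ^ p * α = 1 := by rw [← pow_succ]; exact hα1
        rwa [hαp] at this
      have hαneg : α = -1 := by
        rcases mul_self_eq_one_iff.mp hα2 with h | h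
        · exact absurd h hβ1
        · exact h
      -- `β ^ (p + 1) = α` and `= α * β ^ 2`
      have hβ2 : β ^ 2 = 1 := by
        have h3 : β ^ (p + 1) = α * β ^ 2 := by
          rw [hα, ← pow_add]
          congr 1
          omega
        rw [hβ, ← hαw, hαneg] at h3
        have : (-1 : k) * β ^ 2 = -1 * 1 := by rw [← h3, mul_one]
        exact mul_left_cancel₀ (neg_ne_zero.mpr one_ne_zero) this
      apply hβ1
      obtain ⟨m, hm⟩ : ∃ m, p - 1 = 2 * m := by
        have hodd : Odd p := hp.odd_of_ne_two hp2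
        obtain ⟨r, hr⟩ := hodd
        exact ⟨r, by omega⟩
      rw [hα, hm, pow_mul, hβ2, one_pow]
    have hilt : i < e' := lt_of_le_of_ne hie hine
    -- `(p + 1) i = (p - 1) e'`
    have han2 : an ^ (p + 1) = 1 := pow_eq_one_of_minpoly_eq p (hP ▸ hPα) hα1
    have hdvd : e ∣ i * (p + 1) := by
      apply hc
      rw [pow_mul, ← han]
      exact han2
    have heq : (p + 1) * i = (p - 1) * e' := by
      obtain ⟨m, hm⟩ := hdvd
      rw [hee', hpq] at hm
      rw [hpq, hq]
      have hm1 : m = 1 := by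
        rcases Nat.lt_or_ge m 1 with h | h
        · have hm0 : m = 0 := by omega
          rw [hm0, mul_zero] at hm
          have : 0 < i * (p + 1) := Nat.mul_pos hi0 (Nat.succ_pos p)
          omega
        rcases Nat.lt_or_ge m 2 with h' | h'
        · omega
        · exfalso
          have h3 : q * e' * 2 ≤ q * e' * m := Nat.mul_le_mul_left _ h'
          have h4 : i * (p + 1) < e' * (p + 1) := Nat.mul_lt_mul_of_pos_right hilt (Nat.succ_pos p)
          have h5 : e' * (p + 1) = e' * q + 2 * e' := by rw [hq]; ring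
          have h6 : q * e' * 2 = e' * q + e' * q := by ring
          have h7 : 2 * e' ≤ e' * q := by nlinarith
          omega
      rw [hm1, mul_one, hq] at hm
      rw [mul_comm (q + 1 + 1) i, hm]
    refine ⟨?_, heq⟩
    -- the degree is at least `2`
    have hD2 : 2 ≤ P.natDegree := by
      by_contra hlt
      have hD1 : P.natDegree = 1 := by omega
      obtain ⟨w, hw⟩ := (minpoly.natDegree_eq_one_iff (A := ZMod p) (x := an)).mp hD1
      have hw0 : w ≠ 0 := by
        intro h0
        rw [h0, map_zero] at hw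
        rw [← hw] at han
        exact pow_ne_zero i hc0 han.symm
      have h3 : an ^ (p - 1) = 1 := by
        rw [← hw, ← map_pow, ZMod.pow_card_sub_one_eq_one hw0, map_one]
      have h4 : e ∣ i * (p - 1) := by
        apply hc
        rw [pow_mul, ← han]
        exact h3
      rw [hee', hpq, mul_comm q e'] at h4
      have h5 : e' ∣ i := Nat.dvd_of_mul_dvd_mul_right (by omega) h4
      have := Nat.le_of_dvd hi0 h5
      omega
    have hk := hA2 P h1
    rcases Nat.eq_zero_or_pos (Nat.card (Ssub p an bn A B)) with h0 | hpos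
    · rw [h0]; exact Nat.zero_le _
    · have h3 : Nat.card (Ssub p an bn A B) ^ 2 ≤ Nat.card k ^ 2 :=
        (Nat.pow_le_pow_right hpos hD2).trans (hmain.trans hk)
      exact (Nat.pow_le_pow_iff_left (by norm_num)).mp h3
  · -- the generic level
    left
    have h3 : aeval α⁻¹ P ≠ 0 := by
      rw [hαinv, aeval_pow_prime]
      exact pow_ne_zero p h2
    have hker := hA1 P h1 h2 h3
    have hcard : Nat.card (LinearMap.ker (aeval A P)) = 1 := by
      rw [hker]
      exact Nat.card_unique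
    rw [hcard] at hmain
    exact (Nat.pow_le_one_iff hDpos.ne').mp hmain

/-! ### The product -/

/-- **(NumB)** -/
theorem prod_card_Ssub_le_of_eigen (hp2 : p ≠ 2) {e e' : ℕ} (he' : 0 < e')
    (hee' : e = (p - 1) * e')
    {c : 𝔽} (hc0 : c ≠ 0) (hc : ∀ m : ℕ, c ^ m = 1 → e ∣ m)
    {w₀ : ZMod p} (hw₀ : c ^ e' = algebraMap (ZMod p) 𝔽 w₀)
    (a b : ℕ → 𝔽) (ha : ∀ n, a n * c ^ n = c ^ e') (hb : ∀ n, b n ≠ 0)
    {β : k} (hβ : β ^ (p + 1) = algebraMap (ZMod p) k w₀) (hβ1 : β ^ (p - 1) ≠ 1)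
    (A B : N →ₗ[ZMod p] N)
    (hA1 : ∀ P : (ZMod p)[X], aeval (1 : k) P ≠ 0 → aeval (β ^ (p - 1)) P ≠ 0 →
      aeval (β ^ (p - 1))⁻¹ P ≠ 0 → LinearMap.ker (aeval A P) = ⊥)
    (hA2 : ∀ P : (ZMod p)[X], aeval (1 : k) P ≠ 0 →
      Nat.card (LinearMap.ker (aeval A P)) ≤ Nat.card k ^ 2) :
    ∏ n ∈ Finset.Ico e (e + e'), Nat.card (Ssub p (a n) (b n) A B) ≤ Nat.card k := by
  classical
  have hp : p.Prime := Fact.out
  have hw₀0 : w₀ ≠ 0 := by
    intro h0
    rw [h0, map_zero] at hw₀
    exact hc0 (pow_eq_zero_iff he'.ne' |>.mp hw₀)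
  have hce : c ^ e = 1 := by
    rw [hee', mul_comm, pow_mul, hw₀, ← map_pow, ZMod.pow_card_sub_one_eq_one hw₀0, map_one]
  have hk1 : 1 ≤ Nat.card k := Nat.card_pos
  -- the levels
  have han : ∀ n ∈ Finset.Ico e (e + e'), a n = c ^ (e + e' - n) := by
    intro n hn
    rw [Finset.mem_Ico] at hn
    have h1 : c ^ (e + e' - n) * c ^ n = c ^ e' := by
      rw [← pow_add, Nat.sub_add_cancel hn.2.le, pow_add, hce, one_mul]
    exact mul_right_cancel₀ (pow_ne_zero n hc0) ((ha n).trans h1.symm)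
  have hlev : ∀ n ∈ Finset.Ico e (e + e'),
      Nat.card (Ssub p (a n) (b n) A B) ≤ 1 ∨
        (Nat.card (Ssub p (a n) (b n) A B) ≤ Nat.card k ∧
          (p + 1) * (e + e' - n) = (p - 1) * e') := by
    intro n hn
    have hn' := Finset.mem_Ico.mp hn
    exact level_bound p hp2 hee' hc0 hc hw₀ hβ hβ1 A B hA1 hA2 (i := e + e' - n)
      (by omega) (by omega) (han n hn) (hb n)
  by_cases hex : ∃ n0 ∈ Finset.Ico e (e + e'), (p + 1) * (e + e' - n0) = (p - 1) * e'
  · obtain ⟨n0, hn0, hn0eq⟩ := hex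
    have hle : ∀ n ∈ Finset.Ico e (e + e'),
        Nat.card (Ssub p (a n) (b n) A B) ≤ if n = n0 then Nat.card k else 1 := by
      intro n hn
      by_cases hnn : n = n0
      · rw [if_pos hnn]
        rcases hlev n hn with h | h
        · exact h.trans hk1
        · exact h.1
      · rw [if_neg hnn]
        rcases hlev n hn with h | h
        · exact h
        · exfalso
          apply hnn
          have h1 : (p + 1) * (e + e' - n) = (p + 1) * (e + e' - n0) := h.2.trans hn0eq.symm
          have h2 : e + e' - n = e + e' - n0 := Nat.eq_of_mul_eq_mul_left (Nat.succ_pos p) h1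
          have hn' := Finset.mem_Ico.mp hn
          have hn0' := Finset.mem_Ico.mp hn0
          omega
    calc ∏ n ∈ Finset.Ico e (e + e'), Nat.card (Ssub p (a n) (b n) A B)
        ≤ ∏ n ∈ Finset.Ico e (e + e'), (if n = n0 then Nat.card k else 1) :=
          Finset.prod_le_prod (fun _ _ => Nat.zero_le _) hle
      _ = Nat.card k := by
          rw [Finset.prod_ite_eq' (Finset.Ico e (e + e')) n0 (fun _ => Nat.card k), if_pos hn0]
  · have hle : ∀ n ∈ Finset.Ico e (e + e'), Nat.card (Ssub p (a n) (b n) A B) ≤ 1 := by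
      intro n hn
      rcases hlev n hn with h | h
      · exact h
      · exact absurd ⟨n, hn, h.2⟩ hex
    calc ∏ n ∈ Finset.Ico e (e + e'), Nat.card (Ssub p (a n) (b n) A B)
        ≤ ∏ _n ∈ Finset.Ico e (e + e'), 1 :=
          Finset.prod_le_prod (fun _ _ => Nat.zero_le _) hle
      _ = 1 := Finset.prod_const_one
      _ ≤ Nat.card k := hk1

end Fermat.Agent.S56.Flat.NumB
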