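import Mathlib
import Fermat.Agent.S32.HopfClosure
import Fermat.Agent.S19.HopfOrderA
import Fermat.Agent.S19.HopfOrderB

/-!
# PROJECT T (S56), block (a3) Flat: packaging a function-level Hopf order as a Mathlib bialgebra

Frame = main's `S32/HopfClosure`: `R` a principal ideal domain with fraction field `F`, `K ⊇ F` a
field with a family `κ : Γ → K →+* K` of endomorphisms whose fixed field is `F`, `T` a finite
abelian group with an action `act : Γ → T → T` by additive surjections, and
`H : Subalgebra R (T → K)` with `IsHopfOrder κ act H`.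

* `bialgebraH`: the `R`-bialgebra structure on `↥H` (comultiplication `φ ↦ ((s, t) ↦ φ (s + t))`,
  counit `φ ↦ φ 0`), `isCocommH`, `free_H`.
* `evalH H t : ↥H →ₐ[R] K`, `exists_eval` (every point of `H` in `K` is an evaluation),
  `evalH_injective`, and the group law: `toConv (evalH H s) * toConv (evalH H t) =
  toConv (evalH H (s + t))`, `toConv (evalH H 0) = 1`.

This is the general-frame version of `S19/HopfOrderC-E` (which live in the frame
`ℤ_(ℓ) ⊆ ℚ ⊆ ℚ̄`); the linear algebra is quoted from `S19/HopfOrderA-B` and `S32/HopfClosure`.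
-/

set_option autoImplicit false
set_option linter.unusedSectionVars false

noncomputable section

namespace Fermat.Agent.S56.Flat.Package

open scoped TensorProduct
open Fermat.Agent.S32.HopfClosure Fermat.Agent.S19.HopfOrderA Fermat.Agent.S19.HopfOrderB

variable {R F K Γ : Type*} [CommRing R] [IsDomain R] [IsPrincipalIdealRing R]
  [Field F] [Field K] [Algebra R F] [IsFractionRing R F] [Algebra F K] [Algebra R K]
  [IsScalarTower R F K] {κ : Γ → K →+* K}
variable {T : Type*} [AddCommGroup T] [Finite T] {act : Γ → T → T} {H : Subalgebra R (T → K)}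

/-- The side conditions of the frame: `F` is the fixed field of `κ`, and `act` is an action by
surjections fixing `0`. -/
structure Frame (F : Type*) [Field F] [Algebra F K] (κ : Γ → K →+* K) (act : Γ → T → T) :
    Prop where
  fix : ∀ x : K, (∀ σ, κ σ x = x) → x ∈ Set.range (algebraMap F K)
  surj : ∀ σ, Function.Surjective (act σ)
  zero : ∀ σ, act σ 0 = 0

omit [IsDomain R] [IsPrincipalIdealRing R] in
theorem algebraMap_injective_K (F : Type*) [Field F] [Algebra R F] [IsFractionRing R F]
    [Algebra F K] [IsScalarTower R F K] : Function.Injective (algebraMap R K) := by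
  rw [IsScalarTower.algebraMap_eq R F K]
  exact (algebraMap F K).injective.comp (IsFractionRing.injective R F)

omit [IsDomain R] [IsPrincipalIdealRing R] in
theorem faithfulSMul_K (F : Type*) [Field F] [Algebra R F] [IsFractionRing R F]
    [Algebra F K] [IsScalarTower R F K] : FaithfulSMul R K :=
  (faithfulSMul_iff_algebraMap_injective R K).mpr (algebraMap_injective_K F)


/-! ### Freeness and `K`-independence -/

section Indep

variable (hH : IsHopfOrder κ act H) (hF : Frame F κ act)

include hH hF in
/-- A Hopf order has an `R`-basis which stays linearly independent over `K`. -/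
theorem kIndep : KIndep (k := K) H.val := by
  have : FaithfulSMul R K := faithfulSMul_K F
  have := hH.fg
  obtain ⟨n, bas⟩ := Module.basisOfFiniteTypeTorsionFree' (R := R) (M := H)
  refine ⟨Fin n, inferInstance, bas, ?_⟩
  refine linearIndependent_of_equivariant_of_isFractionRing (R := R) (F := F) (κ := κ) hF.fix
    hF.surj (v := fun i => ((bas i : H) : T → K)) ?_ ?_
  · exact bas.linearIndependent.map' H.val.toLinearMap
      (LinearMap.ker_eq_bot.2 Subtype.val_injective)
  · intro i σ t
    exact hH.equiv _ (bas i).2 σ t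

include hH hF in
theorem free_H : Module.Free R H := by
  obtain ⟨κ', _, b, _⟩ := kIndep hH hF
  exact Module.Free.of_basis b

end Indep


/-! ### Points -/

section Points

/-- Evaluation at a point, as an algebra homomorphism `H → K`. -/
def evalH (H : Subalgebra R (T → K)) (t : T) : H →ₐ[R] K :=
  (Pi.evalAlgHom R (fun _ : T => K) t).comp H.val

@[simp] theorem evalH_apply (H : Subalgebra R (T → K)) (t : T) (φ : H) :
    evalH H t φ = (φ : T → K) t := rfl

variable (hH : IsHopfOrder κ act H) (hF : Frame F κ act)

include hH in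
theorem evalH_injective {s t : T} (hst : evalH H s = evalH H t) : s = t := by
  by_contra hne
  obtain ⟨φ, hφ, hφne⟩ := hH.sep s t hne
  exact hφne (AlgHom.congr_fun hst ⟨φ, hφ⟩)

include hH in
/-- The `K`-span of a Hopf order is the whole function algebra. -/
theorem span_eq_top {ι : Type*} [Fintype ι] (b : Module.Basis ι R H) :
    Submodule.span K (Set.range fun i => ((b i : H) : T → K)) = ⊤ := by
  classical
  set M : Submodule K (T → K) := Submodule.span K (Set.range fun i => ((b i : H) : T → K))
    with hM
  have hHM : ∀ φ : H, (φ : T → K) ∈ M := by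
    intro φ
    have h1 : (φ : T → K) = ∑ i : ι, algebraMap R K (b.repr φ i) • ((b i : H) : T → K) := by
      conv_lhs => rw [← b.sum_repr φ]
      rw [AddSubmonoidClass.coe_finsetSum]
      refine Finset.sum_congr rfl fun i _ => ?_
      rw [Subalgebra.coe_smul, algebraMap_smul]
    rw [h1]
    exact Submodule.sum_mem _ fun i _ => Submodule.smul_mem _ _ (Submodule.subset_span ⟨i, rfl⟩)
  have hmul : ∀ x y : T → K, x ∈ M → y ∈ M → x * y ∈ M := by
    have hMM : M * M ≤ M := by
      rw [hM, Submodule.span_mul_span, Submodule.span_le]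
      rintro _ ⟨_, ⟨i, rfl⟩, _, ⟨j, rfl⟩, rfl⟩
      exact hHM (b i * b j)
    intro x y hx hy
    exact hMM (Submodule.mul_mem_mul hx hy)
  have hone : (1 : T → K) ∈ M := hHM 1
  let S : Subalgebra K (T → K) := M.toSubalgebra hone hmul
  have hS : S = ⊤ := subalgebra_eq_top_of_separates S (fun s t hst => by
    obtain ⟨φ, hφ, hne⟩ := hH.sep s t hst
    exact ⟨φ, hHM ⟨φ, hφ⟩, hne⟩)
  rw [eq_top_iff]
  intro x _
  have : x ∈ S := by rw [hS]; trivial
  exact this

include hH hF in
/-- Every algebra homomorphism from a Hopf order to `K` is the evaluation at a point. -/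
theorem exists_eval (χ : H →ₐ[R] K) : ∃ t : T, ∀ φ : H, χ φ = (φ : T → K) t := by
  classical
  obtain ⟨ι, _, b, hb⟩ := kIndep hH hF
  have hspan := span_eq_top hH b
  let B : Module.Basis ι K (T → K) := Module.Basis.mk hb (le_of_eq hspan.symm)
  have hB : ∀ i, B i = ((b i : H) : T → K) := fun i => by
    simp [B]
  let χK : (T → K) →ₗ[K] K := B.constr K (fun i => χ (b i))
  have hχB : ∀ i, χK (B i) = χ (b i) := fun i => by simp [χK]
  have hχH : ∀ φ : H, χK (φ : T → K) = χ φ := by
    intro φ
    have h1 : (φ : T → K) = ∑ i : ι, algebraMap R K (b.repr φ i) • B i := by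
      conv_lhs => rw [← b.sum_repr φ]
      rw [AddSubmonoidClass.coe_finsetSum]
      refine Finset.sum_congr rfl fun i _ => ?_
      rw [Subalgebra.coe_smul, algebraMap_smul, hB]
    have h2 : χ φ = ∑ i : ι, algebraMap R K (b.repr φ i) * χ (b i) := by
      conv_lhs => rw [← b.sum_repr φ]
      rw [map_sum]
      refine Finset.sum_congr rfl fun i _ => ?_
      rw [map_smul, Algebra.smul_def]
    rw [h1, map_sum, h2]
    refine Finset.sum_congr rfl fun i _ => ?_
    rw [map_smul, hχB, smul_eq_mul]
  have hmulB : ∀ i j, χK (B i * B j) = χK (B i) * χK (B j) := by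
    intro i j
    have : B i * B j = ((b i * b j : H) : T → K) := by rw [hB, hB]; rfl
    rw [this, hχH, map_mul, hχB, hχB]
  have hmul : ∀ x y, χK (x * y) = χK x * χK y := by
    intro x y
    have hy : ∀ i, χK (B i * y) = χK (B i) * χK y := by
      intro i
      have := LinearMap.congr_fun (B.ext (f₁ := χK ∘ₗ LinearMap.mulLeft K (B i))
        (f₂ := (χK (B i)) • χK) (fun j => by simp [hmulB])) y
      simpa using this
    have := LinearMap.congr_fun (B.ext (f₁ := χK ∘ₗ LinearMap.mulRight K y)
        (f₂ := (χK y) • χK) (fun i => by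
          simp only [LinearMap.coe_comp, Function.comp_apply, LinearMap.mulRight_apply,
            LinearMap.smul_apply, smul_eq_mul]
          rw [hy, mul_comm])) x
    simpa [mul_comm] using this
  have hone : χK 1 = 1 := by
    have := hχH 1
    simpa using this
  let χA : (T → K) →ₐ[K] K := AlgHom.ofLinearMap χK hone hmul
  obtain ⟨t, ht⟩ := exists_eval_of_algHom χA
  exact ⟨t, fun φ => by rw [← hχH φ]; exact ht _⟩

end Points


/-! ### Comultiplication and counit -/

section Structure

/-- Evaluation of `H ⊗ H` on `T × T`. -/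
abbrev ev₂ (H : Subalgebra R (T → K)) : H ⊗[R] H →ₐ[R] (T × T → K) :=
  tensorEval (k := K) H.val H.val

/-- Evaluation of `H ⊗ (H ⊗ H)` on `T × (T × T)`. -/
abbrev ev₃ (H : Subalgebra R (T → K)) : H ⊗[R] (H ⊗[R] H) →ₐ[R] (T × (T × T) → K) :=
  tensorEval (k := K) H.val (ev₂ H)

/-- Evaluation of `(H ⊗ H) ⊗ H` on `(T × T) × T`. -/
abbrev ev₃' (H : Subalgebra R (T → K)) : (H ⊗[R] H) ⊗[R] H →ₐ[R] ((T × T) × T → K) :=
  tensorEval (k := K) (ev₂ H) H.val

/-- `φ ↦ ((s, t) ↦ φ (s + t))`. -/
def Δ₀ (H : Subalgebra R (T → K)) : H →ₐ[R] (T × T → K) :=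
  (pullAlg R (fun p : T × T => p.1 + p.2)).comp H.val

@[simp] theorem Δ₀_apply (φ : H) (p : T × T) : Δ₀ H φ p = (φ : T → K) (p.1 + p.2) := rfl

variable (hH : IsHopfOrder κ act H) (hF : Frame F κ act)

include hH hF in
theorem ev₂_injective : Function.Injective (ev₂ H) :=
  ((kIndep hH hF).tensor (kIndep hH hF)).injective (algebraMap_injective_K F)

include hH hF in
theorem ev₃_injective : Function.Injective (ev₃ H) :=
  ((kIndep hH hF).tensor ((kIndep hH hF).tensor (kIndep hH hF))).injective
    (algebraMap_injective_K F)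

include hH in
theorem Δ₀_mem_range (φ : H) : Δ₀ H φ ∈ (ev₂ H).range := by
  obtain ⟨n, a, b, hab⟩ := (hH.comul φ φ.2).exists_fin
  refine ⟨∑ i, (⟨a i, (a i).2⟩ : H) ⊗ₜ[R] (⟨b i, (b i).2⟩ : H), ?_⟩
  funext p
  rw [map_sum, Finset.sum_apply, Δ₀_apply, hab]
  exact Finset.sum_congr rfl fun i _ => tensorEval_tmul _ _ _ _ _

/-- The comultiplication of a Hopf order. -/
def comulH : H →ₐ[R] H ⊗[R] H :=
  ((AlgEquiv.ofInjective (ev₂ H) (ev₂_injective hH hF)).symm : (ev₂ H).range →ₐ[R] _).comp
    ((Δ₀ H).codRestrict (ev₂ H).range (Δ₀_mem_range hH))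

theorem ev₂_comulH (φ : H) : ev₂ H (comulH hH hF φ) = Δ₀ H φ := by
  have := (AlgEquiv.ofInjective (ev₂ H) (ev₂_injective hH hF)).apply_symm_apply
    ((Δ₀ H).codRestrict (ev₂ H).range (Δ₀_mem_range hH) φ)
  exact congrArg Subtype.val this

theorem ev₂_comulH_apply (φ : H) (s t : T) :
    ev₂ H (comulH hH hF φ) (s, t) = (φ : T → K) (s + t) := by
  rw [ev₂_comulH]; rfl

include hH hF in
/-- The value at `0` of an element of a Hopf order lies in `R`. -/
theorem eval_zero_mem_range (φ : H) : evalH H 0 φ ∈ (Algebra.ofId R K).range := by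
  have := hH.fg
  have hfix : ∀ σ : Γ, κ σ ((φ : T → K) 0) = (φ : T → K) 0 := fun σ => by
    rw [← hH.equiv _ φ.2 σ 0, hF.zero]
  obtain ⟨q, hq⟩ := hF.fix _ hfix
  have hint : IsIntegral R ((φ : T → K) 0) :=
    (Algebra.IsIntegral.isIntegral (R := R) φ).map (evalH H 0)
  rw [← hq] at hint
  have hintq : IsIntegral R q :=
    (isIntegral_algebraMap_iff (algebraMap F K).injective).1 hint
  obtain ⟨r, hr⟩ := IsIntegrallyClosed.isIntegral_iff.1 hintq
  refine ⟨r, ?_⟩
  change algebraMap R K r = _
  rw [evalH_apply, ← hq, ← hr, ← IsScalarTower.algebraMap_apply]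

/-- The counit of a Hopf order. -/
def counitH : H →ₐ[R] R :=
  ((AlgEquiv.ofInjective (Algebra.ofId R K) (algebraMap_injective_K F)).symm :
      (Algebra.ofId R K).range →ₐ[R] _).comp
    ((evalH H 0).codRestrict (Algebra.ofId R K).range (eval_zero_mem_range hH hF))

theorem algebraMap_counitH (φ : H) :
    algebraMap R K (counitH hH hF φ) = (φ : T → K) 0 := by
  have := (AlgEquiv.ofInjective (Algebra.ofId R K) (algebraMap_injective_K F)).apply_symm_apply
    ((evalH H 0).codRestrict (Algebra.ofId R K).range (eval_zero_mem_range hH hF) φ)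
  exact congrArg Subtype.val this

end Structure


/-! ### The bialgebra axioms -/

section Axioms

variable (hH : IsHopfOrder κ act H) (hF : Frame F κ act)

theorem ev₃_assoc (z : (H ⊗[R] H) ⊗[R] H) (s t u : T) :
    ev₃ H (Algebra.TensorProduct.assoc R R R H H H z) (s, (t, u)) = ev₃' H z ((s, t), u) := by
  induction z using TensorProduct.induction_on with
  | zero => simp
  | add x y hx hy => simp only [map_add, Pi.add_apply, hx, hy]
  | tmul x c =>
    induction x using TensorProduct.induction_on with
    | zero => simp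
    | add x y hx hy => simp only [TensorProduct.add_tmul, map_add, Pi.add_apply, hx, hy]
    | tmul a b => simp [mul_assoc]

theorem ev₃'_map_comul (z : H ⊗[R] H) (s t u : T) :
    ev₃' H (Algebra.TensorProduct.map (comulH hH hF) (AlgHom.id R H) z) ((s, t), u) =
      ev₂ H z (s + t, u) := by
  induction z using TensorProduct.induction_on with
  | zero => simp
  | add x y hx hy => simp only [map_add, Pi.add_apply, hx, hy]
  | tmul a b => simp [ev₂_comulH_apply]

theorem ev₃_map_comul (z : H ⊗[R] H) (s t u : T) :
    ev₃ H (Algebra.TensorProduct.map (AlgHom.id R H) (comulH hH hF) z) (s, (t, u)) =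
      ev₂ H z (s, t + u) := by
  induction z using TensorProduct.induction_on with
  | zero => simp
  | add x y hx hy => simp only [map_add, Pi.add_apply, hx, hy]
  | tmul a b => simp [ev₂_comulH_apply]

theorem coassocH :
    (Algebra.TensorProduct.assoc R R R H H H).toAlgHom.comp
      ((Algebra.TensorProduct.map (comulH hH hF) (.id R H)).comp (comulH hH hF))
      = (Algebra.TensorProduct.map (.id R H) (comulH hH hF)).comp (comulH hH hF) := by
  ext φ
  apply ev₃_injective hH hF
  funext ⟨s, t, u⟩
  have e1 := ev₃_assoc (H := H)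
    (Algebra.TensorProduct.map (comulH hH hF) (AlgHom.id R H) (comulH hH hF φ)) s t u
  refine e1.trans ?_
  rw [ev₃'_map_comul, ev₂_comulH_apply]
  refine Eq.trans ?_ (ev₃_map_comul hH hF (comulH hH hF φ) s t u).symm
  rw [ev₂_comulH_apply, add_assoc]

theorem lid_map_counit (z : H ⊗[R] H) (t : T) :
    ((Algebra.TensorProduct.lid R H
      (Algebra.TensorProduct.map (counitH hH hF) (AlgHom.id R H) z) : H) : T → K) t =
      ev₂ H z (0, t) := by
  induction z using TensorProduct.induction_on with
  | zero => simp
  | add x y hx hy => simp only [map_add, Pi.add_apply, Subalgebra.coe_add, hx, hy]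
  | tmul a b =>
    simp only [Algebra.TensorProduct.map_tmul, AlgHom.coe_id, id_eq, Algebra.TensorProduct.lid_tmul,
      tensorEval_tmul, Subalgebra.coe_val, Subalgebra.coe_smul, Pi.smul_apply]
    rw [Algebra.smul_def, algebraMap_counitH]

theorem rid_map_counit (z : H ⊗[R] H) (t : T) :
    ((Algebra.TensorProduct.rid R R H
      (Algebra.TensorProduct.map (AlgHom.id R H) (counitH hH hF) z) : H) : T → K) t =
      ev₂ H z (t, 0) := by
  induction z using TensorProduct.induction_on with
  | zero => simp
  | add x y hx hy => simp only [map_add, Pi.add_apply, Subalgebra.coe_add, hx, hy]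
  | tmul a b =>
    simp only [Algebra.TensorProduct.map_tmul, AlgHom.coe_id, id_eq, Algebra.TensorProduct.rid_tmul,
      tensorEval_tmul, Subalgebra.coe_val, Subalgebra.coe_smul, Pi.smul_apply]
    rw [Algebra.smul_def, algebraMap_counitH, mul_comm]

theorem rTensorH :
    (Algebra.TensorProduct.map (counitH hH hF) (.id R H)).comp (comulH hH hF)
      = (Algebra.TensorProduct.lid R H).symm := by
  ext φ
  apply (Algebra.TensorProduct.lid R H).injective
  apply Subtype.val_injective
  funext t
  have e2 : (Algebra.TensorProduct.lid R H) ((Algebra.TensorProduct.lid R H).symm φ) = φ :=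
    AlgEquiv.apply_symm_apply _ _
  refine (lid_map_counit hH hF (comulH hH hF φ) t).trans ?_
  rw [ev₂_comulH_apply, zero_add]
  exact congrArg (fun ψ : H => (ψ : T → K) t) e2.symm

theorem lTensorH :
    (Algebra.TensorProduct.map (.id R H) (counitH hH hF)).comp (comulH hH hF)
      = (Algebra.TensorProduct.rid R R H).symm := by
  ext φ
  apply (Algebra.TensorProduct.rid R R H).injective
  apply Subtype.val_injective
  funext t
  have e2 : (Algebra.TensorProduct.rid R R H)
      ((Algebra.TensorProduct.rid R R H).symm φ) = φ :=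
    AlgEquiv.apply_symm_apply _ _
  refine (rid_map_counit hH hF (comulH hH hF φ) t).trans ?_
  rw [ev₂_comulH_apply, add_zero]
  exact congrArg (fun ψ : H => (ψ : T → K) t) e2.symm

/-- The bialgebra structure of a Hopf order. -/
@[reducible] def bialgebraH : Bialgebra R H :=
  Bialgebra.ofAlgHom (comulH hH hF) (counitH hH hF) (coassocH hH hF) (rTensorH hH hF)
    (lTensorH hH hF)

theorem comul_eq (φ : H) :
    letI := bialgebraH hH hF
    Coalgebra.comul (R := R) φ = comulH hH hF φ := rfl

theorem counit_eq (φ : H) :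
    letI := bialgebraH hH hF
    Coalgebra.counit (R := R) φ = counitH hH hF φ := rfl

theorem ev₂_comm (z : H ⊗[R] H) (s t : T) :
    ev₂ H (TensorProduct.comm R H H z) (s, t) = ev₂ H z (t, s) := by
  induction z using TensorProduct.induction_on with
  | zero => simp
  | add x y hx hy => simp only [map_add, Pi.add_apply, hx, hy]
  | tmul a b => simp [mul_comm]

/-- A Hopf order is cocommutative. -/
theorem isCocommH :
    letI := bialgebraH hH hF
    Coalgebra.IsCocomm R H := by
  let _ := bialgebraH hH hF
  refine ⟨?_⟩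
  ext φ
  apply ev₂_injective hH hF
  funext ⟨s, t⟩
  change ev₂ H (TensorProduct.comm R H H (comulH hH hF φ)) (s, t) = ev₂ H (comulH hH hF φ) (s, t)
  rw [ev₂_comm, ev₂_comulH_apply, ev₂_comulH_apply, add_comm]

end Axioms


/-! ### The group law on points -/

section GroupLaw

open WithConv

/-- Push-forward of points along an algebra hom of the targets, as a monoid hom for convolution. -/
def compHom {C A B : Type*} [Semiring C] [Bialgebra R C] [CommSemiring A] [CommSemiring B]
    [Algebra R A] [Algebra R B] (h : A →ₐ[R] B) :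
    WithConv (C →ₐ[R] A) →* WithConv (C →ₐ[R] B) where
  toFun f := toConv (h.comp f.ofConv)
  map_one' := by
    apply WithConv.ofConv_injective
    ext c
    simp
  map_mul' f g := by
    apply WithConv.ofConv_injective
    exact AlgHom.comp_convMul_distrib h f g

@[simp] theorem compHom_apply {C A B : Type*} [Semiring C] [Bialgebra R C] [CommSemiring A]
    [CommSemiring B] [Algebra R A] [Algebra R B] (h : A →ₐ[R] B) (f : WithConv (C →ₐ[R] A))
    (c : C) : compHom h f c = h (f c) := rfl

theorem compHom_injective {C A B : Type*} [Semiring C] [Bialgebra R C] [CommSemiring A]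
    [CommSemiring B] [Algebra R A] [Algebra R B] (h : A →ₐ[R] B) (hh : Function.Injective h) :
    Function.Injective (compHom (C := C) h) := by
  intro f g hfg
  apply WithConv.ofConv_injective
  ext c
  apply hh
  exact congrArg (fun F : WithConv (C →ₐ[R] B) => F c) hfg

variable (hH : IsHopfOrder κ act H) (hF : Frame F κ act)

theorem lift_evalH (z : H ⊗[R] H) (s t : T) :
    Algebra.TensorProduct.lift (evalH H s) (evalH H t) (fun _ _ => Commute.all _ _) z =
      ev₂ H z (s, t) := by
  induction z using TensorProduct.induction_on with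
  | zero => simp
  | add x y hx hy => simp only [map_add, Pi.add_apply, hx, hy]
  | tmul a b => simp

theorem evalH_mul (s t : T) :
    letI := bialgebraH hH hF
    (toConv (evalH H s) * toConv (evalH H t) : WithConv (H →ₐ[R] K)) =
      toConv (evalH H (s + t)) := by
  let _ := bialgebraH hH hF
  apply WithConv.ofConv_injective
  ext φ
  change (toConv (evalH H s) * toConv (evalH H t) : WithConv (H →ₐ[R] K)) φ = (φ : T → K) (s + t)
  rw [AlgHom.convMul_apply]
  change Algebra.TensorProduct.lift (evalH H s) (evalH H t) (fun _ _ => Commute.all _ _)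
    (comulH hH hF φ) = _
  rw [lift_evalH, ev₂_comulH_apply]

theorem evalH_zero :
    letI := bialgebraH hH hF
    (toConv (evalH H 0) : WithConv (H →ₐ[R] K)) = 1 := by
  let _ := bialgebraH hH hF
  apply WithConv.ofConv_injective
  ext φ
  change (φ : T → K) 0 = (1 : WithConv (H →ₐ[R] K)) φ
  rw [AlgHom.convOne_apply]
  exact (algebraMap_counitH hH hF φ).symm

theorem evalH_pow (n : ℕ) (t : T) :
    letI := bialgebraH hH hF
    (toConv (evalH H t) ^ n : WithConv (H →ₐ[R] K)) = toConv (evalH H (n • t)) := by
  let _ := bialgebraH hH hF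
  induction n with
  | zero => rw [pow_zero, zero_smul, evalH_zero hH hF]
  | succ n ih => rw [pow_succ, ih, evalH_mul hH hF, succ_nsmul]

end GroupLaw

end Fermat.Agent.S56.Flat.Package
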