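import Mathlib
import Fermat.Agent.CFT.Local.Model
import Fermat.Agent.CFT.Local.PadicAlgCl
import Fermat.Agent.S56.Flat.Dict.LocFlat
import Fermat.Agent.S56.Flat.Ball
import Fermat.Agent.S56.Flat.PthRoot
import Fermat.Agent.S56.Flat.GroupLike
import Fermat.Agent.S56.Flat.Lifting
import Fermat.Agent.S56.Flat.Package
import Fermat.Agent.S56.Flat.LocalSetting

/-!
# PROJECT T (S56), block (a3) Flat, FILE 4: Fontaine's property `(P_m)` for a locally flat group
killed by `p`

Frame: `Ω = PadicAlgCl p`, `T` a finite abelian group killed by `p` with an action of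
`LocGal p = Gal(Ω/ℚ_p)`, `H ⊆ (T → Ω)` a Hopf order over `ℤ_[p]`
(`S32/HopfClosure.IsHopfOrder (kloc p) act H`, i.e. `Dict.IsLocFlat p act`).

`Pm_values`: let `L`, `E` be finite subextensions of `Ω/ℚ_p` such that all values `φ t`
(`φ ∈ H`, `t ∈ T`) lie in `L`, and let `η : 𝒪_L →+* 𝒪_E ⧸ {x | ‖x‖ ≤ r / p}` be a ring hom with
`r ^ (p - 1) < p⁻¹`.  Then all the values `φ t` lie in `E`.

Proof (Fontaine's lifting property, structure-free): the points `x_t : H → 𝒪_L` are pushed by `η`
to points modulo `ϖ_E ^ (e + j)`, lifted to points `z_t : H → 𝒪_E` congruent modulo `ϖ_E ^ j`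
(`Lifting.FL_lift`); `t ↦ z_t` is injective since `η` preserves small valuations
(`LocalSetting.valuation_preserved`) and `p`-torsion points of `𝒪_L` congruent modulo `ϖ_L ^ j'` are
equal (`Lifting.FL_inj`); every point of `H` in `Ω` is an evaluation (`Package.exists_eval`), so
by counting every evaluation factors through `𝒪_E`.
-/

set_option autoImplicit false
set_option linter.unusedSectionVars false

noncomputable section

namespace Fermat.Agent.S56.Flat.Pm

open Fermat.Agent.CFT.Local.Model (𝒪 nrm ramIdx ϖ ϖu mem_𝒪_iff mem_𝒪_iff_isIntegral algebraInt𝒪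
  algebraIntField)
open Fermat.Agent.CFT.LocalBridge Fermat.Agent.S32.HopfClosure
open Fermat.Agent.S56.Flat.Dict Fermat.Agent.S56.Flat.Ball Fermat.Agent.S56.Flat.PthRoot
open Fermat.Agent.S56.Flat.Lifting Fermat.Agent.S56.Flat.Package
open Fermat.Agent.S56.Flat.LocalSetting
open WithConv

/- The `ℤ_[p]`-algebra structure on `𝒪 p E` is main's `Model.algebraInt𝒪`; the scoped instances of
`Model` are NOT opened wholesale, because `Model.algebraIntField p (PadicAlgCl p)` would compete
with Mathlib's `AlgebraicClosure.instAlgebra`, which is the structure used by `Dict.IsLocFlat`. -/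
attribute [local instance] algebraInt𝒪

variable (p : ℕ) [Fact p.Prime]

/-! ### The inclusion `𝒪_E → (PadicAlgCl p)` -/

section Incl

variable (E : IntermediateField ℚ_[p] (PadicAlgCl p)) [FiniteDimensional ℚ_[p] E]

theorem isScalarTower_int :
    letI := algebraIntField p ↥E
    IsScalarTower ℤ_[p] ↥E (PadicAlgCl p) := by
  let _ := algebraIntField p ↥E
  refine IsScalarTower.of_algebraMap_eq (R := ℤ_[p]) (S := ↥E) (A := PadicAlgCl p) fun a => ?_
  rw [IsScalarTower.algebraMap_apply ℤ_[p] ℚ_[p] (PadicAlgCl p),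
    IsScalarTower.algebraMap_apply ℚ_[p] E (PadicAlgCl p)]
  rfl

/-- The inclusion of the ring of integers of a finite subextension into `(PadicAlgCl p)`, as a
`ℤ_[p]`-algebra hom. -/
def incl : ↥(𝒪 p E) →ₐ[ℤ_[p]] (PadicAlgCl p) :=
  { (algebraMap E (PadicAlgCl p)).comp (𝒪 p E).subtype with
    commutes' := fun a => by
      change algebraMap E (PadicAlgCl p) ((algebraMap ℤ_[p] ↥(𝒪 p E) a : ↥(𝒪 p E)) : E) =
        algebraMap ℤ_[p] (PadicAlgCl p) a
      rw [IsScalarTower.algebraMap_apply ℤ_[p] ℚ_[p] (PadicAlgCl p),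
        IsScalarTower.algebraMap_apply ℚ_[p] E (PadicAlgCl p)]
      rfl }

@[simp] theorem incl_apply (x : ↥(𝒪 p E)) : incl p E x = ((x : E) : (PadicAlgCl p)) := rfl

theorem incl_injective : Function.Injective (incl p E) := by
  intro x y h
  apply Subtype.val_injective
  apply Subtype.val_injective
  exact h

end Incl


/-! ### Points of a Hopf order with values in a finite subextension -/

section Main

variable {T : Type*} [AddCommGroup T] [Finite T] {act : LocGal p → T → T}
  {H : Subalgebra ℤ_[p] (T → PadicAlgCl p)}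

/-- The frame of `Package` in the local situation. -/
theorem frame (hsurj : ∀ τ, Function.Surjective (act τ)) (hzero : ∀ τ, act τ 0 = 0) :
    Frame ℚ_[p] (kloc p) act :=
  ⟨kloc_fix p, hsurj, hzero⟩

/-- The values of a Hopf order are integral over `ℤ_[p]`. -/
theorem isIntegral_value (hH : IsHopfOrder (kloc p) act H) (φ : H) (t : T) :
    IsIntegral ℤ_[p] ((φ : T → PadicAlgCl p) t) := by
  have := hH.fg
  exact (Algebra.IsIntegral.isIntegral (R := ℤ_[p]) φ).map (evalH H t)

/-- A point of `H` in `Ω` whose values lie in the finite subextension `E` factors through `𝒪_E`. -/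
theorem exists_factor (hH : IsHopfOrder (kloc p) act H)
    (E : IntermediateField ℚ_[p] (PadicAlgCl p)) [FiniteDimensional ℚ_[p] E] (t : T)
    (ht : ∀ φ : H, (φ : T → PadicAlgCl p) t ∈ E) :
    ∃ x : H →ₐ[ℤ_[p]] ↥(𝒪 p E), (incl p E).comp x = evalH H t := by
  have hmem : ∀ φ : H, evalH H t φ ∈ (incl p E).range := by
    intro φ
    let _ := algebraIntField p ↥E
    have hint : IsIntegral ℤ_[p] (⟨(φ : T → PadicAlgCl p) t, ht φ⟩ : E) := by
      have hst : IsScalarTower ℤ_[p] ↥E (PadicAlgCl p) := isScalarTower_int p E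
      have h1 := isIntegral_value p hH φ t
      have h2 : algebraMap E (PadicAlgCl p) ⟨(φ : T → PadicAlgCl p) t, ht φ⟩ =
          (φ : T → PadicAlgCl p) t := rfl
      rw [← h2] at h1
      exact (isIntegral_algebraMap_iff (algebraMap E (PadicAlgCl p)).injective).1 h1
    have hO : (⟨(φ : T → PadicAlgCl p) t, ht φ⟩ : E) ∈ 𝒪 p E :=
      (mem_𝒪_iff_isIntegral p E).2 hint
    exact ⟨⟨_, hO⟩, rfl⟩
  refine ⟨((AlgEquiv.ofInjective (incl p E) (incl_injective p E)).symm :
      (incl p E).range →ₐ[ℤ_[p]] _).comp ((evalH H t).codRestrict (incl p E).range hmem), ?_⟩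
  ext φ
  have := (AlgEquiv.ofInjective (incl p E) (incl_injective p E)).apply_symm_apply
    ((evalH H t).codRestrict (incl p E).range hmem φ)
  exact congrArg Subtype.val this


/-- **Fontaine's property `(P_m)`, values form.** -/
theorem Pm_values (hH : IsHopfOrder (kloc p) act H) (hsurj : ∀ τ, Function.Surjective (act τ))
    (hzero : ∀ τ, act τ 0 = 0) (hpT : ∀ t : T, p • t = 0)
    {r : ℝ} (hr0 : 0 < r) (hr : r ^ (p - 1) < (p : ℝ)⁻¹)
    (L E : IntermediateField ℚ_[p] (PadicAlgCl p)) [FiniteDimensional ℚ_[p] L]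
    [FiniteDimensional ℚ_[p] E]
    (hL : ∀ φ ∈ H, ∀ t : T, (φ : T → PadicAlgCl p) t ∈ L)
    (η : ↥(𝒪 p L) →+* ↥(𝒪 p E) ⧸ ballIdeal p E (r / p)) :
    ∀ φ ∈ H, ∀ t : T, (φ : T → PadicAlgCl p) t ∈ E := by
  classical
  have hF : Frame ℚ_[p] (kloc p) act := frame p hsurj hzero
  let _ : Bialgebra ℤ_[p] H := bialgebraH hH hF
  have : Coalgebra.IsCocomm ℤ_[p] H := isCocommH hH hF
  have : Module.Free ℤ_[p] H := free_H hH hF
  have hp1 : (1 : ℝ) < p := by exact_mod_cast (Fact.out : p.Prime).one_lt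
  have hp0 : (0 : ℝ) < p := lt_trans zero_lt_one hp1
  have hpm1 : p - 1 ≠ 0 := by have := (Fact.out : p.Prime).two_le; omega
  -- `r < 1`
  have hr1 : r < 1 := by
    by_contra hcon
    push Not at hcon
    have h1 : (1 : ℝ) ≤ r ^ (p - 1) := one_le_pow₀ hcon
    have h2 : (p : ℝ)⁻¹ < 1 := inv_lt_one_of_one_lt₀ hp1
    linarith
  have hρ0 : 0 < r / p := div_pos hr0 hp0
  have hρ1 : r / p < (p : ℝ)⁻¹ := by
    rw [div_eq_mul_inv]
    calc r * (p : ℝ)⁻¹ < 1 * (p : ℝ)⁻¹ := mul_lt_mul_of_pos_right hr1 (inv_pos.mpr hp0)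
      _ = (p : ℝ)⁻¹ := one_mul _
  have hρr : r / p ≤ r := div_le_self hr0.le hp1.le
  -- the points `x t : H → 𝒪_L`
  have hxex : ∀ t : T, ∃ x : H →ₐ[ℤ_[p]] ↥(𝒪 p L), (incl p L).comp x = evalH H t :=
    fun t => exists_factor p hH L t (fun φ => hL φ φ.2 t)
  choose x hx using hxex
  have hxp : ∀ t, (toConv (x t) : WithConv (H →ₐ[ℤ_[p]] ↥(𝒪 p L))) ^ p = 1 := by
    intro t
    apply compHom_injective (incl p L) (incl_injective p L)
    rw [map_pow, map_one]
    have : compHom (incl p L) (toConv (x t)) = toConv (evalH H t) := by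
      apply WithConv.ofConv_injective
      exact hx t
    rw [this, evalH_pow hH hF, hpT, evalH_zero hH hF]
  -- the levels
  obtain ⟨j, hj, hballE, hballE'⟩ := exists_level p E hr0 hr
  obtain ⟨jL, hjL, hballL, -⟩ := exists_level p L hr0 hr
  have hSE : Setting ↥(𝒪 p E) (ϖ p E) p (ramIdx p E) j := setting_𝒪 p E hj
  have hSL : Setting ↥(𝒪 p L) (ϖ p L) p (ramIdx p L) jL := setting_𝒪 p L hjL
  -- `η` as an algebra hom, and the points modulo `ϖ ^ (e + j)`
  let ηa : ↥(𝒪 p L) →ₐ[ℤ_[p]] ↥(𝒪 p E) ⧸ ballIdeal p E (r / p) := algHomOfRingHom p hρ0 η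
  let θ : (↥(𝒪 p E) ⧸ ballIdeal p E (r / p)) →ₐ[ℤ_[p]]
      ↥(𝒪 p E) ⧸ Ideal.span {ϖ p E ^ (ramIdx p E + j)} :=
    (Ideal.quotientEquivAlgOfEq ℤ_[p] hballE').toAlgHom
  have hθ : ∀ a : ↥(𝒪 p E), θ (Ideal.Quotient.mk _ a) = Ideal.Quotient.mk _ a := fun a => rfl
  let y : T → (H →ₐ[ℤ_[p]] ↥(𝒪 p E) ⧸ Ideal.span {ϖ p E ^ (ramIdx p E + j)}) :=
    fun t => θ.comp (ηa.comp (x t))
  have hyp : ∀ t, (toConv (y t) :
      WithConv (H →ₐ[ℤ_[p]] ↥(𝒪 p E) ⧸ Ideal.span {ϖ p E ^ (ramIdx p E + j)})) ^ p = 1 := by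
    intro t
    have : toConv (y t) = compHom θ (compHom ηa (toConv (x t))) := rfl
    rw [this, ← MonoidHom.map_pow, ← MonoidHom.map_pow, hxp t, map_one, map_one]
  -- lifting
  have hlift := fun t => FL_lift hSE (y t) (hyp t)
  choose z hzp hz using hlift
  -- injectivity of `z`
  have hzinj : Function.Injective z := by
    intro s t hst
    have hxst : x s = x t := by
      refine FL_inj hSL (x s) (x t) (hxp s) (hxp t) fun h => ?_
      obtain ⟨as, has⟩ := Ideal.Quotient.mk_surjective (η (x s h))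
      obtain ⟨at', hat⟩ := Ideal.Quotient.mk_surjective (η (x t h))
      have h1 : z s h - as ∈ Ideal.span {ϖ p E ^ j} := by
        refine hz s h as ?_
        change _ = θ (η (x s h))
        rw [← has, hθ]
      have h2 : z t h - at' ∈ Ideal.span {ϖ p E ^ j} := by
        refine hz t h at' ?_
        change _ = θ (η (x t h))
        rw [← hat, hθ]
      have h3 : as - at' ∈ ballIdeal p E r := by
        rw [hballE]
        have : as - at' = (z t h - at') - (z s h - as) := by rw [hst]; ring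
        rw [this]
        exact sub_mem h2 h1
      rw [mem_ballIdeal hr0.le] at h3
      have h4 : η (x s h - x t h) = Ideal.Quotient.mk _ (as - at') := by
        rw [map_sub, map_sub, has, hat]
      have h5 := valuation_preserved p hρ0.le hρ1 η (x s h - x t h) (as - at') h4 hρr h3
      rw [← hballL, mem_ballIdeal hr0.le]
      exact h5
    apply evalH_injective hH
    rw [← hx s, ← hx t, hxst]
  -- every point of `H` in `Ω` is an evaluation
  have hfex : ∀ t : T, ∃ t' : T, ∀ φ : H, (incl p E).comp (z t) φ = (φ : T → PadicAlgCl p) t' :=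
    fun t => exists_eval hH hF ((incl p E).comp (z t))
  choose f hf using hfex
  have hfinj : Function.Injective f := by
    intro s t hst
    apply hzinj
    apply AlgHom.ext
    intro φ
    apply incl_injective p E
    have h1 := hf s φ
    have h2 := hf t φ
    rw [hst] at h1
    exact h1.trans h2.symm
  have hfsurj : Function.Surjective f := Finite.injective_iff_surjective.mp hfinj
  intro φ hφ t
  obtain ⟨s, rfl⟩ := hfsurj t
  have h1 : φ (f s) = ((incl p E).comp (z s)) ⟨φ, hφ⟩ := (hf s ⟨φ, hφ⟩).symm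
  rw [h1]
  exact (((z s) ⟨φ, hφ⟩ : ↥(𝒪 p E)) : E).2


/-! ### The field cut out by the action -/

/-- The values of a Hopf order lie in the fixed field of the kernel of the action. -/
theorem value_mem_fixedField (hH : IsHopfOrder (kloc p) act H) (N : Subgroup (LocGal p))
    (hN : ∀ τ ∈ N, ∀ t, act τ t = t) {φ : T → PadicAlgCl p} (hφ : φ ∈ H) (t : T) :
    φ t ∈ IntermediateField.fixedField N := by
  rw [IntermediateField.mem_fixedField_iff]
  intro τ hτ
  have := hH.equiv φ hφ τ t
  rw [hN τ hτ t] at this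
  exact this.symm

/-- If all the values of a Hopf order lie in `E`, then the fixed field of the kernel of the action
lies in `E`. -/
theorem fixedField_le_of_values (hH : IsHopfOrder (kloc p) act H) (N : Subgroup (LocGal p))
    (hN : ∀ τ : LocGal p, (∀ t, act τ t = t) → τ ∈ N)
    (E : IntermediateField ℚ_[p] (PadicAlgCl p))
    (hE : ∀ φ ∈ H, ∀ t : T, (φ : T → PadicAlgCl p) t ∈ E) :
    IntermediateField.fixedField N ≤ E := by
  have h1 : E.fixingSubgroup ≤ N := by
    intro τ hτ
    apply hN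
    intro t
    by_contra hne
    obtain ⟨φ, hφ, hφne⟩ := hH.sep _ _ hne
    apply hφne
    rw [hH.equiv φ hφ τ t]
    exact (IntermediateField.mem_fixingSubgroup_iff E τ).1 hτ _ (hE φ hφ t)
  calc IntermediateField.fixedField N ≤ IntermediateField.fixedField E.fixingSubgroup :=
        IntermediateField.fixedField_le h1
    _ = E := InfiniteGalois.fixedField_fixingSubgroup E

/-- **Fontaine's property `(P_m)` for a locally flat group killed by `p`** (helper16's seam
#3936 (B)): `LV :=` the fixed field of the kernel of the action. -/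
theorem Pm_of_isLocFlat (act : LocGal p →* AddMonoid.End T)
    (hT : IsLocFlat p (fun τ t => act τ t)) (hpT : ∀ t : T, p • t = 0)
    {r : ℝ} (hr0 : 0 < r) (hr : r ^ (p - 1) < (p : ℝ)⁻¹)
    (L E : IntermediateField ℚ_[p] (PadicAlgCl p)) [FiniteDimensional ℚ_[p] L]
    [FiniteDimensional ℚ_[p] E]
    (hL : IntermediateField.fixedField act.ker ≤ L)
    (η : ↥(𝒪 p L) →+* ↥(𝒪 p E) ⧸ ballIdeal p E (r / p)) :
    IntermediateField.fixedField act.ker ≤ E := by
  obtain ⟨H, hH⟩ := hT
  have hker : ∀ τ : LocGal p, τ ∈ act.ker ↔ ∀ t, act τ t = t := by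
    intro τ
    rw [MonoidHom.mem_ker]
    constructor
    · intro h t
      rw [h]
      rfl
    · intro h
      ext t
      exact h t
  have hsurj : ∀ τ : LocGal p, Function.Surjective (fun t => act τ t) := by
    intro τ t
    refine ⟨act τ⁻¹ t, ?_⟩
    change (act τ * act τ⁻¹) t = t
    rw [← map_mul, mul_inv_cancel, map_one]
    rfl
  have hzero : ∀ τ : LocGal p, act τ 0 = 0 := fun τ => map_zero (act τ)
  refine fixedField_le_of_values p hH act.ker (fun τ h => (hker τ).2 h) E ?_
  refine Pm_values p hH hsurj hzero hpT hr0 hr L E ?_ η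
  intro φ hφ t
  exact hL (value_mem_fixedField p hH act.ker (fun τ hτ => (hker τ).1 hτ) hφ t)

end Main

end Fermat.Agent.S56.Flat.Pm
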