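import Mathlib
import Fermat.Agent.S56.Flat.Pm

/-!
# PROJECT T (S56), block (a3) Flat: the field cut out by a locally flat group, and Fontaine's
property for it

For a plain function `act : LocGal p → T → T` with `Dict.IsLocFlat p act` (a Hopf order over
`ℤ_[p]` in `T → Ω`), the action is automatically a group action by additive bijections
(`act_mul`, `act_one`, `act_add`, `act_zero`), and

`exists_fontaineField`: if `T` is finite and killed by `p`, there is a finite Galois extension
`LV` of `ℚ_p` inside `Ω` whose fixing subgroup is exactly the kernel of the action and which has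
Fontaine's property `(P_m)` for all `m > p/(p-1)`: every ring homomorphism
`𝒪_L →+* 𝒪_E ⧸ {‖x‖ ≤ r / p}` with `LV ≤ L`, `r ^ (p - 1) < p⁻¹` forces `LV ≤ E`
(the statement is `Passage.ApproxAut.FontaineP p LV` unfolded).
-/

set_option autoImplicit false
set_option linter.unusedSectionVars false

namespace Fermat.Agent.S56.Flat.PmField

open Fermat.Agent.CFT.Local.Model (𝒪)
open Fermat.Agent.CFT.LocalBridge Fermat.Agent.S32.HopfClosure
open Fermat.Agent.S56.Flat.Dict Fermat.Agent.S56.Flat.Ball Fermat.Agent.S56.Flat.Pm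

variable (p : ℕ) [Fact p.Prime]

section Action

variable {T : Type*} [AddCommGroup T] {act : LocGal p → T → T}
  {H : Subalgebra ℤ_[p] (T → PadicAlgCl p)}

/-- Points are separated by the order. -/
theorem eq_of_forall_eq (hH : IsHopfOrder (kloc p) act H) {s t : T}
    (h : ∀ φ ∈ H, (φ : T → PadicAlgCl p) s = φ t) : s = t := by
  by_contra hne
  obtain ⟨φ, hφ, hφne⟩ := hH.sep s t hne
  exact hφne (h φ hφ)

theorem act_mul (hH : IsHopfOrder (kloc p) act H) (σ τ : LocGal p) (t : T) :
    act (σ * τ) t = act σ (act τ t) := by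
  apply eq_of_forall_eq p hH
  intro φ hφ
  rw [hH.equiv φ hφ, hH.equiv φ hφ, hH.equiv φ hφ]
  rfl

theorem act_one (hH : IsHopfOrder (kloc p) act H) (t : T) : act 1 t = t := by
  apply eq_of_forall_eq p hH
  intro φ hφ
  rw [hH.equiv φ hφ]
  rfl

theorem act_add (hH : IsHopfOrder (kloc p) act H) (σ : LocGal p) (s t : T) :
    act σ (s + t) = act σ s + act σ t := by
  apply eq_of_forall_eq p hH
  intro φ hφ
  obtain ⟨ι, _, a, b, ha, hb, hab⟩ := hH.comul φ hφ
  have hab' : ∀ s t : T, φ (s + t) = ∑ i, a i s * b i t := hab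
  rw [hH.equiv φ hφ, hab', hab', map_sum]
  refine Finset.sum_congr rfl fun i _ => ?_
  rw [map_mul, ← hH.equiv (a i) (ha i), ← hH.equiv (b i) (hb i)]

theorem act_zero (hH : IsHopfOrder (kloc p) act H) (σ : LocGal p) : act σ 0 = 0 := by
  have h := act_add p hH σ 0 0
  rw [add_zero] at h
  exact left_eq_add.mp h

theorem act_surjective (hH : IsHopfOrder (kloc p) act H) (σ : LocGal p) :
    Function.Surjective (act σ) := by
  intro t
  refine ⟨act σ⁻¹ t, ?_⟩
  rw [← act_mul p hH, mul_inv_cancel, act_one p hH]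

end Action

section Field

variable {T : Type*} [AddCommGroup T] [Finite T]

/-- **The field cut out by a locally flat group killed by `p` has Fontaine's property.** -/
theorem exists_fontaineField (act : LocGal p → T → T) (hT : IsLocFlat p act)
    (hpT : ∀ t : T, p • t = 0) :
    ∃ LV : IntermediateField ℚ_[p] (PadicAlgCl p), FiniteDimensional ℚ_[p] LV ∧
      IsGalois ℚ_[p] LV ∧
      (∀ σ : LocGal p, σ ∈ LV.fixingSubgroup ↔ ∀ t, act σ t = t) ∧
      ∀ (r : ℝ), 0 < r → r ^ (p - 1) < (p : ℝ)⁻¹ →
        ∀ (L E : IntermediateField ℚ_[p] (PadicAlgCl p)) [FiniteDimensional ℚ_[p] L]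
          [FiniteDimensional ℚ_[p] E], LV ≤ L →
          (↥(𝒪 p L) →+* ↥(𝒪 p E) ⧸ ballIdeal p E (r / p)) → LV ≤ E := by
  classical
  obtain ⟨H, hH⟩ := hT
  have hfg := hH.fg
  obtain ⟨n, s, hs⟩ := Module.Finite.exists_fin (R := ℤ_[p]) (M := H)
  -- the finite set of values of the generators
  set V : Set (PadicAlgCl p) :=
    Set.range (fun it : Fin n × T => ((s it.1 : H) : T → PadicAlgCl p) it.2) with hV
  have hVfin : Finite V := Set.finite_range _
  set LV : IntermediateField ℚ_[p] (PadicAlgCl p) := IntermediateField.adjoin ℚ_[p] V with hLV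
  have hVint : ∀ x ∈ V, IsIntegral ℚ_[p] x := fun x _ => Algebra.IsIntegral.isIntegral x
  have hfd : FiniteDimensional ℚ_[p] LV := IntermediateField.finiteDimensional_adjoin hVint
  -- all the values of the order lie in `LV`
  have hval : ∀ (E : IntermediateField ℚ_[p] (PadicAlgCl p)), V ⊆ E →
      ∀ φ ∈ H, ∀ t : T, (φ : T → PadicAlgCl p) t ∈ E := by
    intro E hVE φ hφ t
    let M : Submodule ℤ_[p] H :=
      { carrier := {ψ | ∀ t : T, ((ψ : H) : T → PadicAlgCl p) t ∈ E}
        add_mem' := fun {a b} ha hb t => by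
          change (a : T → PadicAlgCl p) t + (b : T → PadicAlgCl p) t ∈ E
          exact add_mem (ha t) (hb t)
        zero_mem' := fun t => zero_mem E
        smul_mem' := fun c a ha t => by
          change c • (a : T → PadicAlgCl p) t ∈ E
          rw [Algebra.smul_def, IsScalarTower.algebraMap_apply ℤ_[p] ℚ_[p] (PadicAlgCl p)]
          exact mul_mem (E.algebraMap_mem _) (ha t) }
    have hM : M = ⊤ := by
      rw [eq_top_iff, ← hs, Submodule.span_le]
      rintro _ ⟨i, rfl⟩ t
      exact hVE ⟨(i, t), rfl⟩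
    have : (⟨φ, hφ⟩ : H) ∈ M := by rw [hM]; trivial
    exact this t
  have hvalLV : ∀ φ ∈ H, ∀ t : T, (φ : T → PadicAlgCl p) t ∈ LV :=
    hval LV (IntermediateField.subset_adjoin ℚ_[p] V)
  -- the fixing subgroup
  have hfix : ∀ σ : LocGal p, σ ∈ LV.fixingSubgroup ↔ ∀ t, act σ t = t := by
    intro σ
    constructor
    · intro hσ t
      apply eq_of_forall_eq p hH
      intro φ hφ
      rw [hH.equiv φ hφ]
      exact (IntermediateField.mem_fixingSubgroup_iff LV σ).1 hσ _ (hvalLV φ hφ t)
    · intro hσ
      have h1 : LV ≤ IntermediateField.fixedField (Subgroup.zpowers σ) := by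
        rw [hLV, IntermediateField.adjoin_le_iff]
        rintro _ ⟨⟨i, t⟩, rfl⟩
        rw [SetLike.mem_coe, IntermediateField.mem_fixedField_iff]
        intro τ hτ
        obtain ⟨k, rfl⟩ := Subgroup.mem_zpowers_iff.1 hτ
        have hk : ∀ t : T, act (σ ^ k) t = t := by
          have hpos : ∀ m : ℕ, ∀ t : T, act (σ ^ m) t = t := by
            intro m
            induction m with
            | zero => intro t; rw [pow_zero, act_one p hH]
            | succ m ih => intro t; rw [pow_succ, act_mul p hH, hσ, ih]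
          have hinv : ∀ (g : LocGal p), (∀ t, act g t = t) → ∀ t, act g⁻¹ t = t := by
            intro g hg t
            have := act_mul p hH g⁻¹ g t
            rw [inv_mul_cancel, act_one p hH, hg] at this
            exact this.symm
          intro t
          rcases Int.eq_nat_or_neg k with ⟨m, rfl | rfl⟩
          · rw [zpow_natCast]; exact hpos m t
          · rw [zpow_neg, zpow_natCast]; exact hinv _ (hpos m) t
        have := hH.equiv _ (s i).2 (σ ^ k) t
        rw [hk t] at this
        exact this.symm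
      have h2 := (IntermediateField.le_iff_le _ _).1 h1
      exact h2 (Subgroup.mem_zpowers σ)
  -- normality
  have hnormal : LV.fixingSubgroup.Normal := by
    refine ⟨fun σ hσ g => ?_⟩
    rw [hfix] at hσ ⊢
    intro t
    rw [act_mul p hH, act_mul p hH, hσ, ← act_mul p hH, mul_inv_cancel, act_one p hH]
  have hgal : IsGalois ℚ_[p] LV := (InfiniteGalois.normal_iff_isGalois LV).1 hnormal
  refine ⟨LV, hfd, hgal, hfix, ?_⟩
  intro r hr0 hr L E _ _ hL η
  rw [hLV, IntermediateField.adjoin_le_iff]
  have hE := Pm_values p hH (act_surjective p hH) (act_zero p hH) hpT hr0 hr L E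
    (fun φ hφ t => hL (hvalLV φ hφ t)) η
  rintro _ ⟨⟨i, t⟩, rfl⟩
  exact hE _ (s i).2 t

end Field

end Fermat.Agent.S56.Flat.PmField
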